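import Fermat.Agent.Maz.FreyS12
import Fermat.Agent.Frob.Qbar
import Fermat.Prelude.Def_FLTPrelim_CofixedLine

/-!
# S12 from S15c
-/

set_option autoImplicit false
set_option linter.unusedSectionVars false

namespace Fermat.Agent.Maz.FreyS

open Fermat.Agent.ECRed Fermat.Agent.ECRed.KummerLine Fermat.Agent.ECRed.Frey OrdFn
open WeierstrassCurve WeierstrassCurve.Affine
open scoped Pointwise

local notation "Qbar" => AlgebraicClosure ℚ
local notation "GQ" => Qbar ≃ₐ[ℚ] Qbar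

local instance instAlgQ : Algebra.IsAlgebraic ℚ Qbar := Frob.isAlgebraic_Qbar
local instance instGalQ : IsGalois ℚ Qbar := Frob.isGalois_Qbar

section IntModel

variable (P : FreyPackage)

lemma a2_eq : 4 * P.freyCurveInt.a₂ = P.b ^ P.p - 1 - P.a ^ P.p :=
  Int.mul_ediv_cancel' (four_dvd P)

lemma a4_eq : 16 * P.freyCurveInt.a₄ = -(P.a ^ P.p) * (P.b ^ P.p) :=
  Int.mul_ediv_cancel' (by
    have := sixteen_dvd P
    rw [mul_pow] at this
    rw [neg_mul]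
    exact (dvd_neg).mpr this)

theorem int_map : P.freyCurveInt.map (Int.castRingHom ℚ) = P.freyCurve := by
  have h2 := congrArg (Int.cast : ℤ → ℚ) (a2_eq P)
  have h4 := congrArg (Int.cast : ℤ → ℚ) (a4_eq P)
  push_cast at h2 h4
  ext
  · simp [FreyPackage.freyCurveInt, FreyPackage.freyCurve]
  · show ((P.freyCurveInt.a₂ : ℤ) : ℚ) = ((P.b : ℚ) ^ P.p - 1 - (P.a : ℚ) ^ P.p) / 4
    linarith
  · simp [FreyPackage.freyCurveInt, FreyPackage.freyCurve]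
  · show ((P.freyCurveInt.a₄ : ℤ) : ℚ) = -((P.a : ℚ) ^ P.p) * ((P.b : ℚ) ^ P.p) / 16
    linarith
  · simp [FreyPackage.freyCurveInt, FreyPackage.freyCurve]

lemma int_b2 : P.freyCurveInt.b₂ = P.b ^ P.p - P.a ^ P.p := by
  have h := a2_eq P
  have h1 : P.freyCurveInt.a₁ = 1 := rfl
  rw [WeierstrassCurve.b₂, h1]; linarith

lemma int_b4 : P.freyCurveInt.b₄ = 2 * P.freyCurveInt.a₄ := by
  have h1 : P.freyCurveInt.a₁ = 1 := rfl
  have h3 : P.freyCurveInt.a₃ = 0 := rfl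
  rw [WeierstrassCurve.b₄, h1, h3]; ring

lemma int_b6 : P.freyCurveInt.b₆ = 0 := by
  have h3 : P.freyCurveInt.a₃ = 0 := rfl
  have h6 : P.freyCurveInt.a₆ = 0 := rfl
  rw [WeierstrassCurve.b₆, h3, h6]; ring

lemma int_b8 : P.freyCurveInt.b₈ = -P.freyCurveInt.a₄ ^ 2 := by
  have h1 : P.freyCurveInt.a₁ = 1 := rfl
  have h3 : P.freyCurveInt.a₃ = 0 := rfl
  have h6 : P.freyCurveInt.a₆ = 0 := rfl
  rw [WeierstrassCurve.b₈, h1, h3, h6]; ring

lemma int_Δ : P.freyCurveInt.Δ = P.freyCurveInt.a₄ ^ 2 * (P.c ^ P.p) ^ 2 := by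
  have h4 := a4_eq P
  rw [Δ, int_b2, int_b4, int_b6, int_b8, ← P.hFLT]
  linear_combination (-4 * P.freyCurveInt.a₄ ^ 2) * h4

lemma int_c4 : P.freyCurveInt.c₄ = (P.b ^ P.p - P.a ^ P.p) ^ 2 + 3 * (P.a ^ P.p * P.b ^ P.p) := by
  have h4 := a4_eq P
  rw [c₄, int_b2, int_b4]
  linear_combination (-3) * h4

lemma a4_ne : P.freyCurveInt.a₄ ≠ 0 := by
  intro h
  have h4 := a4_eq P
  rw [h, mul_zero] at h4
  exact mul_ne_zero (neg_ne_zero.mpr (pow_ne_zero _ P.ha0)) (pow_ne_zero _ P.hb0) h4.symm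

lemma int_Δ_ne : P.freyCurveInt.Δ ≠ 0 := by
  rw [int_Δ]
  exact mul_ne_zero (pow_ne_zero _ (a4_ne P)) (pow_ne_zero _ (pow_ne_zero _ P.hc0))

lemma semistable {ℓ : ℕ} (hℓ : ℓ.Prime) (h : (ℓ : ℤ) ∣ P.freyCurveInt.Δ) :
    ¬ (ℓ : ℤ) ∣ P.freyCurveInt.c₄ := by
  have hI : Prime (ℓ : ℤ) := Nat.prime_iff_prime_int.mp hℓ
  have cop : ∀ {x y : ℤ}, gcd x y = 1 → (ℓ : ℤ) ∣ x → ¬ (ℓ : ℤ) ∣ y := by
    intro x y hxy hx hy
    have := dvd_gcd hx hy
    rw [hxy] at this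
    exact hI.not_isUnit (isUnit_of_dvd_one this)
  have hp0 := P.hp0
  intro hc
  rw [int_c4] at hc
  rw [int_Δ] at h
  have h1 : (ℓ : ℤ) ∣ P.a ∨ (ℓ : ℤ) ∣ P.b ∨ (ℓ : ℤ) ∣ P.c := by
    rcases hI.dvd_or_dvd h with h | h
    · have h2 : (ℓ : ℤ) ∣ 16 * P.freyCurveInt.a₄ := Dvd.dvd.mul_left (hI.dvd_of_dvd_pow h) _
      rw [a4_eq, neg_mul, dvd_neg] at h2
      rcases hI.dvd_or_dvd h2 with h2 | h2
      · exact Or.inl (hI.dvd_of_dvd_pow h2)
      · exact Or.inr (Or.inl (hI.dvd_of_dvd_pow h2))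
    · exact Or.inr (Or.inr (hI.dvd_of_dvd_pow (hI.dvd_of_dvd_pow h)))
  rcases h1 with h1 | h1 | h1
  · obtain ⟨k, hk⟩ := dvd_pow h1 hp0
    obtain ⟨l, hl⟩ := hc
    have h2 : (ℓ : ℤ) ∣ (P.b ^ P.p) ^ 2 :=
      ⟨l + 2 * k * P.b ^ P.p - k * P.a ^ P.p - 3 * (k * P.b ^ P.p), by
        rw [hk] at hl ⊢; linear_combination hl⟩
    exact cop P.hgcdab h1 (hI.dvd_of_dvd_pow (hI.dvd_of_dvd_pow h2))
  · obtain ⟨k, hk⟩ := dvd_pow h1 hp0
    obtain ⟨l, hl⟩ := hc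
    have h2 : (ℓ : ℤ) ∣ (P.a ^ P.p) ^ 2 :=
      ⟨l + 2 * k * P.a ^ P.p - k * P.b ^ P.p - 3 * (k * P.a ^ P.p), by
        rw [hk] at hl ⊢; linear_combination hl⟩
    have h3 : gcd P.b P.a = 1 := by rw [gcd_comm]; exact P.hgcdab
    exact cop h3 h1 (hI.dvd_of_dvd_pow (hI.dvd_of_dvd_pow h2))
  · obtain ⟨k, hk⟩ := dvd_pow h1 hp0
    obtain ⟨l, hl⟩ := hc
    have hF := P.hFLT
    rw [hk] at hF
    have hb : P.b ^ P.p = ℓ * k - P.a ^ P.p := by linarith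
    rw [hb] at hl
    have h2 : (ℓ : ℤ) ∣ (P.a ^ P.p) ^ 2 :=
      ⟨l - ℓ * k ^ 2 + 4 * k * P.a ^ P.p - 3 * (P.a ^ P.p * k), by
        linear_combination hl⟩
    have h3 : gcd P.c P.a = 1 := by rw [gcd_comm]; exact P.hgcdac
    exact cop h3 h1 (hI.dvd_of_dvd_pow (hI.dvd_of_dvd_pow h2))

lemma two_dvd_Δ : (2 : ℤ) ∣ P.freyCurveInt.Δ := by
  have h4 := a4_eq P
  have h32 : (32 : ℤ) ∣ P.b ^ P.p := by
    have h1 : (2 : ℤ) ^ 5 ∣ P.b ^ 5 := pow_dvd_pow_of_dvd (b_even P) 5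
    have h2 : P.b ^ 5 ∣ P.b ^ P.p := pow_dvd_pow _ P.hp5
    have h3 : ((2 : ℤ) ^ 5) = 32 := by norm_num
    rw [h3] at h1
    exact h1.trans h2
  obtain ⟨k, hk⟩ := h32
  have h5 : P.freyCurveInt.a₄ = 2 * (-(P.a ^ P.p) * k) := by
    rw [hk] at h4; linarith
  rw [int_Δ, h5]
  exact ⟨(-(P.a ^ P.p) * k) * (2 * (-(P.a ^ P.p) * k)) * (P.c ^ P.p) ^ 2, by ring⟩

end IntModel

section Final

variable {P : FreyPackage}
  {N : Submodule (ZMod P.p) (Tp P Qbar)}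

lemma kum_b2_int : (kum P (K := Qbar)).b₂ = ((P.freyCurveInt.b₂ : ℤ) : Qbar) := by
  rw [kum_b₂, int_b2]; push_cast; ring

lemma kum_b4_int : (kum P (K := Qbar)).b₄ = ((P.freyCurveInt.b₄ : ℤ) : Qbar) := by
  have h4 := congrArg (Int.cast : ℤ → Qbar) (a4_eq P)
  push_cast at h4
  rw [kum_b₄, int_b4]; push_cast
  rw [mul_pow]
  linear_combination (-1 / 8 : Qbar) * h4

lemma kum_b6_int : (kum P (K := Qbar)).b₆ = ((P.freyCurveInt.b₆ : ℤ) : Qbar) := by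
  rw [kum_b₆, int_b6]; push_cast; ring

lemma kum_b8_int : (kum P (K := Qbar)).b₈ = ((P.freyCurveInt.b₈ : ℤ) : Qbar) := by
  have h4 := congrArg (Int.cast : ℤ → Qbar) (a4_eq P)
  push_cast at h4
  rw [kum_b₈, int_b8]; push_cast
  rw [mul_pow]
  linear_combination ((1 / 256 : Qbar) * (16 * (P.freyCurveInt.a₄ : Qbar) -
    (P.a : Qbar) ^ P.p * (P.b : Qbar) ^ P.p)) * h4

lemma kum_disc_int : (kum P (K := Qbar)).disc = ((P.freyCurveInt.Δ : ℤ) : Qbar) := by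
  rw [KummerLine.disc, kum_b2_int, kum_b4_int, kum_b6_int, kum_b8_int, Δ]
  push_cast; ring

lemma kum_integral (v : OrdFn Qbar) : (kum P (K := Qbar)).Integral v := by
  refine ⟨?_, ?_, ?_, ?_⟩
  · rw [kum_b2_int]; exact ge_intCast _
  · rw [kum_b4_int]; exact ge_intCast _
  · rw [kum_b6_int]; exact ge_intCast _
  · rw [kum_b8_int]; exact ge_intCast _

lemma phi_translate {G : Type*} [AddCommGroup G] (κ : KummerLine G Qbar) (r x : Qbar) :
    (κ.translate r).phi (x - r) = κ.phi x - r * κ.psi x := by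
  simp only [KummerLine.phi, KummerLine.psi, KummerLine.translate]; ring

/-- S15c in terms of the Kummer line, transported along an equality of curves -/
theorem s15c_transport (h : S15c) {p : ℕ} (hp : p.Prime)
    (hp' : p ∉ ({2, 3, 5, 7, 13} : Finset ℕ)) (W : WeierstrassCurve ℤ) (hΔ : W.Δ ≠ 0)
    (W' : WeierstrassCurve ℚ) (e : W.map (Int.castRingHom ℚ) = W')
    (C : AddSubgroup (W'⁄Qbar).Point) (hC : Nat.card C = p)
    (hst : ∀ σ : GQ, ∀ Q ∈ C, σ • Q ∈ C)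
    (h2 : (2 : ℤ) ∣ W.Δ) (h2' : ¬ (2 : ℤ) ∣ W.c₄)
    (h2Z : ∀ A : ValuationSubring Qbar, A.LiesOverPrime 2 → ∀ Q ∈ C,
      Zc (KummerLine.ofCurve (W'⁄Qbar)) A Q)
    (h3 : (3 : ℤ) ∣ W.Δ) (h3' : ¬ (3 : ℤ) ∣ W.c₄)
    (h3Z : ∀ A : ValuationSubring Qbar, A.LiesOverPrime 3 → ∀ Q ∈ C,
      Zc (KummerLine.ofCurve (W'⁄Qbar)) A Q)
    (ℓ : ℕ) (hℓ : ℓ.Prime) (hℓp : ℓ ≠ p) (hℓΔ : (ℓ : ℤ) ∣ W.Δ) (hℓc : ¬ (ℓ : ℤ) ∣ W.c₄)
    (A : ValuationSubring Qbar) (hA : A.LiesOverPrime ℓ) (Q : (W'⁄Qbar).Point) (hQ : Q ∈ C) :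
    Zc (KummerLine.ofCurve (W'⁄Qbar)) A Q := by
  subst e
  rw [← inZero_iff]
  refine h p hp hp' W hΔ C hC ?_ h2 h2' (fun A hA Q hQ => ?_) h3 h3' (fun A hA Q hQ => ?_)
    ℓ hℓ hℓp hℓΔ hℓc A hA Q hQ
  · exact hst
  · rw [inZero_iff]; exact h2Z A hA Q hQ
  · rw [inZero_iff]; exact h3Z A hA Q hQ

section Assembly

variable (hst : ∀ (σ : GQ), ∀ x ∈ N, σ • x ∈ N) (hN1 : N ≠ ⊥) (hN2 : N ≠ ⊤)
  (hcf : ∀ (σ : GQ) (x : Tp P Qbar), σ • x - x ∈ N)

/-- zero component at `2` and `3` -/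
lemma zc_of_mult {q : ℕ} (hq : q.Prime) {A : ValuationSubring Qbar} (hA : (q : Qbar) ∈ A.nonunits)
    (hqp : q ≠ P.p) {r : ℚ} {m : ℝ} (hr : (ordFnAt A hq hA).Ge 0 (algebraMap ℚ Qbar r))
    (hM : ((kum P (K := Qbar)).translate (algebraMap ℚ Qbar r)).MultAt (ordFnAt A hq hA) m)
    {x : Tp P Qbar}
    (hc : ((kum P (K := Qbar)).translate (algebraMap ℚ Qbar r)).comp (ordFnAt A hq hA)
      (x : ((P.freyCurve : Affine ℚ)⁄Qbar).Point) = 0) :
    Zc (kum P (K := Qbar)) A (x : ((P.freyCurve : Affine ℚ)⁄Qbar).Point) := by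
  by_cases hx0 : (x : ((P.freyCurve : Affine ℚ)⁄Qbar).Point) = 0
  · exact Or.inl hx0
  right; right
  rintro ⟨h1, h2⟩
  have hn := unit_p (P := P) hq hqp hA
  have h3 := mult_psi hM hn P.hp_odd hx0 (tor x) hc
  apply h3
  have e : ((kum P (K := Qbar)).translate (algebraMap ℚ Qbar r)).N
      (x : ((P.freyCurve : Affine ℚ)⁄Qbar).Point) =
      (kum P (K := Qbar)).N (x : ((P.freyCurve : Affine ℚ)⁄Qbar).Point) - algebraMap ℚ Qbar r := by
    show (kum P (K := Qbar)).N _ - algebraMap ℚ Qbar r * (kum P (K := Qbar)).D _ = _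
    rw [(kum P (K := Qbar)).D_ne _ hx0, mul_one]
  rw [e, phi_translate]
  have g1 := (ordFnAt_gt A hq hA _).mpr h1
  have g2 := (ordFnAt_gt A hq hA _).mpr h2
  have g3 := hr.mul_gt g1
  rw [add_zero] at g3
  exact g2.sub g3

include hst hN1 hN2 hcf in
lemma zc_two (h11 : 11 ≤ P.p) (A : ValuationSubring Qbar) (hA : A.LiesOverPrime 2)
    {x : Tp P Qbar} (hx : x ∈ N) :
    Zc (kum P (K := Qbar)) A (x : ((P.freyCurve : Affine ℚ)⁄Qbar).Point) := by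
  have hA' : ((2 : ℕ) : Qbar) ∈ A.nonunits := hA
  obtain ⟨k, -, hM⟩ := multAt_two (P := P) A hA'
  have ht : (kum P (K := Qbar)).translate (algebraMap ℚ Qbar 0) = kum P (K := Qbar) := by
    simp [KummerLine.translate]
  rw [← ht] at hM
  exact zc_of_mult Nat.prime_two hA' (by omega) (by rw [_root_.map_zero]; exact Ge.zero) hM
    (line_comp hst hN1 hN2 hcf h11 Nat.prime_two (Or.inl rfl) hA' hM hx)

lemma three_cases (h11 : 11 ≤ P.p) (A : ValuationSubring Qbar) (hA : A.LiesOverPrime 3) :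
    (∃ (r : ℚ) (m : ℝ), (ordFnAt A Nat.prime_three hA).Ge 0 (algebraMap ℚ Qbar r) ∧
      ((kum P (K := Qbar)).translate (algebraMap ℚ Qbar r)).MultAt
        (ordFnAt A Nat.prime_three hA) m) ∨
    ((kum P (K := Qbar)).Integral (ordFnAt A Nat.prime_three hA) ∧
      (ordFnAt A Nat.prime_three hA).Eq 0 (kum P (K := Qbar)).disc) :=
  frey_cases Nat.prime_three (by norm_num) (fun n hn => eq_zero_of_not_dvd Nat.prime_three hA hn)
    (fun n hn => gt_zero_of_dvd Nat.prime_three hA hn)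

include hst hN1 hN2 hcf in
lemma zc_three (h11 : 11 ≤ P.p) (A : ValuationSubring Qbar) (hA : A.LiesOverPrime 3)
    {x : Tp P Qbar} (hx : x ∈ N) :
    Zc (kum P (K := Qbar)) A (x : ((P.freyCurve : Affine ℚ)⁄Qbar).Point) := by
  rcases three_cases h11 A hA with ⟨r, m, hr, hM⟩ | ⟨h1, h2⟩
  · exact zc_of_mult Nat.prime_three hA (by omega) hr hM
      (line_comp hst hN1 hN2 hcf h11 Nat.prime_three (Or.inr rfl) hA hM hx)
  · exact (bad_three hN2 hcf h11 hA h1 h2).elim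

include hN2 hcf in
lemma three_dvd_Δ (h11 : 11 ≤ P.p) : (3 : ℤ) ∣ P.freyCurveInt.Δ := by
  by_contra h3
  obtain ⟨A, hA⟩ := Frob.exists_liesOverPrime Qbar Nat.prime_three
  have hA' : ((3 : ℕ) : Qbar) ∈ A.nonunits := hA
  refine bad_three hN2 hcf h11 hA' (kum_integral _) ?_
  rw [kum_disc_int]
  exact eq_zero_of_not_dvd Nat.prime_three hA' (by exact_mod_cast h3)

/-- from nonsingular reduction to `ψ₂²` -/
lemma psi_of_zc {q : ℕ} (hq : q.Prime) {A : ValuationSubring Qbar} (hA : (q : Qbar) ∈ A.nonunits)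
    (hqp : q ≠ P.p) {x : Tp P Qbar} (hx0 : x ≠ 0)
    (h : Zc (kum P (K := Qbar)) A (x : ((P.freyCurve : Affine ℚ)⁄Qbar).Point)) :
    psiAt x ∉ A.nonunits := by
  intro h1
  have hx0' : (x : ((P.freyCurve : Affine ℚ)⁄Qbar).Point) ≠ 0 := fun h => hx0 (Subtype.ext h)
  have hn := unit_p (P := P) hq hqp hA
  have h2 := two_ne P.hp_odd hx0' (tor x)
  obtain ⟨-, e⟩ := (kum P (K := Qbar)).dup hx0' h2
  have i1 := integral_of_torsion (kum_integral (ordFnAt A hq hA)) hn hx0' (tor x)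
  have i2 := integral_of_torsion (kum_integral (ordFnAt A hq hA)) hn h2
    (add_torsion (tor x) (tor x))
  rcases h with h | h | h
  · exact hx0' h
  · exact h ((ordFnAt_ge A hq hA _).mp i1)
  · apply h
    refine ⟨h1, ?_⟩
    rw [← ordFnAt_gt A hq hA, ← e]
    have := ((ordFnAt_gt A hq hA _).mpr h1).mul_ge i2
    rwa [add_zero] at this

lemma psi_of_good {q : ℕ} (hq : q.Prime) {A : ValuationSubring Qbar} (hA : (q : Qbar) ∈ A.nonunits)
    (hqp : q ≠ P.p) (hqΔ : ¬ (q : ℤ) ∣ P.freyCurveInt.Δ) {x : Tp P Qbar} (hx0 : x ≠ 0) :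
    psiAt x ∉ A.nonunits := by
  intro h1
  have hx0' : (x : ((P.freyCurve : Affine ℚ)⁄Qbar).Point) ≠ 0 := fun h => hx0 (Subtype.ext h)
  have hn := unit_p (P := P) hq hqp hA
  have h2 := two_ne P.hp_odd hx0' (tor x)
  refine good_psi (kum_integral (ordFnAt A hq hA)) hn ?_ hx0' h2 (tor x)
    ((ordFnAt_gt A hq hA _).mpr h1)
  rw [kum_disc_int]
  exact eq_zero_of_not_dvd hq hA hqΔ

include hst hN1 hN2 in
lemma psi_at_p {A : ValuationSubring Qbar} (hA : A.LiesOverPrime P.p) {x : Tp P Qbar}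
    (hx : x ∈ N) (hx0 : x ≠ 0) : psiAt x ∉ A.nonunits := by
  intro h1
  have hA' : ((P.p : ℕ) : Qbar) ∈ A.nonunits := hA
  have hx0' : (x : ((P.freyCurve : Affine ℚ)⁄Qbar).Point) ≠ 0 := fun h => hx0 (Subtype.ext h)
  have h2 := line_E1 hst hN1 hN2 hA hx
  rw [mem_E1V, KummerLine.inE1_iff hx0'] at h2
  rw [not_ge_iff] at h2
  obtain ⟨h3, h4⟩ := h2
  set v := ordFnAt A P.pp hA' with hv
  set z := (kum P (K := Qbar)).N (x : ((P.freyCurve : Affine ℚ)⁄Qbar).Point) with hz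
  have e1 : v.Eq (v.ord z) z := eq_self h3
  have h4u : v.Eq 0 (4 : Qbar) := by
    have := (four_unit (P := P) hA').inv
    rw [inv_inv, neg_zero] at this
    exact this
  have hb := kum_integral (P := P) v
  have e2 : v.Eq (3 * v.ord z) (4 * z ^ 3) := by
    have := h4u.mul (e1.pow 3)
    rw [zero_add] at this
    exact_mod_cast this
  have e3 : v.Gt (3 * v.ord z) ((kum P (K := Qbar)).b₂ * z ^ 2 +
      2 * (kum P (K := Qbar)).b₄ * z + (kum P (K := Qbar)).b₆) := by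
    refine Gt.add (Gt.add ?_ ?_) ?_
    · exact (hb.b₂.mul e1.pow_two.ge).gt (by linarith)
    · exact (((ge_ofNat 2).mul hb.b₄).mul e1.ge).gt (by linarith)
    · exact hb.b₆.gt (by linarith)
  have e4 := e2.add_gt e3
  have e5 : psiAt x = 4 * z ^ 3 + ((kum P (K := Qbar)).b₂ * z ^ 2 +
      2 * (kum P (K := Qbar)).b₄ * z + (kum P (K := Qbar)).b₆) := by
    rw [psiAt, KummerLine.psi]; ring
  rw [← e5] at e4
  have e6 := (ordFnAt_gt A P.pp hA' _).mpr h1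
  rw [← hv, gt_iff e4.1, e4.2] at e6
  linarith

/-- **S12** from S15c -/
theorem s12_of (h : S15c) (P : FreyPackage) (hp : 17 ≤ P.p) :
    ¬ WeierstrassCurve.Affine.Point.HasGaloisStableCofixedLine (K := AlgebraicClosure ℚ) ℚ
      (P.freyCurve : Affine ℚ) P.p := by
  rintro ⟨N, hst', hN1, hN2, hcf⟩
  have hst : ∀ (σ : GQ), ∀ x ∈ N, σ • x ∈ N := hst'
  have h11 : 11 ≤ P.p := by omega
  have hfin := finrank_line (P := P) (K := Qbar) hN1 hN2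
  set φ := (Submodule.subtype (Submodule.torsionBy ℤ ((P.freyCurve : Affine ℚ)⁄Qbar).Point
    (P.p : ℤ))).toAddMonoidHom with hφ
  set C : AddSubgroup ((P.freyCurve : Affine ℚ)⁄Qbar).Point := N.toAddSubgroup.map φ with hCdef
  have hCm : ∀ x : Tp P Qbar, x ∈ N → (x : ((P.freyCurve : Affine ℚ)⁄Qbar).Point) ∈ C :=
    fun x hx => ⟨x, hx, rfl⟩
  have hCx : ∀ Q ∈ C, ∃ x ∈ N, (x : ((P.freyCurve : Affine ℚ)⁄Qbar).Point) = Q := by
    rintro Q ⟨x, hx, rfl⟩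
    exact ⟨x, hx, rfl⟩
  have hCcard : Nat.card C = P.p := by
    have h1 : Nat.card N = P.p := by
      have h := Module.natCard_eq_pow_finrank (K := ZMod P.p) (V := N)
      rw [hfin, Nat.card_zmod, pow_one] at h
      exact h
    have hinj : Function.Injective φ := Subtype.val_injective
    have h2 : Nat.card (N.toAddSubgroup.map φ) = Nat.card N.toAddSubgroup :=
      (Nat.card_congr (N.toAddSubgroup.equivMapOfInjective φ hinj).toEquiv).symm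
    rw [hCdef, h2]; exact h1
  have hCst : ∀ σ : GQ, ∀ Q ∈ C, σ • Q ∈ C := by
    intro σ Q hQ
    obtain ⟨x, hx, rfl⟩ := hCx Q hQ
    exact hCm (σ • x) (hst σ x hx)
  have hpne : P.p ∉ ({2, 3, 5, 7, 13} : Finset ℕ) := by
    simp only [Finset.mem_insert, Finset.mem_singleton]; omega
  have h2Δ := two_dvd_Δ P
  have h3Δ := three_dvd_Δ hN2 hcf h11
  have hall : ∀ ℓ : ℕ, ℓ.Prime → ℓ ≠ P.p → (ℓ : ℤ) ∣ P.freyCurveInt.Δ →
      ∀ A : ValuationSubring Qbar, A.LiesOverPrime ℓ → ∀ Q ∈ C,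
        Zc (kum P (K := Qbar)) A Q := by
    intro ℓ hℓ hℓp hℓΔ A hA Q hQ
    refine s15c_transport h P.pp hpne P.freyCurveInt (int_Δ_ne P) P.freyCurve (int_map P) C hCcard
      hCst h2Δ (semistable P Nat.prime_two h2Δ) ?_ h3Δ (semistable P Nat.prime_three h3Δ) ?_
      ℓ hℓ hℓp hℓΔ (semistable P hℓ hℓΔ) A hA Q hQ
    · intro A hA Q hQ
      obtain ⟨x, hx, rfl⟩ := hCx Q hQ
      exact zc_two hst hN1 hN2 hcf h11 A hA hx
    · intro A hA Q hQ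
      obtain ⟨x, hx, rfl⟩ := hCx Q hQ
      exact zc_three hst hN1 hN2 hcf h11 A hA hx
  refine no_line (P := P) (K := Qbar) (N := N) (ι := (complexEmbedding : Qbar →+* ℂ))
    (c := complexConjugation) complexEmbedding_complexConjugation hst hN1 hN2 ?_
  intro q hq
  obtain ⟨A, hA⟩ := Frob.exists_liesOverPrime Qbar hq
  refine ⟨A, hA, fun x hx hx0 => ?_⟩
  by_cases hqp : q = P.p
  · subst hqp
    exact psi_at_p hst hN1 hN2 hA hx hx0
  · by_cases hqΔ : (q : ℤ) ∣ P.freyCurveInt.Δ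
    · exact psi_of_zc hq hA hqp hx0 (hall q hq hqp hqΔ A hA _ (hCm x hx))
    · exact psi_of_good hq hA hqp hqΔ hx0

end Assembly

end Final

end Fermat.Agent.Maz.FreyS
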