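import Fermat.Agent.S37
import Fermat.Agent.TorLift.Main
import Fermat.Prelude.Def_EllipticCurve_ZeroComponentAt
import Fermat.Prelude.Def_FLTPrelim_Ramification

/-!
# Interfaces for the Mazur cluster (S15)

`N` is a prime (the level), `r` a prime dividing the numerator of `(N - 1) / 12`.
-/

set_option autoImplicit false
set_option linter.unusedSectionVars false
set_option linter.style.haveILetI false
set_option synthInstance.maxHeartbeats 400000

noncomputable section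

namespace Fermat.Agent.Maz

open ModularCurve AlgebraicCurve Fermat.Agent.Curves Fermat.Agent.GoodRed IsLocalRing
open WeierstrassCurve WeierstrassCurve.Affine
open scoped Pointwise

local notation "Qbar" => AlgebraicClosure ℚ
local notation "GQ" => Qbar ≃ₐ[ℚ] Qbar

/-- the Hecke operator on `J` -/
abbrev Tj (N : ℕ) [NeZero N] (s : ℕ) (hs : s.Prime) : Module.End ℤ (JZero N) :=
  heckeOperatorBar N ⟨s, hs⟩

/-- `σ` acts on the `r ^ k`-th roots of unity by raising to the power `c` -/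
def Cyc (r k : ℕ) (σ : GQ) (c : ℕ) : Prop := ∀ ζ : Qbar, ζ ^ (r ^ k) = 1 → σ ζ = ζ ^ c

/-- a kernel of reduction at a place `A` over `ℓ ∤ N`: the kernel of `S37.redHom`
(for `5 ≤ ℓ` the reduction is at the same level) -/
def IsRedKer (N : ℕ) [NeZero N] (ℓ : ℕ) (A : ValuationSubring Qbar)
    (K : AddSubgroup (JZero N)) : Prop :=
  ∃ (hℓ : ℓ.Prime) (hA : A.LiesOverPrime ℓ) (hN : ¬ ℓ ∣ N) (M : ℕ)
    (_ : IsFunctionField (ResidueField A) (modularFunctionFieldFullC (ResidueField A) M))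
    (r : RedMap A N M), ((M : ℕ) : ResidueField A) ≠ 0 ∧ (5 ≤ ℓ → M = N) ∧
      K = (S37.redHom r hℓ hA hN).ker

/-- the `j`-function -/
def jB (N : ℕ) [NeZero N] : modularFunctionFieldBar N :=
  ⟨jqModC Qbar, by
    have h := jqModC_mem_full Qbar N
    rw [← Fermat.Agent.Curves.laurentBaseChange_eq Qbar N] at h
    exact h⟩

/-- the cusp `∞` of `X_0(N)`, `N` prime -/
def IsCuspInf (N : ℕ) [NeZero N] (P : Place Qbar (modularFunctionFieldBar N)) : Prop :=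
  P.ord (jB N) = -1

/-- the cusp `0` of `X_0(N)`, `N` prime -/
def IsCuspZero (N : ℕ) [NeZero N] (P : Place Qbar (modularFunctionFieldBar N)) : Prop :=
  P.ord (jB N) = -(N : ℤ)

/-- the class of `P - P'` -/
def cls (N : ℕ) [NeZero N] (P P' : Place Qbar (modularFunctionFieldBar N)) : JZero N :=
  Pic0.mk ⟨Finsupp.single P 1 - Finsupp.single P' 1, by
    haveI := isFunctionField_fullC Qbar N (by exact_mod_cast NeZero.ne N)
    rw [Divisor.mem_degZero, map_sub, Divisor.degree_single, Divisor.degree_single,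
      deg_eq_one, deg_eq_one, sub_self]⟩

/-- **(3)** [helper9] the kernel of reduction at `r` on the part where `T_r` is bijective -/
def A12 : Prop := ∀ (N : ℕ) [NeZero N], N.Prime → ∀ (r : ℕ) (hr : r.Prime) (A : ValuationSubring Qbar)
  (K : AddSubgroup (JZero N)), IsRedKer N r A K →
  ∀ (k : ℕ) (E : AddSubgroup (JZero N)), (∀ x ∈ E, r ^ k • x = 0) → E ≤ K →
    (∀ x ∈ E, Tj N r hr x ∈ E) → (∀ x ∈ E, Tj N r hr x = 0 → x = 0) →
    ∀ σ ∈ A.inertiaSubgroupIn ℚ, ∀ c : ℕ, Cyc r k σ c → ∀ x ∈ E, σ • x = c • x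

/-- **Hecke package** [HPKG]: a reduced Hecke ring acting on the `r`-power torsion of `J_0(N)` -/
structure HPkg (N r : ℕ) [NeZero N] where
  T : Type
  [cr : CommRing T]
  [fin : Module.Finite ℤ T]
  [free : Module.Free ℤ T]
  [red : IsReduced T]
  /-- lifts of the operators to endomorphisms of `J` -/
  op : T → Module.End ℤ (JZero N)
  Th : ∀ s : ℕ, s.Prime → s ≠ N → T
  op_Th : ∀ (s : ℕ) (hs : s.Prime) (hN : s ≠ N) (k : ℕ) (x : JZero N), r ^ k • x = 0 →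
    op (Th s hs hN) x = Tj N s hs x
  op_mem : ∀ t : T, op t ∈ Algebra.adjoin ℤ {F : Module.End ℤ (JZero N) |
    ∃ (s : ℕ) (hs : s.Prime), s ≠ N ∧ F = Tj N s hs}
  op_gal : ∀ (t : T) (σ : GQ) (x : JZero N), op t (σ • x) = σ • op t x
  op_one : ∀ x : JZero N, op 1 x = x
  op_add : ∀ (t u : T) (k : ℕ) (x : JZero N), r ^ k • x = 0 → op (t + u) x = op t x + op u x
  op_mul : ∀ (t u : T) (k : ℕ) (x : JZero N), r ^ k • x = 0 → op (t * u) x = op t (op u x)
  /-- almost saturated in the endomorphisms of the Tate module -/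
  sat : ∃ b : ℕ, ∀ (k : ℕ) (t : T), (∀ x : JZero N, r ^ (k + b) • x = 0 → op t x = 0) →
    ∃ u : T, t = (r ^ k : ℕ) • u
  /-- Eichler-Shimura (all `g`, via the Frobenius density theorem and Dickson polynomials) -/
  es : ∀ (g : GQ) (k : ℕ), ∃ (t : T) (c : ℕ), Cyc r k g c ∧
    t - 1 - (c : T) ∈ Ideal.span {x : T | ∃ (s : ℕ) (hs : s.Prime) (hN : s ≠ N),
      x = Th s hs hN - 1 - (s : T)} ∧
    ∀ x : JZero N, r ^ k • x = 0 → g • x + c • (g⁻¹ • x) = op t x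
  /-- `|a_s| < s + 1` -/
  eta : ∀ (s : ℕ) (hs : s.Prime) (hN : s ≠ N),
    Th s hs hN - 1 - (s : T) ∈ nonZeroDivisors T
  eta' : ∀ (s : ℕ) (hs : s.Prime) (hN : s ≠ N),
    Th s hs hN + 1 + (s : T) ∈ nonZeroDivisors T
  finJ : ∀ k : ℕ, {x : JZero N | r ^ k • x = 0}.Finite

attribute [instance] HPkg.cr HPkg.fin HPkg.free HPkg.red

/-- **[DIVJ]** (helper8): classes `cls P Q` in the kernel of reduction are divisible prime to `ℓ` -/
def DivJ : Prop := ∀ (N : ℕ) [NeZero N] (ℓ : ℕ) (A : ValuationSubring Qbar)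
  (K : AddSubgroup (JZero N)), IsRedKer N ℓ A K → ∀ n : ℕ, ¬ ℓ ∣ n →
  ∀ P Q : Place Qbar (modularFunctionFieldBar N), cls N P Q ∈ K → ∃ y : JZero N, n • y = cls N P Q

/-- the Hecke package exists -/
def HPkgStatement : Prop := ∀ (N : ℕ) [NeZero N], N.Prime → 5 ≤ N → ∀ r : ℕ, r.Prime → r ≠ N →
  Nonempty (HPkg N r)

/-- **unipotent tame inertia at `N`** on the `r`-power torsion (S34 core for `J_0(N)`) -/
def TameN : Prop := ∀ (N : ℕ) [NeZero N], N.Prime → ∀ r : ℕ, r.Prime → r ≠ N →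
  ∀ A : ValuationSubring Qbar, A.LiesOverPrime N → ∀ σ ∈ A.inertiaSubgroupIn ℚ,
    ∀ (k : ℕ) (x : JZero N), r ^ k • x = 0 → σ • σ • x + x = 2 • (σ • x)

/-- **(KEY)** [helper4]: the rational points have bounded Eisenstein part modulo `r ^ k` -/
def Key : Prop := ∀ (N : ℕ) [NeZero N], N.Prime → 5 ≤ N → ∀ r : ℕ, ∀ hr : r.Prime, r ≠ N →
  ∀ (H : HPkg N r) (c : JZero N), c ≠ 0 → r • c = 0 → (∀ σ : GQ, σ • c = c) →
    (∀ (s : ℕ) (hs : s.Prime), s ≠ N → Tj N s hs c = (1 + s) • c) →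
    ∃ a : ℕ, ∀ k : ℕ, ∃ e : H.T, H.op e c = c ∧
      ∀ x : JZero N, (∀ σ : GQ, σ • x = x) → (∀ j : ℕ, ∃ y : JZero N, r ^ j • y = x) →
        ∃ z : JZero N, (∀ σ : GQ, σ • z = z) ∧ r ^ a • H.op e x = r ^ k • z

/-- a class of prime order `r` in the cuspidal group, killed by the Eisenstein ideal -/
structure CuspClass (N r : ℕ) [NeZero N] (P0 Pinf : Place Qbar (modularFunctionFieldBar N))
    (m : ℕ) (c : JZero N) : Prop where
  eq : c = m • cls N P0 Pinf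
  ne : c ≠ 0
  tors : r • c = 0
  gal : ∀ σ : GQ, σ • c = c
  hecke : ∀ (s : ℕ) (hs : s.Prime), s ≠ N → Tj N s hs c = (1 + s) • c
  red : 5 ≤ r → ∀ (A : ValuationSubring Qbar) (K : AddSubgroup (JZero N)), IsRedKer N r A K → c ∉ K

/-- **[CUSP]**: `r` is a prime divisor of the numerator of `(N - 1) / 12`, `m = n / r` -/
def CuspStatement : Prop := ∀ (N : ℕ) [NeZero N], N.Prime → N ∉ ({2, 3, 5, 7, 13} : Finset ℕ) →
  ∃ r : ℕ, r.Prime ∧ r ≠ N ∧ ∀ P0 Pinf : Place Qbar (modularFunctionFieldBar N),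
    IsCuspZero N P0 → IsCuspInf N Pinf → ∃ (m : ℕ) (c : JZero N), CuspClass N r P0 Pinf m c

/-- **[FINFROB]**: classes fixed by the decomposition group have bounded order modulo the kernel of
reduction (finitely many rational classes over a finite field) -/
def FinFrob : Prop := ∀ (N : ℕ) [NeZero N] (ℓ : ℕ) (A : ValuationSubring Qbar)
  (K : AddSubgroup (JZero N)), IsRedKer N ℓ A K →
  ∃ D : ℕ, D ≠ 0 ∧ ∀ x : JZero N, (∀ σ ∈ A.decompositionSubgroup ℚ, σ • x = x) → D • x ∈ K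

/-- **[LOCDIV]**: elements of the kernel of reduction are locally `r`-divisible -/
def LocDiv : Prop := ∀ (N : ℕ) [NeZero N] (ℓ : ℕ) (A : ValuationSubring Qbar)
  (K : AddSubgroup (JZero N)), IsRedKer N ℓ A K → ∀ r : ℕ, r.Prime → r ≠ ℓ →
  ∀ (P Q : Place Qbar (modularFunctionFieldBar N)) (x : JZero N), x = cls N P Q → x ∈ K →
  (∀ σ ∈ A.decompositionSubgroup ℚ, σ • x = x) → ∀ m : ℕ, ∃ y : JZero N,
    (∀ σ ∈ A.decompositionSubgroup ℚ, σ • y = y) ∧ r ^ m • y = x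

/-- **[HSTAB]**: Hecke stability of the kernel of reduction -/
def HeckeStab : Prop := ∀ (N : ℕ) [NeZero N], N.Prime → ∀ (ℓ : ℕ) (A : ValuationSubring Qbar)
  (K : AddSubgroup (JZero N)), 5 ≤ ℓ → IsRedKer N ℓ A K →
  ∀ (s : ℕ) (hs : s.Prime), s ≠ N → ∀ x ∈ K, Tj N s hs x ∈ K

/-- **[MODULI]** (helper2): the place of `X_0(p)` attached to `(W, C)` and its reductions -/
def Moduli : Prop := ∀ (p : ℕ) [NeZero p], p.Prime → 5 ≤ p → ∀ (W : WeierstrassCurve ℤ), W.Δ ≠ 0 →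
  (2 : ℤ) ∣ W.Δ → ¬ (2 : ℤ) ∣ W.c₄ →
  ∀ C : AddSubgroup ((W.map (Int.castRingHom ℚ))⁄Qbar).Point, Nat.card C = p →
  (∀ σ : GQ, ∀ Q ∈ C, σ • Q ∈ C) →
  ∀ P0 Pinf : Place Qbar (modularFunctionFieldBar p), IsCuspZero p P0 → IsCuspInf p Pinf →
  ∃ y : Place Qbar (modularFunctionFieldBar p), (∀ σ : GQ, gact p σ • y = y) ∧
    ∀ (ℓ : ℕ) (A : ValuationSubring Qbar) (K : AddSubgroup (JZero p)), IsRedKer p ℓ A K →
      (ℓ : ℤ) ∣ W.Δ → ¬ (ℓ : ℤ) ∣ W.c₄ →
      ((∀ Q ∈ C, W.InZeroComponentAt A Q) → cls p y Pinf ∈ K) ∧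
      ((∃ Q ∈ C, ¬ W.InZeroComponentAt A Q) → cls p y P0 ∈ K)

/-- **[FINAL]** (helper9): no Galois-fixed place reduces to one cusp at `2` and `3` and to the other
one at `ℓ` -/
def FinalCusp : Prop := ∀ (p : ℕ) [NeZero p], p.Prime → p ∉ ({2, 3, 5, 7, 13} : Finset ℕ) →
  ∀ P0 Pinf : Place Qbar (modularFunctionFieldBar p), IsCuspZero p P0 → IsCuspInf p Pinf →
  ∀ y : Place Qbar (modularFunctionFieldBar p), (∀ σ : GQ, gact p σ • y = y) →
  ∀ P P' : Place Qbar (modularFunctionFieldBar p), (P = P0 ∧ P' = Pinf ∨ P = Pinf ∧ P' = P0) →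
  (∀ (ℓ : ℕ) (A : ValuationSubring Qbar) (K : AddSubgroup (JZero p)), (ℓ = 2 ∨ ℓ = 3) →
    IsRedKer p ℓ A K → cls p y P ∈ K) →
  ∀ (ℓ : ℕ) (A : ValuationSubring Qbar) (K : AddSubgroup (JZero p)), 5 ≤ ℓ →
    IsRedKer p ℓ A K → cls p y P' ∉ K

end Fermat.Agent.Maz
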