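import Fermat.Agent.AnJac.HeckeF
import Fermat.Agent.PicFlat.RRDim
import Fermat.Agent.S37

set_option autoImplicit false
set_option linter.unusedSectionVars false
set_option synthInstance.maxHeartbeats 400000

/-! # Divisor classes are defined over number fields -/

noncomputable section

namespace Fermat.Agent.Maz

open ModularCurve AlgebraicCurve Fermat.Agent.Curves Fermat.Agent.GoodRed IsLocalRing
open Fermat.Agent.AnJac Fermat.Agent.PicFlat
open scoped Pointwise

local notation "Qbar" => AlgebraicClosure ℚ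
local notation "GQ" => Qbar ≃ₐ[ℚ] Qbar

variable {N : ℕ} [NeZero N]

lemma level_f (f : modularFunctionFieldBar N) : ∃ L : IntermediateField ℚ Qbar,
    FiniteDimensional ℚ L ∧ ∀ σ : GQ, (∀ x ∈ L, σ x = x) → gact N σ • f = f := by
  have h1 : (f : LaurentSeries Qbar) ∈ modularFunctionFieldFullC Qbar N := by
    have h : (f : LaurentSeries Qbar) ∈ laurentBaseChange Qbar (modularFunctionFieldFull N) := f.2
    rw [Fermat.Agent.Curves.laurentBaseChange_eq Qbar N] at h
    exact h
  obtain ⟨L, hL, h⟩ := modularFunctionFieldFullC_le_smoothF h1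
  refine ⟨L, hL, fun σ hσ => Subtype.ext ?_⟩
  exact (coe_arithmeticGalois_smul _ σ f).trans (h σ hσ)

lemma level_P (P : Place Qbar (modularFunctionFieldBar N)) : ∃ L : IntermediateField ℚ Qbar,
    FiniteDimensional ℚ L ∧ ∀ σ : GQ, (∀ x ∈ L, σ x = x) → gact N σ • P = P := by
  haveI := isFunctionField_fullC Qbar N (by exact_mod_cast NeZero.ne N)
  obtain ⟨g, c, h1, h2⟩ := riemann (k := Qbar) (F := modularFunctionFieldBar N)
  obtain ⟨f, hf, hf0, hfP⟩ := RR.bpf ⟨h1, h2⟩
    (D := Finsupp.single P (max (c + 1) 1)) (by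
      rw [Divisor.degree_single, deg_eq_one]
      simp) P
  rw [Finsupp.single_eq_same] at hfP
  obtain ⟨L, hL, h⟩ := level_f f
  refine ⟨L, hL, fun σ hσ => ?_⟩
  by_contra hne
  have h3 : (gact N σ • P).ord f = -(max (c + 1) 1) := by
    conv_lhs => rw [← h σ hσ]
    rw [SemilinearAut.ord_smul, hfP]
  have h4 := (mem_iff_of_ne hf0).mp hf (gact N σ • P)
  rw [Finsupp.single_eq_of_ne hne, add_zero, h3] at h4
  have : (1 : ℤ) ≤ max (c + 1) 1 := le_max_right _ _
  omega

lemma level_D (D : Divisor Qbar (modularFunctionFieldBar N)) : ∃ L : IntermediateField ℚ Qbar,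
    FiniteDimensional ℚ L ∧ ∀ σ : GQ, (∀ x ∈ L, σ x = x) → gact N σ • D = D := by
  classical
  have hfin : ∀ S : Finset (Place Qbar (modularFunctionFieldBar N)),
      ∃ L : IntermediateField ℚ Qbar, FiniteDimensional ℚ L ∧
        ∀ σ : GQ, (∀ x ∈ L, σ x = x) → ∀ P ∈ S, gact N σ • P = P := by
    intro S
    induction S using Finset.induction with
    | empty => exact ⟨⊥, inferInstance, by simp⟩
    | insert P S hP ih =>
      obtain ⟨L, hL, h1⟩ := ih
      obtain ⟨L', hL', h2⟩ := level_P P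
      refine ⟨L ⊔ L', inferInstance, fun σ hσ Q hQ => ?_⟩
      rcases Finset.mem_insert.mp hQ with rfl | hQ
      · exact h2 σ fun x hx => hσ x (le_sup_right (a := L) hx)
      · exact h1 σ (fun x hx => hσ x (le_sup_left (a := L) hx)) Q hQ
  obtain ⟨L, hL, h⟩ := hfin D.support
  refine ⟨L, hL, fun σ hσ => ?_⟩
  ext Q
  rw [SemilinearAut.divisor_smul_apply]
  by_cases hQ : Q ∈ D.support
  · have h1 := h σ hσ Q hQ
    rw [inv_smul_eq_iff.mpr h1.symm]
  · have h2 : (gact N σ)⁻¹ • Q ∉ D.support := by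
      intro h3
      have h4 := h σ hσ _ h3
      rw [smul_inv_smul] at h4
      exact hQ (h4 ▸ h3)
    rw [Finsupp.notMem_support_iff.mp hQ, Finsupp.notMem_support_iff.mp h2]

/-- every class is fixed by an open subgroup -/
theorem level_J (x : JZero N) : ∃ L : IntermediateField ℚ Qbar, FiniteDimensional ℚ L ∧
    ∀ σ ∈ L.fixingSubgroup, σ • x = x := by
  obtain ⟨D, rfl⟩ := Pic0.mk_surjective x
  obtain ⟨L, hL, h⟩ := level_D (D : Divisor Qbar (modularFunctionFieldBar N))
  refine ⟨L, hL, fun σ hσ => ?_⟩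
  have h1 := h σ (fun x hx => (IntermediateField.mem_fixingSubgroup_iff _ _).mp hσ x hx)
  rw [Fermat.Agent.S37.gal_mk]
  congr 1
  exact Subtype.ext h1

end Fermat.Agent.Maz
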