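import Fermat.Agent.FU.Grp
import Fermat.Agent.CFT.H90
import Fermat.Agent.Mink.Minkowski

set_option autoImplicit false
set_option linter.unusedSectionVars false

/-! # Kummer classes of units -/

namespace Fermat.Agent.Maz

open Fermat.Agent.ECRed Fermat.Agent.Carayol Fermat.Agent.FU OrdFn
open scoped Pointwise

abbrev GQ : Type := Qb ≃ₐ[ℚ] Qb

/-- a natural number all whose multiplicities are divisible by `r` is an `r`-th power -/
lemma nat_pow_of_dvd {r n : ℕ} (hr : r ≠ 0) (hn : n ≠ 0)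
    (h : ∀ q : ℕ, q.Prime → r ∣ n.factorization q) : ∃ s : ℕ, n = s ^ r := by
  refine ⟨n.factorization.prod fun q k => q ^ (k / r), ?_⟩
  conv_lhs => rw [← Nat.prod_factorization_pow_eq_self hn]
  rw [Finsupp.prod, Finsupp.prod, ← Finset.prod_pow]
  refine Finset.prod_congr rfl fun q hq => ?_
  rw [← pow_mul]
  congr 1
  have hq' : q.Prime := by
    rw [Nat.support_factorization] at hq
    exact Nat.prime_of_mem_primeFactors hq
  exact (Nat.div_mul_cancel (h q hq')).symm

variable {A : ValuationSubring Qb} {q : ℕ}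

/-- the order of a natural number -/
lemma ord_nat (hq : q.Prime) (hA : A.LiesOverPrime q) {n : ℕ} (hn : n ≠ 0) :
    (ordFnAt A hq hA).ord (n : Qb) = n.factorization q := by
  have hv : (ordFnAt A hq hA).Eq 1 ((q : ℕ) : Qb) := ordAt_q A hq hA
  have h1 := Nat.ordProj_mul_ordCompl_eq_self n q
  have h2 : (n : Qb) = ((q : ℕ) : Qb) ^ (n.factorization q) *
      ((n / q ^ n.factorization q : ℕ) : Qb) := by
    conv_lhs => rw [← h1]
    push_cast; rfl
  have h3 : (ordFnAt A hq hA).Eq 0 (((n / q ^ n.factorization q : ℕ) : ℤ) : Qb) :=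
    Frey.eq_zero_of_not_dvd (A := A) hq hA (by
      intro h
      have h4 : q ∣ n / q ^ n.factorization q := by exact_mod_cast h
      exact Nat.not_dvd_ordCompl hq hn h4)
  rw [Int.cast_natCast] at h3
  rw [h2, ord_mul (pow_ne_zero _ hv.1) h3.1, ord_pow hv.1, hv.2, h3.2]
  ring

/-- Hilbert 90 for cocycles of finite level -/
theorem hilbert90 {α : GQ → Qbˣ} (hα : ∀ g h : GQ, (α (g * h) : Qb) = α g * g (α h : Qb))
    (L : IntermediateField ℚ Qb) [FiniteDimensional ℚ L]
    (hL : ∀ g ∈ L.fixingSubgroup, α g = 1) : ∃ β : Qbˣ, ∀ g : GQ, (α g : Qb) = g (β : Qb) / β := by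
  haveI : L.fixingSubgroup.FiniteIndex := by
    haveI : Finite (GQ ⧸ L.fixingSubgroup) :=
      Subgroup.quotient_finite_of_isOpen _ (IntermediateField.fixingSubgroup_isOpen L)
    exact Subgroup.finiteIndex_of_finite_quotient
  obtain ⟨β, -, hβ⟩ := CFT.hilbert90 (U := GQ) (Ω := Qb) L.fixingSubgroup (by
    intro g hg
    rw [IntermediateField.mem_fixingSubgroup_iff]
    intro x hx
    apply hg
    intro n hn
    exact (IntermediateField.mem_fixingSubgroup_iff L n).mp hn x hx) α hα hL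
  refine ⟨β, fun g => ?_⟩
  rw [eq_div_iff β.ne_zero]
  exact hβ g

/-- a number fixed by Galois whose orders are all divisible by `r` -/
theorem eq_pow_of_ord {r : ℕ} (hr : r ≠ 0) {b : Qb} (hb : b ≠ 0) (hfix : ∀ g : GQ, g b = b)
    (pl : ℕ → ValuationSubring Qb) (hpl : ∀ q : ℕ, q.Prime → (pl q).LiesOverPrime q)
    (hord : ∀ (q : ℕ) (hq : q.Prime), ∃ m : ℤ, (ordFnAt (pl q) hq (hpl q hq)).ord b = r * m) :
    ∃ s : Qb, s ≠ 0 ∧ (∀ g : GQ, g s = s) ∧ (b = s ^ r ∨ b = -s ^ r) := by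
  obtain ⟨t, rfl⟩ : ∃ t : ℚ, algebraMap ℚ Qb t = b := by
    have h1 : b ∈ (⊥ : IntermediateField ℚ Qb) := (InfiniteGalois.mem_bot_iff_fixed b).mpr hfix
    exact IntermediateField.mem_bot.mp h1
  have ht : t ≠ 0 := by rintro rfl; exact hb (map_zero _)
  -- the integer `X = num * den ^ (r - 1)`
  set X : ℕ := t.num.natAbs * t.den ^ (r - 1) with hX
  have hnum : t.num.natAbs ≠ 0 := by
    rw [Ne, Int.natAbs_eq_zero, Rat.num_eq_zero]; exact ht
  have hX0 : X ≠ 0 := mul_ne_zero hnum (pow_ne_zero _ t.den_ne_zero)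
  have hsgn : ∃ ε : ℤ, (ε = 1 ∨ ε = -1) ∧ t * (t.den : ℚ) ^ r = ε * X := by
    have h1 : t * (t.den : ℚ) ^ r = t.num * (t.den : ℚ) ^ (r - 1) := by
      have h2 : (t.den : ℚ) ^ r = t.den * (t.den : ℚ) ^ (r - 1) := by
        rw [← pow_succ']; congr 1; omega
      rw [h2, ← mul_assoc, Rat.mul_den_eq_num]
    rcases Int.natAbs_eq t.num with h3 | h3
    · refine ⟨1, Or.inl rfl, ?_⟩
      have h4 : (t.num : ℚ) = ((t.num.natAbs : ℕ) : ℚ) := by
        have := congrArg (Int.cast : ℤ → ℚ) h3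
        rwa [Int.cast_natCast] at this
      rw [h1, hX, h4, Nat.cast_mul, Nat.cast_pow, Int.cast_one, one_mul]
    · refine ⟨-1, Or.inr rfl, ?_⟩
      have h4 : (t.num : ℚ) = -((t.num.natAbs : ℕ) : ℚ) := by
        have := congrArg (Int.cast : ℤ → ℚ) h3
        rwa [Int.cast_neg, Int.cast_natCast] at this
      rw [h1, hX, h4, Nat.cast_mul, Nat.cast_pow, Int.cast_neg, Int.cast_one]
      ring
  obtain ⟨ε, hε, hεX⟩ := hsgn
  have hεX' : algebraMap ℚ Qb t * ((t.den : ℕ) : Qb) ^ r = (ε : Qb) * ((X : ℕ) : Qb) := by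
    have := congrArg (algebraMap ℚ Qb) hεX
    rw [map_mul, map_mul, map_pow, map_natCast, map_natCast, map_intCast] at this
    exact this
  have hden : ((t.den : ℕ) : Qb) ≠ 0 := by exact_mod_cast t.den_ne_zero
  obtain ⟨s, hs⟩ := nat_pow_of_dvd hr hX0 (by
    intro q hq
    obtain ⟨m, hm⟩ := hord q hq
    set v := ordFnAt (pl q) hq (hpl q hq) with hv
    have h1 : v.ord (algebraMap ℚ Qb t * ((t.den : ℕ) : Qb) ^ r) = X.factorization q := by
      rw [hεX']
      have h2 := ord_nat hq (hpl q hq) hX0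
      rcases hε with rfl | rfl
      · rw [Int.cast_one, one_mul]; exact h2
      · rw [Int.cast_neg, Int.cast_one, neg_one_mul, ord_neg]; exact h2
    rw [ord_mul hb (pow_ne_zero _ hden), hm, ord_pow hden, ord_nat hq (hpl q hq) t.den_ne_zero]
      at h1
    have h2 : (r : ℤ) * (m + t.den.factorization q) = X.factorization q := by
      have : (r : ℝ) * (m + t.den.factorization q) = X.factorization q := by rw [← h1]; ring
      exact_mod_cast this
    have h3 : (r : ℤ) ∣ (X.factorization q : ℤ) := ⟨_, h2.symm⟩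
    exact_mod_cast h3)
  have hs0 : (s : Qb) ≠ 0 := by
    have : s ≠ 0 := by
      rintro rfl
      rw [zero_pow hr] at hs
      exact hX0 hs
    exact_mod_cast this
  refine ⟨(s : Qb) / ((t.den : ℕ) : Qb), div_ne_zero hs0 hden, ?_, ?_⟩
  · intro g
    rw [map_div₀, map_natCast, map_natCast]
  · rw [hs] at hεX'
    push_cast at hεX'
    rcases hε with rfl | rfl
    · left
      rw [div_pow, eq_div_iff (pow_ne_zero _ hden), hεX']
      push_cast; ring
    · right
      rw [div_pow, ← neg_div, eq_div_iff (pow_ne_zero _ hden), hεX']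
      push_cast; ring

end Fermat.Agent.Maz
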