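import Mathlib.GroupTheory.PGroup
import Mathlib.RingTheory.IntegralDomain
import Mathlib.FieldTheory.Finiteness
import Mathlib.LinearAlgebra.Dual.Lemmas
import Mathlib.Algebra.CharP.Lemmas
import Mathlib.Algebra.Module.ZMod
import Mathlib.FieldTheory.Finite.Basic
import Mathlib

set_option autoImplicit false
set_option linter.unusedSectionVars false

/-! # Eigenfunctionals -/

namespace Fermat.Agent.Maz

variable {G : Type*} [Group G] {W : Type*} [AddCommGroup W] [Finite W] [DistribMulAction G W]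
  {r : ℕ} [hr : Fact r.Prime]

/-- precomposition -/
def TT (g : G) : (W →+ ZMod r) →ₗ[ZMod r] (W →+ ZMod r) where
  toFun f := f.comp (DistribMulAction.toAddMonoidHom W g)
  map_add' f f' := by ext w; rfl
  map_smul' c f := by ext w; rfl

lemma TT_apply (g : G) (f : W →+ ZMod r) (w : W) : TT g f w = f (g • w) := rfl

lemma TT_mul (g h : G) : (TT (g * h) : (W →+ ZMod r) →ₗ[ZMod r] (W →+ ZMod r)) =
    TT h * TT g := by
  ext f w
  show f ((g * h) • w) = f (g • h • w)
  rw [mul_smul]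

lemma TT_one : (TT (1 : G) : (W →+ ZMod r) →ₗ[ZMod r] (W →+ ZMod r)) = 1 := by
  ext f w
  show f ((1 : G) • w) = f w
  rw [one_smul]

lemma TT_pow (g : G) (n : ℕ) : (TT (g ^ n) : (W →+ ZMod r) →ₗ[ZMod r] (W →+ ZMod r)) =
    TT g ^ n := by
  induction n with
  | zero => rw [pow_zero, pow_zero, TT_one]
  | succ n ih => rw [pow_succ, TT_mul, ih, pow_succ']

/-- nilpotence on the module -/
def Nilp (χ : G →* (ZMod r)ˣ) (W : Type*) [AddCommGroup W] [DistribMulAction G W] : Prop :=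
  ∀ (g : G) (c : ℤ), (c : ZMod r) = χ g → ∃ a : ℕ,
    ((DistribMulAction.toAddMonoidEnd G W g - 1) *
      (DistribMulAction.toAddMonoidEnd G W g - (c : AddMonoid.End W))) ^ a = 0

lemma nilp_dual {χ : G →* (ZMod r)ˣ} (h : Nilp χ W) (g : G) :
    ∃ a : ℕ, (((TT g : (W →+ ZMod r) →ₗ[ZMod r] (W →+ ZMod r)) - 1) *
      (TT g - (χ g : ZMod r) • 1)) ^ a = 0 := by
  obtain ⟨c, hc⟩ := ZMod.intCast_surjective (χ g : ZMod r)
  obtain ⟨a, ha⟩ := h g c hc
  refine ⟨a, ?_⟩
  set e := ((DistribMulAction.toAddMonoidEnd G W g - 1) *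
      (DistribMulAction.toAddMonoidEnd G W g - (c : AddMonoid.End W))) with he
  set E := (((TT g : (W →+ ZMod r) →ₗ[ZMod r] (W →+ ZMod r)) - 1) *
      (TT g - (χ g : ZMod r) • 1)) with hE
  have h1 : ∀ (f : W →+ ZMod r) (w : W), E f w = f (e w) := by
    intro f w
    have e1 : E f w = f (g • g • w) - (χ g : ZMod r) * f (g • w) -
        (f (g • w) - (χ g : ZMod r) * f w) := rfl
    have e2 : e w = g • (g • w - c • w) - (g • w - c • w) := rfl
    rw [e1, e2, map_sub, smul_sub, map_sub, map_sub, ← hc, smul_comm g c w, map_zsmul, map_zsmul,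
      zsmul_eq_mul, zsmul_eq_mul]
  have h2 : ∀ (n : ℕ) (f : W →+ ZMod r) (w : W), (E ^ n) f w = f ((e ^ n) w) := by
    intro n
    induction n with
    | zero => intro f w; rfl
    | succ n ih =>
      intro f w
      have e3 : (E ^ (n + 1)) f = (E ^ n) (E f) := by rw [pow_succ]; rfl
      have e4 : (e ^ (n + 1)) w = e ((e ^ n) w) := by rw [pow_succ']; rfl
      rw [e3, e4, ih, h1]
  ext f w
  rw [h2, ha]
  exact map_zero f

lemma exists_fun {V : Type*} [AddCommGroup V] [Module (ZMod r) V] {x : V} (hx : x ≠ 0) :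
    ∃ f : V →+ ZMod r, f x ≠ 0 := by
  obtain ⟨f, hf⟩ := Module.Projective.exists_dual_ne_zero (ZMod r) hx
  exact ⟨(f : V →ₗ[ZMod r] ZMod r).toAddMonoidHom, hf⟩

lemma sub_pow_end {k : Type*} [Field k] {V : Type*} [AddCommGroup V] [Module k V] (p : ℕ)
    [Fact p.Prime] [CharP (Module.End k V) p] (T : Module.End k V) (n : ℕ) :
    (T - 1) ^ (p ^ n) = T ^ (p ^ n) - 1 := by
  have := sub_pow_char_pow_of_commute (R := Module.End k V) (p := p) (n := n) (x := T) (y := 1)
    (Commute.one_right T)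
  rw [one_pow] at this
  exact this

lemma end_pow_eq_one {k : Type*} [Field k] {V : Type*} [AddCommGroup V] [Module k V] (p : ℕ)
    [Fact p.Prime] [CharP (Module.End k V) p] (T : Module.End k V) (n : ℕ)
    (h : (T - 1) ^ (p ^ n) = 0) : T ^ (p ^ n) = 1 := by
  have h1 := sub_pow_end p T n
  rw [h] at h1
  exact (sub_eq_zero.mp h1.symm)

/-- a nonzero functional -/
lemma exists_functional {k : ℕ} (hW : ∀ w : W, r ^ k • w = 0) [Nontrivial W] :
    Nontrivial (W →+ ZMod r) := by
  -- the quotient by `r W`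
  set R : AddSubgroup W := (nsmulAddMonoidHom (α := W) r).range with hR
  have hne : R ≠ ⊤ := by
    intro h
    have h1 : ∀ (n : ℕ) (w : W), ∃ w' : W, w = r ^ n • w' := by
      intro n
      induction n with
      | zero => intro w; exact ⟨w, by rw [pow_zero, one_smul]⟩
      | succ n ih =>
        intro w
        obtain ⟨w', hw'⟩ := ih w
        have h2 : w' ∈ R := by rw [h]; trivial
        obtain ⟨w'', hw''⟩ := h2
        refine ⟨w'', ?_⟩
        rw [hw', ← hw'', nsmulAddMonoidHom_apply, smul_smul, pow_succ]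
    obtain ⟨w, hw⟩ := exists_ne (0 : W)
    obtain ⟨w', hw'⟩ := h1 k w
    rw [hW] at hw'
    exact hw hw'
  letI : Module (ZMod r) (W ⧸ R) := AddCommGroup.zmodModule (n := r) (by
    intro x
    obtain ⟨w, rfl⟩ := QuotientAddGroup.mk_surjective x
    rw [← QuotientAddGroup.mk_nsmul, QuotientAddGroup.eq_zero_iff]
    exact ⟨w, rfl⟩)
  obtain ⟨w, hw⟩ : ∃ w : W, w ∉ R := by
    by_contra hcon
    push Not at hcon
    exact hne (eq_top_iff.mpr fun x _ => hcon x)
  have hw0 : (QuotientAddGroup.mk w : W ⧸ R) ≠ 0 := by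
    rw [Ne, QuotientAddGroup.eq_zero_iff]; exact hw
  obtain ⟨φ, hφ⟩ := exists_fun (r := r) hw0
  refine ⟨⟨φ.comp (QuotientAddGroup.mk' R), 0, ?_⟩⟩
  intro h
  exact hφ (DFunLike.congr_fun h w)

instance finite_dual : Finite (W →+ ZMod r) :=
  Finite.of_injective (fun f : W →+ ZMod r => (f : W → ZMod r)) DFunLike.coe_injective

/-- the functionals invariant under the kernel of `χ` -/
def DH (χ : G →* (ZMod r)ˣ) (W : Type*) [AddCommGroup W] [DistribMulAction G W] :
    Submodule (ZMod r) (W →+ ZMod r) where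
  carrier := {f | ∀ h : G, χ h = 1 → ∀ w : W, f (h • w) = f w}
  zero_mem' := fun _ _ _ => rfl
  add_mem' := fun {f f'} hf hf' h hh w => by
    show f (h • w) + f' (h • w) = f w + f' w
    rw [hf h hh, hf' h hh]
  smul_mem' := fun c f hf h hh w => by
    show c * f (h • w) = c * f w
    rw [hf h hh]

lemma DH_nontrivial {χ : G →* (ZMod r)ˣ} (hN : Nilp χ W) [Nontrivial (W →+ ZMod r)] :
    ∃ f ∈ DH χ W, f ≠ 0 := by
  classical
  -- the permutation representation
  let Ψ : χ.ker →* Equiv.Perm (W →+ ZMod r) :=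
    { toFun := fun h =>
        { toFun := TT ((h : G)⁻¹)
          invFun := TT (h : G)
          left_inv := fun f => by
            ext w
            show f ((h : G)⁻¹ • (h : G) • w) = f w
            rw [inv_smul_smul]
          right_inv := fun f => by
            ext w
            show f ((h : G) • (h : G)⁻¹ • w) = f w
            rw [smul_inv_smul] }
      map_one' := by
        ext f w
        show f (((1 : χ.ker) : G)⁻¹ • w) = f w
        rw [OneMemClass.coe_one, inv_one, one_smul]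
      map_mul' := fun h h' => by
        ext f w
        show f (((h * h' : χ.ker) : G)⁻¹ • w) = f ((h' : G)⁻¹ • (h : G)⁻¹ • w)
        rw [Subgroup.coe_mul, mul_inv_rev, mul_smul] }
  have hΨ : ∀ (h : χ.ker) (f : W →+ ZMod r), Ψ h f = TT ((h : G)⁻¹) f := fun _ _ => rfl
  have hΨpow : ∀ (h : χ.ker) (n : ℕ) (f : W →+ ZMod r), (Ψ h ^ n) f = (TT ((h : G)⁻¹) ^ n) f := by
    intro h n
    induction n with
    | zero => intro f; rfl
    | succ n ih =>
      intro f
      rw [pow_succ, pow_succ]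
      exact ih (TT ((h : G)⁻¹) f)
  have hP : IsPGroup r Ψ.range := by
    rintro ⟨x, h, rfl⟩
    obtain ⟨a, ha⟩ := nilp_dual hN ((h : G)⁻¹)
    have hχ : χ ((h : G)⁻¹) = 1 := by rw [map_inv, h.2, inv_one]
    rw [hχ, Units.val_one, one_smul, ← pow_two, ← pow_mul] at ha
    refine ⟨2 * a, ?_⟩
    have hle : 2 * a ≤ r ^ (2 * a) := (Nat.lt_pow_self hr.out.one_lt).le
    have h0 : ((TT ((h : G)⁻¹) : (W →+ ZMod r) →ₗ[ZMod r] (W →+ ZMod r)) - 1) ^ (r ^ (2 * a)) = 0 :=
      pow_eq_zero_of_le hle ha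
    haveI : CharP (Module.End (ZMod r) (W →+ ZMod r)) r := by
      refine ⟨fun n => ?_⟩
      constructor
      · intro hn
        obtain ⟨f, hf⟩ := exists_ne (0 : W →+ ZMod r)
        have h3 : ((n : Module.End (ZMod r) (W →+ ZMod r)) f) = 0 := by rw [hn]; rfl
        have h4 : (n : ZMod r) • f = 0 := by
          rw [← h3]
          ext w
          have : ((n : Module.End (ZMod r) (W →+ ZMod r)) f) = n • f := by
            rw [Module.End.natCast_apply]
          rw [this]
          show (n : ZMod r) * f w = n • f w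
          rw [nsmul_eq_mul]
        rcases smul_eq_zero.mp h4 with h5 | h5
        · exact (ZMod.natCast_eq_zero_iff _ _).mp h5
        · exact absurd h5 hf
      · intro hn
        ext f w
        rw [Module.End.natCast_apply]
        show n • f w = 0
        rw [nsmul_eq_mul, (ZMod.natCast_eq_zero_iff _ _).mpr hn, zero_mul]
    have h0' := end_pow_eq_one (k := ZMod r) (V := (W →+ ZMod r)) r (TT ((h : G)⁻¹)) (2 * a) h0
    apply Subtype.ext
    show Ψ h ^ (r ^ (2 * a)) = 1
    ext1 f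
    rw [hΨpow]
    exact congrArg (fun T : Module.End (ZMod r) (W →+ ZMod r) => T f) h0'
  have hcard : r ∣ Nat.card (W →+ ZMod r) := by
    rw [Module.natCard_eq_pow_finrank (K := ZMod r) (V := (W →+ ZMod r)), Nat.card_zmod]
    refine dvd_pow_self r ?_
    exact (Module.finrank_pos (R := ZMod r) (M := (W →+ ZMod r))).ne'
  haveI : Finite Ψ.range := inferInstance
  obtain ⟨f, hf, hf0⟩ := hP.exists_fixed_point_of_prime_dvd_card_of_fixed_point
    (α := (W →+ ZMod r)) hcard (a := 0) (by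
      rintro ⟨x, h, rfl⟩
      show Ψ h 0 = 0
      rw [hΨ]
      exact map_zero _)
  refine ⟨f, ?_, hf0.symm⟩
  intro h hh w
  have h1 := hf ⟨Ψ ⟨h, hh⟩, ⟨h, hh⟩, rfl⟩
  have h2 : Ψ ⟨h, hh⟩ f = f := h1
  have h3 : TT ((h : G)⁻¹) f = f := h2
  have h4 : f (h⁻¹ • h • w) = f (h • w) := DFunLike.congr_fun h3 (h • w)
  rw [inv_smul_smul] at h4
  exact h4.symm

/-- **eigenfunctionals** -/
theorem exists_eig {χ : G →* (ZMod r)ˣ} (hN : Nilp χ W) {k : ℕ} (hW : ∀ w : W, r ^ k • w = 0)
    [Nontrivial W] : ∃ f : W →+ ZMod r, f ≠ 0 ∧ ((∀ (g : G) (w : W), f (g • w) = f w) ∨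
      (∀ (g : G) (w : W), f (g • w) = (χ g : ZMod r) * f w)) := by
  haveI := exists_functional (r := r) hW
  obtain ⟨f₁, hf₁, hf₁0⟩ := DH_nontrivial (W := W) hN
  -- a generator of the image
  obtain ⟨⟨_, g₀, rfl⟩, hgen⟩ := IsCyclic.exists_generator (α := χ.range)
  have hdec : ∀ g : G, ∃ (i : ℕ) (h : G), χ h = 1 ∧ g = g₀ ^ i * h := by
    intro g
    have h1 := hgen ⟨χ g, g, rfl⟩
    rw [← mem_powers_iff_mem_zpowers] at h1
    obtain ⟨i, hi⟩ := h1
    have hi' : χ g₀ ^ i = χ g := congrArg Subtype.val hi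
    refine ⟨i, (g₀ ^ i)⁻¹ * g, ?_, by group⟩
    rw [map_mul, map_inv, map_pow, hi', inv_mul_cancel]
  have hst : ∀ f ∈ DH χ W, TT g₀ f ∈ DH χ W := by
    intro f hf h hh w
    show f (g₀ • h • w) = f (g₀ • w)
    have h1 : g₀ • h • w = (g₀ * h * g₀⁻¹) • g₀ • w := by
      rw [← mul_smul, ← mul_smul]
      congr 1
      group
    rw [h1]
    apply hf
    rw [map_mul, map_mul, hh, mul_one, map_inv, mul_inv_cancel]
  obtain ⟨a, ha⟩ := nilp_dual (W := W) hN g₀
  set c : ZMod r := (χ g₀ : ZMod r) with hc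
  have key : ∃ f ∈ DH χ W, f ≠ 0 ∧ (TT g₀ f = f ∨ TT g₀ f = c • f) := by
    by_contra hcon
    push Not at hcon
    set E := (((TT g₀ : (W →+ ZMod r) →ₗ[ZMod r] (W →+ ZMod r)) - 1) *
      (TT g₀ - c • 1)) with hE
    have h1 : ∀ f ∈ DH χ W, f ≠ 0 → E f ∈ DH χ W ∧ E f ≠ 0 := by
      intro f hf hf0
      set f' : W →+ ZMod r := TT g₀ f - c • f with hf'
      have h2 : f' ∈ DH χ W := (DH χ W).sub_mem (hst f hf) ((DH χ W).smul_mem c hf)
      have h3 : f' ≠ 0 := sub_ne_zero.mpr (hcon f hf hf0).2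
      have h4 : E f = TT g₀ f' - f' := rfl
      rw [h4]
      exact ⟨(DH χ W).sub_mem (hst f' h2) h2, sub_ne_zero.mpr (hcon f' h2 h3).1⟩
    have h2 : ∀ n : ℕ, (E ^ n) f₁ ∈ DH χ W ∧ (E ^ n) f₁ ≠ 0 := by
      intro n
      induction n with
      | zero => exact ⟨hf₁, hf₁0⟩
      | succ n ih =>
        rw [pow_succ']
        exact h1 _ ih.1 ih.2
    exact (h2 a).2 (by rw [ha]; rfl)
  obtain ⟨f, hf, hf0, hcase⟩ := key
  refine ⟨f, hf0, ?_⟩
  rcases hcase with h1 | h1
  · left
    have h2 : ∀ (i : ℕ) (w : W), f (g₀ ^ i • w) = f w := by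
      intro i
      induction i with
      | zero => intro w; rw [pow_zero, one_smul]
      | succ i ih =>
        intro w
        rw [pow_succ', mul_smul]
        have h3 : f (g₀ • (g₀ ^ i • w)) = f (g₀ ^ i • w) := DFunLike.congr_fun h1 _
        rw [h3, ih]
    intro g w
    obtain ⟨i, h, hh, rfl⟩ := hdec g
    rw [mul_smul, h2, hf h hh]
  · right
    have h2 : ∀ (i : ℕ) (w : W), f (g₀ ^ i • w) = c ^ i * f w := by
      intro i
      induction i with
      | zero => intro w; rw [pow_zero, one_smul, pow_zero, one_mul]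
      | succ i ih =>
        intro w
        rw [pow_succ', mul_smul]
        have h3 : f (g₀ • (g₀ ^ i • w)) = c * f (g₀ ^ i • w) := DFunLike.congr_fun h1 _
        rw [h3, ih, pow_succ']; ring
    intro g w
    obtain ⟨i, h, hh, rfl⟩ := hdec g
    rw [mul_smul, h2, hf h hh, map_mul, hh, mul_one, map_pow, Units.val_pow_eq_pow_val]

end Fermat.Agent.Maz
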