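import Fermat.Agent.Maz.Basic
import Fermat.Agent.Maz.Eig
import Mathlib.GroupTheory.FiniteAbelian.Duality

set_option autoImplicit false
set_option linter.unusedSectionVars false

/-! # Counting cocycles -/

namespace Fermat.Agent.Maz

open Fermat.Agent.ECRed Fermat.Agent.Carayol Fermat.Agent.FU OrdFn
open scoped Pointwise

/-- extension of characters -/
lemma ext_char {B : Type*} [AddCommGroup B] [Finite B] (C : AddSubgroup B)
    (μ : C →+ Additive Qbˣ) : ∃ l : B →+ Additive Qbˣ, ∀ c : C, l c = μ c := by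
  haveI : NeZero (Monoid.exponent (Multiplicative B)) :=
    ⟨(Monoid.ExponentExists.of_finite (G := Multiplicative B)).exponent_ne_zero⟩
  haveI : NeZero ((Monoid.exponent (Multiplicative B) : ℕ) : Qb) :=
    ⟨by exact_mod_cast NeZero.ne (Monoid.exponent (Multiplicative B))⟩
  obtain ⟨φ, hφ⟩ := MonoidHom.domRestrict_surjective (G := Multiplicative B) Qb
    (AddSubgroup.toSubgroup C)
    { toFun := fun x => Additive.toMul (μ ⟨Multiplicative.toAdd (x : Multiplicative B), x.2⟩)
      map_one' := by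
        have : (⟨Multiplicative.toAdd (((1 : AddSubgroup.toSubgroup C)) : Multiplicative B),
          (1 : AddSubgroup.toSubgroup C).2⟩ : C) = 0 := rfl
        rw [this, map_zero]; rfl
      map_mul' := fun x y => by
        have : (⟨Multiplicative.toAdd ((x * y : AddSubgroup.toSubgroup C) : Multiplicative B),
          (x * y).2⟩ : C) = ⟨Multiplicative.toAdd (x : Multiplicative B), x.2⟩ +
            ⟨Multiplicative.toAdd (y : Multiplicative B), y.2⟩ := rfl
        rw [this, map_add]; rfl }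
  refine ⟨MonoidHom.toAdditiveRight φ, fun c => ?_⟩
  have h := DFunLike.congr_fun hφ ⟨Multiplicative.ofAdd (c : B), c.2⟩
  exact h

variable {r : ℕ} [hr : Fact r.Prime] {pl : ℕ → ValuationSubring Qb}
  (hpl : ∀ q : ℕ, q.Prime → (pl q).LiesOverPrime q) {ζ : Qb}

include hpl in
/-- Minkowski for characters -/
theorem mink {φ : GQ → ZMod r} (hφ : ∀ g h : GQ, φ (g * h) = φ g + φ h)
    {L : IntermediateField ℚ Qb} [FiniteDimensional ℚ L] (hL : ∀ g ∈ L.fixingSubgroup, φ g = 0)
    (hI : ∀ q : ℕ, q.Prime → ∀ g ∈ (pl q).inertiaSubgroupIn ℚ, φ g = 0) (g : GQ) : φ g = 0 := by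
  have h1 : φ 1 = 0 := by
    have := hφ 1 1
    rw [mul_one] at this
    simpa using this
  have hinv : ∀ g, φ g⁻¹ = -φ g := by
    intro g
    have := hφ g⁻¹ g
    rw [inv_mul_cancel, h1] at this
    exact eq_neg_of_add_eq_zero_left this.symm
  let H : Subgroup GQ :=
    { carrier := {g | φ g = 0}
      one_mem' := h1
      mul_mem' := fun {a b} ha hb => by
        show φ (a * b) = 0
        rw [hφ, ha, hb, add_zero]
      inv_mem' := fun {a} ha => by
        show φ a⁻¹ = 0
        rw [hinv, ha, neg_zero] }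
  have hH : H.Normal := ⟨fun n hn g => by
    show φ (g * n * g⁻¹) = 0
    have hn' : φ n = 0 := hn
    rw [hφ, hφ, hinv, hn', add_zero, add_neg_cancel]⟩
  have hopen : IsOpen (H : Set GQ) :=
    Subgroup.isOpen_mono (H₁ := L.fixingSubgroup) (fun g hg => hL g hg)
      (IntermediateField.fixingSubgroup_isOpen L)
  have htop : H = ⊤ := by
    refine Mink.eq_top_of_inertia_le H hopen ?_
    intro q hq A hA
    exact Frey.all_places H hH hq (hpl q hq) (fun g hg => hI q hq g hg) hA
  have : g ∈ H := by rw [htop]; trivial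
  exact this

include hpl in
/-- if inertia acts trivially on the `r`-th roots of unity then `r = 2` -/
theorem ram (hζ : IsPrimitiveRoot ζ r)
    (h : ∀ g ∈ (pl r).inertiaSubgroupIn ℚ, g ζ = ζ) : r = 2 := by
  have hp := hr.out
  have hp2 := hp.two_le
  have hA := hpl r hp
  have hv : (ordFnAt (pl r) hp hA).Eq 1 ((r : ℕ) : Qb) := ordAt_q (pl r) hp hA
  set v := ordFnAt (pl r) hp hA with hvdef
  obtain ⟨n, hn⟩ : ∃ n, r = n + 1 := ⟨r - 1, by omega⟩
  have hζ' : IsPrimitiveRoot ζ (n + 1) := by rw [← hn]; exact hζ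
  have hprod := hζ'.prod_one_sub_pow_eq_order
  have hne : ∀ k ∈ Finset.range n, (1 - ζ ^ (k + 1)) ≠ 0 := by
    intro k hk h
    rw [Finset.mem_range] at hk
    have h2 : ζ ^ (k + 1) = 1 := (sub_eq_zero.mp h).symm
    have h3 := (hζ'.pow_eq_one_iff_dvd _).mp h2
    have := Nat.le_of_dvd (by omega) h3
    omega
  have hge : ∀ k ∈ Finset.range n, (1 : ℝ) ≤ v.ord (1 - ζ ^ (k + 1)) := by
    intro k hk
    have hk' := Finset.mem_range.mp hk
    have hω : IsPrimitiveRoot (ζ ^ (k + 1)) r :=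
      hζ.pow_of_coprime (k + 1) ((Nat.coprime_comm).mp
        ((Nat.Prime.coprime_iff_not_dvd hp).mpr (fun h => by
          have := Nat.le_of_dvd (by omega) h
          omega)))
    have h1 := ord_one_sub hp hv hω
    rw [ge_iff (hne k hk)] at h1
    obtain ⟨m, hm⟩ := ord_int hp hA (hne k hk) (by
      intro σ hσ
      rw [map_sub, map_one, map_pow, h σ hσ])
    have hp1 : (0 : ℝ) < (r : ℝ) - 1 := by
      have : (1 : ℝ) < r := by exact_mod_cast hp.one_lt
      linarith
    have h2 : (0 : ℝ) < v.ord (1 - ζ ^ (k + 1)) := lt_of_lt_of_le (by positivity) h1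
    rw [hvdef, hm] at h2 ⊢
    have : (0 : ℤ) < m := by exact_mod_cast h2
    exact_mod_cast this
  have hsum : ∀ s : Finset ℕ, (∀ k ∈ s, (1 - ζ ^ (k + 1)) ≠ 0) →
      v.ord (∏ k ∈ s, (1 - ζ ^ (k + 1))) = ∑ k ∈ s, v.ord (1 - ζ ^ (k + 1)) := by
    intro s
    induction s using Finset.induction with
    | empty => intro _; simp [ord_one]
    | insert a s ha ih =>
      intro h
      rw [Finset.prod_insert ha, Finset.sum_insert ha, ord_mul (h a (Finset.mem_insert_self a s))
        (Finset.prod_ne_zero_iff.mpr fun k hk => h k (Finset.mem_insert_of_mem hk)),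
        ih fun k hk => h k (Finset.mem_insert_of_mem hk)]
  have h8 := hsum _ hne
  rw [hprod] at h8
  have h9 : v.ord ((n : Qb) + 1) = 1 := by
    have := hv.2
    rw [hn] at this
    push_cast at this
    exact this
  rw [h9] at h8
  have h10 : (n : ℝ) ≤ 1 := by
    calc (n : ℝ) = ∑ k ∈ Finset.range n, (1 : ℝ) := by simp
      _ ≤ ∑ k ∈ Finset.range n, v.ord (1 - ζ ^ (k + 1)) := Finset.sum_le_sum hge
      _ = 1 := h8.symm
  have h11 : n ≤ 1 := by exact_mod_cast h10
  omega

/-- the multiplicative piece -/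
structure IsA (r : ℕ) (pl : ℕ → ValuationSubring Qb) (α : GQ → Qbˣ) : Prop where
  mul : ∀ g h : GQ, (α (g * h) : Qb) = α g * g (α h : Qb)
  pow : ∀ g, (α g : Qb) ^ r = 1
  lev : ∃ L : IntermediateField ℚ Qb, FiniteDimensional ℚ L ∧ ∀ g ∈ L.fixingSubgroup, α g = 1
  away : ∀ q : ℕ, q.Prime → q ≠ r → ∀ g ∈ (pl q).inertiaSubgroupIn ℚ, α g = 1
  unit : ∃ u : Qbˣ, (pl r).valuation (u : Qb) = 1 ∧ ∀ g ∈ (pl r).inertiaSubgroupIn ℚ,
    (α g : Qb) = g (u : Qb) / u

lemma ord_unit {q : ℕ} (hq : q.Prime) {A : ValuationSubring Qb} (hA : A.LiesOverPrime q) {u : Qb}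
    (hu : A.valuation u = 1) : (ordFnAt A hq hA).Eq 0 u := by
  have hu0 : u ≠ 0 := by
    rintro rfl
    rw [map_zero] at hu
    exact zero_ne_one hu
  refine ⟨hu0, ?_⟩
  have h := ordAt_eq A hq hA (x := u) hu0 (e := 1) one_pos (f := 0) (by
    rw [pow_one, zpow_zero, hu])
  rw [Int.cast_zero, zero_div] at h
  exact h

include hpl in
theorem IsA.eps {α : GQ → Qbˣ} (h : IsA r pl α) :
    ∃ ε : Qbˣ, ε ^ (2 * r) = 1 ∧ ∀ g : GQ, (α g : Qb) = g (ε : Qb) / ε := by
  have hr0 : r ≠ 0 := hr.out.ne_zero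
  obtain ⟨L, hL, hL1⟩ := h.lev
  obtain ⟨β, hβ⟩ := hilbert90 h.mul L hL1
  obtain ⟨u, hu, hu1⟩ := h.unit
  have hβ' : ∀ g : GQ, g (β : Qb) = α g * β := by
    intro g
    rw [hβ g, div_mul_cancel₀ _ β.ne_zero]
  have hfix : ∀ g : GQ, g ((β : Qb) ^ r) = (β : Qb) ^ r := by
    intro g
    rw [map_pow, hβ', mul_pow, h.pow, one_mul]
  obtain ⟨s, hs0, hsfix, hs⟩ := eq_pow_of_ord hr0 (pow_ne_zero r β.ne_zero) hfix pl hpl (by
    intro q hq
    rw [ord_pow β.ne_zero]
    by_cases hqr : q = r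
    · subst hqr
      have hβu : (β : Qb) / u ≠ 0 := div_ne_zero β.ne_zero u.ne_zero
      obtain ⟨m, hm⟩ := ord_int hq (hpl q hq) hβu (by
        intro σ hσ
        rw [map_div₀, hβ', hu1 σ hσ, div_mul_eq_mul_div, div_div]
        rw [mul_comm (u : Qb) (σ (u : Qb)), mul_div_mul_left]
        rw [Ne, EmbeddingLike.map_eq_zero_iff]
        exact u.ne_zero)
      refine ⟨m, ?_⟩
      rw [div_eq_mul_inv, ord_mul β.ne_zero (inv_ne_zero u.ne_zero), ord_inv _ u.ne_zero,
        (ord_unit hq (hpl q hq) hu).2, neg_zero, add_zero] at hm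
      rw [hm]
    · obtain ⟨m, hm⟩ := ord_int hq (hpl q hq) β.ne_zero (by
        intro σ hσ
        rw [hβ', h.away q hq hqr σ hσ, Units.val_one, one_mul])
      exact ⟨m, by rw [hm]⟩)
  refine ⟨β / Units.mk0 s hs0, ?_, ?_⟩
  · apply Units.ext
    rw [Units.val_pow_eq_pow_val, Units.val_div_eq_div_val, Units.val_mk0, Units.val_one, div_pow,
      mul_comm 2 r, pow_mul, pow_mul]
    rcases hs with hs | hs
    · rw [hs, div_self (pow_ne_zero _ (pow_ne_zero _ hs0))]
    · rw [hs, neg_pow_two, div_self (pow_ne_zero _ (pow_ne_zero _ hs0))]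
  · intro g
    rw [Units.val_div_eq_div_val, Units.val_mk0, map_div₀, hsfix, hβ']
    field_simp

include hpl in
theorem IsA.card {T : Finset (GQ → Qbˣ)} (hT : ∀ α ∈ T, IsA r pl α) : T.card ≤ r := by
  classical
  have hr0 : r ≠ 0 := hr.out.ne_zero
  haveI : NeZero (2 * r) := ⟨by omega⟩
  choose! ε hε1 hε2 using fun α (hα : α ∈ T) => (hT α hα).eps hpl
  -- injection `T × {±1} → μ_{2r}`
  let F : T × Bool → rootsOfUnity (2 * r) Qb := fun x =>
    ⟨(if x.2 then 1 else -1) * ε x.1, by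
      rw [mem_rootsOfUnity, mul_pow, hε1 x.1 x.1.2, mul_one]
      split_ifs
      · rw [one_pow]
      · rw [pow_mul, neg_one_sq, one_pow]⟩
  have hF : Function.Injective F := by
    rintro ⟨⟨α, hα⟩, s⟩ ⟨⟨α', hα'⟩, s'⟩ h
    have h1 : ((if s then 1 else -1 : Qbˣ)) * ε α = (if s' then 1 else -1 : Qbˣ) * ε α' :=
      congrArg Subtype.val h
    have h2 : ((if s then 1 else -1 : Qbˣ) : Qb) * ε α = ((if s' then 1 else -1 : Qbˣ) : Qb) * ε α' := by
      rw [← Units.val_mul, ← Units.val_mul, h1]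
    have hpm : ∀ t : Bool, ∀ g : GQ, g (((if t then 1 else -1 : Qbˣ)) : Qb) =
        ((if t then 1 else -1 : Qbˣ) : Qb) := by
      intro t g
      cases t
      · simp
      · simp
    have hpm0 : ∀ t : Bool, (((if t then 1 else -1 : Qbˣ)) : Qb) ≠ 0 := fun t => Units.ne_zero _
    have h3 : α = α' := by
      funext g
      apply Units.ext
      rw [hε2 α hα g, hε2 α' hα' g]
      have h4 : g (ε α : Qb) / ε α =
          g (((if s then 1 else -1 : Qbˣ) : Qb) * ε α) / (((if s then 1 else -1 : Qbˣ) : Qb) * ε α) := by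
        rw [map_mul, hpm, mul_div_mul_left _ _ (hpm0 s)]
      have h5 : g (ε α' : Qb) / ε α' =
          g (((if s' then 1 else -1 : Qbˣ) : Qb) * ε α') /
            (((if s' then 1 else -1 : Qbˣ) : Qb) * ε α') := by
        rw [map_mul, hpm, mul_div_mul_left _ _ (hpm0 s')]
      rw [h4, h5, h2]
    subst h3
    have h6 : s = s' := by
      have h7 := mul_right_cancel h1
      have hne : (1 : Qbˣ) ≠ -1 := by
        intro h8
        have h9 := congrArg (fun x : Qbˣ => (x : Qb)) h8
        simp only [Units.val_neg, Units.val_one] at h9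
        have : (2 : Qb) = 0 := by linear_combination h9
        exact two_ne_zero this
      rcases s with _ | _ <;> rcases s' with _ | _
      · rfl
      · exact absurd h7.symm hne
      · exact absurd h7 hne
      · rfl
    subst h6
    rfl
  have h1 := Nat.card_le_card_of_injective F hF
  rw [Nat.card_prod, Nat.card_eq_fintype_card (α := Bool), Fintype.card_bool,
    Nat.card_eq_fintype_card (α := T), Fintype.card_coe] at h1
  have h2 := card_rootsOfUnity Qb (2 * r)
  omega

end Fermat.Agent.Maz
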