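import Fermat.Agent.Maz.Count

set_option autoImplicit false
set_option linter.unusedSectionVars false

/-! # The bound for the number of cocycles -/

namespace Fermat.Agent.Maz

open Fermat.Agent.ECRed Fermat.Agent.Carayol Fermat.Agent.FU OrdFn
open scoped Pointwise

variable {r : ℕ} [hr : Fact r.Prime] {pl : ℕ → ValuationSubring Qb}
  {M : Type} [AddCommGroup M] [DistribMulAction GQ M] {Mm : AddSubgroup M}

/-- the cocycles to be counted -/
structure IsZ (r : ℕ) (pl : ℕ → ValuationSubring Qb) (Mm : AddSubgroup M) (c : GQ → M) :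
    Prop where
  mul : ∀ g h : GQ, c (g * h) = c g + g • c h
  lev : ∃ L : IntermediateField ℚ Qb, FiniteDimensional ℚ L ∧ ∀ g ∈ L.fixingSubgroup, c g = 0
  away : ∀ q : ℕ, q.Prime → q ≠ r → ∀ g ∈ (pl q).inertiaSubgroupIn ℚ, c g = 0
  atr : ∀ g ∈ (pl r).inertiaSubgroupIn ℚ, c g ∈ Mm
  unit : ∀ l : Mm →+ Additive Qbˣ, ∃ u : Qbˣ, (pl r).valuation (u : Qb) = 1 ∧
    ∀ g ∈ (pl r).inertiaSubgroupIn ℚ, ∀ h : c g ∈ Mm,
      ((Additive.toMul (l ⟨c g, h⟩) : Qbˣ) : Qb) = g (u : Qb) / u

lemma IsZ.sub {c c' : GQ → M} (h : IsZ r pl Mm c) (h' : IsZ r pl Mm c') :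
    IsZ r pl Mm (fun g => c g - c' g) := by
  refine ⟨?_, ?_, ?_, ?_, ?_⟩
  · intro g k
    rw [h.mul, h'.mul, smul_sub]; abel
  · obtain ⟨L, hL, hL1⟩ := h.lev
    obtain ⟨L', hL', hL1'⟩ := h'.lev
    refine ⟨L ⊔ L', inferInstance, ?_⟩
    intro g hg
    show c g - c' g = 0
    rw [hL1 g (IntermediateField.fixingSubgroup_le le_sup_left hg),
      hL1' g (IntermediateField.fixingSubgroup_le le_sup_right hg), sub_zero]
  · intro q hq hqr g hg
    show c g - c' g = 0
    rw [h.away q hq hqr g hg, h'.away q hq hqr g hg, sub_zero]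
  · intro g hg
    exact Mm.sub_mem (h.atr g hg) (h'.atr g hg)
  · intro l
    obtain ⟨u, hu, hu1⟩ := h.unit l
    obtain ⟨u', hu', hu1'⟩ := h'.unit l
    refine ⟨u / u', ?_, ?_⟩
    · rw [Units.val_div_eq_div_val, map_div₀, hu, hu', div_one]
    · intro g hg hm
      have e : (⟨c g - c' g, hm⟩ : Mm) = ⟨c g, h.atr g hg⟩ - ⟨c' g, h'.atr g hg⟩ := rfl
      rw [e, map_sub, toMul_sub, Units.val_div_eq_div_val, hu1 g hg, hu1' g hg,
        Units.val_div_eq_div_val, map_div₀]
      have h1 : g (u' : Qb) ≠ 0 := by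
        rw [Ne, EmbeddingLike.map_eq_zero_iff]; exact u'.ne_zero
      have h2 := u.ne_zero
      have h3 := u'.ne_zero
      field_simp

lemma units_two (x : (ZMod 2)ˣ) : x = 1 := by
  have h : ∀ y : ZMod 2, y ≠ 0 → y = 1 := by decide
  exact Units.ext (h _ x.ne_zero)

/-- the action on a stable subgroup -/
@[reducible] noncomputable def subAct (N : AddSubgroup M) (hst : ∀ (g : GQ), ∀ x ∈ N, g • x ∈ N) :
    DistribMulAction GQ N where
  smul g x := ⟨g • (x : M), hst g x x.2⟩
  one_smul x := Subtype.ext (one_smul GQ (x : M))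
  mul_smul g h x := Subtype.ext (mul_smul g h (x : M))
  smul_zero g := Subtype.ext (smul_zero (A := M) g)
  smul_add g x y := Subtype.ext (smul_add g (x : M) (y : M))

lemma nilp_sub {χ : GQ →* (ZMod r)ˣ} (h : Nilp χ M) (N : AddSubgroup M)
    (hst : ∀ (g : GQ), ∀ x ∈ N, g • x ∈ N) :
    letI := subAct N hst
    Nilp χ N := by
  letI := subAct N hst
  intro g c hc
  obtain ⟨a, ha⟩ := h g c hc
  refine ⟨a, ?_⟩
  have h1 : ∀ (n : ℕ) (w : N), ((((DistribMulAction.toAddMonoidEnd GQ N g - 1) *
      (DistribMulAction.toAddMonoidEnd GQ N g - (c : AddMonoid.End N))) ^ n) w : M) =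
      (((DistribMulAction.toAddMonoidEnd GQ M g - 1) *
      (DistribMulAction.toAddMonoidEnd GQ M g - (c : AddMonoid.End M))) ^ n) (w : M) := by
    intro n
    induction n with
    | zero => intro w; rfl
    | succ n ih =>
      intro w
      rw [pow_succ, pow_succ]
      exact ih (((DistribMulAction.toAddMonoidEnd GQ N g - 1) *
      (DistribMulAction.toAddMonoidEnd GQ N g - (c : AddMonoid.End N))) w)
  ext w
  rw [h1, ha]
  rfl

variable (hpl : ∀ q : ℕ, q.Prime → (pl q).LiesOverPrime q) {ζ : Qb} (hζ : IsPrimitiveRoot ζ r)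
  {χ : GQ →* (ZMod r)ˣ} (hχ : ∀ g : GQ, g ζ = ζ ^ (χ g : ZMod r).val) [Finite M]

include hpl hζ hχ in
theorem count_aux {k : ℕ} (hk : ∀ m : M, r ^ k • m = 0) (hN : Nilp χ M)
    (hI : ∀ σ ∈ (pl r).inertiaSubgroupIn ℚ, ∀ m ∈ Mm, ∃ n : ℕ, (n : ZMod r) = χ σ ∧ σ • m = n • m)
    (hE : ∀ σ ∈ (pl r).inertiaSubgroupIn ℚ, ∀ m : M, σ • m - m ∈ Mm) :
    ∀ (n : ℕ) (N : AddSubgroup M), Nat.card N = n → (∀ (g : GQ), ∀ x ∈ N, g • x ∈ N) →
      ∀ S : Finset (GQ → M), (∀ c ∈ S, IsZ r pl Mm c ∧ ∀ g, c g ∈ N) →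
        S.card ≤ Nat.card (N ⊓ Mm : AddSubgroup M) := by
  classical
  have hr0 : r ≠ 0 := hr.out.ne_zero
  haveI : NeZero r := ⟨hr0⟩
  -- if inertia acts trivially through `χ` then `χ = 1`
  have hram : (∀ σ ∈ (pl r).inertiaSubgroupIn ℚ, χ σ = 1) → ∀ g : GQ, χ g = 1 := by
    intro h
    have h2 : r = 2 := ram hpl hζ (by
      intro σ hσ
      rw [hχ, h σ hσ, Units.val_one, ZMod.val_one'' (by
        have := hr.out.one_lt
        omega), pow_one])
    subst h2
    intro g
    exact units_two _
  intro n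
  induction n using Nat.strong_induction_on with
  | _ n ih =>
    intro N hcard hst S hS
    rcases subsingleton_or_nontrivial N with hsub | hnt
    · -- everything is zero
      have h0 : ∀ x ∈ N, x = 0 := fun x hx =>
        congrArg Subtype.val (Subsingleton.elim (⟨x, hx⟩ : N) 0)
      have h1 : S.card ≤ 1 := by
        rw [Finset.card_le_one]
        intro c hc c' hc'
        funext g
        rw [h0 _ ((hS c hc).2 g), h0 _ ((hS c' hc').2 g)]
      exact h1.trans Nat.card_pos
    letI act := subAct N hst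
    obtain ⟨f, hf0, hf⟩ := exists_eig (W := N) (nilp_sub hN N hst) (k := k)
      (fun w => Subtype.ext (hk w))
    -- the kernel of `f`
    set N' : AddSubgroup M := f.ker.map N.subtype with hN'
    have hmemN' : ∀ x, x ∈ N' ↔ ∃ h : x ∈ N, f ⟨x, h⟩ = 0 := by
      intro x
      rw [hN', AddSubgroup.mem_map]
      constructor
      · rintro ⟨y, hy, rfl⟩
        exact ⟨y.2, hy⟩
      · rintro ⟨h, hx⟩
        exact ⟨⟨x, h⟩, hx, rfl⟩
    have hle : N' ≤ N := fun x hx => ((hmemN' x).mp hx).1
    have hfg : ∀ (g : GQ) (w : N), f w = 0 → f (g • w) = 0 := by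
      intro g w hw
      rcases hf with h | h
      · rw [h, hw]
      · rw [h, hw, mul_zero]
    have hst' : ∀ (g : GQ), ∀ x ∈ N', g • x ∈ N' := by
      intro g x hx
      obtain ⟨h, hx'⟩ := (hmemN' x).mp hx
      exact (hmemN' _).mpr ⟨hst g x h, hfg g ⟨x, h⟩ hx'⟩
    have hlt : Nat.card N' < n := by
      rw [← hcard]
      have hne : N' ≠ N := by
        intro h
        apply hf0
        ext w
        have : (w : M) ∈ N' := by rw [h]; exact w.2
        obtain ⟨_, h2⟩ := (hmemN' _).mp this
        exact h2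
      have hlt' : (N' : Set M) ⊂ (N : Set M) :=
        ⟨hle, fun h => hne (le_antisymm hle h)⟩
      exact Set.Finite.card_lt_card (Set.toFinite _) hlt'
    have ih' := ih _ hlt N' rfl hst'
    by_cases hB : ∃ x : N, (x : M) ∈ Mm ∧ f x ≠ 0
    · -- the multiplicative case
      obtain ⟨x, hxm, hfx⟩ := hB
      have hψ : ∀ (g : GQ) (w : N), f (g • w) = (χ g : ZMod r) * f w := by
        rcases hf with h | h
        · have h1 : ∀ g : GQ, χ g = 1 := by
            apply hram
            intro σ hσ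
            obtain ⟨m, hm1, hm2⟩ := hI σ hσ x hxm
            have h2 : σ • x = m • x := Subtype.ext hm2
            have h3 := h σ x
            rw [h2, map_nsmul, nsmul_eq_mul, hm1] at h3
            apply Units.ext
            rw [Units.val_one]
            exact mul_right_cancel₀ hfx (by rw [h3, one_mul])
          intro g w
          rw [h, h1, Units.val_one, one_mul]
        · exact h
      -- the cardinality
      have hcardN : r * Nat.card (N' ⊓ Mm : AddSubgroup M) ≤ Nat.card (N ⊓ Mm : AddSubgroup M) := by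
        let F : ZMod r × (N' ⊓ Mm : AddSubgroup M) → (N ⊓ Mm : AddSubgroup M) := fun y =>
          ⟨y.1.val • (x : M) + y.2, by
            refine AddSubgroup.mem_inf.mpr ⟨?_, ?_⟩
            · exact N.add_mem (N.nsmul_mem x.2 _) (hle y.2.2.1)
            · exact Mm.add_mem (Mm.nsmul_mem hxm _) y.2.2.2⟩
        have hF : Function.Injective F := by
          rintro ⟨t, y⟩ ⟨t', y'⟩ h
          have h1 : t.val • (x : M) + y = t'.val • (x : M) + y' := congrArg Subtype.val h
          obtain ⟨hy, hy0⟩ := (hmemN' _).mp y.2.1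
          obtain ⟨hy', hy0'⟩ := (hmemN' _).mp y'.2.1
          have h2 : t.val • x + ⟨(y : M), hy⟩ = t'.val • x + ⟨(y' : M), hy'⟩ := Subtype.ext h1
          have h3 := congrArg f h2
          rw [map_add, map_add, hy0, hy0', add_zero, add_zero, map_nsmul, map_nsmul, nsmul_eq_mul,
            nsmul_eq_mul, ZMod.natCast_zmod_val, ZMod.natCast_zmod_val] at h3
          have h4 : t = t' := mul_right_cancel₀ hfx h3
          subst h4
          have h5 : (y : M) = y' := add_left_cancel h1
          rw [Subtype.ext h5]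
        have := Nat.card_le_card_of_injective F hF
        rwa [Nat.card_prod, Nat.card_zmod] at this
      -- the map to cocycles with values in the roots of unity
      have hζr : ζ ^ r = 1 := hζ.pow_eq_one
      have hζ0 : ζ ≠ 0 := hζ.ne_zero hr0
      set ζu : Qbˣ := Units.mk0 ζ hζ0 with hζu
      have hζur : ζu ^ r = 1 := by
        apply Units.ext
        rw [Units.val_pow_eq_pow_val, Units.val_mk0, hζr, Units.val_one]
      let E : ZMod r → Qbˣ := fun t => ζu ^ t.val
      have hEcast : ∀ a : ℕ, E (a : ZMod r) = ζu ^ a := by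
        intro a
        show ζu ^ ((a : ZMod r)).val = ζu ^ a
        rw [ZMod.val_natCast]
        conv_rhs => rw [← Nat.mod_add_div a r, pow_add, pow_mul, hζur, one_pow, mul_one]
      have hEadd : ∀ s t, E (s + t) = E s * E t := by
        intro s t
        have h1 : s + t = ((s.val + t.val : ℕ) : ZMod r) := by
          rw [Nat.cast_add, ZMod.natCast_zmod_val, ZMod.natCast_zmod_val]
        rw [h1, hEcast, pow_add]
      have hE0 : E 0 = 1 := by
        have := hEcast 0
        rwa [Nat.cast_zero, pow_zero] at this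
      have hEinj : ∀ s, E s = 1 → s = 0 := by
        intro s hs
        have h1 : ζ ^ s.val = 1 := by
          have := congrArg (fun x : Qbˣ => (x : Qb)) hs
          simpa [E, hζu] using this
        have h2 := (hζ.pow_eq_one_iff_dvd _).mp h1
        have h3 := Nat.eq_zero_of_dvd_of_lt h2 (ZMod.val_lt s)
        exact (ZMod.val_eq_zero s).mp h3
      have hEg : ∀ (g : GQ) (s : ZMod r), g (E s : Qb) = E ((χ g : ZMod r) * s) := by
        intro g s
        have h1 : (χ g : ZMod r) * s = (((χ g : ZMod r).val * s.val : ℕ) : ZMod r) := by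
          rw [Nat.cast_mul, ZMod.natCast_zmod_val, ZMod.natCast_zmod_val]
        have h2 : (E s : Qb) = ζ ^ s.val := by
          show ((ζu ^ s.val : Qbˣ) : Qb) = _
          rw [Units.val_pow_eq_pow_val, Units.val_mk0]
        rw [h2, map_pow, hχ, ← pow_mul, h1, hEcast, Units.val_pow_eq_pow_val, Units.val_mk0]
      have hEneg : ∀ s, E (-s) = (E s)⁻¹ := by
        intro s
        rw [eq_inv_iff_mul_eq_one, ← hEadd, neg_add_cancel, hE0]
      let Φ : (GQ → M) → (GQ → Qbˣ) := fun c g =>
        if h : c g ∈ N then E (f ⟨c g, h⟩) else 1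
      have hΦ : ∀ (c : GQ → M) (g : GQ) (h : c g ∈ N), Φ c g = E (f ⟨c g, h⟩) := by
        intro c g h
        show (if h : c g ∈ N then E (f ⟨c g, h⟩) else 1) = _
        rw [dif_pos h]
      have hΦA : ∀ c, IsZ r pl Mm c → (∀ g, c g ∈ N) → IsA r pl (Φ c) := by
        intro c hc hcN
        refine ⟨?_, ?_, ?_, ?_, ?_⟩
        · intro g h
          rw [hΦ c _ (hcN _), hΦ c g (hcN g), hΦ c h (hcN h), hEg, ← Units.val_mul, ← hEadd,
            ← hψ, ← map_add]
          congr 4
          exact hc.mul g h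
        · intro g
          rw [hΦ c g (hcN g)]
          show ((ζu ^ (f ⟨c g, hcN g⟩).val : Qbˣ) : Qb) ^ r = 1
          rw [← Units.val_pow_eq_pow_val, ← pow_mul, mul_comm, pow_mul, hζur, one_pow,
            Units.val_one]
        · obtain ⟨L, hL, hL1⟩ := hc.lev
          refine ⟨L, hL, fun g hg => ?_⟩
          rw [hΦ c g (hcN g)]
          have : (⟨c g, hcN g⟩ : N) = 0 := Subtype.ext (hL1 g hg)
          rw [this, map_zero, hE0]
        · intro q hq hqr g hg
          rw [hΦ c g (hcN g)]
          have : (⟨c g, hcN g⟩ : N) = 0 := Subtype.ext (hc.away q hq hqr g hg)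
          rw [this, map_zero, hE0]
        · -- the unit condition
          have hEhom : ∃ μ : ((N ⊓ Mm).addSubgroupOf Mm) →+ Additive Qbˣ,
              ∀ y : ((N ⊓ Mm).addSubgroupOf Mm), ∀ h : ((y : Mm) : M) ∈ N,
                Additive.toMul (μ y) = E (f ⟨((y : Mm) : M), h⟩) := by
            refine ⟨AddMonoidHom.mk' (fun y => Additive.ofMul
              (E (f ⟨((y : Mm) : M), (AddSubgroup.mem_inf.mp
                (AddSubgroup.mem_addSubgroupOf.mp y.2)).1⟩))) ?_, ?_⟩
            · intro y z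
              rw [← ofMul_mul, ← hEadd, ← map_add]
              rfl
            · intro y h
              rfl
          obtain ⟨μ, hμ⟩ := hEhom
          obtain ⟨l, hl⟩ := ext_char _ μ
          obtain ⟨u, hu, hu1⟩ := hc.unit l
          refine ⟨u, hu, fun g hg => ?_⟩
          rw [hΦ c g (hcN g), ← hu1 g hg (hc.atr g hg)]
          have h3 := hl ⟨⟨c g, hc.atr g hg⟩,
            AddSubgroup.mem_addSubgroupOf.mpr (AddSubgroup.mem_inf.mpr ⟨hcN g, hc.atr g hg⟩)⟩
          rw [h3, hμ _ (hcN g)]
      -- fibres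
      have hfib : ∀ α ∈ S.image Φ, (S.filter fun c => Φ c = α).card ≤
          Nat.card (N' ⊓ Mm : AddSubgroup M) := by
        intro α hα
        obtain ⟨c₀, hc₀, rfl⟩ := Finset.mem_image.mp hα
        have hinj : Function.Injective (fun (c : GQ → M) (g : GQ) => c g - c₀ g) := by
          intro c c' h
          funext g
          have := congrFun h g
          exact sub_left_injective this
        rw [← Finset.card_image_of_injective _ hinj]
        apply ih'
        intro d hd
        obtain ⟨c, hc, rfl⟩ := Finset.mem_image.mp hd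
        obtain ⟨hcS, hcΦ⟩ := Finset.mem_filter.mp hc
        refine ⟨(hS c hcS).1.sub (hS c₀ hc₀).1, fun g => ?_⟩
        have h1 := (hS c hcS).2 g
        have h2 := (hS c₀ hc₀).2 g
        refine (hmemN' _).mpr ⟨N.sub_mem h1 h2, ?_⟩
        have h3 : (⟨c g - c₀ g, N.sub_mem h1 h2⟩ : N) = ⟨c g, h1⟩ - ⟨c₀ g, h2⟩ := rfl
        rw [h3, map_sub]
        apply hEinj
        rw [sub_eq_add_neg, hEadd, hEneg, ← hΦ c g h1, ← hΦ c₀ g h2, hcΦ, mul_inv_cancel]
      have h1 : (S.image Φ).card ≤ r := IsA.card hpl (by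
        intro α hα
        obtain ⟨c, hc, rfl⟩ := Finset.mem_image.mp hα
        exact hΦA c (hS c hc).1 (hS c hc).2)
      calc S.card ≤ Nat.card (N' ⊓ Mm : AddSubgroup M) * (S.image Φ).card :=
            Finset.card_le_mul_card_image S _ hfib
        _ ≤ Nat.card (N' ⊓ Mm : AddSubgroup M) * r := Nat.mul_le_mul_left _ h1
        _ ≤ Nat.card (N ⊓ Mm : AddSubgroup M) := by rw [mul_comm]; exact hcardN
    · -- the étale case
      push Not at hB
      have hψ : ∀ (g : GQ) (w : N), f (g • w) = f w := by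
        rcases hf with h | h
        · exact h
        · have h1 : ∀ g : GQ, χ g = 1 := by
            apply hram
            intro σ hσ
            obtain ⟨w, hw⟩ : ∃ w : N, f w ≠ 0 := by
              by_contra hcon
              push Not at hcon
              exact hf0 (AddMonoidHom.ext hcon)
            have h2 : f (σ • w - w) = 0 := by
              apply hB
              exact hE σ hσ w
            rw [map_sub, h, sub_eq_zero] at h2
            apply Units.ext
            rw [Units.val_one]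
            exact mul_right_cancel₀ hw (by rw [h2, one_mul])
          intro g w
          rw [h, h1, Units.val_one, one_mul]
      have h1 : S.card ≤ Nat.card (N' ⊓ Mm : AddSubgroup M) := by
        apply ih'
        intro c hc
        obtain ⟨hZ, hcN⟩ := hS c hc
        refine ⟨hZ, fun g => (hmemN' _).mpr ⟨hcN g, ?_⟩⟩
        obtain ⟨L, hL, hL1⟩ := hZ.lev
        refine mink hpl (φ := fun g => f ⟨c g, hcN g⟩) (L := L) ?_ ?_ ?_ g
        · intro g h
          have e : (⟨c (g * h), hcN (g * h)⟩ : N) = ⟨c g, hcN g⟩ + g • (⟨c h, hcN h⟩ : N) :=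
            Subtype.ext (hZ.mul g h)
          show f _ = f _ + f _
          rw [e, map_add, hψ]
        · intro g hg
          have : (⟨c g, hcN g⟩ : N) = 0 := Subtype.ext (hL1 g hg)
          show f _ = 0
          rw [this, map_zero]
        · intro q hq g hg
          show f _ = 0
          by_cases hqr : q = r
          · subst hqr
            exact hB _ (hZ.atr g hg)
          · have : (⟨c g, hcN g⟩ : N) = 0 := Subtype.ext (hZ.away q hq hqr g hg)
            rw [this, map_zero]
      refine h1.trans ?_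
      exact Nat.card_le_card_of_injective
        (fun y : (N' ⊓ Mm : AddSubgroup M) => (⟨(y : M), hle y.2.1, y.2.2⟩ : (N ⊓ Mm : AddSubgroup M)))
        (fun y y' h => Subtype.ext (congrArg (fun z : (N ⊓ Mm : AddSubgroup M) => (z : M)) h))

include hpl hζ hχ in
/-- **the count** -/
theorem count_le {k : ℕ} (hk : ∀ m : M, r ^ k • m = 0) (hN : Nilp χ M)
    (hI : ∀ σ ∈ (pl r).inertiaSubgroupIn ℚ, ∀ m ∈ Mm, ∃ n : ℕ, (n : ZMod r) = χ σ ∧ σ • m = n • m)
    (hE : ∀ σ ∈ (pl r).inertiaSubgroupIn ℚ, ∀ m : M, σ • m - m ∈ Mm)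
    (S : Finset (GQ → M)) (hS : ∀ c ∈ S, IsZ r pl Mm c) : S.card ≤ Nat.card Mm := by
  have h := count_aux hpl hζ hχ hk hN hI hE _ (⊤ : AddSubgroup M) rfl
    (fun _ _ _ => AddSubgroup.mem_top _) S (fun c hc => ⟨hS c hc, fun _ => AddSubgroup.mem_top _⟩)
  rwa [top_inf_eq] at h

end Fermat.Agent.Maz
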