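import Fermat.Agent.SSMod.ModEq
import Fermat.Agent.GenusX0.Embed
import Fermat.Agent.GenusX0.Count

/-!
# CUSP: the cusps of `X_0(N)`, `N` prime, and the modular unit `Δ(q)/Δ(q^N)`
-/

set_option autoImplicit false
set_option linter.unusedSectionVars false
set_option linter.style.haveILetI false
set_option synthInstance.maxHeartbeats 400000

noncomputable section

namespace Fermat.Agent.Maz

open ModularCurve AlgebraicCurve Fermat.Agent.Curves Fermat.Agent.GoodRed Fermat.Agent.ModFun
open Fermat.Agent.SSMod Fermat.Agent.Models Fermat.Agent.AnJac Fermat.Agent.GenusX0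

local notation "ℒ" => LaurentSeries

section Pkg

variable {K : Type} [Field K] [IsAlgClosed K] [CharZero K]

/-- the function `j` -/
abbrev jF (B : IntermediateField K (ℒ K)) (hj : jqModC K ∈ B) : B := ⟨jqModC K, hj⟩

/-- the Atkin-Lehner package of level `N` -/
structure ALP (N : ℕ) [NeZero N] (B : IntermediateField K (ℒ K)) (hj : jqModC K ∈ B) where
  w : B ≃+* B
  u : B
  w_const : ∀ c : K, w (algebraMap K _ c) = algebraMap K _ c
  w_w : ∀ x, w (w x) = x
  w_gal : ∀ (σ : K ≃+* K) (x y : B), (y : ℒ K) = coeffMap (σ : K →+* K) (x : ℒ K) →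
    ((w y : B) : ℒ K) = coeffMap (σ : K →+* K) ((w x : B) : ℒ K)
  coe_u : (u : ℒ K) = DeltaSer K * qExpand K N (DeltaInvSer K)
  coe_wu : ((w u : B) : ℒ K) =
    HahnSeries.C ((N : K) ^ 12) * qExpand K N (DeltaSer K) * DeltaInvSer K
  mul : w u * u = algebraMap K _ ((N : K) ^ 12)
  coe_wj : ((w (jF B hj) : B) : ℒ K) = qExpand K N (jqModC K)
  u_mem : ∀ [IsFunctionField K B]
    (P : Place K B), jF B hj ∈ P.toValuationSubring →
    u ∈ P.toValuationSubring ∧ w u ∈ P.toValuationSubring

end Pkg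

section Pkg2

variable (K : Type) [Field K] [IsAlgClosed K] [CharZero K]

theorem exists_ALP_aux (ι : K →+* ℂ) (q : ℕ) [hq : Fact q.Prime] [NeZero q] (L : ℕ) [NeZero L]
    (hL : L = q * 1) (hLq : L = q) (hj : jqModC K ∈ modularFunctionFieldFullC K L) :
    Nonempty (ALP L (modularFunctionFieldFullC K L) hj) := by
  have hq1 : Nat.Coprime q 1 := Nat.coprime_one_right q
  subst hL
  have hqq : q * 1 = q := hLq
  refine ⟨⟨al ι hq1, al ι hq1 (uM K q 1), al_const ι hq1, al_al ι hq1, fun σ x y hxy => ?_,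
    ?_, ?_, ?_, ?_, ?_⟩⟩
  · have h1 : y = galF (q * 1) σ x := Subtype.ext (by rw [coe_galF]; exact hxy)
    rw [h1, al_galF, coe_galF]
  · rw [al_uM]
    congr 1
    have : ∀ (n : ℕ) [NeZero n] (hn : n = q), qExpand K q (DeltaInvSer K) =
        qExpand K n (DeltaInvSer K) := by
      intro n _ hn; subst hn; rfl
    exact this _ hqq
  · rw [al_al]
    have : ∀ (n : ℕ) [NeZero n] (hn : n = q), uSer q K = (HahnSeries.C ((n : K) ^ 12) *
        qExpand K n (DeltaSer K) * DeltaInvSer K : ℒ K) := by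
      intro n _ hn; subst hn; rfl
    exact (coe_uM (K := K) (q := q) (M := 1)).trans (this _ hqq)
  · rw [al_al, uM_mul_al]
    rw [hqq]
  · have h1 : (jF _ hj) = jA K q 1 := rfl
    rw [h1, al_jA, coe_jB]
    have : ∀ (n : ℕ) [NeZero n] (hn : n = q), qExpand K q (jqModC K) =
        qExpand K n (jqModC K) := by
      intro n _ hn; subst hn; rfl
    exact this _ hqq
  · intro _ P hP
    have h1 : (jF _ hj) = jA K q 1 := rfl
    rw [h1] at hP
    rw [al_al]
    exact ⟨al_uM_mem ι hq1 P hP, uM_mem P hP⟩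

theorem exists_ALP (ι : K →+* ℂ) (N : ℕ) (hN : N.Prime) [NeZero N]
    (B : IntermediateField K (ℒ K)) (hB : B = modularFunctionFieldFullC K N)
    (hj : jqModC K ∈ B) : Nonempty (ALP N B hj) := by
  subst hB
  haveI : Fact N.Prime := ⟨hN⟩
  exact exists_ALP_aux K ι N N (mul_one N).symm rfl hj

end Pkg2

/-! ### the two cusps -/

section Cusps

variable {K : Type} [Field K] [IsAlgClosed K] [CharZero K] {N : ℕ} [NeZero N]
  {B : IntermediateField K (ℒ K)} {hj : jqModC K ∈ B} (h : ALP N B hj)
  [IsFunctionField K B]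

theorem order_jq : (jqModC K : ℒ K).order = -1 := by
  have h1 := ld_jq K
  have hne : (jqModC K : ℒ K) ≠ 0 := fun h0 => by
    have := h1.2
    rw [h0, HahnSeries.coeff_zero] at this
    exact zero_ne_one this
  apply le_antisymm
  · exact HahnSeries.order_le_of_coeff_ne_zero (by rw [h1.2]; exact one_ne_zero)
  · by_contra hlt
    push Not at hlt
    exact hne (HahnSeries.coeff_order_eq_zero.mp (h1.1 _ hlt))

theorem order_of_ld {n : ℤ} {x : ℒ K} {c : K} (hx : Ld n x c) (hc : c ≠ 0) : x.order = n := by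
  have hne : x ≠ 0 := fun h0 => by
    have := hx.2
    rw [h0, HahnSeries.coeff_zero] at this
    exact hc this.symm
  apply le_antisymm
  · exact HahnSeries.order_le_of_coeff_ne_zero (by rw [hx.2]; exact hc)
  · by_contra hlt
    push Not at hlt
    exact hne (HahnSeries.coeff_order_eq_zero.mp (hx.1 _ hlt))

theorem jF_ne (hj : jqModC K ∈ B) : jF B hj ≠ 0 := fun h0 => by
  have := congrArg (fun x : B => (x : ℒ K).order) h0
  simp only [ZeroMemClass.coe_zero, HahnSeries.order_zero] at this
  rw [order_jq] at this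
  norm_num at this

theorem jF_tr (hj : jqModC K ∈ B) : Transcendental K (jF B hj) := by
  intro h1
  exact transcendental_jqModC K (h1.algHom B.val)

include hj in
/-- the place `∞` -/
theorem exists_inf : ∃ P : Place K B, ∀ f : B, f ≠ 0 → P.ord f = (f : ℒ K).order := by
  obtain ⟨v, ε, hε, hv⟩ := exists_place_of_emb (k := K) (ι := RingHom.id K)
    B.val.toRingHom (fun c => by
      show (algebraMap K (ℒ K) c) = _
      rw [ModFun.C_eq_algebraMap]; rfl) (z := jF B hj) (by
      show (jqModC K : ℒ K).order ≠ 0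
      rw [order_jq]; norm_num)
  have h1 := hv (jF B hj) (jF_ne hj)
  have h2 : (B.val.toRingHom (jF B hj)).order = -1 := order_jq
  rw [h2] at h1
  have hε1 : ε = 1 := by
    have : (ε : ℤ) ∣ 1 := ⟨-v.ord (jF B hj), by linarith⟩
    have := Int.natCast_dvd_natCast.mp (by exact_mod_cast this : ((ε : ℕ) : ℤ) ∣ ((1 : ℕ) : ℤ))
    exact Nat.dvd_one.mp this
  subst hε1
  refine ⟨v, fun f hf => ?_⟩
  have := hv f hf
  rw [Nat.cast_one, one_mul] at this
  exact this.symm

end Cusps

end Fermat.Agent.Maz
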