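import Fermat.Agent.Maz.Cusp1

/-!
# CUSP: divisors
-/

set_option autoImplicit false
set_option linter.unusedSectionVars false
set_option linter.style.haveILetI false
set_option synthInstance.maxHeartbeats 400000

noncomputable section

namespace Fermat.Agent.Maz

open ModularCurve AlgebraicCurve Fermat.Agent.Curves Fermat.Agent.GoodRed Fermat.Agent.ModFun
open Fermat.Agent.SSMod Fermat.Agent.Models Fermat.Agent.AnJac Fermat.Agent.GenusX0

local notation "ℒ" => LaurentSeries

section Cusps

variable {K : Type} [Field K] [IsAlgClosed K] [CharZero K] {N : ℕ} [NeZero N]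
  {B : IntermediateField K (ℒ K)} {hj : jqModC K ∈ B} (h : ALP N B hj)
  [IsFunctionField K B]

include h in
/-- the place `0` -/
theorem exists_zero : ∃ P : Place K (B),
    ∀ f : B, f ≠ 0 →
      P.ord f = ((h.w f : B) : ℒ K).order := by
  obtain ⟨v, ε, hε, hv⟩ := exists_place_of_emb (k := K) (ι := RingHom.id K)
    (B.val.toRingHom.comp h.w.toRingHom) (fun c => by
      show ((h.w (algebraMap K _ c) : B) : ℒ K) = _
      rw [h.w_const]
      show (algebraMap K (ℒ K) c) = _
      rw [ModFun.C_eq_algebraMap]; rfl) (z := h.w (jF B hj)) (by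
      show ((h.w (h.w (jF B hj)) : B) : ℒ K).order ≠ 0
      rw [h.w_w]
      show (jqModC K : ℒ K).order ≠ 0
      rw [order_jq]; norm_num)
  have hj0 : h.w (jF B hj) ≠ 0 := (map_ne_zero_iff _ h.w.injective).mpr (jF_ne hj)
  have h1 := hv _ hj0
  have h2 : ((B.val.toRingHom.comp h.w.toRingHom)
      (h.w (jF B hj))).order = -1 := by
    show ((h.w (h.w (jF B hj)) : B) : ℒ K).order = -1
    rw [h.w_w]
    exact order_jq
  rw [h2] at h1
  have hε1 : ε = 1 := by
    have : (ε : ℤ) ∣ 1 := ⟨-v.ord (h.w (jF B hj)), by linarith⟩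
    have := Int.natCast_dvd_natCast.mp (by exact_mod_cast this : ((ε : ℕ) : ℤ) ∣ ((1 : ℕ) : ℤ))
    exact Nat.dvd_one.mp this
  subst hε1
  refine ⟨v, fun f hf => ?_⟩
  have := hv f hf
  rw [Nat.cast_one, one_mul] at this
  exact this.symm

/-- the two cusps -/
structure TwoCusps (P0 Pinf : Place K (B)) : Prop where
  inf : ∀ f : B, f ≠ 0 → Pinf.ord f = (f : ℒ K).order
  zero : ∀ f : B, f ≠ 0 →
      P0.ord f = ((h.w f : B) : ℒ K).order

theorem order_wj (hN : N ≠ 0) :
    ((h.w (jF B hj) : B) : ℒ K).order = -N := by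
  rw [h.coe_wj]
  have := (ld_jq K).qExpand N
  have h1 := order_of_ld this one_ne_zero
  rw [h1]; ring

theorem order_u : (h.u : ℒ K).order = 1 - N := by
  rw [h.coe_u]
  have := (ld_Delta K).mul ((ld_DeltaInv K).qExpand N)
  have h1 := order_of_ld this (by rw [mul_one]; exact one_ne_zero)
  rw [h1]; ring

theorem order_wu (hN : N ≠ 0) :
    ((h.w h.u : B) : ℒ K).order = N - 1 := by
  rw [h.coe_wu]
  have := (((ld_Delta K).qExpand N).C_mul ((N : K) ^ 12)).mul (ld_DeltaInv K)
  have h1 := order_of_ld this (by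
    rw [mul_one, mul_one]
    exact pow_ne_zero _ (by exact_mod_cast hN))
  rw [h1]; ring

theorem u_ne : h.u ≠ 0 := by
  intro h0
  have := h.mul
  rw [h0, mul_zero] at this
  have h1 := (map_eq_zero (algebraMap K (B))).mp this.symm
  exact pow_ne_zero 12 (by exact_mod_cast NeZero.ne N) h1

variable {h} {P0 Pinf : Place K (B)}

theorem TwoCusps.inf_j (c : TwoCusps h P0 Pinf) : Pinf.ord (jF B hj) = -1 := by
  rw [c.inf _ (jF_ne hj)]; exact order_jq

theorem TwoCusps.zero_j (c : TwoCusps h P0 Pinf) : P0.ord (jF B hj) = -N := by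
  rw [c.zero _ (jF_ne hj)]; exact order_wj h (NeZero.ne N)

theorem TwoCusps.ne (c : TwoCusps h P0 Pinf) (hN : N.Prime) : P0 ≠ Pinf := by
  rintro rfl
  have h1 := c.inf_j
  have h2 := c.zero_j
  rw [h1] at h2
  have := hN.two_le
  omega

theorem psi_prime (hN : N.Prime) : dedekindPsi N = N + 1 := by
  have := Gamma0Comb.dedekindPsi_prime_pow hN 0
  rw [zero_add, pow_one, pow_zero] at this
  exact this

/-- there are no other poles of `j` -/
theorem TwoCusps.eq_or (c : TwoCusps h P0 Pinf) (hN : N.Prime)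
    (hB : B = modularFunctionFieldFullC K N)
    {P : Place K (B)} (hP : P.ord (jF B hj) < 0) :
    P = P0 ∨ P = Pinf := by
  classical
  by_contra hcon
  push Not at hcon
  have htr : Transcendental K (jF B hj)⁻¹ := fun h'' => jF_tr hj (by simpa using h''.inv)
  have hsum := sum_zeros (k := K) htr
  rw [finrank_adjoin_inv] at hsum
  have hfin : Module.finrank (IntermediateField.adjoin K {jF B hj}) B = dedekindPsi N := by
    subst hB
    exact finrank_fullC K N (by exact_mod_cast NeZero.ne N)
  rw [hfin, psi_prime hN] at hsum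
  have hmem : ∀ Q : Place K (B), Q.ord (jF B hj) < 0 →
      Q ∈ zeros K (jF B hj)⁻¹ := by
    intro Q hQ
    rw [mem_zeros, Q.ord_inv]; omega
  have h0 := hmem P0 (by rw [c.zero_j]; have := hN.pos; omega)
  have h1 := hmem Pinf (by rw [c.inf_j]; omega)
  have h2 := hmem P hP
  have hsub : ({P0, Pinf, P} : Finset (Place K (B))) ⊆
      zeros K (jF B hj)⁻¹ := by
    intro Q hQ
    simp only [Finset.mem_insert, Finset.mem_singleton] at hQ
    rcases hQ with rfl | rfl | rfl
    · exact h0
    · exact h1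
    · exact h2
  have hle := Finset.sum_le_sum_of_subset_of_nonneg hsub (f := fun v => v.ord (jF B hj)⁻¹)
    (fun Q hQ _ => (mem_zeros.mp hQ).le)
  rw [hsum, Finset.sum_insert, Finset.sum_insert, Finset.sum_singleton] at hle
  · rw [P0.ord_inv, Pinf.ord_inv, P.ord_inv, c.zero_j, c.inf_j] at hle
    push_cast at hle
    omega
  · rw [Finset.mem_singleton]; exact fun h => hcon.2 h.symm
  · simp only [Finset.mem_insert, Finset.mem_singleton]
    rintro (h | h)
    · exact c.ne hN h
    · exact hcon.1 h.symm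

/-- the divisor of the modular unit -/
theorem TwoCusps.div_u (c : TwoCusps h P0 Pinf) (hN : N.Prime)
    (hB : B = modularFunctionFieldFullC K N) :
    divisorOf (k := K) h.u = (N - 1) • (Finsupp.single P0 1 - Finsupp.single Pinf 1) := by
  classical
  have hu0 := u_ne h
  have hwu0 : h.w h.u ≠ 0 := (map_ne_zero_iff _ h.w.injective).mpr hu0
  have h1 := hN.one_lt
  ext P
  rw [divisorOf_apply]
  simp only [Finsupp.coe_smul, Pi.smul_apply, Finsupp.coe_sub, Pi.sub_apply, nsmul_eq_mul,
    Finsupp.single_apply]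
  rw [Nat.cast_sub h1.le]
  by_cases hP : jF B hj ∈ P.toValuationSubring
  · have hne0 : P0 ≠ P := by
      rintro rfl
      rw [mem_iff_ord P0 (jF_ne hj), c.zero_j] at hP
      omega
    have hnei : Pinf ≠ P := by
      rintro rfl
      rw [mem_iff_ord Pinf (jF_ne hj), c.inf_j] at hP
      omega
    rw [if_neg hne0, if_neg hnei]
    obtain ⟨h2, h3⟩ := h.u_mem P hP
    rw [mem_iff_ord P hu0] at h2
    rw [mem_iff_ord P hwu0] at h3
    have h4 := congrArg P.ord h.mul
    rw [P.ord_mul hwu0 hu0, ord_algebraMap] at h4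
    push_cast
    omega
  · have hP' : P.ord (jF B hj) < 0 := by
      by_contra hge
      push Not at hge
      exact hP ((mem_iff_ord P (jF_ne hj)).mpr hge)
    rcases c.eq_or hN hB hP' with rfl | rfl
    · rw [if_pos rfl, if_neg (c.ne hN).symm, c.zero _ hu0, order_wu h (NeZero.ne N)]
      push_cast; ring
    · rw [if_pos rfl, if_neg (c.ne hN), c.inf _ hu0, order_u h]
      push_cast; ring

end Cusps

end Fermat.Agent.Maz
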