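import Fermat.Agent.Maz.Cusp2
import Fermat.Agent.Models.ClassBound
import Fermat.Agent.GoodRed.S18Core

/-!
# CUSP: the order of the cuspidal class
-/

set_option autoImplicit false
set_option linter.unusedSectionVars false
set_option linter.style.haveILetI false
set_option synthInstance.maxHeartbeats 400000

noncomputable section

namespace Fermat.Agent.Maz

open ModularCurve AlgebraicCurve Fermat.Agent.Curves Fermat.Agent.GoodRed Fermat.Agent.ModFun
open Fermat.Agent.SSMod Fermat.Agent.Models Fermat.Agent.AnJac Fermat.Agent.GenusX0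

local notation "ℒ" => LaurentSeries

section Ser

variable {K : Type*} [Field K]

theorem ld_pow {n : ℤ} {x : ℒ K} {c : K} (h : Ld n x c) (m : ℕ) : Ld (m * n) (x ^ m) (c ^ m) := by
  induction m with
  | zero =>
    rw [Nat.cast_zero, zero_mul, pow_zero, pow_zero]
    refine ⟨fun i hi => ?_, by rw [HahnSeries.coeff_one, if_pos rfl]⟩
    rw [HahnSeries.coeff_one, if_neg hi.ne]
  | succ m ih =>
    rw [pow_succ, pow_succ]
    have := ih.mul h
    rw [show ((m + 1 : ℕ) : ℤ) * n = m * n + n by push_cast; ring]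
    exact this

theorem ld_sum {ι : Type*} (s : Finset ι) {n : ℤ} {x : ι → ℒ K} {c : ι → K}
    (h : ∀ i ∈ s, Ld n (x i) (c i)) : Ld n (∑ i ∈ s, x i) (∑ i ∈ s, c i) := by
  refine ⟨fun m hm => ?_, ?_⟩
  · rw [HahnSeries.coeff_sum]
    exact Finset.sum_eq_zero fun i hi => (h i hi).1 m hm
  · rw [HahnSeries.coeff_sum]
    exact Finset.sum_congr rfl fun i hi => (h i hi).2

/-- uniqueness of roots with leading coefficient one -/
theorem eq_of_pow_eq [CharZero K] {n : ℤ} {x y : ℒ K} (hx : Ld n x 1) (hy : Ld n y 1) {e : ℕ}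
    (he : e ≠ 0) (h : x ^ e = y ^ e) : x = y := by
  have h1 := (Commute.all x y).geom_sum₂_mul e
  rw [h, sub_self] at h1
  rcases mul_eq_zero.mp h1 with h2 | h2
  · exfalso
    have h3 : Ld (((e - 1 : ℕ) : ℤ) * n) (∑ i ∈ Finset.range e, x ^ i * y ^ (e - 1 - i))
        (∑ i ∈ Finset.range e, (1 : K)) := by
      refine ld_sum _ fun i hi => ?_
      rw [Finset.mem_range] at hi
      have h4 := (ld_pow hx i).mul (ld_pow hy (e - 1 - i))
      rw [one_pow, one_pow, mul_one] at h4
      have : ((i : ℕ) : ℤ) * n + ((e - 1 - i : ℕ) : ℤ) * n = ((e - 1 : ℕ) : ℤ) * n := by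
        rw [← add_mul]
        congr 1
        have : i + (e - 1 - i) = e - 1 := by omega
        exact_mod_cast this
      rwa [this] at h4
    rw [h2] at h3
    have h4 := h3.2
    rw [HahnSeries.coeff_zero, Finset.sum_const, Finset.card_range, nsmul_eq_mul, mul_one] at h4
    exact he (by exact_mod_cast h4.symm)
  · exact sub_eq_zero.mp h2

theorem ld_of_ne {x : ℒ K} (hx : x ≠ 0) : Ld x.order x (x.coeff x.order) :=
  ⟨fun _ hm => HahnSeries.coeff_eq_zero_of_lt_order hm, rfl⟩

theorem ld_coeffMap {L : Type*} [Field L] (σ : K →+* L) {n : ℤ} {x : ℒ K} {c : K} (h : Ld n x c) :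
    Ld n (coeffMap σ x) (σ c) :=
  ⟨fun m hm => by rw [coeffMap_coeff, h.1 m hm, map_zero], by rw [coeffMap_coeff, h.2]⟩

end Ser

section Cusps

variable {K : Type} [Field K] [IsAlgClosed K] [CharZero K] {N : ℕ} [NeZero N]
  {B : IntermediateField K (ℒ K)} {hj : jqModC K ∈ B} {h : ALP N B hj}
  [IsFunctionField K B] {P0 Pinf : Place K B}

theorem ld_u : Ld (1 - (N : ℤ)) (h.u : ℒ K) 1 := by
  have h1 := (ld_Delta K).mul ((ld_DeltaInv K).qExpand N)
  rw [mul_one, ← h.coe_u] at h1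
  rw [show (1 : ℤ) - N = 1 + (N : ℤ) * (-1) by ring]
  exact h1

theorem coeffMap_u (σ : K ≃+* K) : coeffMap (σ : K →+* K) (h.u : ℒ K) = (h.u : ℒ K) := by
  rw [h.coe_u, map_mul, coeffMap_DeltaSer, coeffMap_qExpand, coeffMap_DeltaInvSer]

/-- the root of the modular unit -/
theorem exists_root (hN : N.Prime) (hB : B = modularFunctionFieldFullC K N)
    (c : TwoCusps h P0 Pinf) {d e : ℕ} (hde : d * e = N - 1) {f : B} (hf : f ≠ 0)
    (hdiv : divisorOf (k := K) f = d • (Finsupp.single P0 1 - Finsupp.single Pinf 1)) :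
    ∃ g : B, g ^ e = h.u ∧ Ld (-(d : ℤ)) (g : ℒ K) 1 := by
  have h1 := hN.one_lt
  have he : e ≠ 0 := by rintro rfl; omega
  have hu0 := u_ne h
  have h2 : ∀ P : Place K B, (h.u).1 = h.u.1 → P.ord h.u = P.ord (f ^ e) := by
    intro P _
    have h3 := c.div_u hN hB
    have h4 : divisorOf (k := K) h.u = divisorOf (k := K) (f ^ e) := by
      rw [divisorOf_pow, hdiv, smul_smul, mul_comm e d, hde]
      exact h3
    have := DFunLike.congr_fun h4 P
    rwa [divisorOf_apply, divisorOf_apply] at this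
  obtain ⟨c₀, hc₀, heq⟩ := eq_const_mul hu0 (pow_ne_zero e hf) (fun P => h2 P rfl)
  obtain ⟨b, hb⟩ := IsAlgClosed.exists_pow_nat_eq c₀ (Nat.pos_of_ne_zero he)
  set g₁ : B := algebraMap K B b * f with hg₁
  have hg₁e : g₁ ^ e = h.u := by rw [hg₁, mul_pow, ← map_pow, hb, heq]
  have hg₁0 : (g₁ : ℒ K) ≠ 0 := by
    intro h0
    have : g₁ = 0 := Subtype.ext h0
    rw [this, zero_pow he] at hg₁e
    exact hu0 hg₁e.symm
  have hld := ld_of_ne hg₁0
  set a := (g₁ : ℒ K).coeff (g₁ : ℒ K).order with ha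
  have ha0 : a ≠ 0 := fun h0 => hg₁0 (HahnSeries.coeff_order_eq_zero.mp h0)
  have hlde := ld_pow hld e
  have hcoe : (g₁ : ℒ K) ^ e = (h.u : ℒ K) := by
    rw [← hg₁e]; rfl
  rw [hcoe] at hlde
  have hord : (e : ℤ) * (g₁ : ℒ K).order = 1 - N := by
    rw [← order_of_ld hlde (pow_ne_zero e ha0), order_of_ld (ld_u (h := h)) one_ne_zero]
  have hae : a ^ e = 1 := by
    rw [← hlde.2, hord]
    exact (ld_u (h := h)).2
  have hord' : (g₁ : ℒ K).order = -(d : ℤ) := by
    have h5 : (e : ℤ) * (g₁ : ℒ K).order = (e : ℤ) * (-(d : ℤ)) := by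
      rw [hord]
      have : ((d * e : ℕ) : ℤ) = (N : ℤ) - 1 := by
        rw [hde, Nat.cast_sub h1.le, Nat.cast_one]
      push_cast at this
      linarith
    exact mul_left_cancel₀ (by exact_mod_cast he) h5
  refine ⟨algebraMap K B a⁻¹ * g₁, ?_, ?_⟩
  · rw [mul_pow, ← map_pow, inv_pow, hae, inv_one, map_one, one_mul, hg₁e]
  · rw [hord'] at hld
    have := hld.C_mul a⁻¹
    rw [inv_mul_cancel₀ ha0, ModFun.C_eq_algebraMap] at this
    exact this

/-- the product of the root and its Atkin-Lehner transform is a constant -/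
theorem exists_const_root {g : B} {e : ℕ} (he : e ≠ 0) (hg : g ^ e = h.u) :
    ∃ c' : K, h.w g * g = algebraMap K B c' ∧ c' ^ e = (N : K) ^ 12 := by
  have h1 : (h.w g * g) ^ e = algebraMap K B ((N : K) ^ 12) := by
    rw [mul_pow, ← map_pow, hg, h.mul]
  have hg0 : h.w g * g ≠ 0 := by
    intro h0
    rw [h0, zero_pow he] at h1
    have h1' := (map_eq_zero (algebraMap K B)).mp h1.symm
    exact pow_ne_zero 12 (by exact_mod_cast NeZero.ne N) h1'
  obtain ⟨c', hc'⟩ := exists_const_of_ord_zero (k := K) (x := h.w g * g) fun P => by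
    have h2 := congrArg P.ord h1
    rw [ord_pow, ord_algebraMap] at h2
    rcases mul_eq_zero.mp h2 with h3 | h3
    · exact absurd (by exact_mod_cast h3) he
    · exact h3
  refine ⟨c', hc', ?_⟩
  rw [hc', ← map_pow] at h1
  exact (algebraMap K B).injective h1

theorem const_fixed {g : B} {e d : ℕ} (he : e ≠ 0) (hg : g ^ e = h.u)
    (hld : Ld (-(d : ℤ)) (g : ℒ K) 1) {c' : K} (hc : h.w g * g = algebraMap K B c')
    (σ : K ≃+* K) : σ c' = c' := by
  have h1 : (g : ℒ K) = coeffMap (σ : K →+* K) (g : ℒ K) := by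
    refine eq_of_pow_eq hld (by simpa using ld_coeffMap (σ : K →+* K) hld) he ?_
    rw [← map_pow]
    have hcoe : (g : ℒ K) ^ e = (h.u : ℒ K) := by
      rw [← hg]; rfl
    rw [hcoe, coeffMap_u]
  have h2 := h.w_gal σ g g h1
  have h3 : coeffMap (σ : K →+* K) ((h.w g * g : B) : ℒ K) = ((h.w g * g : B) : ℒ K) := by
    rw [MulMemClass.coe_mul, map_mul, ← h2, ← h1]
  rw [hc] at h3
  have h4 : ((algebraMap K B c' : B) : ℒ K) = HahnSeries.C c' := by
    rw [ModFun.C_eq_algebraMap]; rfl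
  rw [h4] at h3
  have h5 := congrArg (fun x : ℒ K => x.coeff 0) h3
  simp only [coeffMap_coeff, HahnSeries.C_apply, HahnSeries.coeff_single_same] at h5
  exact h5

end Cusps

end Fermat.Agent.Maz
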