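import Fermat.Agent.Maz.Cusp3
import Fermat.Agent.Maz.Defs
import Fermat.Agent.MazurP.EtaHecke
import Fermat.Agent.SSMod.GaussN
import Fermat.Agent.GoodRed.Haupt2

/-!
# CUSP: the cuspidal class
-/

set_option autoImplicit false
set_option linter.unusedSectionVars false
set_option linter.style.haveILetI false
set_option synthInstance.maxHeartbeats 400000

noncomputable section

namespace Fermat.Agent.Maz

open ModularCurve AlgebraicCurve Fermat.Agent.Curves Fermat.Agent.GoodRed IsLocalRing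
open scoped Pointwise

local notation "Qbar" => AlgebraicClosure ℚ
local notation "GQ" => Qbar ≃ₐ[ℚ] Qbar
local notation "ℒ" => LaurentSeries

local instance instGalCusp : IsGalois ℚ Qbar := Frob.isGalois_Qbar

section Main

variable {N : ℕ} [NeZero N] {P0 Pinf : Place Qbar (modularFunctionFieldBar N)}

theorem twoCusps_of (hN : N.Prime) (h : ALP N (modularFunctionFieldBar N) (jB N).2)
    (h0 : IsCuspZero N P0) (hi : IsCuspInf N Pinf) : TwoCusps h P0 Pinf := by
  obtain ⟨Pi, hPi⟩ := exists_inf (K := Qbar) (B := modularFunctionFieldBar N) (hj := (jB N).2)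
  obtain ⟨Pz, hPz⟩ := exists_zero h
  have c : TwoCusps h Pz Pi := ⟨hPi, hPz⟩
  have hB := laurentBaseChange_eq Qbar N
  have hj : jF (modularFunctionFieldBar N) (jB N).2 = jB N := rfl
  have h2 := hN.two_le
  have h0' : P0.ord (jB N) = -(N : ℤ) := h0
  have hi' : Pinf.ord (jB N) = -1 := hi
  have e0 : P0 = Pz := by
    rcases c.eq_or hN hB (P := P0) (by rw [hj, h0']; omega) with e | e
    · exact e
    · exfalso
      have := c.inf_j
      rw [← e, hj, h0'] at this
      omega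
  have ei : Pinf = Pi := by
    rcases c.eq_or hN hB (P := Pinf) (by rw [hj, hi']; omega) with e | e
    · exfalso
      have := c.zero_j
      rw [← e, hj, hi'] at this
      omega
    · exact e
  rw [e0, ei]
  exact c

/-- the divisor `0 - ∞` -/
abbrev cD (P0 Pinf : Place Qbar (modularFunctionFieldBar N)) :
    Divisor Qbar (modularFunctionFieldBar N) := Finsupp.single P0 1 - Finsupp.single Pinf 1

theorem cD_deg (P0 Pinf : Place Qbar (modularFunctionFieldBar N)) (m : ℕ) :
    m • cD P0 Pinf ∈ Divisor.degZero (K := Qbar) (F := modularFunctionFieldBar N) := by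
  refine AddSubgroup.nsmul_mem _ ?_ m
  haveI := isFunctionField_fullC Qbar N (by exact_mod_cast NeZero.ne N)
  rw [Divisor.mem_degZero, map_sub, Divisor.degree_single, Divisor.degree_single,
    deg_eq_one, deg_eq_one, sub_self]

theorem nsmul_cls (m : ℕ) :
    m • cls N P0 Pinf = (Pic0.mk ⟨m • cD P0 Pinf, cD_deg P0 Pinf m⟩ : JZero N) := by
  have : (⟨m • cD P0 Pinf, cD_deg P0 Pinf m⟩ :
      Divisor.degZero (K := Qbar) (F := modularFunctionFieldBar N)) =
      m • ⟨cD P0 Pinf, by simpa using cD_deg P0 Pinf 1⟩ := rfl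
  rw [this]
  exact (QuotientAddGroup.mk_nsmul _ _ _).symm

theorem mk_eq_zero_iff {D : Divisor Qbar (modularFunctionFieldBar N)}
    (hD : D ∈ Divisor.degZero (K := Qbar) (F := modularFunctionFieldBar N)) :
    (Pic0.mk ⟨D, hD⟩ : JZero N) = 0 ↔
      ∃ f : modularFunctionFieldBar N, f ≠ 0 ∧ divisorOf (k := Qbar) f = D := by
  constructor
  · intro h
    have h1 := (QuotientAddGroup.eq_zero_iff _).1 h
    rw [AddSubgroup.mem_addSubgroupOf] at h1
    obtain ⟨f, hf, h2⟩ := h1
    refine ⟨f, hf, ?_⟩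
    ext P
    rw [divisorOf_apply]
    exact (h2 P).symm
  · rintro ⟨f, hf, h2⟩
    refine (QuotientAddGroup.eq_zero_iff _).2 ?_
    rw [AddSubgroup.mem_addSubgroupOf]
    refine ⟨f, hf, fun P => ?_⟩
    show D P = _
    rw [← h2, divisorOf_apply]

theorem nsmul_cls_eq_zero_iff (m : ℕ) :
    m • cls N P0 Pinf = 0 ↔
      ∃ f : modularFunctionFieldBar N, f ≠ 0 ∧ divisorOf (k := Qbar) f = m • cD P0 Pinf := by
  rw [nsmul_cls, mk_eq_zero_iff]

/-- roots of `N ^ 12` in `ℚ` -/
theorem dvd_twelve (hN : N.Prime) {e : ℕ} {c : Qbar} (hc : ∀ σ : GQ, σ c = c)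
    (he : c ^ e = (N : Qbar) ^ 12) : e ∣ 12 := by
  haveI : Fact N.Prime := ⟨hN⟩
  obtain ⟨t, rfl⟩ : ∃ t : ℚ, algebraMap ℚ Qbar t = c := by
    have h1 : c ∈ (⊥ : IntermediateField ℚ Qbar) := (InfiniteGalois.mem_bot_iff_fixed c).mpr hc
    exact IntermediateField.mem_bot.mp h1
  have h1 : t ^ e = (N : ℚ) ^ 12 := by
    apply (algebraMap ℚ Qbar).injective
    rw [map_pow, map_pow, map_natCast, he]
  have hN0 : (N : ℚ) ≠ 0 := by exact_mod_cast hN.ne_zero
  have he0 : e ≠ 0 := by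
    rintro rfl
    rw [pow_zero] at h1
    have h2 : (1 : ℚ) < (N : ℚ) ^ 12 := one_lt_pow₀ (by exact_mod_cast hN.one_lt) (by norm_num)
    rw [← h1] at h2
    exact lt_irrefl _ h2
  have ht : t ≠ 0 := by
    rintro rfl
    rw [zero_pow he0] at h1
    exact pow_ne_zero 12 hN0 h1.symm
  have h2 := congrArg (padicValRat N) h1
  rw [padicValRat.pow, padicValRat.pow, padicValRat.self hN.one_lt] at h2
  have h3 : (e : ℤ) ∣ 12 := ⟨padicValRat N t, by
    push_cast at h2
    linarith⟩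
  exact_mod_cast h3

/-- **the order of the cuspidal class** is `(N - 1) / e` with `e ∣ 12` -/
theorem cusp_order (hN : N.Prime) (h0 : IsCuspZero N P0) (hi : IsCuspInf N Pinf) :
    ∃ d e : ℕ, d * e = N - 1 ∧ e ∣ 12 ∧ ∀ m : ℕ, m • cls N P0 Pinf = 0 ↔ d ∣ m := by
  obtain ⟨ι⟩ := exists_emb_Qbar
  have hB := laurentBaseChange_eq Qbar N
  obtain ⟨h⟩ := exists_ALP Qbar ι N hN (modularFunctionFieldBar N) hB (jB N).2
  have c := twoCusps_of hN h h0 hi
  set d := addOrderOf (cls N P0 Pinf) with hd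
  have hN1 : (N - 1) • cls N P0 Pinf = 0 :=
    (nsmul_cls_eq_zero_iff _).mpr ⟨h.u, u_ne h, c.div_u hN hB⟩
  obtain ⟨e, he⟩ := addOrderOf_dvd_iff_nsmul_eq_zero.mpr hN1
  have hde : d * e = N - 1 := he.symm
  have he0 : e ≠ 0 := by
    rintro rfl
    have := hN.one_lt
    omega
  refine ⟨d, e, hde, ?_, fun m => addOrderOf_dvd_iff_nsmul_eq_zero.symm⟩
  obtain ⟨f, hf0, hf⟩ := (nsmul_cls_eq_zero_iff d).mp (addOrderOf_nsmul_eq_zero _)
  obtain ⟨g, hg, hld⟩ := exists_root hN hB c hde hf0 hf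
  obtain ⟨c', h1, h2⟩ := exists_const_root he0 hg
  exact dvd_twelve hN (fun σ => const_fixed he0 hg hld h1 σ.toRingEquiv) h2

/-! ### Galois action -/

theorem gact_cusp (hN : N.Prime) (h0 : IsCuspZero N P0) (hi : IsCuspInf N Pinf) (σ : GQ) :
    gact N σ • P0 = P0 ∧ gact N σ • Pinf = Pinf := by
  obtain ⟨ι⟩ := exists_emb_Qbar
  have hB := laurentBaseChange_eq Qbar N
  obtain ⟨h⟩ := exists_ALP Qbar ι N hN (modularFunctionFieldBar N) hB (jB N).2
  have c := twoCusps_of hN h h0 hi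
  have hj : gact N σ • (jB N) = jB N := by
    apply Subtype.ext
    show coeffMap (σ : Qbar →+* Qbar) (jqModC Qbar) = jqModC Qbar
    rw [coeffMap_jqModC]
  have key : ∀ P : Place Qbar (modularFunctionFieldBar N), (gact N σ • P).ord (jB N) =
      P.ord (jB N) := by
    intro P
    have h1 := SemilinearAut.ord_smul (gact N σ) P (jB N)
    rwa [hj] at h1
  have hj' : jF (modularFunctionFieldBar N) (jB N).2 = jB N := rfl
  have h2 := hN.two_le
  have h0' : P0.ord (jB N) = -(N : ℤ) := h0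
  have hi' : Pinf.ord (jB N) = -1 := hi
  constructor
  · rcases c.eq_or hN hB (P := gact N σ • P0) (by rw [hj', key, h0']; omega) with e | e
    · exact e
    · exfalso
      have := key P0
      rw [e, h0', hi'] at this
      omega
  · rcases c.eq_or hN hB (P := gact N σ • Pinf) (by rw [hj', key, hi']; omega) with e | e
    · exfalso
      have := key Pinf
      rw [e, h0', hi'] at this
      omega
    · exact e

theorem gal_cls (hN : N.Prime) (h0 : IsCuspZero N P0) (hi : IsCuspInf N Pinf) (σ : GQ) :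
    σ • cls N P0 Pinf = cls N P0 Pinf := by
  obtain ⟨h1, h2⟩ := gact_cusp hN h0 hi σ
  rw [cls, S37.gal_mk]
  congr 1
  apply Subtype.ext
  show gact N σ • (Finsupp.single P0 1 - Finsupp.single Pinf 1 :
    Divisor Qbar (modularFunctionFieldBar N)) = _
  rw [smul_sub, SemilinearAut.smul_single, SemilinearAut.smul_single, h1, h2]

/-! ### Hecke action -/

theorem heckeDiv_cusp (hN : N.Prime) (h0 : IsCuspZero N P0) (hi : IsCuspInf N Pinf) {s : ℕ}
    [hs : Fact s.Prime] (hsN : s ≠ N) : heckeDiv Qbar N s (cD P0 Pinf) = (s + 1) • cD P0 Pinf := by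
  obtain ⟨ι⟩ := exists_emb_Qbar
  have hB := laurentBaseChange_eq Qbar N
  obtain ⟨h⟩ := exists_ALP Qbar ι N hN (modularFunctionFieldBar N) hB (jB N).2
  have c := twoCusps_of hN h h0 hi
  have hcop : Nat.Coprime s N := (Nat.coprime_primes hs.out hN).mpr hsN
  obtain ⟨g, hg, hdiv⟩ := heckeDiv_divisorOf (ℓ := s) (N := N) (fun hd => hsN
    ((Nat.prime_dvd_prime_iff_eq hs.out hN).mp hd)) (u_ne h)
  have h1 : g = h.u ^ (s + 1) := by
    apply Subtype.ext
    rw [hg, h.coe_u, MazurP.hM_delta hs.out hcop, SubmonoidClass.coe_pow, h.coe_u]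
  rw [h1, divisorOf_pow, c.div_u hN hB, map_nsmul] at hdiv
  have h2 : (N - 1 : ℕ) ≠ 0 := by have := hN.one_lt; omega
  have h3 : (N - 1) • heckeDiv Qbar N s (cD P0 Pinf) = (N - 1) • ((s + 1) • cD P0 Pinf) := by
    rw [hdiv, smul_smul, smul_smul, mul_comm]
  ext P
  have h4 := DFunLike.congr_fun h3 P
  rw [Finsupp.smul_apply, Finsupp.smul_apply, nsmul_eq_mul, nsmul_eq_mul] at h4
  exact mul_left_cancel₀ (by exact_mod_cast h2) h4

theorem hecke_cls (hN : N.Prime) (h0 : IsCuspZero N P0) (hi : IsCuspInf N Pinf) {s : ℕ}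
    (hs : s.Prime) (hsN : s ≠ N) : Tj N s hs (cls N P0 Pinf) = (1 + s) • cls N P0 Pinf := by
  haveI : Fact s.Prime := ⟨hs⟩
  rw [nsmul_cls]
  rw [cls, Tj, S37.hecke_mk hs]
  congr 1
  apply Subtype.ext
  show heckeDiv Qbar N s (cD P0 Pinf) = (1 + s) • cD P0 Pinf
  rw [heckeDiv_cusp hN h0 hi hsN, add_comm]

end Main

end Fermat.Agent.Maz
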