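import Fermat.Agent.Maz.Cusp4

/-!
# CUSP: the reduction of the cuspidal class modulo its order, final statement
-/

set_option autoImplicit false
set_option linter.unusedSectionVars false
set_option linter.style.haveILetI false
set_option synthInstance.maxHeartbeats 400000

noncomputable section

namespace Fermat.Agent.Maz

open ModularCurve AlgebraicCurve Fermat.Agent.Curves Fermat.Agent.GoodRed IsLocalRing
open Fermat.Agent.ModFun
open scoped Pointwise

local notation "Qbar" => AlgebraicClosure ℚ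
local notation "GQ" => Qbar ≃ₐ[ℚ] Qbar
local notation "ℒ" => LaurentSeries

section Ser

variable {κ : Type*} [Field κ]

/-- the reduction of the modular unit -/
abbrev uK (κ : Type*) [Field κ] (N : ℕ) [NeZero N] : ℒ κ := DeltaSer κ * qExpand κ N (DeltaInvSer κ)

theorem coeff_uK (N : ℕ) [NeZero N] (hN : 1 < N) : (uK κ N).coeff (1 + N * (-1) + (1 : ℕ)) = -24 := by
  obtain ⟨g, hg⟩ := ((ld_DeltaInv κ).qExpand N).bd.eq_sp
  have h0 : PowerSeries.coeff 0 g = 1 := by
    have h1 := ((ld_DeltaInv κ).qExpand N).2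
    rw [hg, sp_coeff_self] at h1
    rwa [PowerSeries.coeff_zero_eq_constantCoeff]
  have h1 : PowerSeries.coeff 1 g = 0 := by
    rw [← sp_coeff_add ((N : ℤ) * (-1)) g 1, ← hg]
    refine qExpand_coeff_of_not_dvd N _ ?_
    intro hd
    have h2 : (N : ℤ) ∣ 1 := by
      have h3 : (N : ℤ) ∣ (N : ℤ) * (-1) := dvd_mul_right _ _
      have h4 := (Int.dvd_add_right h3).mp hd
      exact_mod_cast h4
    have h3 := Int.le_of_dvd one_pos h2
    omega
  have h2 : PowerSeries.coeff 0 (dedekindEtaUnit.map (Int.castRingHom κ)) = 1 := by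
    rw [PowerSeries.coeff_map, PowerSeries.coeff_zero_eq_constantCoeff,
      constantCoeff_dedekindEtaUnit, map_one]
  have h3 : PowerSeries.coeff 1 (dedekindEtaUnit.map (Int.castRingHom κ)) = -24 := by
    rw [PowerSeries.coeff_map, agree_D 1 (by norm_num)]
    simp
  rw [uK, hg, DeltaSer_eq_sp, sp_mul, sp_coeff_add, PowerSeries.coeff_mul,
    Finset.Nat.antidiagonal_succ, Finset.sum_cons]
  simp only [Finset.Nat.antidiagonal_zero, Finset.map_singleton, Finset.sum_singleton,
    Function.Embedding.coe_prodMap, Prod.map_apply, Function.Embedding.coeFn_mk,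
    Nat.succ_eq_add_one, zero_add, Function.Embedding.refl_apply, h0, h1, h2, h3]
  ring

theorem uK_ne_pow {N r : ℕ} [NeZero N] (hN : 1 < N) (hr : r.Prime) [CharP κ r] (hr5 : 5 ≤ r)
    (hrN : r ∣ N - 1) (a : κ) (x : ℒ κ) : uK κ N ≠ HahnSeries.C a * x ^ r := by
  intro h
  haveI : Fact r.Prime := ⟨hr⟩
  haveI : NeZero r := ⟨hr.ne_zero⟩
  have h1 : (uK κ N).coeff (1 + N * (-1) + (1 : ℕ)) =
    (HahnSeries.C a * x ^ r : ℒ κ).coeff (1 + N * (-1) + (1 : ℕ)) := by rw [h]
  rw [coeff_uK N hN, HahnSeries.C_apply, HahnSeries.coeff_single_mul, sub_zero,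
    Fermat.Agent.HeckeQ.laurent_pow_char, qExpand_coeff_of_not_dvd, mul_zero] at h1
  · have h2 : ((24 : ℕ) : κ) = 0 := by
      push_cast
      linear_combination -h1
    rw [CharP.cast_eq_zero_iff κ r] at h2
    have h3 : r ∣ 2 ^ 3 * 3 := by norm_num; exact h2
    rcases (Nat.Prime.dvd_mul hr).mp h3 with h4 | h4
    · have := Nat.le_of_dvd (by norm_num) (hr.dvd_of_dvd_pow h4)
      omega
    · have := Nat.le_of_dvd (by norm_num) h4
      omega
  · intro hd
    have h2 : (r : ℤ) ∣ (N : ℤ) - 1 := by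
      have : ((N - 1 : ℕ) : ℤ) = (N : ℤ) - 1 := by rw [Nat.cast_sub hN.le, Nat.cast_one]
      rw [← this]
      exact_mod_cast hrN
    have h3 : (r : ℤ) ∣ 1 := by
      have h4 := dvd_add hd h2
      have h5 : (1 + (N : ℤ) * (-1) + (1 : ℕ) + ((N : ℤ) - 1)) = 1 := by push_cast; ring
      rwa [h5] at h4
    have := Int.le_of_dvd one_pos h3
    omega

end Ser

section Main

variable {N : ℕ} [NeZero N] {P0 Pinf : Place Qbar (modularFunctionFieldBar N)}

theorem LR_u {A : ValuationSubring Qbar} (h : ALP N (modularFunctionFieldBar N) (jB N).2) :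
    LR (residue A) (h.u : ℒ Qbar) (uK (ResidueField A) N) := by
  rw [h.coe_u]
  have := LR.of (π := residue A) (DeltaSer A * qExpand A N (DeltaInvSer A))
  rw [map_mul, map_mul, coeffMap_qExpand, coeffMap_qExpand, ModFun.coeffMap_DeltaSer,
    ModFun.coeffMap_DeltaSer, ModFun.coeffMap_DeltaInvSer, ModFun.coeffMap_DeltaInvSer] at this
  exact this

theorem uK_ne_zero (κ : Type*) [Field κ] : uK κ N ≠ 0 := by
  intro h0
  have h1 := (ld_Delta κ).mul ((ld_DeltaInv κ).qExpand N)
  have h2 := h1.2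
  rw [show DeltaSer κ * qExpand κ N (DeltaInvSer κ) = 0 from h0, HahnSeries.coeff_zero,
    mul_one] at h2
  exact zero_ne_one h2

theorem C_inv_mul {k : Type*} [Field k] {c : k} (hc : c ≠ 0) (x : ℒ k) :
    (HahnSeries.C c⁻¹ : ℒ k) * (HahnSeries.C c * x) = x := by
  rw [← mul_assoc, ← map_mul, inv_mul_cancel₀ hc, map_one, one_mul]

theorem uK_mem {r : ℕ} (hr : r.Prime) {A : ValuationSubring Qbar} (hA : A.LiesOverPrime r)
    (hrN : ¬ r ∣ N) (h : ALP N (modularFunctionFieldBar N) (jB N).2) :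
    uK (ResidueField A) N ∈ modularFunctionFieldFullC (ResidueField A) N := by
  obtain ⟨c, fb, hc, hfb, hLR⟩ := GoodRed.exists_scale (residue A) N residue_surjective
    (residue_ne_zero hr hA hrN) (laurentBaseChange_eq Qbar N) (u_ne h)
  have hu := LR_u (A := A) h
  have e1 : ((algebraMap Qbar (modularFunctionFieldBar N) c * h.u :
      modularFunctionFieldBar N) : ℒ Qbar) = HahnSeries.C c * (h.u : ℒ Qbar) := by
    rw [MulMemClass.coe_mul, ModFun.C_eq_algebraMap]; rfl
  rw [e1] at hLR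
  have hCm : ∀ a : ResidueField A, (HahnSeries.C a : ℒ (ResidueField A)) ∈
      modularFunctionFieldFullC (ResidueField A) N := by
    intro a
    rw [ModFun.C_eq_algebraMap]
    exact IntermediateField.algebraMap_mem _ _
  rcases A.mem_or_inv_mem c with hcA | hcA
  · have h1 := LR.unique hLR ((SSMod.LR.C (π := residue A) ⟨c, hcA⟩).mul hu)
    have h2 : residue A ⟨c, hcA⟩ ≠ 0 := by
      intro h0
      rw [h0, map_zero, zero_mul] at h1
      exact hfb (Subtype.ext h1)
    have h3 : uK (ResidueField A) N = HahnSeries.C (residue A ⟨c, hcA⟩)⁻¹ *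
        (fb : ℒ (ResidueField A)) := by
      rw [h1, ← mul_assoc, ← map_mul, inv_mul_cancel₀ h2, map_one, one_mul]
    rw [h3]
    exact mul_mem (hCm _) fb.2
  · have h1 := (SSMod.LR.C (π := residue A) ⟨c⁻¹, hcA⟩).mul hLR
    have e2 := C_inv_mul hc (h.u : ℒ Qbar)
    change LR (residue A) ((HahnSeries.C (c⁻¹ : Qbar) : ℒ Qbar) * _) _ at h1
    rw [e2] at h1
    rw [LR.unique hu h1]
    exact mul_mem (hCm _) fb.2

theorem red_cls (hN : N.Prime) (h0 : IsCuspZero N P0) (hi : IsCuspInf N Pinf) {r : ℕ}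
    (hr : r.Prime) (hr5 : 5 ≤ r) {A : ValuationSubring Qbar} {K : AddSubgroup (JZero N)}
    (hK : IsRedKer N r A K) {m : ℕ} (hm : r * m ∣ N - 1) : m • cls N P0 Pinf ∉ K := by
  intro hmem
  obtain ⟨hℓ, hA, hrN, M, hFF, rm, -, hMN, rfl⟩ := hK
  obtain ⟨ι⟩ := exists_emb_Qbar
  have hB := laurentBaseChange_eq Qbar N
  obtain ⟨h⟩ := exists_ALP Qbar ι N hN (modularFunctionFieldBar N) hB (jB N).2
  have c := twoCusps_of hN h h0 hi
  haveI : CharP (ResidueField A) r := FrobDens.charP_residueField A hr hA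
  have hIA : IsAlgClosed (ResidueField A) := inferInstance
  rw [AddMonoidHom.mem_ker, nsmul_cls, S37.redHom_mk, QuotientAddGroup.eq_zero_iff] at hmem
  obtain ⟨gb, hgb, hdiv⟩ := hmem
  obtain ⟨k, hk⟩ := hm
  set fb : modularFunctionFieldFullC (ResidueField A) M :=
    ⟨uK (ResidueField A) N, rm.hle (uK_mem hr hA hrN h)⟩ with hfbdef
  have hfb : fb ≠ 0 := fun h' => uK_ne_zero (N := N) (ResidueField A) (congrArg Subtype.val h')
  have h1 := rm.spec h.u fb (LR_u h) hfb
  have h2 : divisorOf (k := ResidueField A) fb = (k * r) • rm.R (m • cD P0 Pinf) := by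
    rw [← h1, c.div_u hN hB, ← map_nsmul, smul_smul, hk]
    congr 2
    ring
  have h3 : ∀ P : Place (ResidueField A) (modularFunctionFieldFullC (ResidueField A) M),
      P.ord fb = P.ord (gb ^ (k * r)) := by
    intro P
    have h4 := DFunLike.congr_fun h2 P
    rw [divisorOf_apply, Finsupp.smul_apply, hdiv P, nsmul_eq_mul] at h4
    rw [h4, ord_pow]
  obtain ⟨a, -, h4⟩ := Models.eq_const_mul hfb (pow_ne_zero _ hgb) h3
  have h5 : (fb : ℒ (ResidueField A)) = ((algebraMap (ResidueField A)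
      (modularFunctionFieldFullC (ResidueField A) M) a * gb ^ (k * r) :
      modularFunctionFieldFullC (ResidueField A) M) : ℒ (ResidueField A)) := by rw [h4]
  have h6 : uK (ResidueField A) N = HahnSeries.C a *
      (((gb ^ k : modularFunctionFieldFullC (ResidueField A) M) : ℒ (ResidueField A))) ^ r := by
    rw [ModFun.C_eq_algebraMap]
    refine h5.trans ?_
    rw [MulMemClass.coe_mul, pow_mul, SubmonoidClass.coe_pow]
    rfl
  exact uK_ne_pow hN.one_lt hr hr5 ⟨m * k, by rw [hk]; ring⟩ a _ h6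

end Main

/-- **[CUSP]** -/
theorem cuspStatement : CuspStatement := by
  intro N _ hN hN'
  have h2 := hN.two_le
  have h12 : ¬ (N - 1) ∣ 12 := by
    intro hd
    have h1 := Nat.le_of_dvd (by norm_num) hd
    have h3 : N ≤ 13 := by omega
    simp only [Finset.mem_insert, Finset.mem_singleton] at hN'
    interval_cases N <;> first | omega | (revert hN; norm_num)
  set n := (N - 1) / Nat.gcd (N - 1) 12 with hn
  have hgd : Nat.gcd (N - 1) 12 ∣ N - 1 := Nat.gcd_dvd_left _ _
  have hgpos : 0 < Nat.gcd (N - 1) 12 := Nat.gcd_pos_of_pos_right _ (by norm_num)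
  have hnmul : n * Nat.gcd (N - 1) 12 = N - 1 := Nat.div_mul_cancel hgd
  have hn1 : n ≠ 1 := by
    intro h
    rw [h, one_mul] at hnmul
    exact h12 (hnmul ▸ Nat.gcd_dvd_right _ _)
  obtain ⟨r, hr, hrn⟩ := Nat.exists_prime_and_dvd hn1
  have hrN1 : r ∣ N - 1 := hrn.trans ⟨_, hnmul.symm⟩
  have hrN : r ≠ N := by
    rintro rfl
    have := Nat.le_of_dvd (by omega) hrN1
    omega
  refine ⟨r, hr, hrN, fun P0 Pinf h0 hi => ?_⟩
  obtain ⟨d, e, hde, he, hord⟩ := cusp_order hN h0 hi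
  have hnd : n ∣ d := by
    have h3 : e ∣ Nat.gcd (N - 1) 12 := Nat.dvd_gcd ⟨d, by rw [← hde]; ring⟩ he
    obtain ⟨t, ht⟩ := h3
    have he0 : 0 < e := Nat.pos_of_ne_zero (by rintro rfl; omega)
    refine ⟨t, ?_⟩
    have h4 : d * e = (n * t) * e := by
      rw [hde, ← hnmul, ht]; ring
    exact Nat.eq_of_mul_eq_mul_right he0 h4
  obtain ⟨m, hm⟩ := hrn.trans hnd
  have hd0 : 0 < d := Nat.pos_of_ne_zero (by rintro rfl; omega)
  have hm0 : 0 < m := Nat.pos_of_ne_zero (by rintro rfl; omega)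
  refine ⟨m, m • cls N P0 Pinf, rfl, ?_, ?_, ?_, ?_, ?_⟩
  · intro h3
    have h4 := Nat.le_of_dvd hm0 ((hord m).mp h3)
    rw [hm] at h4
    have := hr.two_le
    nlinarith
  · rw [smul_smul, ← hm]
    exact (hord d).mpr dvd_rfl
  · intro σ
    have h3 := (DistribSMul.toAddMonoidHom (JZero N) σ).map_nsmul m (cls N P0 Pinf)
    change σ • (m • cls N P0 Pinf) = m • (σ • cls N P0 Pinf) at h3
    rw [h3, gal_cls hN h0 hi]
  · intro s hs hsN
    rw [map_nsmul, hecke_cls hN h0 hi hs hsN, smul_comm]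
  · intro hr5 A K hK
    exact red_cls hN h0 hi hr hr5 hK ⟨e, by rw [← hde, hm]⟩

end Fermat.Agent.Maz
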