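import Fermat.Agent.Maz.Glue

/-!
# FINAL: assembly of the final argument
-/

set_option autoImplicit false
set_option linter.unusedSectionVars false
set_option linter.style.haveILetI false
set_option synthInstance.maxHeartbeats 400000

namespace Fermat.Agent.Maz

open ModularCurve AlgebraicCurve Fermat.Agent.Curves Fermat.Agent.GoodRed IsLocalRing
open scoped Pointwise

local notation "Qbar" => AlgebraicClosure ℚ
local notation "GQ" => Qbar ≃ₐ[ℚ] Qbar

section Red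

/-- a kernel of reduction exists at every place over `ℓ ∤ N` -/
theorem exists_isRedKer' {N : ℕ} [NeZero N] {ℓ : ℕ} (hℓ : ℓ.Prime)
    {A : ValuationSubring Qbar} (hA : A.LiesOverPrime ℓ) (hN : ¬ ℓ ∣ N) :
    ∃ K : AddSubgroup (JZero N), IsRedKer N ℓ A K := by
  by_cases h5 : 5 ≤ ℓ
  · exact exists_isRedKer hℓ h5 hA hN
  obtain ⟨ι⟩ := exists_emb_Qbar
  have hNκ := residue_ne_zero hℓ hA hN
  obtain ⟨M, hNM, hMκ, R, c, h1, h2, h3⟩ := exists_modRed (residue A) ι residue_surjective N hNκ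
    (laurentBaseChange_eq Qbar N)
  haveI := isFunctionField_fullC (ResidueField A) M hMκ
  haveI : NeZero M := ⟨by rintro rfl; simp at hMκ⟩
  let r : RedMap A N M := ⟨R, c, h1, full_degeneracyC_le (K := ResidueField A) hNM, h2,
    fun m hm D => h3 m hm (rankOne_Qbar hℓ hA) D⟩
  exact ⟨_, hℓ, hA, hN, M, inferInstance, r, hMκ, fun h => absurd h h5, rfl⟩

/-- prime-to-`ℓ` torsion of the kernel of reduction -/
theorem IsRedKer.inj {N : ℕ} [NeZero N] {ℓ : ℕ} {A : ValuationSubring Qbar}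
    {K : AddSubgroup (JZero N)} (hK : IsRedKer N ℓ A K) {m : ℕ} (hm : ¬ ℓ ∣ m) {x : JZero N}
    (hx : m • x = 0) (h : x ∈ K) : x = 0 := by
  obtain ⟨hℓ, hA, hN, M, inst, r, -, -, rfl⟩ := hK
  exact S37.redHom_inj r hℓ hA hN hm hx h

end Red

section Alg

variable {G : Type*} [AddCommGroup G]

/-- torsion of bounded and of `r`-power order -/
theorem pow_smul_zero {r D k : ℕ} (hr : r.Prime) (hD : D ≠ 0) {t : G} (h1 : D • t = 0)
    (h2 : r ^ k • t = 0) : r ^ D • t = 0 := by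
  have h3 : addOrderOf t ∣ D := addOrderOf_dvd_of_nsmul_eq_zero h1
  have h4 : addOrderOf t ∣ r ^ k := addOrderOf_dvd_of_nsmul_eq_zero h2
  obtain ⟨i, -, hi⟩ := (Nat.dvd_prime_pow hr).mp h4
  rw [hi] at h3
  have h5 : r ^ i ≤ D := Nat.le_of_dvd (Nat.pos_of_ne_zero hD) h3
  have h6 : i < r ^ i := Nat.lt_pow_self hr.one_lt
  apply addOrderOf_dvd_iff_nsmul_eq_zero.mp
  rw [hi]
  exact pow_dvd_pow r (by omega)

end Alg

section Cls

variable {N : ℕ} [NeZero N] {y P P' : Place Qbar (modularFunctionFieldBar N)}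

theorem cls_add : cls N y P' = cls N y P + cls N P P' := by
  rw [cls, cls, cls, ← Pic0.mk_add]
  congr 1
  apply Subtype.ext
  exact (sub_add_sub_cancel _ _ _).symm

theorem cls_neg : cls N P P' = -cls N P' P := by
  rw [eq_neg_iff_add_eq_zero, cls, cls, ← Pic0.mk_add]
  have : (⟨Finsupp.single P (1 : ℤ) - Finsupp.single P' 1, by
      haveI := isFunctionField_fullC Qbar N (by exact_mod_cast NeZero.ne N)
      rw [Divisor.mem_degZero, map_sub, Divisor.degree_single, Divisor.degree_single,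
        deg_eq_one, deg_eq_one, sub_self]⟩ : Divisor.degZero (K := Qbar)
      (F := modularFunctionFieldBar N)) + ⟨Finsupp.single P' (1 : ℤ) - Finsupp.single P 1, by
      haveI := isFunctionField_fullC Qbar N (by exact_mod_cast NeZero.ne N)
      rw [Divisor.mem_degZero, map_sub, Divisor.degree_single, Divisor.degree_single,
        deg_eq_one, deg_eq_one, sub_self]⟩ = 0 := by
    apply Subtype.ext
    exact (sub_add_sub_cancel _ _ _).trans (sub_self _)
  rw [this, Pic0.mk_zero]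

theorem gal_cls_of {σ : GQ} (hy : gact N σ • y = y) (hP : gact N σ • P = P) :
    σ • cls N y P = cls N y P := by
  rw [cls, S37.gal_mk]
  congr 1
  apply Subtype.ext
  show gact N σ • (Finsupp.single y 1 - Finsupp.single P 1 :
    Divisor Qbar (modularFunctionFieldBar N)) = _
  rw [smul_sub, SemilinearAut.smul_single, SemilinearAut.smul_single, hy, hP]

theorem gal_nsmul (σ : GQ) (n : ℕ) (x : JZero N) : σ • (n • x) = n • (σ • x) :=
  (DistribSMul.toAddMonoidHom (JZero N) σ).map_nsmul n x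

theorem gal_zsmul (σ : GQ) (n : ℤ) (x : JZero N) : σ • (n • x) = n • (σ • x) :=
  (DistribSMul.toAddMonoidHom (JZero N) σ).map_zsmul n x

end Cls

/-- stability under the Hecke ring -/
theorem op_mem_K {N r : ℕ} [NeZero N] (H : HPkg N r) {K : AddSubgroup (JZero N)}
    (hK : ∀ (s : ℕ) (hs : s.Prime), s ≠ N → ∀ x ∈ K, Tj N s hs x ∈ K) (t : H.T) :
    ∀ x ∈ K, H.op t x ∈ K := by
  have h1 := H.op_mem t
  generalize H.op t = F at h1
  induction h1 using Algebra.adjoin_induction with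
  | mem F hF =>
    obtain ⟨s, hs, hsN, rfl⟩ := hF
    exact hK s hs hsN
  | algebraMap n =>
    intro x hx
    rw [Module.algebraMap_end_apply]
    exact K.zsmul_mem hx n
  | add F G _ _ hF hG =>
    intro x hx
    exact K.add_mem (hF x hx) (hG x hx)
  | mul F G _ _ hF hG =>
    intro x hx
    exact hF _ (hG x hx)

/-- **[FINAL]** -/
theorem final_of (hKey : Key) (hLD : LocDiv) (hFF : FinFrob) (hC : CuspStatement)
    (hHS : HeckeStab) (hHP : HPkgStatement) : FinalCusp := by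
  intro N _ hN hN' P0 Pinf h0 hi y hy P P' hPP h23 ℓ A K h5 hK hmem
  have h11 := five_le_of hN hN'
  obtain ⟨r, hr, hrN, hcl⟩ := hC N hN hN'
  obtain ⟨m, c, hc⟩ := hcl P0 Pinf h0 hi
  obtain ⟨H⟩ := hHP N hN (by omega) r hr hrN
  -- the cusps are fixed
  have hcusp := fun σ => gact_cusp hN h0 hi σ
  have hP : ∀ σ : GQ, gact N σ • P = P := by
    intro σ
    rcases hPP with ⟨rfl, -⟩ | ⟨rfl, -⟩
    · exact (hcusp σ).1
    · exact (hcusp σ).2
  have hP' : ∀ σ : GQ, gact N σ • P' = P' := by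
    intro σ
    rcases hPP with ⟨-, rfl⟩ | ⟨-, rfl⟩
    · exact (hcusp σ).2
    · exact (hcusp σ).1
  set x := cls N y P with hx
  set x' := cls N y P' with hx'
  have hxfix : ∀ σ : GQ, σ • x = x := fun σ => gal_cls_of (hy σ) (hP σ)
  have hxfix' : ∀ σ : GQ, σ • x' = x' := fun σ => gal_cls_of (hy σ) (hP' σ)
  -- relation with the cuspidal class
  obtain ⟨s, hs⟩ : ∃ s : ℤ, c = s • (m • x' - m • x) := by
    have hxx : m • x' - m • x = m • cls N P P' := by
      rw [hx', hx, cls_add (N := N) (y := y) (P := P) (P' := P'), nsmul_add, add_sub_cancel_left]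
    rw [hxx]
    rcases hPP with ⟨rfl, rfl⟩ | ⟨rfl, rfl⟩
    · exact ⟨1, by rw [one_smul, hc.eq]⟩
    · refine ⟨-1, ?_⟩
      rw [neg_one_zsmul, hc.eq, cls_neg (N := N) (P := P) (P' := P'), ← neg_nsmul, neg_neg]
  -- the auxiliary prime
  obtain ⟨ℓ0, hℓ0, hℓ0', hℓ0r⟩ : ∃ ℓ0 : ℕ, ℓ0.Prime ∧ (ℓ0 = 2 ∨ ℓ0 = 3) ∧ r ≠ ℓ0 := by
    by_cases h2 : r = 2
    · exact ⟨3, Nat.prime_three, Or.inr rfl, by omega⟩
    · exact ⟨2, Nat.prime_two, Or.inl rfl, h2⟩
  obtain ⟨A0, hA0⟩ := Frob.exists_liesOverPrime Qbar hℓ0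
  have hℓ0N : ¬ ℓ0 ∣ N := by
    intro h
    have := (Nat.prime_dvd_prime_iff_eq hℓ0 hN).mp h
    omega
  obtain ⟨K0, hK0⟩ := exists_isRedKer' (N := N) hℓ0 hA0 hℓ0N
  have hxK0 : x ∈ K0 := h23 ℓ0 A0 K0 hℓ0' hK0
  have hdiv := hLD N ℓ0 A0 K0 hK0 r hr hℓ0r y P x rfl hxK0 (fun σ _ => hxfix σ)
  obtain ⟨a, ha⟩ := hKey N hN (by omega) r hr hrN H c hc.ne hc.tors hc.gal hc.hecke
  obtain ⟨D, hD0, hD⟩ := hFF N ℓ0 A0 K0 hK0
  obtain ⟨D1, hD10, hD1⟩ := hFF N ℓ A K hK
  set j := D + D1 with hj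
  obtain ⟨e, hec, he⟩ := ha (a + j)
  obtain ⟨z, hzfix, hz⟩ := he x hxfix (fun i => by
    obtain ⟨w, -, hw⟩ := hdiv i
    exact ⟨w, hw⟩)
  have hrℓ0 : ∀ i : ℕ, ¬ ℓ0 ∣ r ^ i := by
    intro i h
    have h1 := hℓ0.dvd_of_dvd_pow h
    exact hℓ0r ((Nat.prime_dvd_prime_iff_eq hℓ0 hr).mp h1).symm
  -- (i)
  have hi1 : H.op e x = r ^ j • z := by
    obtain ⟨w, hwfix, hw⟩ := hdiv j
    set t := H.op e w - z with ht
    have htfix : ∀ σ ∈ A0.decompositionSubgroup ℚ, σ • t = t := by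
      intro σ hσ
      rw [ht, smul_sub, ← H.op_gal, hwfix σ hσ, hzfix]
    have ht1 : r ^ j • t = H.op e x - r ^ j • z := by
      rw [ht, nsmul_sub, ← map_nsmul, hw]
    have ht2 : r ^ (a + j) • t = 0 := by
      rw [pow_add, mul_smul, ht1, nsmul_sub, hz, smul_smul, ← pow_add, sub_self]
    have ht3 : D • t = 0 := by
      refine hK0.inj (hrℓ0 (a + j)) ?_ (hD t htfix)
      rw [smul_smul, mul_comm, ← smul_smul, ht2, smul_zero]
    have ht4 := pow_smul_zero hr hD0 ht3 ht2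
    have ht5 : r ^ j • t = 0 := by
      rw [hj, pow_add, mul_comm, ← smul_smul, ht4, smul_zero]
    rw [ht1] at ht5
    exact sub_eq_zero.mp ht5
  have hopc : c = s • (m • H.op e x' - m • (r ^ j • z)) := by
    rw [← hi1, ← map_nsmul, ← map_nsmul, ← map_sub, ← map_zsmul, ← hs, hec]
  by_cases hrℓ : r = ℓ
  · -- the case `ℓ = r`
    subst hrℓ
    obtain ⟨b, D2, hD2, hD2'⟩ : ∃ b D2 : ℕ, ¬ r ∣ D2 ∧ D1 = r ^ b * D2 :=
      Nat.exists_eq_pow_mul_and_not_dvd hD10 r hr.ne_one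
    have hb : b ≤ j := by
      have h1 : r ^ b ≤ D1 := Nat.le_of_dvd (Nat.pos_of_ne_zero hD10) ⟨D2, hD2'⟩
      have h2 : b < r ^ b := Nat.lt_pow_self hr.one_lt
      omega
    have hz1 : D2 • (r ^ j • z) ∈ K := by
      have h1 : D2 • (r ^ j • z) = r ^ (j - b) • (D1 • z) := by
        rw [smul_smul, smul_smul, hD2', ← mul_assoc, ← pow_add, Nat.sub_add_cancel hb, mul_comm]
      rw [h1]
      exact K.nsmul_mem (hD1 z (fun σ _ => hzfix σ)) _
    have hx1 : H.op e x' ∈ K := op_mem_K H (fun s hs hsN x hx =>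
      hHS N hN r A K h5 hK s hs hsN x hx) e x' hmem
    have hc1 : D2 • c ∈ K := by
      have h1 : D2 • c = s • (m • (D2 • H.op e x') - m • (D2 • (r ^ j • z))) := by
        rw [hopc, smul_comm D2 s, nsmul_sub, smul_comm D2 m, smul_comm D2 m]
      rw [h1]
      exact K.zsmul_mem (K.sub_mem (K.nsmul_mem (K.nsmul_mem hx1 _) _) (K.nsmul_mem hz1 _)) _
    have hc2 : c ∈ K := by
      have hcop : Nat.Coprime D2 r := (Nat.Coprime.symm ((Nat.Prime.coprime_iff_not_dvd hr).mpr hD2))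
      have h1 := Nat.gcd_eq_gcd_ab D2 r
      rw [hcop.gcd_eq_one] at h1
      have h2 : c = (Nat.gcdA D2 r) • (D2 • c) := by
        have h3 : (1 : ℤ) • c = ((D2 : ℤ) * Nat.gcdA D2 r + (r : ℤ) * Nat.gcdB D2 r) • c := by
          rw [← h1]; rfl
        have h4 : ((r : ℤ) * Nat.gcdB D2 r) • c = 0 := by
          rw [mul_comm, mul_zsmul, natCast_zsmul, hc.tors, zsmul_zero]
        have h5 : ((D2 : ℤ) * Nat.gcdA D2 r) • c = Nat.gcdA D2 r • (D2 • c) := by
          rw [mul_comm, mul_zsmul, natCast_zsmul]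
        rw [one_zsmul, add_zsmul, h4, add_zero, h5] at h3
        exact h3
      rw [h2]
      exact K.zsmul_mem hc1 _
    exact hc.red h5 A K hK hc2
  · -- the case `ℓ ≠ r`
    obtain ⟨w, hwfix, hw⟩ := hLD N ℓ A K hK r hr hrℓ y P' x' rfl hmem (fun σ _ => hxfix' σ) j
    have hℓ : ℓ.Prime := hK.1
    have hrℓ' : ∀ i : ℕ, ¬ ℓ ∣ r ^ i := by
      intro i h
      have h1 := hℓ.dvd_of_dvd_pow h
      exact hrℓ ((Nat.prime_dvd_prime_iff_eq hℓ hr).mp h1).symm
    set t := s • (m • (H.op e w - z)) with ht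
    have htfix : ∀ σ ∈ A.decompositionSubgroup ℚ, σ • t = t := by
      intro σ hσ
      rw [ht, gal_zsmul, gal_nsmul, smul_sub, ← H.op_gal, hwfix σ hσ, hzfix]
    have ht1 : c = r ^ j • t := by
      have e1 : r ^ j • H.op e w = H.op e x' := by rw [← map_nsmul, hw]
      rw [hopc, ht, smul_comm (r ^ j) s, smul_comm (r ^ j) m, nsmul_sub (n := r ^ j), e1, nsmul_sub]
    have ht2 : r ^ (j + 1) • t = 0 := by
      rw [pow_succ', mul_smul, ← ht1, hc.tors]
    have ht3 : D1 • t = 0 := by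
      refine hK.inj (hrℓ' (j + 1)) ?_ (hD1 t htfix)
      rw [smul_smul, mul_comm, ← smul_smul, ht2, smul_zero]
    have ht4 := pow_smul_zero hr hD10 ht3 ht2
    apply hc.ne
    rw [ht1, hj, pow_add, mul_smul, ht4, smul_zero]

end Fermat.Agent.Maz
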