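import Fermat.Agent.Maz.Glue
import Fermat.Agent.S10
import Fermat.Agent.S11
import Fermat.Agent.S13
import Fermat.Agent.MazY.Final

/-!
# S09, S12 from FINAL
-/

set_option autoImplicit false

namespace Fermat.Agent.Maz

open WeierstrassCurve WeierstrassCurve.Affine WeierstrassCurve.Affine.Point

theorem s12_final (hF : FinalCusp) (P : FreyPackage) (hp : 17 ≤ P.p) :
    ¬ HasGaloisStableCofixedLine (K := AlgebraicClosure ℚ) ℚ P.freyCurve P.p :=
  FreyS.s12_of (s15c_of MazY.moduli hF) P hp

theorem s09_final (hF : FinalCusp) (P : FreyPackage) :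
    GaloisRepIsIrreducible (K := AlgebraicClosure ℚ) ℚ P.freyCurve P.p := by
  by_contra hcon
  have h1 := S13.result P hcon
  have hp := P.pp
  have h5 := P.hp5
  by_cases h17 : 17 ≤ P.p
  · exact s12_final hF P h17 h1
  · have h2 : P.p = 5 ∨ P.p = 7 ∨ P.p = 13 ∨ P.p = 11 := by
      generalize P.p = p at hp h5 h17
      push Not at h17
      interval_cases p <;> first | omega | (revert hp; norm_num)
    rcases h2 with h | h | h | h
    · exact S10.result P (Or.inl h) h1
    · exact S10.result P (Or.inr (Or.inl h)) h1
    · exact S10.result P (Or.inr (Or.inr h)) h1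
    · exact S11.result P h h1

end Fermat.Agent.Maz
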