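import Fermat.Agent.Maz.KeyA

set_option autoImplicit false
set_option linter.unusedSectionVars false

/-! # The package attached to the input data -/

noncomputable section

namespace Fermat.Agent.Maz

open Fermat.Agent.ECRed Fermat.Agent.Carayol Fermat.Agent.FU OrdFn
open Fermat.Agent.TWGal Fermat.Agent.TWPr
open scoped Pointwise TensorProduct

lemma cy_toZModPow {r : ℕ} [hr : Fact r.Prime] {k c : ℕ} {g : GQ} (h : Cy r k g c) :
    (((c : ℕ) : ℤ) : ZMod (r ^ k)) = PadicInt.toZModPow k (GalRep.cycP r g) := by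
  haveI : NeZero (r ^ k) := ⟨pow_ne_zero k hr.out.ne_zero⟩
  haveI : NeZero ((r ^ k : ℕ) : Qb) := ⟨by exact_mod_cast pow_ne_zero k hr.out.ne_zero⟩
  obtain ⟨ζ, hζ⟩ := HasEnoughRootsOfUnity.exists_primitiveRoot Qb (r ^ k)
  have hζ0 : ζ ≠ 0 := hζ.ne_zero (pow_ne_zero k hr.out.ne_zero)
  have h1 := (h ζ hζ.pow_eq_one).symm.trans (GalRep.cycP_spec r g hζ.pow_eq_one)
  have h3 : ζ ^ ((c : ℤ) - ((PadicInt.toZModPow k (GalRep.cycP r g)).val : ℤ)) = 1 := by
    rw [zpow_sub₀ hζ0, zpow_natCast, zpow_natCast, h1, div_self (pow_ne_zero _ hζ0)]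
  have h5 := (hζ.zpow_eq_one_iff_dvd _).mp h3
  have h6 := (ZMod.intCast_zmod_eq_zero_iff_dvd _ (r ^ k)).mpr h5
  rw [Int.cast_sub, sub_eq_zero, Int.cast_natCast ((PadicInt.toZModPow k _).val),
    ZMod.natCast_zmod_val] at h6
  exact h6

namespace KD

variable {J : Type} [AddCommGroup J] [DistribMulAction GQ J] {T : Type} [CommRing T]
  {N r : ℕ} {pl : ℕ → ValuationSubring Qb} {op : T → J → J} {I : Ideal T} {Tr : T}
  {K : AddSubgroup J} {c₀ : J} (H : KD J T N r pl op I Tr K c₀)
include H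

/-- the part on which the inertia group at `r` acts through the cyclotomic character -/
def Ek (H : KD J T N r pl op I Tr K c₀) (k : ℕ) : AddSubgroup J where
  carrier := {z | z ∈ H.Xt ∧ r ^ k • z = 0 ∧ ∀ t : T, op t z ∈ K}
  zero_mem' := ⟨H.Xt.zero_mem, smul_zero _, fun t => by rw [H.op_z]; exact K.zero_mem⟩
  add_mem' := fun {a b} ha hb => ⟨H.Xt.add_mem ha.1 hb.1, by rw [smul_add, ha.2.1, hb.2.1, add_zero],
    fun t => by rw [H.op_sum]; exact K.add_mem (ha.2.2 t) (hb.2.2 t)⟩
  neg_mem' := fun {a} ha => ⟨H.Xt.neg_mem ha.1, by rw [smul_neg, ha.2.1, neg_zero],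
    fun t => by rw [H.op_neg]; exact K.neg_mem (ha.2.2 t)⟩

lemma Ek_cyc {k : ℕ} {z : J} (hz : z ∈ H.Ek k) {σ : GQ} (hσ : σ ∈ (pl r).inertiaSubgroupIn ℚ)
    {c : ℕ} (hc : Cy r k σ c) : σ • z = c • z := by
  refine H.a12 k (H.Ek k) (fun x hx => hx.2.1) ?_ ?_ ?_ σ hσ c hc z hz
  · intro x hx
    have := hx.2.2 1
    rwa [H.op_one] at this
  · intro x hx
    refine ⟨H.sbX.opS _ x hx.1, H.op_tor hx.2.1, fun t => ?_⟩
    rw [← H.op_mul _ _ k x hx.2.1]
    exact hx.2.2 _
  · intro x hx h0
    letI := H.tMod H.sbX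
    set y : H.Xt := ⟨x, hx.1⟩ with hy
    have hk : r ^ k • y = 0 := Subtype.ext hx.2.1
    have h1 : Tr • y = 0 := Subtype.ext h0
    obtain ⟨j, hj⟩ := hx.1.2 _ (H.I_le H.Trη)
    have hj' : (Tr - 1 - (r : T)) ^ j • y = 0 := Subtype.ext hj
    have h2 : ∀ i : ℕ, (Tr - 1 - (r : T)) ^ i • y = (-(1 + (r : T))) ^ i • y := by
      intro i
      induction i with
      | zero => rw [pow_zero, pow_zero]
      | succ i ih =>
        rw [pow_succ', mul_smul, ih, smul_comm, pow_succ, mul_smul]
        congr 1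
        have e : Tr - 1 - (r : T) = Tr + -(1 + (r : T)) := by ring
        rw [e, add_smul, h1, zero_add]
    rw [h2] at hj'
    have h3 : (1 + r) ^ j • y = 0 := by
      have h4 : ((1 + (r : T)) ^ j) • y = 0 := by
        have h5 : (1 + (r : T)) ^ j = (-1) ^ j * (-(1 + (r : T))) ^ j := by
          rw [← mul_pow]; congr 1; ring
        rw [h5, mul_smul, hj', smul_zero]
      have h6 : (((1 + r) ^ j : ℕ) : T) = (1 + (r : T)) ^ j := by push_cast; ring
      rw [← h6, Nat.cast_smul_eq_nsmul] at h4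
      exact h4
    have hco : Nat.Coprime ((1 + r) ^ j) (r ^ k) := by
      apply Nat.Coprime.pow
      rw [Nat.coprime_add_self_left]
      exact Nat.coprime_one_left r
    have h9 := Nat.dvd_gcd (addOrderOf_dvd_of_nsmul_eq_zero h3)
      (addOrderOf_dvd_of_nsmul_eq_zero hk)
    rw [hco.gcd_eq_one, Nat.dvd_one] at h9
    exact congrArg Subtype.val (AddMonoid.addOrderOf_eq_one_iff.mp h9)

variable [Module.Finite ℤ T] [Module.Free ℤ T] [IsReduced T]

theorem exists_xp [hf : Fact r.Prime] :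
    letI := H.tMod H.sbX
    letI := rrMod T (H.rt H.sbX)
    letI := subAct H.Xt H.sbX.gal
    ∃ (w t : GQ → Rr r T), XP H.Xt (Rr r T) N r pl w t := by
  have hX := H.rt H.sbX
  have hV := H.rt H.sbV
  letI := H.tMod H.sbX
  letI := rrMod T (H.rt H.sbX)
  letI := subAct H.Xt H.sbX.gal
  letI := H.tMod H.sbV
  letI := rrMod T (H.rt H.sbV)
  letI := subAct H.Vt H.sbV.gal
  let w : GQ → Rr r T := fun g => (GalRep.cycP r g) ⊗ₜ[ℤ] (1 : T)
  -- the cyclotomic element
  have hwX : ∀ (g : GQ) (k c : ℕ), Cy r k g c → ∀ x : H.Xt, r ^ k • x = 0 → w g • x = c • x := by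
    intro g k c hc x hx
    have h1 := rr_smul_eq T hX hx (cy_toZModPow hc) (1 : T)
    rw [one_smul, natCast_zsmul] at h1
    exact h1
  have hwV : ∀ (g : GQ) (k c : ℕ), Cy r k g c → ∀ x : H.Vt, r ^ k • x = 0 → w g • x = c • x := by
    intro g k c hc x hx
    have h1 := rr_smul_eq T hV hx (cy_toZModPow hc) (1 : T)
    rw [one_smul, natCast_zsmul] at h1
    exact h1
  obtain ⟨b, hb⟩ := H.sat
  have hlim : ∀ g : GQ, ∃ ρ : Rr r T, ∀ v : H.Vt, g • v + w g • g⁻¹ • v = ρ • v := by
    intro g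
    refine exists_lim T hV (b := b) ?_ (fun v => g • v + w g • g⁻¹ • v) ?_
    · intro k t ht
      refine hb k t fun x hx => ?_
      exact congrArg Subtype.val (ht ⟨x, ⟨_, hx⟩⟩ (Subtype.ext hx))
    · intro k
      obtain ⟨t, c, hc, -, h1⟩ := H.es g k
      refine ⟨t, fun v hv => ?_⟩
      have hv' : r ^ k • (g⁻¹ • v) = 0 := by rw [smul_comm, hv, smul_zero]
      show g • v + w g • g⁻¹ • v = t • v
      rw [hwV g k c hc _ hv']
      exact Subtype.ext (h1 v (congrArg Subtype.val hv))
  choose t ht using hlim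
  -- the inclusion
  let i : H.Xt →+ H.Vt := AddMonoidHom.mk' (fun x => ⟨x, x.2.1⟩) (fun _ _ => rfl)
  have hi : ∀ x y : H.Xt, i x = i y → x = y := fun x y h =>
    Subtype.ext (show (x : J) = y from congrArg (fun v : H.Vt => (v : J)) h)
  have hiR : ∀ (ρ : Rr r T) (x : H.Xt), i (ρ • x) = ρ • i x := fun ρ x =>
    rr_map T hX hV i (fun _ _ => rfl) ρ x
  have hes : ∀ (g : GQ) (x : H.Xt), g • x + w g • g⁻¹ • x = t g • x := by
    intro g x
    apply hi
    rw [map_add, hiR, hiR]
    exact ht g (i x)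
  -- elements of `T`
  let ir : T →+* Rr r T := (Algebra.TensorProduct.includeRight : T →ₐ[ℤ] Rr r T).toRingHom
  have hir : ∀ (s : T) (x : H.Xt), ir s • x = s • x := fun s x => rr_one_smul T hX x s
  have hXm : ∀ z : H.Xt, (∀ s : T, op s z ∈ K) → Xm r pl w z := by
    intro z hz τ hτ
    obtain ⟨k, hk⟩ := hX z
    obtain ⟨c, hc⟩ := exists_cy H.hr τ k
    rw [hwX τ k c hc z hk]
    exact Subtype.ext (H.Ek_cyc (k := k) ⟨z.2, congrArg Subtype.val hk, hz⟩ hτ hc)
  refine ⟨w, t, ?_⟩
  haveI := reduced_padic T r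
  exact
    { hN := H.hN
      hr := H.hr
      hrN := H.hrN
      hpl := H.hpl
      noe := IsNoetherianRing.of_finite ℤ_[r] (Rr r T)
      ss := fun s => exists_ss r s
      tors := hX
      fin := fun k => by
        haveI := (H.finJ k).to_subtype
        refine Set.Finite.of_finite_image (f := fun x : H.Xt => (x : J)) ?_ ?_
        · refine (H.finJ k).subset ?_
          rintro _ ⟨x, hx, rfl⟩
          exact congrArg Subtype.val hx
        · exact Subtype.val_injective.injOn
      lev := fun x => by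
        obtain ⟨L, hL, h⟩ := H.levJ x
        exact ⟨L, hL, fun g hg => Subtype.ext (h g hg)⟩
      comm := fun g ρ x => rr_comm T hX (DistribMulAction.toAddMonoidHom H.Xt g)
        (fun s v => Subtype.ext (H.op_gal s g v).symm) ρ x
      cyc := hwX
      es := hes
      nil := fun g x => by
        obtain ⟨k, hk⟩ := hX x
        obtain ⟨s, c, hc, hI, h1⟩ := H.es g k
        have h2 : ∀ y : H.Xt, r ^ k • y = 0 → (t g - 1 - w g) • y = (s - 1 - (c : T)) • y := by
          intro y hy
          have hy' : r ^ k • (g⁻¹ • y) = 0 := by rw [smul_comm, hy, smul_zero]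
          rw [sub_smul, sub_smul, one_smul, ← hes, hwX g k c hc y hy, hwX g k c hc _ hy',
            sub_smul, sub_smul, one_smul, Nat.cast_smul_eq_nsmul]
          congr 2
          exact Subtype.ext (h1 y (congrArg Subtype.val hy))
        have h3 : ∀ j : ℕ, (t g - 1 - w g) ^ j • x = (s - 1 - (c : T)) ^ j • x := by
          intro j
          induction j with
          | zero => rw [pow_zero, pow_zero, one_smul, one_smul]
          | succ j ih =>
            have h4 : r ^ k • ((s - 1 - (c : T)) ^ j • x) = 0 := by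
              rw [smul_comm, hk, smul_zero]
            rw [pow_succ', mul_smul, ih, h2 _ h4, pow_succ', mul_smul]
        obtain ⟨j, hj⟩ := x.2.2 _ (H.I_le hI)
        exact ⟨j, (h3 j).trans (Subtype.ext hj)⟩
      eis := by
        obtain ⟨g, s, Ts, u, D, hD, hu, hcy, h1⟩ := H.eis
        refine ⟨g, ir u, D, hD, fun x => ?_⟩
        obtain ⟨k, hk⟩ := hX x
        have hk' : r ^ k • (g⁻¹ • x) = 0 := by rw [smul_comm, hk, smul_zero]
        have h2 : t g • x = Ts • x := by
          rw [← hes, hwX g k s (hcy k) _ hk']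
          exact Subtype.ext (h1 k x (congrArg Subtype.val hk))
        rw [hir, h2, hwX g k s (hcy k) x hk]
        have h3 : Ts • x - x - s • x = (Ts - 1 - (s : T)) • x := by
          rw [sub_smul, sub_smul, one_smul, Nat.cast_smul_eq_nsmul]
        rw [h3, ← mul_smul, mul_comm, hu, Nat.cast_smul_eq_nsmul]
      away := fun q hq hqr hqN σ hσ x => by
        obtain ⟨k, hk⟩ := hX x
        refine Subtype.ext (H.away q hq hqr hqN σ hσ k x ?_)
        have hk' : r ^ k • (x : J) = 0 := congrArg Subtype.val hk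
        rw [smul_sub, smul_comm, hk', smul_zero, sub_zero]
      uni := fun σ hσ x => by
        obtain ⟨k, hk⟩ := hX x
        exact Subtype.ext (H.uni σ hσ k x (congrArg Subtype.val hk))
      atr := fun σ hσ x => hXm _ fun s => by
        have h1 : op s (σ • (x : J) - x) = σ • op s x - op s x := by rw [H.op_sub, H.op_gal]
        show op s (σ • (x : J) - x) ∈ K
        rw [h1]
        exact H.inr σ hσ _
      frob := by
        obtain ⟨u, u', D, D', hD, hD', hu, hu'⟩ := H.eta
        refine ⟨ir Tr, ir u, ir u', D, D', hD, hD', ?_, ?_, ?_⟩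
        · rw [← map_natCast ir r, ← map_one ir, ← map_sub, ← map_sub, ← map_mul, hu, map_natCast]
        · rw [← map_natCast ir r, ← map_one ir, ← map_add, ← map_add, ← map_mul, hu', map_natCast]
        · intro φ hφ x
          rw [hir]
          refine hXm _ fun s => ?_
          obtain ⟨k, hk⟩ := x.2.1
          have hk' : r ^ k • (φ • (x : J)) = 0 := by rw [smul_comm, hk, smul_zero]
          have h1 : op s (φ • φ • (x : J) - op Tr (φ • (x : J)) + r • (x : J)) =
              φ • φ • (op s x) - op Tr (φ • op s x) + r • op s x := by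
            rw [H.op_sum, H.op_sub, H.op_nsmul, H.op_gal, H.op_gal, ← H.op_mul _ _ k _ hk',
              mul_comm, H.op_mul _ _ k _ hk', H.op_gal s φ]
          show op s (φ • φ • (x : J) - op Tr (φ • (x : J)) + r • (x : J)) ∈ K
          rw [h1]
          exact H.frr φ hφ k _ (H.op_tor hk) }

/-- **the abstract KEY** -/
theorem key : ∃ a : ℕ, ∀ k : ℕ, ∃ e : T, op e c₀ = c₀ ∧
    ∀ x : J, (∀ σ : GQ, σ • x = x) → (∃ y : J, r ^ k • y = x) →
      ∃ z : J, (∀ σ : GQ, σ • z = z) ∧ r ^ a • op e x = r ^ k • z := by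
  classical
  haveI : Fact r.Prime := ⟨H.hr⟩
  letI := H.tMod H.sbX
  letI := rrMod T (H.rt H.sbX)
  letI := subAct H.Xt H.sbX.gal
  obtain ⟨w, t, P⟩ := H.exists_xp
  obtain ⟨B, C, hB, hcount⟩ := P.final_count
  -- the `r`-part of `B * C!`
  obtain ⟨a, b', hb', hab⟩ : ∃ a b' : ℕ, Nat.Coprime b' r ∧ B * C.factorial = r ^ a * b' := by
    obtain ⟨a, b', h1, h2⟩ := Nat.exists_eq_pow_mul_and_not_dvd
      (mul_ne_zero hB (Nat.factorial_ne_zero C)) r H.hr.ne_one
    exact ⟨a, b', ((Nat.Prime.coprime_iff_not_dvd H.hr).mpr h1).symm, h2⟩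
  refine ⟨a, fun k => ?_⟩
  obtain ⟨e, he, hec⟩ := H.exists_e k
  refine ⟨e, hec, fun x hx ⟨y₀, hy₀⟩ => ?_⟩
  -- choose division points
  let dv : ℕ → J := fun n => n • y₀
  have hdv : ∀ n : ℕ, r ^ k • dv n = n • x := by
    intro n
    show r ^ k • n • y₀ = n • x
    rw [smul_comm, hy₀]
  have hcm : ∀ (n : ℕ) (g : GQ), op e (g • dv n - dv n) ∈ H.Xt := by
    intro n g
    apply he
    have h1 : g • (n • x) = n • x := by rw [smul_comm, hx]
    rw [smul_sub, smul_comm, hdv, h1, sub_self]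
  let cc : ℕ → GQ → H.Xt := fun n g => ⟨op e (g • dv n - dv n), hcm n g⟩
  have hcc : ∀ n g, ((cc n g : H.Xt) : J) = g • op e (dv n) - op e (dv n) := by
    intro n g
    show op e (g • dv n - dv n) = _
    rw [H.op_sub, H.op_gal]
  have hex : ∀ n : ℕ, r ^ k • op e (dv n) = n • op e x := by
    intro n
    rw [← H.op_nsmul, hdv, H.op_nsmul]
  -- the equivalence
  have hkey : ∃ i ∈ Finset.range (C + 1), ∃ j ∈ Finset.range (C + 1), i ≠ j ∧
      ∃ m : H.Xt, r ^ k • m = 0 ∧ ∀ g : GQ, B • (cc i g - cc j g) = g • m - m := by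
    by_contra hcon
    push Not at hcon
    have hinj : Set.InjOn cc (Finset.range (C + 1)) := by
      intro i hi j hj hij
      by_contra hne
      obtain ⟨g, hg⟩ := hcon i hi j hj hne 0 (smul_zero _)
      apply hg
      rw [hij, sub_self, smul_zero, smul_zero, sub_self]
    have h1 := hcount k ((Finset.range (C + 1)).image cc) (by
      intro c hc
      obtain ⟨n, -, rfl⟩ := Finset.mem_image.mp hc
      refine ⟨⟨?_, ?_, ?_, ?_⟩, ?_⟩
      · intro g h
        apply Subtype.ext
        show ((cc n (g * h) : H.Xt) : J) = ((cc n g : H.Xt) : J) + g • ((cc n h : H.Xt) : J)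
        rw [hcc, hcc, hcc, mul_smul, smul_sub]; abel
      · obtain ⟨L, hL, h⟩ := H.levJ (dv n)
        refine ⟨L, hL, fun g hg => Subtype.ext ?_⟩
        show op e (g • dv n - dv n) = 0
        rw [h g hg, sub_self, H.op_z]
      · intro g hg τ hτ
        have hk : r ^ k • ((cc n g : H.Xt) : J) = 0 := by
          rw [hcc, smul_sub, smul_comm, hex]
          have : g • (n • op e x) = n • op e x := by rw [smul_comm, ← H.op_gal, hx]
          rw [this, sub_self]
        obtain ⟨c, hc⟩ := exists_cy H.hr τ k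
        rw [P.cyc τ k c hc _ (Subtype.ext hk)]
        refine Subtype.ext (H.Ek_cyc (k := k) ⟨(cc n g).2, hk, fun s => ?_⟩ hτ hc)
        rw [hcc, H.op_sub, H.op_gal]
        exact H.inr g hg _
      · intro g
        apply Subtype.ext
        show r ^ k • ((cc n g : H.Xt) : J) = 0
        rw [hcc, smul_sub, smul_comm, hex]
        have : g • (n • op e x) = n • op e x := by rw [smul_comm, ← H.op_gal, hx]
        rw [this, sub_self]
      · intro q hq hqr hqN g hg
        apply Subtype.ext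
        show op e (g • dv n - dv n) = 0
        have h2 : r ^ k • (g • dv n - dv n) = 0 := by
          have h1 : g • (n • x) = n • x := by rw [smul_comm, hx]
          rw [smul_sub, smul_comm, hdv, h1, sub_self]
        rw [H.away q hq hqr hqN g hg k _ h2, sub_self, H.op_z]) (by
      intro c hc c' hc' ⟨m, hm, hm'⟩
      obtain ⟨i, hi, rfl⟩ := Finset.mem_image.mp hc
      obtain ⟨j, hj, rfl⟩ := Finset.mem_image.mp hc'
      by_contra hne
      have hij : i ≠ j := fun h => hne (by rw [h])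
      obtain ⟨g, hg⟩ := hcon i hi j hj hij m hm
      exact hg (hm' g))
    rw [Finset.card_image_of_injOn hinj, Finset.card_range] at h1
    omega
  obtain ⟨i, hi, j, hj, hij, m, hm, hm'⟩ := hkey
  wlog hlt : j < i generalizing i j m
  · refine this j hj i hi hij.symm (-m) ?_ ?_ (by omega)
    · rw [smul_neg, hm, neg_zero]
    · intro g
      rw [← neg_sub (cc i g), smul_neg, hm' g, smul_neg]; abel
  -- the rational point
  set z₀ : J := B • (op e (dv i) - op e (dv j)) - (m : J) with hz₀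
  have hz₀g : ∀ g : GQ, g • z₀ = z₀ := by
    intro g
    have h1 : B • (((cc i g : H.Xt) : J) - ((cc j g : H.Xt) : J)) = g • (m : J) - (m : J) :=
      congrArg Subtype.val (hm' g)
    rw [hcc, hcc] at h1
    rw [← sub_eq_zero, hz₀, smul_sub, smul_comm, smul_sub]
    have h2 : B • (g • op e (dv i) - g • op e (dv j)) - g • (m : J) -
        (B • (op e (dv i) - op e (dv j)) - (m : J)) =
        B • (g • op e (dv i) - op e (dv i) -
          (g • op e (dv j) - op e (dv j))) - (g • (m : J) - (m : J)) := by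
      simp only [smul_sub]
      abel
    rw [h2, h1, sub_self]
  have hz₀k : r ^ k • z₀ = (B * (i - j)) • op e x := by
    have hmk : r ^ k • (m : J) = 0 := congrArg Subtype.val hm
    have hsub : i • op e x - j • op e x = (i - j) • op e x := by
      rw [sub_eq_iff_eq_add, ← add_smul, Nat.sub_add_cancel hlt.le]
    rw [hz₀, smul_sub, hmk, sub_zero, smul_comm, smul_sub, hex, hex, mul_smul, hsub]
  obtain ⟨q, hq⟩ : (i - j) ∣ C.factorial := by
    refine Nat.dvd_factorial (by omega) ?_
    rw [Finset.mem_range] at hi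
    omega
  have h3 : (r ^ a * b') • op e x = r ^ k • (q • z₀) := by
    rw [← hab, smul_comm, hz₀k, ← mul_smul, hq]
    congr 1
    ring
  -- Bezout
  have hco : IsCoprime (b' : ℤ) ((r : ℤ) ^ k) := by
    have := Nat.Coprime.pow_right k hb'
    have h4 := Nat.isCoprime_iff_coprime.mpr this
    rwa [Nat.cast_pow] at h4
  obtain ⟨α, β, hαβ⟩ := hco
  refine ⟨α • (q • z₀) + (β * (r : ℤ) ^ a) • op e x, fun σ => ?_, ?_⟩
  · rw [smul_add, smul_comm σ α, smul_comm σ q, hz₀g, smul_comm σ (β * (r : ℤ) ^ a), ← H.op_gal,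
      hx]
  · have h4 : ∀ y : J, r ^ a • y = ((r : ℤ) ^ a) • y := fun y => by
      rw [← Nat.cast_pow, natCast_zsmul]
    have h5 : ∀ y : J, r ^ k • y = ((r : ℤ) ^ k) • y := fun y => by
      rw [← Nat.cast_pow, natCast_zsmul]
    have h6 : ((r : ℤ) ^ a * b') • op e x = ((r : ℤ) ^ k) • (q • z₀) := by
      rw [← h5, ← h3, ← natCast_zsmul, Nat.cast_mul, Nat.cast_pow]
    rw [h4, h5, smul_add, smul_comm _ α, ← h6, smul_smul, smul_smul, ← add_smul]
    congr 1
    linear_combination (-((r : ℤ) ^ a)) * hαβ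

end KD

end Fermat.Agent.Maz
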