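import Fermat.Agent.Maz.Defs
import Fermat.Agent.Maz.KeyB
import Fermat.Agent.Maz.LevJ

/-!
# KEY
-/

set_option autoImplicit false
set_option linter.unusedSectionVars false
set_option linter.style.haveILetI false
set_option synthInstance.maxHeartbeats 400000

noncomputable section

namespace Fermat.Agent.Maz

open ModularCurve AlgebraicCurve Fermat.Agent.Curves Fermat.Agent.GoodRed IsLocalRing
open scoped Pointwise

local notation "Qbar" => AlgebraicClosure ℚ

section Red

/-- existence of the kernels of reduction -/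
theorem exists_redK {N : ℕ} [NeZero N] {ℓ : ℕ} (hℓ : ℓ.Prime)
    {A : ValuationSubring Qbar} (hA : A.LiesOverPrime ℓ) (hN : ¬ ℓ ∣ N) :
    ∃ K : AddSubgroup (JZero N), IsRedKer N ℓ A K := by
  obtain ⟨ι⟩ := exists_emb_Qbar
  have hNκ := residue_ne_zero hℓ hA hN
  by_cases h5 : 5 ≤ ℓ
  · haveI := isFunctionField_fullC (ResidueField A) N hNκ
    have h6 : (6 : ResidueField A) ≠ 0 := by
      have h1 : ((6 : ℕ) : ResidueField A) ≠ 0 := residue_ne_zero hℓ hA (by
        intro h
        have h3 : ℓ ∣ 2 * 3 := by norm_num; exact h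
        rcases (Nat.Prime.dvd_mul hℓ).mp h3 with h4 | h4
        · have := Nat.le_of_dvd (by norm_num) h4
          omega
        · have := Nat.le_of_dvd (by norm_num) h4
          omega)
      exact_mod_cast h1
    have hred : ∀ (E : IntermediateField Qbar (LaurentSeries Qbar))
        (_ : E = modularFunctionFieldFullC Qbar N) [IsFunctionField Qbar E],
        ∃ (R : Divisor Qbar E →+ Divisor (ResidueField A)
          (modularFunctionFieldFullC (ResidueField A) N)) (c : ℤ), PosDeg R c ∧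
        (∀ (f : E) (fb : modularFunctionFieldFullC (ResidueField A) N),
          LR (residue A) (f : LaurentSeries Qbar) (fb : LaurentSeries (ResidueField A)) → fb ≠ 0 →
            R (divisorOf f) = divisorOf fb) ∧
        (∀ m : ℕ, (m : ResidueField A) ≠ 0 → RankOne (residue A) → ∀ D : Divisor Qbar E,
          (m • D).IsPrincipal → (R D).IsPrincipal → D.IsPrincipal) := by
      intro E hE _
      subst hE
      have hNK : (N : Qbar) ≠ 0 := by exact_mod_cast NeZero.ne N
      exact modRed_of_hasGood (residue A) dvd_rfl hNκ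
        (hasGood_of_six (residue A) N ι h6 residue_surjective hNK hNκ) (fun m _ => by
          rw [IntermediateField.relfinrank_self]
          exact Nat.coprime_one_left m)
    obtain ⟨R, c, h1, h2, h3⟩ := hred _ (laurentBaseChange_eq Qbar N)
    let r : RedMap A N N := ⟨R, c, h1, le_rfl, h2, fun m hm D => h3 m hm (rankOne_Qbar hℓ hA) D⟩
    exact ⟨_, hℓ, hA, hN, N, inferInstance, r, hNκ, fun _ => rfl, rfl⟩
  · obtain ⟨M, hNM, hMκ, R, c, h1, h2, h3⟩ := exists_modRed (residue A) ι residue_surjective N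
      hNκ (laurentBaseChange_eq Qbar N)
    haveI := isFunctionField_fullC (ResidueField A) M hMκ
    haveI : NeZero M := ⟨by rintro rfl; simp at hMκ⟩
    let r : RedMap A N M := ⟨R, c, h1, full_degeneracyC_le (K := ResidueField A) hNM, h2,
      fun m hm D => h3 m hm (rankOne_Qbar hℓ hA) D⟩
    exact ⟨_, hℓ, hA, hN, M, inferInstance, r, hMκ, fun h => absurd h h5, rfl⟩

end Red

lemma exists_pl : ∃ pl : ℕ → ValuationSubring Qbar, ∀ q : ℕ, q.Prime → (pl q).LiesOverPrime q := by
  have h : ∀ q : ℕ, ∃ A : ValuationSubring Qbar, q.Prime → A.LiesOverPrime q := by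
    intro q
    by_cases hq : q.Prime
    · obtain ⟨A, hA, -⟩ := Frob.exists_place_frobenius hq
      exact ⟨A, fun _ => hA⟩
    · exact ⟨⊤, fun h => absurd h hq⟩
  choose pl hpl using h
  exact ⟨pl, hpl⟩

section gen

variable {J : Type} [AddCommGroup J] [DistribMulAction GQ J] {B : Type} [AddCommGroup B]

lemma op_cast_gen {T : Type} [CommRing T] {op : T → J → J} {x : J} (h1 : op 1 x = x)
    (h2 : ∀ t u : T, op (t + u) x = op t x + op u x) (n : ℕ) : op (n : T) x = n • x := by
  have h0 : op 0 x = 0 := by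
    have := h2 0 0
    rw [add_zero] at this
    exact left_eq_add.mp this
  induction n with
  | zero => rw [Nat.cast_zero, h0, zero_smul]
  | succ n ih => rw [Nat.cast_succ, h2, ih, h1, succ_nsmul]

lemma es_gen (R : J →+ B) (Ts : J →+ J) {g : GQ} {s r k : ℕ}
    (hes : ∀ x, R (g • g • x) - R (Ts (g • x)) + s • R x = 0)
    (hinj : ∀ x, r ^ k • x = 0 → R x = 0 → x = 0) {x : J} (hx : r ^ k • x = 0) :
    g • x + s • (g⁻¹ • x) = Ts x := by
  have h1 := hes (g⁻¹ • x)
  rw [smul_inv_smul, ← map_nsmul, ← map_sub, ← map_add] at h1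
  have h2 : r ^ k • (g • x - Ts x + s • g⁻¹ • x) = 0 := by
    rw [smul_add, smul_sub, smul_comm (r ^ k) g, hx, smul_zero, ← map_nsmul, hx, map_zero,
      smul_comm (r ^ k) s, smul_comm (r ^ k) g⁻¹, hx, smul_zero, smul_zero, sub_zero, add_zero]
  have h3 := hinj _ h2 h1
  have h4 : g • x + s • g⁻¹ • x - Ts x = 0 := by
    rw [← h3]; abel
  exact sub_eq_zero.mp h4

lemma tors_g {r k : ℕ} {φ : GQ} {y : J} (hy : r ^ k • y = 0) : r ^ k • (φ • y) = 0 := by
  rw [smul_comm, hy, smul_zero]

lemma in_gen (R : J →+ B) {σ : GQ} {y : J} (h : R (σ • y) = R y) : R (σ • y - y) = 0 := by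
  rw [map_sub, h, sub_self]

lemma uni_gen {σ : GQ} {x : J} (h1 : σ • σ • x + x = 2 • (σ • x)) :
    σ • (σ • x - x) = σ • x - x := by
  have h2 : σ • σ • x = 2 • σ • x - x := by rw [← h1, add_sub_cancel_right]
  rw [smul_sub, h2, two_smul]; abel

lemma fr_gen (R : J →+ B) {a b y : J} {s : ℕ} (h : R a - R b + s • R y = 0) :
    R (a - b + s • y) = 0 := by
  rw [map_add, map_sub, map_nsmul, h]

end gen

section pkg

variable {N r : ℕ} [NeZero N] (H : HPkg N r)

lemma HPkg.op_cast (n : ℕ) {k : ℕ} {x : JZero N} (hx : r ^ k • x = 0) :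
    H.op (n : H.T) x = n • x :=
  op_cast_gen (op := fun t x => H.op t x) (H.op_one x) (fun t u => H.op_add t u k x hx) n

/-- Eichler-Shimura on torsion -/
lemma HPkg.es_s {s : ℕ} (hs : s.Prime) (hsN : s ≠ N) (hN : N.Prime) (hr : r.Prime) (hsr : s ≠ r)
    {A : ValuationSubring Qbar} (hA : A.LiesOverPrime s) {g : GQ} (hg : A.IsFrobeniusAt g s)
    {k : ℕ} {x : JZero N} (hx : r ^ k • x = 0) :
    g • x + s • (g⁻¹ • x) = H.op (H.Th s hs hsN) x := by
  have hsN' : ¬ s ∣ N := fun h => hsN ((Nat.prime_dvd_prime_iff_eq hs hN).mp h)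
  obtain ⟨M, hM, ⟨rm⟩⟩ := exists_redMap hs hA hsN'
  have h1 := es_gen (S37.redHom rm hs hA hsN') (Tj N s hs).toAddMonoidHom (g := g) (s := s)
    (r := r) (k := k) (fun x => S37.redHom_es rm hs hA hsN' hg x)
    (fun x hx h0 => S37.redHom_inj rm hs hA hsN' (m := r ^ k) (fun h =>
      hsr ((Nat.prime_dvd_prime_iff_eq hs hr).mp (hs.dvd_of_dvd_pow h))) hx h0) hx
  rw [H.op_Th s hs hsN k x hx]
  exact h1

/-- the Eisenstein ideal -/
def HPkg.eis : Ideal H.T := Ideal.span {x : H.T | ∃ (s : ℕ) (hs : s.Prime) (hN : s ≠ N),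
  x = H.Th s hs hN - 1 - (s : H.T)}

end pkg

/-- **KEY** from A12 and TAMEN -/
theorem key_of (hA12 : A12) (hTame : TameN) : Key := by
  intro N _ hN h5 r hr hrN H c hc0 hrc hcg hcT
  haveI : Fact r.Prime := ⟨hr⟩
  obtain ⟨pl, hpl⟩ := exists_pl
  have hdvd : ∀ q : ℕ, q.Prime → q ≠ N → ¬ q ∣ N := fun q hq hqN h =>
    hqN ((Nat.prime_dvd_prime_iff_eq hq hN).mp h)
  obtain ⟨K, hK⟩ := exists_redK (N := N) hr (hpl r hr) (hdvd r hr hrN)
  have hc1 : r ^ 1 • c = 0 := by rw [pow_one]; exact hrc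
  have hKD : KD (JZero N) H.T N r pl (fun t x => H.op t x) H.eis (H.Th r hr hrN) K c := by
    refine
      { hN := hN
        hr := hr
        hrN := hrN
        hpl := hpl
        op_sum := fun t x y => map_add (H.op t) x y
        op_one := H.op_one
        op_add := H.op_add
        op_mul := H.op_mul
        op_gal := H.op_gal
        sat := H.sat
        es := fun g k => H.es g k
        hI := ?_
        c₀tor := hrc
        finJ := H.finJ
        levJ := fun x => level_J x
        eis := ?_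
        away := ?_
        uni := ?_
        inr := ?_
        frr := ?_
        Trη := Ideal.subset_span ⟨r, hr, hrN, rfl⟩
        eta := ?_
        a12 := fun k E h1 h2 h3 h4 σ hσ n hn x hx =>
          hA12 N hN r hr (pl r) K hK k E h1 h2 (fun x hx => by
            have h5 : H.op (H.Th r hr hrN) x ∈ E := h3 x hx
            rw [H.op_Th r hr hrN k x (h1 x hx)] at h5
            exact h5) (fun x hx h0 => h4 x hx ((H.op_Th r hr hrN k x (h1 x hx)).trans h0))
            σ hσ n hn x hx }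
    · intro t ht
      have h0 : H.op 0 c = 0 := by
        have := H.op_cast 0 hc1
        rw [Nat.cast_zero] at this
        exact this.trans (zero_nsmul c)
      refine Submodule.span_induction (p := fun t _ => H.op t c = 0) ?_ h0 ?_ ?_ ht
      · rintro _ ⟨s, hs, hsN, rfl⟩
        have h1 := H.op_add (H.Th s hs hsN - 1 - (s : H.T)) (((1 + s : ℕ) : H.T)) 1 c hc1
        have h2 : H.Th s hs hsN - 1 - (s : H.T) + ((1 + s : ℕ) : H.T) = H.Th s hs hsN := by
          push_cast; ring
        rw [h2, H.op_cast _ hc1, H.op_Th s hs hsN 1 c hc1, hcT s hs hsN] at h1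
        exact right_eq_add.mp h1
      · intro a b _ _ ha hb
        rw [H.op_add a b 1 c hc1, ha, hb, add_zero]
      · intro a b _ hb
        rw [smul_eq_mul, H.op_mul a b 1 c hc1, hb, map_zero]
    · obtain ⟨s, hs1, hs⟩ := Nat.exists_infinite_primes (r + N + 1)
      have hsr : s ≠ r := by omega
      have hsN : s ≠ N := by omega
      obtain ⟨g, hg⟩ := Frob.exists_isFrobeniusAt_Qbar (pl s) hs (hpl s hs)
      obtain ⟨D, u, hD, hu⟩ := exists_dvd (H.eta s hs hsN)
      exact ⟨g, s, H.Th s hs hsN, u, D, hD, hu, fun k => cy_frob hr hs hsr (hpl s hs) hg,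
        fun k x hx => H.es_s hs hsN hN hr hsr (hpl s hs) hg hx⟩
    · intro q hq hqr hqN σ hσ k y hy
      obtain ⟨M, hM, ⟨rm⟩⟩ := exists_redMap hq (hpl q hq) (hdvd q hq hqN)
      have h1 := in_gen (S37.redHom rm hq (hpl q hq) (hdvd q hq hqN))
        (S37.redHom_inertia rm hq (hpl q hq) (hdvd q hq hqN) hσ y)
      exact sub_eq_zero.mp (S37.redHom_inj rm hq (hpl q hq) (hdvd q hq hqN) (m := r ^ k) (fun h =>
        hqr ((Nat.prime_dvd_prime_iff_eq hq hr).mp (hq.dvd_of_dvd_pow h))) hy h1)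
    · intro σ hσ k x hx
      exact uni_gen (hTame N hN r hr hrN (pl N) (hpl N hN) σ hσ k x hx)
    · intro σ hσ y
      obtain ⟨hℓ, hA, hNN, M, hM, rm, -, -, rfl⟩ := hK
      exact in_gen (S37.redHom rm hℓ hA hNN) (S37.redHom_inertia rm hℓ hA hNN hσ y)
    · intro φ hφ k y hy
      obtain ⟨hℓ, hA, hNN, M, hM, rm, -, -, rfl⟩ := hK
      have h1 := fr_gen (S37.redHom rm hℓ hA hNN) (S37.redHom_es rm hℓ hA hNN hφ y)
      have h2 : r ^ k • (φ • y) = 0 := tors_g hy
      show φ • φ • y - H.op (H.Th r hr hrN) (φ • y) + r • y ∈ _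
      rw [H.op_Th r hr hrN k _ h2]
      exact h1
    · obtain ⟨D, u, hD, hu⟩ := exists_dvd (H.eta r hr hrN)
      obtain ⟨D', u', hD', hu'⟩ := exists_dvd (H.eta' r hr hrN)
      exact ⟨u, u', D, D', hD, hD', hu, hu'⟩
  obtain ⟨a, ha⟩ := hKD.key
  refine ⟨a, fun k => ?_⟩
  obtain ⟨e, he, he'⟩ := ha k
  exact ⟨e, he, fun x hx hd => he' x hx (hd k)⟩

end Fermat.Agent.Maz
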