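import Fermat.Agent.MazR.A12Final
import Fermat.Agent.Maz.KeyThm
import Fermat.Agent.Maz.FinalC
import Fermat.Agent.Maz.FinalS
import Fermat.Agent.Maz.Cusp5
import Fermat.Agent.MazH.Pkg
import Fermat.Agent.MazHS.Tame
import Fermat.Agent.MazHS.Stab
import Fermat.Agent.MazFF.Final
import Fermat.Agent.DivJ.All

/-!
# Mazur's theorem for the Frey curve: final assembly
-/

set_option autoImplicit false

namespace Fermat.Agent.Maz

theorem key : Key := key_of MazR.a12 MazHS.tameN

theorem finalCusp : FinalCusp :=
  final_of key DivJ.locDiv MazFF.finFrob cuspStatement MazHS.heckeStab MazH.hpkg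

end Fermat.Agent.Maz
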