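import Fermat.Agent.ECRed.Cofixed

/-!
# S12: local analysis of a cofixed line (components)
-/

set_option autoImplicit false
set_option linter.unusedSectionVars false

namespace Fermat.Agent.Maz.FreyS

open Fermat.Agent.ECRed Fermat.Agent.ECRed.KummerLine OrdFn

section Abstract

variable {G : Type*} [AddCommGroup G] {K : Type*} [Field K] {κ : KummerLine G K} {v : OrdFn K}
  {m : ℝ} {n : ℕ}

lemma comp_add_zero (h : κ.MultAt v m) (hn : v.Eq 0 (n : K)) (hodd : Odd n) {P Q : G}
    (hP : n • P = 0) (hQ : n • Q = 0) (h1 : κ.comp v P = 0) (h2 : κ.comp v Q = 0) :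
    κ.comp v (P + Q) = 0 := by
  by_contra hne
  obtain ⟨hr0, hrm⟩ := comp_range h hn hodd (add_torsion hP hQ)
  have ha : 0 < κ.comp v (P + Q) := lt_of_le_of_ne hr0 (Ne.symm hne)
  have e1 : P + Q + -Q = P := by abel
  have e2 : κ.comp v (-Q) = 0 := by rw [comp_neg, h2]
  rcases comp_rel h hn hodd (add_torsion hP hQ) (neg_torsion hQ) ha with ⟨k1, -⟩ | ⟨-, k2⟩
  · rw [e1, h1, e2, sub_zero, abs_of_pos ha] at k1
    linarith
  · rw [e1, h1, e2, add_zero] at k2
    rcases min_choice (κ.comp v (P + Q)) (2 * m - κ.comp v (P + Q)) with h3 | h3 <;>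
      rw [h3] at k2 <;> linarith

lemma comp_nsmul_zero (h : κ.MultAt v m) (hn : v.Eq 0 (n : K)) (hodd : Odd n) {P : G}
    (hP : n • P = 0) (h1 : κ.comp v P = 0) (k : ℕ) : κ.comp v (k • P) = 0 := by
  induction k with
  | zero => rw [zero_smul, comp_zero]
  | succ k ih =>
    rw [succ_nsmul]
    exact comp_add_zero h hn hodd (by rw [smul_comm, hP, smul_zero]) hP ih h1

lemma comp_zsmul_zero (h : κ.MultAt v m) (hn : v.Eq 0 (n : K)) (hodd : Odd n) {P : G}
    (hP : n • P = 0) (h1 : κ.comp v P = 0) (k : ℤ) : κ.comp v (k • P) = 0 := by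
  obtain ⟨j, hj | hj⟩ := k.eq_nat_or_neg
  · rw [hj, natCast_zsmul]; exact comp_nsmul_zero h hn hodd hP h1 j
  · rw [hj, neg_smul, comp_neg, natCast_zsmul]; exact comp_nsmul_zero h hn hodd hP h1 j

/-- congruent points of the zero component agree up to sign -/
lemma mult_eq_or_neg (h : κ.MultAt v m) (hn : v.Eq 0 (n : K)) (hodd : Odd n) {P Q : G}
    (hP0 : P ≠ 0) (hQ0 : Q ≠ 0) (hP : n • P = 0) (hQ : n • Q = 0)
    (h1 : κ.comp v P = 0) (h2 : κ.comp v Q = 0) (hc : v.Gt 0 (κ.N P - κ.N Q)) :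
    P = Q ∨ P = -Q := by
  by_contra hcon
  push Not at hcon
  obtain ⟨-, g2⟩ := F_gt_of_congr h.integral hn hP0 hQ0 hP hQ hcon.1 hcon.2 hc
  have e1 := comp_eq h hn hodd hP0 hP
  have e2 := comp_eq h hn hodd hQ0 hQ
  rw [h1] at e1
  rw [h2] at e2
  have := F2_lt h e1 e2 le_rfl le_rfl (by linarith [h.pos])
  rw [add_zero, mul_zero] at this
  rw [add_zero] at g2
  exact this.not_gt g2

/-- there is a nonzero point in the zero component -/
lemma exists_comp_zero (h : κ.MultAt v m) {p : ℕ} (hp : p.Prime) (h3 : 3 ≤ p)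
    (hn : v.Eq 0 (p : K)) {P Q : G}
    (hP0 : P ≠ 0) (hP : p • P = 0) (hQ : p • Q = 0) (hQP : Q ∉ AddSubgroup.zmultiples P) :
    ∃ t : G, t ≠ 0 ∧ p • t = 0 ∧ κ.comp v t = 0 := by
  classical
  have hodd : Odd p := hp.odd_of_ne_two (by omega)
  have hkP : ∀ k : ℕ, p • (k • P) = 0 := fun k => by rw [smul_comm, hP, smul_zero]
  have hR : ∀ k : ℕ, p • (Q + k • P) = 0 := fun k => add_torsion hQ (hkP k)
  have hm := h.pos
  have hp0 : (0 : ℝ) < p := by exact_mod_cast hp.pos
  -- the values of `comp`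
  set T : Finset ℝ := (Finset.range ((p + 1) / 2)).image (fun j : ℕ => 2 * m * j / p) with hT
  have hmaps : ∀ k ∈ Finset.range p, κ.comp v (Q + k • P) ∈ T := by
    intro k _
    obtain ⟨j, hj⟩ := comp_torsion h hn hodd (hR k)
    obtain ⟨r0, rm⟩ := comp_range h hn hodd (hR k)
    have hj0 : 0 ≤ j := by
      by_contra hneg
      push Not at hneg
      have h1 : (j : ℝ) < 0 := by exact_mod_cast hneg
      have h2 : (p : ℝ) * κ.comp v (Q + k • P) < 0 := by
        rw [hj]; exact mul_neg_of_pos_of_neg (by linarith) h1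
      have h3 : 0 ≤ (p : ℝ) * κ.comp v (Q + k • P) := mul_nonneg hp0.le r0
      linarith
    obtain ⟨i, rfl⟩ := Int.eq_ofNat_of_zero_le hj0
    rw [hT, Finset.mem_image]
    refine ⟨i, ?_, ?_⟩
    · rw [Finset.mem_range]
      have h1 : 2 * m * (i : ℝ) < p * m := by
        have : (p : ℝ) * κ.comp v (Q + k • P) < p * m := mul_lt_mul_of_pos_left rm hp0
        rw [hj] at this
        exact_mod_cast this
      have h2 : (2 * i : ℝ) < p := by
        by_contra hcon
        push Not at hcon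
        have : (p : ℝ) * m ≤ 2 * i * m := mul_le_mul_of_nonneg_right hcon hm.le
        linarith
      have h3 : 2 * i < p := by exact_mod_cast h2
      omega
    · have h1 : (p : ℝ) * κ.comp v (Q + k • P) = 2 * m * i := by rw [hj]; push_cast; ring
      rw [← h1]; field_simp
  have hcard : T.card < (Finset.range p).card := by
    rw [Finset.card_range]
    refine lt_of_le_of_lt Finset.card_image_le ?_
    rw [Finset.card_range]; omega
  obtain ⟨k, hk, k', hk', hkk, hf⟩ := Finset.exists_ne_map_eq_of_card_lt_of_maps_to hcard hmaps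
  rw [Finset.mem_range] at hk hk'
  have hf' : κ.comp v (Q + k • P) = κ.comp v (Q + k' • P) := hf
  have hzm : ∀ j : ℕ, j • P ∈ AddSubgroup.zmultiples P := fun j =>
    AddSubgroup.nsmul_mem _ (AddSubgroup.mem_zmultiples P) j
  obtain ⟨r0, -⟩ := comp_range h hn hodd (hR k)
  rcases r0.eq_or_lt with r0 | r0
  · refine ⟨Q + k • P, ?_, hR k, r0.symm⟩
    intro h0
    apply hQP
    rw [eq_neg_of_add_eq_zero_left h0]
    exact neg_mem (hzm k)
  · rcases comp_rel h hn hodd (hR k) (hR k') r0 with ⟨k1, -⟩ | ⟨k1, -⟩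
    · rw [hf', sub_self, abs_zero] at k1
      refine ⟨_, ?_, add_torsion (hR k) (hR k'), k1⟩
      intro h0
      apply hQP
      obtain ⟨s, hs⟩ := hodd
      have h2Q : (2 : ℕ) • Q ∈ AddSubgroup.zmultiples P := by
        have e : (2 : ℕ) • Q = (Q + k • P + (Q + k' • P)) + -(k • P + k' • P) := by
          rw [two_nsmul]; abel
        rw [e, h0, zero_add]
        exact neg_mem (add_mem (hzm k) (hzm k'))
      have e : Q = (s + 1) • ((2 : ℕ) • Q) := by
        rw [smul_smul, show (s + 1) * 2 = p + 1 by omega, add_smul, hQ, zero_add, one_smul]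
      rw [e]
      exact AddSubgroup.nsmul_mem _ h2Q _
    · rw [hf', sub_self, abs_zero] at k1
      refine ⟨_, ?_, sub_torsion (hR k) (hR k'), k1⟩
      intro h0
      have h1 : k • P = k' • P := by
        have : k • P - k' • P = 0 := by rw [← h0]; abel
        exact sub_eq_zero.mp this
      have hord : addOrderOf P = p := by
        rcases (Nat.dvd_prime hp).mp (addOrderOf_dvd_of_nsmul_eq_zero hP) with h | h
        · rw [AddMonoid.addOrderOf_eq_one_iff] at h; exact absurd h hP0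
        · exact h
      rw [nsmul_eq_nsmul_iff_modEq, hord] at h1
      apply hkk
      have := h1
      rw [Nat.ModEq, Nat.mod_eq_of_lt hk, Nat.mod_eq_of_lt hk'] at this
      exact this

/-- the Frobenius at `2` or `3` cannot fix a point of large prime order -/
lemma frob_contra {p : ℕ} (hp : p.Prime) (h11 : 11 ≤ p) {q : ℕ} (hq : q = 2 ∨ q = 3)
    {t : G} (ht0 : t ≠ 0) (ht : p • t = 0)
    (hint : ∀ k : ℕ, k • t ≠ 0 → v.Ge 0 (κ.N (k • t)))
    (hfr : ∀ k : ℕ, k • t ≠ 0 → v.Gt 0 (κ.N (k • t) - κ.N (k • t) ^ q))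
    (hinj : ∀ k l : ℕ, k • t ≠ 0 → l • t ≠ 0 → v.Gt 0 (κ.N (k • t) - κ.N (l • t)) →
      k • t = l • t ∨ k • t = -(l • t)) : False := by
  classical
  have hord : addOrderOf t = p := by
    rcases (Nat.dvd_prime hp).mp (addOrderOf_dvd_of_nsmul_eq_zero ht) with h | h
    · rw [AddMonoid.addOrderOf_eq_one_iff] at h; exact absurd h ht0
    · exact h
  have hne : ∀ k : ℕ, 0 < k → k < p → k • t ≠ 0 := by
    intro k h1 h2 h3
    have := addOrderOf_dvd_of_nsmul_eq_zero h3
    rw [hord] at this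
    have := Nat.le_of_dvd h1 this
    omega
  have hgtmul : ∀ x y : K, v.Ge 0 x → v.Ge 0 y → v.Gt 0 (x * y) → v.Gt 0 x ∨ v.Gt 0 y := by
    intro x y hx hy hxy
    by_contra hcon
    push Not at hcon
    obtain ⟨h1, h2⟩ := hcon
    rw [not_gt_iff] at h1 h2
    have h1' : v.Eq 0 x := ⟨h1.1, le_antisymm h1.2 ((ge_iff h1.1).mp hx)⟩
    have h2' : v.Eq 0 y := ⟨h2.1, le_antisymm h2.2 ((ge_iff h2.1).mp hy)⟩
    have := h1'.mul h2'
    rw [add_zero] at this
    exact this.not_gt hxy
  have hg1 : v.Ge 0 (1 : K) := eq_one.ge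
  -- the three classes
  have hcls : ∀ k : ℕ, k • t ≠ 0 → v.Gt 0 (κ.N (k • t) - 0) ∨ v.Gt 0 (κ.N (k • t) - 1) ∨
      v.Gt 0 (κ.N (k • t) - (-1)) := by
    intro k hk
    have h1 := hfr k hk
    have h2 := hint k hk
    set z := κ.N (k • t)
    have hz1 : v.Ge 0 (z - 1) := h2.sub hg1
    have hz2 : v.Ge 0 (z - (-1)) := h2.sub hg1.neg
    rcases hq with rfl | rfl
    · have e : z - z ^ 2 = (-z) * (z - 1) := by ring
      rw [e] at h1
      rcases hgtmul _ _ h2.neg hz1 h1 with h | h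
      · left; have := h.neg; rwa [neg_neg, ← sub_zero z] at this
      · right; left; exact h
    · have e : z - z ^ 3 = (-z) * ((z - 1) * (z - (-1))) := by ring
      rw [e] at h1
      have hz3 : v.Ge 0 ((z - 1) * (z - (-1))) := hz1.zero_mul hz2
      rcases hgtmul _ _ h2.neg hz3 h1 with h | h
      · left; have := h.neg; rwa [neg_neg, ← sub_zero z] at this
      · rcases hgtmul _ _ hz1 hz2 h with h | h
        · right; left; exact h
        · right; right; exact h
  have hval : ∀ i : Fin 4, ∃ c : Fin 3, v.Gt 0 (κ.N (((i : ℕ) + 1) • t) -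
      (![0, 1, -1] : Fin 3 → K) c) := by
    intro i
    have hi := i.2
    rcases hcls ((i : ℕ) + 1) (hne _ (by omega) (by omega)) with h | h | h
    · exact ⟨0, by simpa using h⟩
    · exact ⟨1, by simpa using h⟩
    · exact ⟨2, by simpa using h⟩
  choose c hc using hval
  obtain ⟨i, j, hij, hcij⟩ := Fintype.exists_ne_map_eq_of_card_lt c (by simp)
  have hi := i.2
  have hj := j.2
  have hcong : v.Gt 0 (κ.N (((i : ℕ) + 1) • t) - κ.N (((j : ℕ) + 1) • t)) := by
    have h1 := hc i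
    have h2 := hc j
    rw [hcij] at h1
    have := h1.sub h2
    rwa [sub_sub_sub_cancel_right] at this
  have hij' : (i : ℕ) ≠ j := fun h => hij (Fin.ext h)
  rcases hinj _ _ (hne _ (by omega) (by omega)) (hne _ (by omega) (by omega)) hcong with h | h
  · rw [nsmul_eq_nsmul_iff_modEq, hord, Nat.ModEq, Nat.mod_eq_of_lt (by omega),
      Nat.mod_eq_of_lt (by omega)] at h
    omega
  · have h2 : (((i : ℕ) + 1) + ((j : ℕ) + 1)) • t = 0 := by
      rw [add_smul, h, neg_add_cancel]
    exact hne _ (by omega) (by omega) h2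

/-- `ψ₂²` is a unit at the points of the zero component -/
lemma mult_psi (h : κ.MultAt v m) (hn : v.Eq 0 (n : K)) (hodd : Odd n) {P : G}
    (hP0 : P ≠ 0) (hP : n • P = 0) (h1 : κ.comp v P = 0) : ¬ v.Gt 0 (κ.phi (κ.N P)) := by
  have e1 := comp_eq h hn hodd hP0 hP
  rw [h1] at e1
  have := F2_lt h e1 e1 le_rfl le_rfl (by linarith [h.pos])
  rw [← phi_eq_F2, add_zero, mul_zero] at this
  exact this.not_gt

end Abstract

end Fermat.Agent.Maz.FreyS
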