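import Fermat.Agent.Maz.FreyLoc

/-!
# S12: the cofixed line of the Frey curve at `2`, `3` and `p`
-/

set_option autoImplicit false
set_option linter.unusedSectionVars false

namespace Fermat.Agent.Maz.FreyS

open Fermat.Agent.ECRed Fermat.Agent.ECRed.KummerLine Fermat.Agent.ECRed.Frey OrdFn
open WeierstrassCurve WeierstrassCurve.Affine
open scoped Pointwise

section Cases

variable {P : FreyPackage} {K : Type*} [Field K] [DecidableEq K] [Algebra ℚ K] [CharZero K]
  {v : OrdFn K} {q : ℕ}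

/-- multiplicative or good reduction at an odd prime -/
theorem frey_cases (hq : q.Prime) (hq2 : q ≠ 2)
    (hu : ∀ n : ℤ, ¬ (q : ℤ) ∣ n → v.Eq 0 (n : K)) (hd : ∀ n : ℤ, (q : ℤ) ∣ n → v.Gt 0 (n : K)) :
    (∃ (r : ℚ) (m : ℝ), v.Ge 0 (algebraMap ℚ K r) ∧
      ((kum P (K := K)).translate (algebraMap ℚ K r)).MultAt v m) ∨
    ((kum P (K := K)).Integral v ∧ v.Eq 0 (kum P (K := K)).disc) := by
  have hqI : Prime (q : ℤ) := Nat.prime_iff_prime_int.mp hq
  have hpp := P.pp
  have hp0 := P.hp0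
  have h2 : v.Eq 0 (2 : K) := by
    have := hu 2 (by
      intro h
      have h' : q ∣ 2 := by exact_mod_cast h
      exact hq2 ((Nat.prime_dvd_prime_iff_eq hq Nat.prime_two).mp h'))
    simpa using this
  have cop : ∀ {x y : ℤ}, gcd x y = 1 → (q : ℤ) ∣ x → ¬ (q : ℤ) ∣ y := by
    intro x y hxy hx hy
    have := dvd_gcd hx hy
    rw [hxy] at this
    exact hqI.not_isUnit (isUnit_of_dvd_one this)
  have hint : ∀ {x y : ℤ}, gcd x y = 1 → (q : ℤ) ∣ x → v.Eq 0 ((y : K) ^ P.p - (x : K) ^ P.p) := by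
    intro x y hxy hx
    have h1 := hu (y ^ P.p - x ^ P.p) (by
      intro h
      have h3 : (q : ℤ) ∣ y ^ P.p := by
        have := dvd_add h (dvd_pow hx hp0)
        simpa using this
      exact cop hxy hx (hqI.dvd_of_dvd_pow h3))
    simpa using h1
  have hne : ∀ {x : ℤ}, x ≠ 0 → (x : K) ≠ 0 := fun h => by exact_mod_cast h
  have h4inv : v.Eq 0 ((4 : K)⁻¹) := by
    have := (h2.pow 2).inv
    norm_num at this
    simpa using this
  have main : ∀ (r : ℚ) (x y : ℤ) (ε : K), v.Eq 0 ε → x ≠ 0 → y ≠ 0 → (q : ℤ) ∣ x * y →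
      v.Ge 0 (algebraMap ℚ K r) →
      v.Eq 0 ((kum P (K := K)).translate (algebraMap ℚ K r)).b₂ →
      ((kum P (K := K)).translate (algebraMap ℚ K r)).b₄ = ε * ((x : K) * y) ^ P.p / 8 →
      ((kum P (K := K)).translate (algebraMap ℚ K r)).b₆ = 0 →
      ((kum P (K := K)).translate (algebraMap ℚ K r)).b₈ = -(((x : K) * y) ^ P.p) ^ 2 / 256 →
      (∃ (r : ℚ) (m : ℝ), v.Ge 0 (algebraMap ℚ K r) ∧
      ((kum P (K := K)).translate (algebraMap ℚ K r)).MultAt v m) := by
    intro r x y ε hε hx hy hxy hr hb₂ hb₄ hb₆ hb₈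
    have hg : v.Gt 0 ((x : K) * y) := by
      have := hd _ hxy
      push_cast at this
      exact this
    exact ⟨r, _, hr, multAt_of (κ := (kum P (K := K)).translate (algebraMap ℚ K r)) h2 hε P.p hp0 hg
      (mul_ne_zero (hne hx) (hne hy)) hb₂ hb₄ hb₆ hb₈⟩
  have alg4 : (algebraMap ℚ K (((P.a : ℚ)) ^ P.p / 4)) = (P.a : K) ^ P.p / 4 := by simp
  by_cases hc : (q : ℤ) ∣ P.c
  · -- node at `x = a^p/4`
    left
    have hca : gcd P.c P.a = 1 := by rw [gcd_comm]; exact P.hgcdac
    refine main (((P.a : ℚ)) ^ P.p / 4) P.a P.c 1 eq_one P.ha0 P.hc0 (dvd_mul_of_dvd_right hc _)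
      ?_ ?_ ?_ ?_ ?_
    · rw [alg4, div_eq_mul_inv]
      have := (ge_intCast (v := v) (P.a ^ P.p)).mul h4inv.ge
      push_cast at this
      simpa using this
    · rw [alg4, trans_b₂]
      have h1 := hu (P.a ^ P.p + P.c ^ P.p) (by
        intro h
        have h3 : (q : ℤ) ∣ P.a ^ P.p := by
          have := dvd_sub h (dvd_pow hc hp0)
          simpa using this
        exact cop hca hc (hqI.dvd_of_dvd_pow h3))
      simpa using h1
    · rw [alg4, trans_b₄, one_mul]
    · rw [alg4, trans_b₆]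
    · rw [alg4, trans_b₈]
  by_cases hab : (q : ℤ) ∣ P.a * P.b
  · left
    have ht : (kum P (K := K)).translate (algebraMap ℚ K 0) = kum P (K := K) := by
      simp [KummerLine.translate]
    refine main 0 P.a P.b (-1) eq_one.neg P.ha0 P.hb0 hab ?_ ?_ ?_ ?_ ?_
    · rw [_root_.map_zero]; exact Ge.zero
    · rw [ht, kum_b₂]
      rcases hqI.dvd_or_dvd hab with h | h
      · exact hint P.hgcdab h
      · have := hint (x := P.b) (y := P.a) (by rw [gcd_comm]; exact P.hgcdab) h
        have := this.neg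
        rw [neg_sub] at this
        exact this
    · rw [ht, kum_b₄]; ring
    · rw [ht, kum_b₆]
    · rw [ht, kum_b₈]
  · -- good reduction
    right
    have h8 : v.Eq 0 ((8 : K)⁻¹) := by
      have := (h2.pow 3).inv
      norm_num at this
      simpa using this
    have h256 : v.Eq 0 ((256 : K)⁻¹) := by
      have := (h2.pow 8).inv
      norm_num at this
      simpa using this
    have gi : ∀ n : ℤ, v.Ge 0 (n : K) := fun n => ge_intCast n
    refine ⟨⟨?_, ?_, ?_, ?_⟩, ?_⟩
    · rw [kum_b₂]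
      have := gi (P.b ^ P.p - P.a ^ P.p)
      simpa using this
    · rw [kum_b₄]
      have := (gi (-(P.a * P.b) ^ P.p)).mul h8.ge
      push_cast at this
      rw [div_eq_mul_inv]
      simpa using this
    · rw [kum_b₆]; exact Ge.zero
    · rw [kum_b₈]
      have := (gi (-((P.a * P.b) ^ P.p) ^ 2)).mul h256.ge
      push_cast at this
      rw [div_eq_mul_inv]
      simpa using this
    · rw [kum_disc]
      have habc : ¬ (q : ℤ) ∣ ((P.a * P.b * P.c) ^ P.p) ^ 2 := by
        intro h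
        have := hqI.dvd_of_dvd_pow (hqI.dvd_of_dvd_pow h)
        rcases hqI.dvd_or_dvd this with h | h
        · exact hab h
        · exact hc h
      have := (hu _ habc).mul h256
      push_cast at this
      rw [div_eq_mul_inv]
      simpa using this

end Cases

section Line

variable {P : FreyPackage} {K : Type} [Field K] [DecidableEq K] [Algebra ℚ K]
  [Algebra.IsAlgebraic ℚ K] [CharZero K] [IsAlgClosed K] [IsGalois ℚ K]
  {N : Submodule (ZMod P.p) (Tp P K)}

lemma frob_pow {A : ValuationSubring K} {q : ℕ} {σ : K ≃ₐ[ℚ] K} (hσ : A.IsFrobeniusAt σ q)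
    {z : K} (hz : z ∈ A) : σ z - z ^ q ∈ A.nonunits := by
  have h1 := hσ.smul_residue_eq (IsLocalRing.residue A ⟨z, hz⟩)
  rw [← IsLocalRing.ResidueField.residue_smul, ← map_pow, ← sub_eq_zero, ← map_sub,
    IsLocalRing.residue_eq_zero_iff] at h1
  rw [ValuationSubring.mem_nonunits_iff_exists_mem_maximalIdeal]
  exact ⟨_, h1⟩

lemma unit_p {q : ℕ} (hq : q.Prime) (hqp : q ≠ P.p) {A : ValuationSubring K}
    (hA : (q : K) ∈ A.nonunits) : (ordFnAt A hq hA).Eq 0 ((P.p : ℕ) : K) := by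
  have := eq_zero_of_not_dvd (A := A) hq hA (n := (P.p : ℤ)) (by
      intro h
      have h1 : q ∣ P.p := by exact_mod_cast h
      exact hqp ((Nat.prime_dvd_prime_iff_eq hq P.pp).mp h1))
  simpa using this

variable (hst : ∀ (σ : K ≃ₐ[ℚ] K), ∀ x ∈ N, σ • x ∈ N) (hN1 : N ≠ ⊥) (hN2 : N ≠ ⊤)
  (hcf : ∀ (σ : K ≃ₐ[ℚ] K) (x : Tp P K), σ • x - x ∈ N)

include hN2 hcf in
/-- some nonzero `p`-torsion point is fixed by a given `σ` -/
lemma exists_fixed (σ : K ≃ₐ[ℚ] K) : ∃ t : Tp P K, t ≠ 0 ∧ σ • t = t := by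
  by_contra hcon
  push Not at hcon
  have hinj : Function.Injective (subOne (P := P) (K := K) σ) := by
    rw [injective_iff_map_eq_zero]
    intro x hx
    by_contra hx0
    apply hcon x hx0
    rw [subOne_apply, sub_eq_zero] at hx
    exact hx
  have hsurj : Function.Surjective (subOne (P := P) (K := K) σ) :=
    LinearMap.injective_iff_surjective.mp hinj
  apply hN2
  rw [eq_top_iff]
  intro x _
  obtain ⟨y, rfl⟩ := hsurj x
  rw [subOne_apply]
  exact hcf σ y

lemma nsmul_coe (k : ℕ) (x : Tp P K) : ((k • x : Tp P K) :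
    ((P.freyCurve : Affine ℚ)⁄K).Point) = k • (x : ((P.freyCurve : Affine ℚ)⁄K).Point) := rfl

lemma t_nsmul (σ : K ≃ₐ[ℚ] K) (k : ℕ) (x : Tp P K) : σ • (k • x) = k • (σ • x) := by
  induction k with
  | zero => rw [zero_smul, zero_smul, t_zero]
  | succ k ih => rw [succ_nsmul, succ_nsmul, t_add, ih]

include hN2 hcf in
/-- `3` is a bad prime -/
theorem bad_three (h11 : 11 ≤ P.p) {A : ValuationSubring K} (hA : ((3 : ℕ) : K) ∈ A.nonunits)
    (hb : (kum P (K := K)).Integral (ordFnAt A Nat.prime_three hA))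
    (hΔ : (ordFnAt A Nat.prime_three hA).Eq 0 (kum P (K := K)).disc) : False := by
  obtain ⟨σ, hσ⟩ := Frob.exists_isFrobeniusAt A Nat.prime_three hA
  obtain ⟨t, ht0, ht⟩ := exists_fixed hN2 hcf σ
  have hn := unit_p (P := P) Nat.prime_three (by omega) hA
  have hp3 : ∀ k : ℕ, P.p • (k • (t : ((P.freyCurve : Affine ℚ)⁄K).Point)) = 0 := fun k => by
    rw [smul_comm, tor, smul_zero]
  have hint : ∀ k : ℕ, k • (t : ((P.freyCurve : Affine ℚ)⁄K).Point) ≠ 0 →
      (ordFnAt A Nat.prime_three hA).Ge 0 ((kum P (K := K)).N (k • (t : _))) := fun k hk =>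
    integral_of_torsion hb hn hk (hp3 k)
  refine frob_contra (κ := kum P (K := K)) (v := ordFnAt A Nat.prime_three hA) P.pp h11 (q := 3)
    (Or.inr rfl) (t := (t : ((P.freyCurve : Affine ℚ)⁄K).Point))
    (fun h => ht0 (Subtype.ext h)) (tor t) hint ?_ ?_
  · intro k hk
    have h1 := hint k hk
    rw [ordFnAt_ge] at h1
    have h2 := frob_pow hσ h1
    rw [← N_smul, ← nsmul_coe, ← coe_smul, t_nsmul, ht] at h2
    rw [ordFnAt_gt]
    exact h2
  · intro k l hk hl hc
    exact good_eq_or_neg hb hn hΔ hk hl (hp3 k) (hp3 l) hc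

include hst hN1 hN2 hcf in
/-- at `2` and `3` the line lies in the zero component -/
theorem line_comp (h11 : 11 ≤ P.p) {q : ℕ} (hq : q.Prime) (hq23 : q = 2 ∨ q = 3)
    {A : ValuationSubring K} (hA : (q : K) ∈ A.nonunits) {r : ℚ} {m : ℝ}
    (hM : ((kum P (K := K)).translate (algebraMap ℚ K r)).MultAt (ordFnAt A hq hA) m)
    {x : Tp P K} (hx : x ∈ N) :
    ((kum P (K := K)).translate (algebraMap ℚ K r)).comp (ordFnAt A hq hA)
      (x : ((P.freyCurve : Affine ℚ)⁄K).Point) = 0 := by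
  classical
  set κ := (kum P (K := K)).translate (algebraMap ℚ K r) with hκ
  set v := ordFnAt A hq hA with hv
  have hodd := P.hp_odd
  have hn : v.Eq 0 ((P.p : ℕ) : K) := unit_p (P := P) hq (by omega) hA
  by_contra hx1
  have hx0 : x ≠ 0 := by
    rintro rfl
    exact hx1 comp_zero
  have hfin := finrank_line hN1 hN2
  -- no nonzero element of `N` has component zero
  have hN0 : ∀ y ∈ N, κ.comp v (y : ((P.freyCurve : Affine ℚ)⁄K).Point) = 0 → y = 0 := by
    intro y hy hy0
    by_contra hyne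
    apply hx1
    have h1 : ∃ c : ZMod P.p, c • (⟨y, hy⟩ : N) = ⟨x, hx⟩ := by
      have := (finrank_eq_one_iff_of_nonzero' (⟨y, hy⟩ : N) (by
        intro h; exact hyne (congrArg Subtype.val h))).mp hfin
      exact this ⟨x, hx⟩
    obtain ⟨c, hc⟩ := h1
    have h2 : c • y = x := congrArg Subtype.val hc
    have h3 : c • y = (c.val) • y := by
      rw [← Nat.cast_smul_eq_nsmul (ZMod P.p), ZMod.natCast_zmod_val]
    rw [h3] at h2
    rw [← h2, nsmul_coe]
    exact comp_nsmul_zero hM hn hodd (tor y) hy0 _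
  -- a point outside `N`
  obtain ⟨y, hy⟩ : ∃ y : Tp P K, y ∉ N := by
    by_contra hcon
    push Not at hcon
    exact hN2 (eq_top_iff.mpr fun y _ => hcon y)
  obtain ⟨t', ht0', htp, htc⟩ := exists_comp_zero hM P.pp (by omega) hn
    (P := (x : ((P.freyCurve : Affine ℚ)⁄K).Point))
    (Q := (y : ((P.freyCurve : Affine ℚ)⁄K).Point))
    (fun h => hx0 (Subtype.ext h)) (tor x) (tor y) (by
      intro h
      obtain ⟨k, hk⟩ := AddSubgroup.mem_zmultiples_iff.mp h
      apply hy
      have : y = k • x := Subtype.ext hk.symm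
      rw [this]
      exact zsmul_mem hx k)
  have htmem : t' ∈ Submodule.torsionBy ℤ ((P.freyCurve : Affine ℚ)⁄K).Point (P.p : ℤ) := by
    rw [Submodule.mem_torsionBy_iff, natCast_zsmul]; exact htp
  set t : Tp P K := ⟨t', htmem⟩ with htdef
  have ht0 : t ≠ 0 := fun h => ht0' (congrArg Subtype.val h)
  obtain ⟨σ, hσ⟩ := Frob.exists_isFrobeniusAt A hq hA
  have hσd := hσ.mem_decompositionSubgroup
  have hNs : ∀ R : ((P.freyCurve : Affine ℚ)⁄K).Point, κ.N (σ • R) = σ (κ.N R) :=
    fun R => N_translate_smul hκ σ R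
  have hcs : κ.comp v (σ • t') = 0 := by
    have hne : σ • t' ≠ 0 := smul_ne_zero' σ ht0'
    rw [comp_ne hne, hNs, hv, ordAt_smul A hq hA hσd, ← hv, ← comp_ne ht0']
    exact htc
  have hfix : σ • t = t := by
    rw [← sub_eq_zero]
    refine hN0 _ (hcf σ t) ?_
    show κ.comp v (σ • t' - t') = 0
    rw [sub_eq_add_neg]
    refine comp_add_zero hM hn hodd (tor (σ • t)) (neg_torsion htp) hcs ?_
    rw [comp_neg]; exact htc
  have hp3 : ∀ k : ℕ, P.p • (k • t') = 0 := fun k => by
    rw [smul_comm, htp, smul_zero]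
  have hck : ∀ k : ℕ, κ.comp v (k • t') = 0 := comp_nsmul_zero hM hn hodd htp htc
  have hint : ∀ k : ℕ, k • t' ≠ 0 → v.Ge 0 (κ.N (k • t')) := fun k hk =>
    integral_of_torsion hM.integral hn hk (hp3 k)
  refine frob_contra (κ := κ) (v := v) P.pp h11 hq23 ht0' htp hint ?_ ?_
  · intro k hk
    have h1 := hint k hk
    rw [hv, ordFnAt_ge] at h1
    have h2 := frob_pow hσ h1
    have h3 : σ • (k • t') = k • t' := by
      have := congrArg Subtype.val (t_nsmul σ k t)
      rw [hfix] at this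
      exact this
    rw [← hNs, h3] at h2
    rw [hv, ordFnAt_gt]
    exact h2
  · intro k l hk hl hc
    exact mult_eq_or_neg hM hn hodd hk hl (hp3 k) (hp3 l) (hck k) (hck l) hc

include hst hN1 hN2 in
/-- at `p` the line lies in the kernel of reduction -/
theorem line_E1 {A : ValuationSubring K} (hA : A.LiesOverPrime P.p) :
    N ≤ E1V (integral_p (P := P) (A := A) hA) := by
  classical
  have hA' : ((P.p : ℕ) : K) ∈ A.nonunits := hA
  have hfin := finrank_line hN1 hN2
  by_contra hcase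
  set hb := integral_p (P := P) hA'
  have hinf : N ⊓ E1V hb = ⊥ := by
    by_contra hne
    apply hcase
    have h1 : N ⊓ E1V hb = N := by
      apply Submodule.eq_of_le_of_finrank_le inf_le_left
      rw [hfin]
      by_contra hlt
      push Not at hlt
      apply hne
      rw [← Submodule.finrank_eq_zero (R := ZMod P.p)]
      omega
    rw [← h1]; exact inf_le_right
  have htop := eq_top_of_all (P := P) (H2 N) (H2_normal hst)
    (fun σ hσ x _ => hσ x)
    (fun q hq hqp A' hA'' σ hσ => (away hst hN1 hN2 hq hqp hA'' hσ).2) hA (by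
      intro σ hσ x hxN
      by_cases hx : x ∈ E1V hb
      · have : x ∈ N ⊓ E1V hb := ⟨hxN, hx⟩
        rw [hinf, Submodule.mem_bot] at this
        rw [this, t_zero]
      · have h2 : σ • x - x ∈ E1V hb := by
          rw [mem_E1V] at hx ⊢
          exact frey_star_p hA' hσ (tor x) hx
        have h3 : σ • x - x ∈ N ⊓ E1V hb := ⟨N.sub_mem (hst σ x hxN) hxN, h2⟩
        rw [hinf, Submodule.mem_bot, sub_eq_zero] at h3
        exact h3)
  obtain ⟨x, hxN, hx0⟩ := Submodule.exists_mem_ne_zero_of_ne_bot hN1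
  obtain ⟨A2, hA2⟩ := Frob.exists_liesOverPrime K Nat.prime_two
  refine no_rational_torsion (P := P) A2 hA2 (Q := (x : ((P.freyCurve : Affine ℚ)⁄K).Point))
    (fun h => hx0 (Subtype.ext h)) (tor x) ?_
  intro σ
  have h4 : σ ∈ H2 N := by rw [htop]; trivial
  exact congrArg Subtype.val (h4 x hxN)

end Line

end Fermat.Agent.Maz.FreyS
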