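import Fermat.Agent.Maz.FreyMult

/-!
# S12: the real place and the product formula
-/

set_option autoImplicit false
set_option linter.unusedSectionVars false

namespace Fermat.Agent.Maz.FreyS

open Fermat.Agent.ECRed Fermat.Agent.ECRed.KummerLine Fermat.Agent.ECRed.Frey OrdFn
open WeierstrassCurve WeierstrassCurve.Affine
open scoped Pointwise

/-- the archimedean estimate -/
theorem arch {α : Type*} (S : Finset α) (hS : S.Nonempty) (d : α → α) (hd : ∀ i ∈ S, d i ∈ S)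
    (hinj : ∀ i ∈ S, ∀ j ∈ S, d i = d j → i = j) (u ψ : α → ℝ) (m : ℝ) (hm : 1 ≤ m)
    (hu : ∀ i ∈ S, u i ≠ 0) (h : ∀ i ∈ S, ψ i * u (d i) = (u i ^ 2 + m) ^ 2) :
    1 < (∏ i ∈ S, ψ i) ^ 2 := by
  classical
  have hperm : ∏ i ∈ S, u (d i) = ∏ i ∈ S, u i := by
    have himg : S.image d = S := by
      apply Finset.eq_of_subset_of_card_le
      · intro x hx
        rw [Finset.mem_image] at hx
        obtain ⟨i, hi, rfl⟩ := hx
        exact hd i hi
      · rw [Finset.card_image_of_injOn (fun i hi j hj => hinj i hi j hj)]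
    conv_rhs => rw [← himg]
    rw [Finset.prod_image (fun i hi j hj => hinj i hi j hj)]
  have h1 : (∏ i ∈ S, ψ i) * ∏ i ∈ S, u i = ∏ i ∈ S, (u i ^ 2 + m) ^ 2 := by
    rw [← hperm, ← Finset.prod_mul_distrib]
    exact Finset.prod_congr rfl h
  have h2 : (∏ i ∈ S, ψ i) ^ 2 * ∏ i ∈ S, u i ^ 2 = ∏ i ∈ S, (u i ^ 2 + m) ^ 4 := by
    rw [Finset.prod_pow, ← mul_pow, h1, ← Finset.prod_pow]
    refine Finset.prod_congr rfl fun i _ => ?_
    ring
  have h3 : ∏ i ∈ S, (4 * u i ^ 2) ≤ ∏ i ∈ S, (u i ^ 2 + m) ^ 4 := by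
    refine Finset.prod_le_prod (fun i _ => by positivity) fun i _ => ?_
    have ht : 0 ≤ u i ^ 2 := sq_nonneg _
    set t := u i ^ 2
    have e1 : 4 * t * m ≤ (t + m) ^ 2 := by nlinarith [sq_nonneg (t - m)]
    have e2 : 1 ≤ (t + m) ^ 2 := by nlinarith
    have e3 : 4 * t ≤ (t + m) ^ 2 := le_trans (by nlinarith) e1
    calc 4 * t = 4 * t * 1 := by ring
      _ ≤ (t + m) ^ 2 * (t + m) ^ 2 := mul_le_mul e3 e2 zero_le_one (sq_nonneg _)
      _ = (t + m) ^ 4 := by ring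
  have hpos : 0 < ∏ i ∈ S, u i ^ 2 := Finset.prod_pos fun i hi => by
    have := hu i hi
    positivity
  rw [← h2, Finset.prod_mul_distrib, Finset.prod_const] at h3
  have h4 : (4 : ℝ) ^ S.card ≤ (∏ i ∈ S, ψ i) ^ 2 := le_of_mul_le_mul_right h3 hpos
  have h5 : (1 : ℝ) < 4 ^ S.card := one_lt_pow₀ (by norm_num) (Finset.card_pos.mpr hS).ne'
  linarith

section Trans

variable (P : FreyPackage) {K : Type*} [Field K] [DecidableEq K] [Algebra ℚ K] [CharZero K]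

lemma b_pow_ge : (32 : ℤ) ≤ |P.b ^ P.p| := by
  obtain ⟨k, hk⟩ := b_even P
  have hk0 : k ≠ 0 := by
    rintro rfl
    exact P.hb0 (by rw [hk, mul_zero])
  have h1 : (2 : ℤ) ≤ |P.b| := by
    rw [hk, abs_mul]
    have : 1 ≤ |k| := Int.one_le_abs hk0
    have h2 : |(2 : ℤ)| = 2 := rfl
    rw [h2]; linarith
  rw [abs_pow]
  calc (32 : ℤ) = 2 ^ 5 := by norm_num
    _ ≤ 2 ^ P.p := pow_le_pow_right₀ (by norm_num) P.hp5
    _ ≤ |P.b| ^ P.p := pow_le_pow_left₀ (by norm_num) h1 _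

lemma ac_pow_ge : (16 : ℤ) ≤ |P.a ^ P.p * P.c ^ P.p| := by
  have hb := b_pow_ge P
  have hF := P.hFLT
  have ha0 : P.a ^ P.p ≠ 0 := pow_ne_zero _ P.ha0
  have hc0 : P.c ^ P.p ≠ 0 := pow_ne_zero _ P.hc0
  have h1 : 1 ≤ |P.a ^ P.p| := Int.one_le_abs ha0
  have h2 : 1 ≤ |P.c ^ P.p| := Int.one_le_abs hc0
  have h3 : |P.b ^ P.p| ≤ |P.c ^ P.p| + |P.a ^ P.p| := by
    have : P.b ^ P.p = P.c ^ P.p - P.a ^ P.p := by rw [← hF]; ring
    rw [this]
    exact abs_sub _ _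
  rw [abs_mul]
  nlinarith

lemma exists_translate : ∃ (r m : ℚ), 1 ≤ m ∧
    ((kum P (K := K)).translate (algebraMap ℚ K r)).b₆ = 0 ∧
    ((kum P (K := K)).translate (algebraMap ℚ K r)).b₄ = -2 * algebraMap ℚ K m := by
  have hb := b_pow_ge P
  have hac := ac_pow_ge P
  have hF := P.hFLT
  have ha0 : P.a ^ P.p ≠ 0 := pow_ne_zero _ P.ha0
  have hb0 : P.b ^ P.p ≠ 0 := pow_ne_zero _ P.hb0
  have hc0 : P.c ^ P.p ≠ 0 := pow_ne_zero _ P.hc0
  have h1 : 1 ≤ |P.a ^ P.p| := Int.one_le_abs ha0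
  have h2 : 1 ≤ |P.c ^ P.p| := Int.one_le_abs hc0
  have hab : (16 : ℤ) ≤ |P.a ^ P.p * P.b ^ P.p| := by rw [abs_mul]; nlinarith
  have hbc : (16 : ℤ) ≤ |P.b ^ P.p * P.c ^ P.p| := by rw [abs_mul]; nlinarith
  have hFK : (P.a : K) ^ P.p + (P.b : K) ^ P.p = (P.c : K) ^ P.p := hFLT_K P
  have hcase : 0 < P.a ^ P.p * P.b ^ P.p ∨ P.a ^ P.p * P.c ^ P.p < 0 ∨
      P.b ^ P.p * P.c ^ P.p < 0 := by
    by_contra hcon
    push Not at hcon
    obtain ⟨c1, c2, c3⟩ := hcon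
    rw [← hF] at c2 c3 hc0
    have h4 : P.a ^ P.p * P.b ^ P.p < 0 :=
      lt_of_le_of_ne c1 (mul_ne_zero ha0 hb0)
    have h5 : 0 < (P.a ^ P.p + P.b ^ P.p) ^ 2 := by positivity
    -- a (a+b) ≥ 0, b (a+b) ≥ 0, ab < 0
    rcases lt_or_gt_of_ne ha0 with ha | ha <;> rcases lt_or_gt_of_ne hb0 with hb' | hb'
    · nlinarith [mul_pos_of_neg_of_neg ha hb']
    · rcases lt_or_gt_of_ne hc0 with hc | hc
      · nlinarith [mul_neg_of_pos_of_neg hb' hc]
      · nlinarith [mul_neg_of_neg_of_pos ha hc]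
    · rcases lt_or_gt_of_ne hc0 with hc | hc
      · nlinarith [mul_neg_of_pos_of_neg ha hc]
      · nlinarith [mul_neg_of_neg_of_pos hb' hc]
    · nlinarith [mul_pos ha hb']
  have h16 : ∀ z : ℤ, 0 < z → (16 : ℤ) ≤ |z| → (1 : ℚ) ≤ (z : ℚ) / 16 := by
    intro z hz h
    rw [abs_of_pos hz] at h
    have : (16 : ℚ) ≤ z := by exact_mod_cast h
    linarith
  rcases hcase with h | h | h
  · refine ⟨0, (P.a ^ P.p * P.b ^ P.p : ℤ) / 16, h16 _ h hab, ?_, ?_⟩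
    · show (kum P (K := K)).b₆ + 2 * (algebraMap ℚ K 0) * (kum P (K := K)).b₄ +
        (algebraMap ℚ K 0) ^ 2 * (kum P (K := K)).b₂ + 4 * (algebraMap ℚ K 0) ^ 3 = _
      rw [kum_b₂, kum_b₄, kum_b₆, _root_.map_zero]; ring
    · show (kum P (K := K)).b₄ + (algebraMap ℚ K 0) * (kum P (K := K)).b₂ +
        6 * (algebraMap ℚ K 0) ^ 2 = _
      rw [kum_b₂, kum_b₄, _root_.map_zero]
      simp only [map_div₀, map_intCast, map_ofNat, Int.cast_mul, Int.cast_pow, map_mul, map_pow]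
      rw [mul_pow]; ring
  · refine ⟨(P.a : ℚ) ^ P.p / 4, (-(P.a ^ P.p * P.c ^ P.p) : ℤ) / 16,
      h16 _ (by linarith) (by rw [abs_neg]; exact hac), ?_, ?_⟩
    · have e : algebraMap ℚ K ((P.a : ℚ) ^ P.p / 4) = (P.a : K) ^ P.p / 4 := by simp
      rw [e, trans_b₆]
    · have e : algebraMap ℚ K ((P.a : ℚ) ^ P.p / 4) = (P.a : K) ^ P.p / 4 := by simp
      rw [e, trans_b₄]
      simp only [map_div₀, map_intCast, map_ofNat, Int.cast_mul, Int.cast_pow, map_mul, map_pow,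
        Int.cast_neg, map_neg]
      rw [mul_pow]; ring
  · refine ⟨-(P.b : ℚ) ^ P.p / 4, (-(P.b ^ P.p * P.c ^ P.p) : ℤ) / 16,
      h16 _ (by linarith) (by rw [abs_neg]; exact hbc), ?_, ?_⟩
    · have e : algebraMap ℚ K (-(P.b : ℚ) ^ P.p / 4) = -(P.b : K) ^ P.p / 4 := by simp
      show (kum P (K := K)).b₆ + 2 * (algebraMap ℚ K _) * (kum P (K := K)).b₄ +
        (algebraMap ℚ K _) ^ 2 * (kum P (K := K)).b₂ + 4 * (algebraMap ℚ K _) ^ 3 = _
      rw [e, kum_b₂, kum_b₄, kum_b₆, mul_pow]; ring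
    · have e : algebraMap ℚ K (-(P.b : ℚ) ^ P.p / 4) = -(P.b : K) ^ P.p / 4 := by simp
      show (kum P (K := K)).b₄ + (algebraMap ℚ K _) * (kum P (K := K)).b₂ +
        6 * (algebraMap ℚ K _) ^ 2 = _
      rw [e, kum_b₂, kum_b₄]
      simp only [map_div₀, map_intCast, map_ofNat, Int.cast_mul, Int.cast_pow, map_mul, map_pow,
        Int.cast_neg, map_neg]
      rw [mul_pow, ← hFK]; ring

end Trans

section Main

variable {P : FreyPackage} {K : Type} [Field K] [DecidableEq K] [Algebra ℚ K]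
  [Algebra.IsAlgebraic ℚ K] [CharZero K] [IsAlgClosed K] [IsGalois ℚ K]
  {N : Submodule (ZMod P.p) (Tp P K)}

/-- `ψ₂²` at a point -/
noncomputable def psiAt (x : Tp P K) : K :=
  (kum P (K := K)).psi ((kum P (K := K)).N (x : ((P.freyCurve : Affine ℚ)⁄K).Point))

lemma psiAt_smul (σ : K ≃ₐ[ℚ] K) (x : Tp P K) : psiAt (σ • x) = σ (psiAt x) := by
  have h1 : (kum P (K := K)).N ((σ • x : Tp P K) : ((P.freyCurve : Affine ℚ)⁄K).Point) =
      σ ((kum P (K := K)).N (x : ((P.freyCurve : Affine ℚ)⁄K).Point)) := by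
    rw [coe_smul]; exact N_smul σ _
  rw [psiAt, h1, psiAt]
  simp only [KummerLine.psi, kum_b₂, kum_b₄, kum_b₆, map_add, map_mul, map_pow, map_sub, map_div₀,
    map_neg, map_intCast, map_ofNat, _root_.map_zero]

/-- an involution acts on a line by `± 1` -/
lemma conj_line (hst : ∀ (σ : K ≃ₐ[ℚ] K), ∀ x ∈ N, σ • x ∈ N) (hN1 : N ≠ ⊥) (hN2 : N ≠ ⊤)
    {c : K ≃ₐ[ℚ] K} (hc : c * c = 1) {x : Tp P K} (hx : x ∈ N) : c • x = x ∨ c • x = -x := by
  have hfin := finrank_line hN1 hN2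
  have hcc : ∀ y : Tp P K, c • (c • y) = y := fun y => by rw [← t_mul, hc, t_one]
  by_cases h0 : c • x + x = 0
  · right; exact eq_neg_of_add_eq_zero_left h0
  · left
    set y : Tp P K := c • x + x with hy
    have hyN : y ∈ N := N.add_mem (hst c x hx) hx
    have hcy : c • y = y := by rw [hy, t_add, hcc]; abel
    have h1 : ∃ d : ZMod P.p, d • (⟨y, hyN⟩ : N) = ⟨x, hx⟩ := by
      have := (finrank_eq_one_iff_of_nonzero' (⟨y, hyN⟩ : N) (by
        intro h; exact h0 (congrArg Subtype.val h))).mp hfin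
      exact this ⟨x, hx⟩
    obtain ⟨d, hd⟩ := h1
    have h2 : d • y = x := congrArg Subtype.val hd
    have h3 : d • y = (d.val) • y := by
      rw [← Nat.cast_smul_eq_nsmul (ZMod P.p), ZMod.natCast_zmod_val]
    rw [h3] at h2
    rw [← h2, t_nsmul, hcy]

/-- a rational number which is integral at all places is an integer -/
lemma exists_int {ρ : ℚ} (h : ∀ q : ℕ, q.Prime → ∃ A : ValuationSubring K, A.LiesOverPrime q ∧
    algebraMap ℚ K ρ ∈ A) : ∃ n : ℤ, ρ = n := by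
  have hden : ρ.den = 1 := by
    by_contra hne
    obtain ⟨q, hq, hqd⟩ := Nat.exists_prime_and_dvd hne
    obtain ⟨A, hA, hρ⟩ := h q hq
    have hA' : (q : K) ∈ A.nonunits := hA
    have hnum : ¬ (q : ℤ) ∣ ρ.num := by
      intro h1
      have h2 : q ∣ ρ.num.natAbs := Int.natCast_dvd.mp h1
      have h3 := Nat.dvd_gcd h2 hqd
      rw [Nat.Coprime.gcd_eq_one ρ.reduced] at h3
      exact hq.one_lt.ne' (Nat.dvd_one.mp h3)
    have e1 : (ordFnAt A hq hA').Eq 0 ((ρ.num : ℤ) : K) := eq_zero_of_not_dvd hq hA' hnum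
    have e2 : (ordFnAt A hq hA').Gt 0 ((ρ.den : ℤ) : K) :=
      gt_zero_of_dvd hq hA' (by exact_mod_cast hqd)
    have e3 : (ordFnAt A hq hA').Ge 0 (algebraMap ℚ K ρ) := (ordFnAt_ge A hq hA' _).mpr hρ
    have e4 : ((ρ.num : ℤ) : K) = algebraMap ℚ K ρ * ((ρ.den : ℤ) : K) := by
      have h5 : (ρ.num : ℚ) = ρ * ρ.den := by
        rw [Rat.mul_den_eq_num]
      have h6 := congrArg (algebraMap ℚ K) h5
      rw [map_mul, map_intCast, map_natCast] at h6
      rw [Int.cast_natCast]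
      exact h6
    have e5 := e3.mul_gt e2
    rw [← e4, add_zero] at e5
    exact e1.not_gt e5
  exact ⟨ρ.num, by rw [Rat.coe_int_num_of_den_eq_one hden]⟩

theorem no_line {ι : K →+* ℂ} {c : K ≃ₐ[ℚ] K} (hc : ∀ z, ι (c z) = (starRingEnd ℂ) (ι z))
    (hst : ∀ (σ : K ≃ₐ[ℚ] K), ∀ x ∈ N, σ • x ∈ N) (hN1 : N ≠ ⊥) (hN2 : N ≠ ⊤)
    (hψ : ∀ q : ℕ, q.Prime → ∃ A : ValuationSubring K, A.LiesOverPrime q ∧
      ∀ x ∈ N, x ≠ 0 → psiAt x ∉ A.nonunits) : False := by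
  classical
  have hcc : c * c = 1 := by
    ext z
    apply ι.injective
    rw [AlgEquiv.mul_apply, hc, hc, Complex.conj_conj]; rfl
  set κ := kum P (K := K) with hκ
  obtain ⟨r, m, hm1, hb6, hb4⟩ := exists_translate P (K := K)
  set κ' := κ.translate (algebraMap ℚ K r) with hκ'
  have hb8 : κ'.b₈ = -(algebraMap ℚ K m) ^ 2 := by
    have h := κ'.rel_b
    rw [hb6, hb4] at h
    have h4 : (4 : K) ≠ 0 := by norm_num
    apply mul_left_cancel₀ h4
    rw [h]; ring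
  -- the finset
  set S : Finset (Tp P K) := (Set.toFinite {x : Tp P K | x ∈ N ∧ x ≠ 0}).toFinset with hS
  have hSm : ∀ x, x ∈ S ↔ x ∈ N ∧ x ≠ 0 := fun x => by
    rw [hS, Set.Finite.mem_toFinset]; rfl
  have hSne : S.Nonempty := by
    obtain ⟨x, hx, hx0⟩ := Submodule.exists_mem_ne_zero_of_ne_bot hN1
    exact ⟨x, (hSm x).mpr ⟨hx, hx0⟩⟩
  have hcoe0 : ∀ x : Tp P K, x ≠ 0 → (x : ((P.freyCurve : Affine ℚ)⁄K).Point) ≠ 0 :=
    fun x h h' => h (Subtype.ext h')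
  have hN'x : ∀ x : Tp P K, x ≠ 0 → κ'.N (x : ((P.freyCurve : Affine ℚ)⁄K).Point) =
      κ.N (x : ((P.freyCurve : Affine ℚ)⁄K).Point) - algebraMap ℚ K r := by
    intro x hx
    show κ.N _ - algebraMap ℚ K r * κ.D _ = _
    rw [κ.D_ne _ (hcoe0 x hx), mul_one]
  have hpsi : ∀ x : Tp P K, x ≠ 0 →
      κ'.psi (κ'.N (x : ((P.freyCurve : Affine ℚ)⁄K).Point)) = psiAt x := by
    intro x hx
    rw [hN'x x hx, hκ', psi_translate]; rfl
  have hdup : ∀ x ∈ S, (x + x) ≠ 0 ∧ psiAt x ≠ 0 ∧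
      psiAt x * κ'.N ((x + x : Tp P K) : ((P.freyCurve : Affine ℚ)⁄K).Point) =
        (κ'.N (x : ((P.freyCurve : Affine ℚ)⁄K).Point) ^ 2 + algebraMap ℚ K m) ^ 2 := by
    intro x hx
    obtain ⟨hxN, hx0⟩ := (hSm x).mp hx
    have h2 := two_ne P.hp_odd (hcoe0 x hx0) (tor x)
    obtain ⟨e0, e1⟩ := κ'.dup (hcoe0 x hx0) h2
    rw [hpsi x hx0] at e0 e1
    refine ⟨fun h => h2 (congrArg Subtype.val h), e0, ?_⟩
    show psiAt x * κ'.N ((x : ((P.freyCurve : Affine ℚ)⁄K).Point) + x) = _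
    rw [e1, KummerLine.phi, hb4, hb6, hb8]; ring
  -- reality
  have hreal : ∀ x ∈ N, (starRingEnd ℂ) (ι (κ.N (x : ((P.freyCurve : Affine ℚ)⁄K).Point))) =
      ι (κ.N (x : ((P.freyCurve : Affine ℚ)⁄K).Point)) := by
    intro x hx
    rw [← hc]
    congr 1
    have h1 : κ.N ((c • x : Tp P K) : ((P.freyCurve : Affine ℚ)⁄K).Point) =
        c (κ.N (x : ((P.freyCurve : Affine ℚ)⁄K).Point)) := by
      rw [coe_smul]; exact N_smul c _
    rw [← h1]
    rcases conj_line hst hN1 hN2 hcc hx with h | h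
    · rw [h]
    · rw [h]; exact κ.N_neg _
  have hιr : ∀ s : ℚ, ι (algebraMap ℚ K s) = ((s : ℝ) : ℂ) := by
    intro s
    have : ι (algebraMap ℚ K s) = (s : ℂ) := by
      rw [show algebraMap ℚ K s = (s : K) from by simp, map_ratCast]
    rw [this]; push_cast; rfl
  set u : Tp P K → ℝ := fun x => (ι (κ'.N (x : ((P.freyCurve : Affine ℚ)⁄K).Point))).re with hu
  set ψ : Tp P K → ℝ := fun x => (ι (psiAt x)).re with hψd
  have hux : ∀ x ∈ S, ((u x : ℝ) : ℂ) = ι (κ'.N (x : ((P.freyCurve : Affine ℚ)⁄K).Point)) := by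
    intro x hx
    obtain ⟨hxN, hx0⟩ := (hSm x).mp hx
    rw [hu]
    refine Complex.conj_eq_iff_re.mp ?_
    rw [hN'x x hx0, map_sub, map_sub, hreal x hxN, hιr, Complex.conj_ofReal]
  have hψx : ∀ x ∈ S, ((ψ x : ℝ) : ℂ) = ι (psiAt x) := by
    intro x hx
    obtain ⟨hxN, hx0⟩ := (hSm x).mp hx
    rw [hψd]
    refine Complex.conj_eq_iff_re.mp ?_
    rw [← hc]
    congr 1
    rw [← psiAt_smul]
    rcases conj_line hst hN1 hN2 hcc hxN with h | h
    · rw [h]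
    · rw [h, psiAt]
      show κ.psi (κ.N (-(x : ((P.freyCurve : Affine ℚ)⁄K).Point))) = _
      rw [κ.N_neg]; rfl
  have hdS : ∀ x ∈ S, x + x ∈ S := by
    intro x hx
    obtain ⟨hxN, hx0⟩ := (hSm x).mp hx
    exact (hSm _).mpr ⟨N.add_mem hxN hxN, (hdup x hx).1⟩
  have hdinj : ∀ x ∈ S, ∀ y ∈ S, x + x = y + y → x = y := by
    intro x hx y hy hxy
    by_contra hne
    have h1 : x - y ≠ 0 := sub_ne_zero.mpr hne
    have h2 := two_ne P.hp_odd (hcoe0 _ h1) (tor (x - y))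
    apply h2
    have h3 : (x - y) + (x - y) = 0 := by
      have : (x - y) + (x - y) = (x + x) - (y + y) := by abel
      rw [this, hxy, sub_self]
    exact congrArg Subtype.val h3
  have hm1' : (1 : ℝ) ≤ ((m : ℚ) : ℝ) := by exact_mod_cast hm1
  have harch := arch S hSne (fun x => x + x) hdS hdinj u ψ (m : ℝ) hm1' (by
    intro x hx h0
    obtain ⟨hxN, hx0⟩ := (hSm x).mp hx
    have h1 := hux x hx
    rw [h0, Complex.ofReal_zero] at h1
    have h2 : κ'.N (x : ((P.freyCurve : Affine ℚ)⁄K).Point) = 0 := by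
      apply ι.injective
      rw [← h1, _root_.map_zero]
    apply (hdup x hx).2.1
    rw [← hpsi x hx0, h2, KummerLine.psi, hb6]; ring) (by
    intro x hx
    have h1 := congrArg ι (hdup x hx).2.2
    rw [map_mul, map_pow, map_add, map_pow, ← hψx x hx, ← hux x hx, ← hux _ (hdS x hx), hιr] at h1
    exact_mod_cast h1)
  -- the rational number
  set R : K := ∏ x ∈ S, psiAt x with hR
  have hRfix : ∀ σ : K ≃ₐ[ℚ] K, σ R = R := by
    intro σ
    have hinj : ∀ x ∈ S, ∀ y ∈ S, σ • x = σ • y → x = y := by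
      intro x _ y _ h
      rw [← t_inv_smul σ x, h, t_inv_smul]
    rw [hR, map_prod]
    have h1 : ∀ x ∈ S, σ (psiAt x) = psiAt (σ • x) := fun x _ => (psiAt_smul σ x).symm
    rw [Finset.prod_congr rfl h1]
    have himg : S.image (fun x : Tp P K => σ • x) = S := by
      apply Finset.eq_of_subset_of_card_le
      · intro x hx
        rw [Finset.mem_image] at hx
        obtain ⟨y, hy, rfl⟩ := hx
        obtain ⟨hyN, hy0⟩ := (hSm y).mp hy
        refine (hSm _).mpr ⟨hst σ y hyN, fun h => hy0 ?_⟩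
        rw [← t_inv_smul σ y, h, t_zero]
      · rw [Finset.card_image_of_injOn (fun x hx y hy => hinj x hx y hy)]
    conv_rhs => rw [← himg]
    rw [Finset.prod_image (fun x hx y hy => hinj x hx y hy)]
  obtain ⟨ρ, hρ⟩ := (InfiniteGalois.mem_range_algebraMap_iff_fixed R).mpr hRfix
  have hR0 : R ≠ 0 := Finset.prod_ne_zero_iff.mpr fun x hx => (hdup x hx).2.1
  have hρ0 : ρ ≠ 0 := by
    rintro rfl
    rw [_root_.map_zero] at hρ
    exact hR0 hρ.symm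
  -- the inverse is an integer
  obtain ⟨n, hn⟩ := exists_int (K := K) (ρ := ρ⁻¹) (by
    intro q hq
    obtain ⟨A, hA, hAψ⟩ := hψ q hq
    refine ⟨A, hA, ?_⟩
    rw [map_inv₀, hρ, hR, ← Finset.prod_inv_distrib]
    refine prod_mem fun x hx => ?_
    obtain ⟨hxN, hx0⟩ := (hSm x).mp hx
    have h1 := hAψ x hxN hx0
    rcases A.mem_or_inv_mem (psiAt x) with h2 | h2
    · have hA' : (q : K) ∈ A.nonunits := hA
      have e1 : (ordFnAt A hq hA').Ge 0 (psiAt x) := (ordFnAt_ge A hq hA' _).mpr h2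
      have e2 : ¬ (ordFnAt A hq hA').Gt 0 (psiAt x) := fun h => h1 ((ordFnAt_gt A hq hA' _).mp h)
      rw [not_gt_iff] at e2
      have e3 : (ordFnAt A hq hA').Eq 0 (psiAt x) := ⟨e2.1, le_antisymm e2.2 ((ge_iff e2.1).mp e1)⟩
      have e4 := e3.inv
      rw [neg_zero] at e4
      exact (ordFnAt_ge A hq hA' _).mp e4.ge
    · exact h2)
  have hn0 : n ≠ 0 := by
    rintro rfl
    rw [Int.cast_zero, inv_eq_zero] at hn
    exact hρ0 hn
  -- comparison
  have hprod : (((∏ x ∈ S, ψ x) : ℝ) : ℂ) = ((ρ : ℝ) : ℂ) := by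
    rw [← hιr, hρ, hR, map_prod]
    push_cast
    exact Finset.prod_congr rfl hψx
  have hprod' : (∏ x ∈ S, ψ x) = (ρ : ℝ) := by exact_mod_cast hprod
  rw [hprod'] at harch
  have h1 : (1 : ℚ) < ρ ^ 2 := by exact_mod_cast harch
  have h2 : ρ = (n : ℚ)⁻¹ := by rw [← hn, inv_inv]
  rw [h2] at h1
  have h3 : (1 : ℚ) ≤ (n : ℚ) ^ 2 := by
    have : (1 : ℤ) ≤ n ^ 2 := by
      have := Int.one_le_abs hn0
      rw [← sq_abs]
      nlinarith
    exact_mod_cast this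
  rw [inv_pow] at h1
  have h4 := inv_le_one_of_one_le₀ h3
  linarith

end Main

end Fermat.Agent.Maz.FreyS
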