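import Fermat.Agent.Maz.FreyReal
import Fermat.Agent.TWGal.Rep
import Fermat.Prelude.Def_EllipticCurve_ZeroComponentAt

/-!
# S12 from the moduli form of Mazur's theorem for the pair `(E, L)`
-/

set_option autoImplicit false
set_option linter.unusedSectionVars false

namespace Fermat.Agent.Maz.FreyS

open Fermat.Agent.ECRed Fermat.Agent.ECRed.KummerLine Fermat.Agent.ECRed.Frey OrdFn
open WeierstrassCurve WeierstrassCurve.Affine
open scoped Pointwise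

local notation "Qbar" => AlgebraicClosure ℚ
local notation "GQ" => Qbar ≃ₐ[ℚ] Qbar

/-- **[S15c]** the pair version of S15 (the Atkin-Lehner image) -/
def S15c : Prop := ∀ p : ℕ, p.Prime → p ∉ ({2, 3, 5, 7, 13} : Finset ℕ) →
  ∀ W : WeierstrassCurve ℤ, W.Δ ≠ 0 →
  ∀ C : AddSubgroup ((W.map (Int.castRingHom ℚ))⁄Qbar).Point, Nat.card C = p →
  (∀ σ : GQ, ∀ Q ∈ C, σ • Q ∈ C) →
  (2 : ℤ) ∣ W.Δ → ¬ (2 : ℤ) ∣ W.c₄ →
  (∀ A : ValuationSubring Qbar, A.LiesOverPrime 2 → ∀ Q ∈ C, W.InZeroComponentAt A Q) →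
  (3 : ℤ) ∣ W.Δ → ¬ (3 : ℤ) ∣ W.c₄ →
  (∀ A : ValuationSubring Qbar, A.LiesOverPrime 3 → ∀ Q ∈ C, W.InZeroComponentAt A Q) →
  ∀ ℓ : ℕ, ℓ.Prime → ℓ ≠ p → (ℓ : ℤ) ∣ W.Δ → ¬ (ℓ : ℤ) ∣ W.c₄ →
  ∀ A : ValuationSubring Qbar, A.LiesOverPrime ℓ → ∀ Q ∈ C, W.InZeroComponentAt A Q

/-- nonsingular reduction in terms of the Kummer line -/
def Zc {G : Type*} [AddCommGroup G] (κ : KummerLine G Qbar) (A : ValuationSubring Qbar)
    (Q : G) : Prop :=
  Q = 0 ∨ κ.N Q ∉ A ∨ ¬ (κ.psi (κ.N Q) ∈ A.nonunits ∧ κ.phi (κ.N Q) ∈ A.nonunits)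

section ZcIff

variable {F : Type*} [Field F] [DecidableEq F]

/-- nonsingular points in terms of `ψ₂²` and `φ₂` -/
lemma nonsing_iff {V : WeierstrassCurve.Affine F} {x y : F} (h : V.Equation x y) :
    V.Nonsingular x y ↔ ¬ (4 * x ^ 3 + V.b₂ * x ^ 2 + 2 * V.b₄ * x + V.b₆ = 0 ∧
      x ^ 4 - V.b₄ * x ^ 2 - 2 * V.b₆ * x - V.b₈ = 0) := by
  constructor
  · rintro hns ⟨h1, h2⟩
    rw [← psi_eq h] at h1
    have hy : y = V.negY x y := by
      rw [← sub_eq_zero]; exact pow_eq_zero_iff (two_ne_zero) |>.mp h1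
    rw [← phi_eq h hy] at h2
    exact nonsing_X_ne hns hy (pow_eq_zero_iff (two_ne_zero) |>.mp h2)
  · intro hcon
    by_contra hns
    apply hcon
    rw [nonsingular_iff'] at hns
    have h1 : ¬ (V.a₁ * y - (3 * x ^ 2 + 2 * V.a₂ * x + V.a₄) ≠ 0 ∨
        2 * y + V.a₁ * x + V.a₃ ≠ 0) := fun h' => hns ⟨h, h'⟩
    push Not at h1
    obtain ⟨e1, e2⟩ := h1
    have hy : y = V.negY x y := by rw [negY]; linear_combination e2
    refine ⟨?_, ?_⟩
    · rw [← psi_eq h, sub_eq_zero.mpr hy]; ring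
    · rw [← phi_eq h hy]
      have : 3 * x ^ 2 + 2 * V.a₂ * x + V.a₄ - V.a₁ * y = 0 := by linear_combination -e1
      rw [this]; ring

end ZcIff

section Zc2

variable (W : WeierstrassCurve ℤ)

lemma coe_map_b (n : ℤ) : (algebraMap ℚ Qbar) ((Int.castRingHom ℚ) n) = (n : Qbar) := by simp

lemma y_mem {A : ValuationSubring Qbar} {x y : Qbar} (hx : x ∈ A)
    (h : ((W.map (Int.castRingHom ℚ))⁄Qbar).Equation x y) : y ∈ A := by
  rcases A.mem_or_inv_mem y with hy | hy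
  · exact hy
  · by_cases hy0 : y = 0
    · rw [hy0]; exact A.zero_mem
    rw [equation_iff] at h
    have ha1 : ((W.map (Int.castRingHom ℚ))⁄Qbar).a₁ = ((W.a₁ : ℤ) : Qbar) := coe_map_b _
    have ha2 : ((W.map (Int.castRingHom ℚ))⁄Qbar).a₂ = ((W.a₂ : ℤ) : Qbar) := coe_map_b _
    have ha3 : ((W.map (Int.castRingHom ℚ))⁄Qbar).a₃ = ((W.a₃ : ℤ) : Qbar) := coe_map_b _
    have ha4 : ((W.map (Int.castRingHom ℚ))⁄Qbar).a₄ = ((W.a₄ : ℤ) : Qbar) := coe_map_b _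
    have ha6 : ((W.map (Int.castRingHom ℚ))⁄Qbar).a₆ = ((W.a₆ : ℤ) : Qbar) := coe_map_b _
    rw [ha1, ha2, ha3, ha4, ha6] at h
    have hI : ∀ n : ℤ, (n : Qbar) ∈ A := fun n => intCast_mem A n
    have e : y = (x ^ 3 + (W.a₂ : Qbar) * x ^ 2 + (W.a₄ : Qbar) * x + (W.a₆ : Qbar)) * y⁻¹ -
        ((W.a₁ : Qbar) * x + (W.a₃ : Qbar)) := by
      field_simp
      linear_combination h
    rw [e]
    exact sub_mem (mul_mem (add_mem (add_mem (add_mem (pow_mem hx 3)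
      (mul_mem (hI _) (pow_mem hx 2))) (mul_mem (hI _) hx)) (hI _)) hy)
      (add_mem (mul_mem (hI _) hx) (hI _))

theorem inZero_iff [DecidableEq Qbar] (A : ValuationSubring Qbar)
    (Q : ((W.map (Int.castRingHom ℚ))⁄Qbar).Point) :
    W.InZeroComponentAt A Q ↔
      Zc (KummerLine.ofCurve ((W.map (Int.castRingHom ℚ))⁄Qbar)) A Q := by
  classical
  rcases Q with _ | ⟨x, y, h⟩
  · exact ⟨fun _ => Or.inl rfl, fun _ => Or.inl rfl⟩
  have hne : (Point.some x y h : ((W.map (Int.castRingHom ℚ))⁄Qbar).Point) ≠ 0 := by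
    intro h0; cases h0
  have hb2 : ((W.map (Int.castRingHom ℚ))⁄Qbar).b₂ = ((W.b₂ : ℤ) : Qbar) := by
    show ((W.map (Int.castRingHom ℚ)).map (algebraMap ℚ Qbar)).b₂ = _
    rw [map_b₂, map_b₂]; exact coe_map_b _
  have hb4 : ((W.map (Int.castRingHom ℚ))⁄Qbar).b₄ = ((W.b₄ : ℤ) : Qbar) := by
    show ((W.map (Int.castRingHom ℚ)).map (algebraMap ℚ Qbar)).b₄ = _
    rw [map_b₄, map_b₄]; exact coe_map_b _
  have hb6 : ((W.map (Int.castRingHom ℚ))⁄Qbar).b₆ = ((W.b₆ : ℤ) : Qbar) := by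
    show ((W.map (Int.castRingHom ℚ)).map (algebraMap ℚ Qbar)).b₆ = _
    rw [map_b₆, map_b₆]; exact coe_map_b _
  have hb8 : ((W.map (Int.castRingHom ℚ))⁄Qbar).b₈ = ((W.b₈ : ℤ) : Qbar) := by
    show ((W.map (Int.castRingHom ℚ)).map (algebraMap ℚ Qbar)).b₈ = _
    rw [map_b₈, map_b₈]; exact coe_map_b _
  have key : ∀ (hx : x ∈ A) (hy : y ∈ A),
      (W.map (Int.castRingHom (IsLocalRing.ResidueField A))).toAffine.Nonsingular
          (IsLocalRing.residue A ⟨x, hx⟩) (IsLocalRing.residue A ⟨y, hy⟩) ↔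
      ¬ ((4 * x ^ 3 + (W.b₂ : Qbar) * x ^ 2 + 2 * (W.b₄ : Qbar) * x + (W.b₆ : Qbar)) ∈ A.nonunits ∧
        (x ^ 4 - (W.b₄ : Qbar) * x ^ 2 - 2 * (W.b₆ : Qbar) * x - (W.b₈ : Qbar)) ∈ A.nonunits) := by
    intro hx hy
    set ρ := IsLocalRing.residue A with hρ
    set X : A := ⟨x, hx⟩ with hX
    set Y : A := ⟨y, hy⟩ with hY
    have hE : (W.map (Int.castRingHom (IsLocalRing.ResidueField A))).toAffine.Equation
        (ρ X) (ρ Y) := by
      rw [equation_iff]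
      have h1 := h.1
      rw [equation_iff] at h1
      have ha1 : ((W.map (Int.castRingHom ℚ))⁄Qbar).a₁ = ((W.a₁ : ℤ) : Qbar) := coe_map_b _
      have ha2 : ((W.map (Int.castRingHom ℚ))⁄Qbar).a₂ = ((W.a₂ : ℤ) : Qbar) := coe_map_b _
      have ha3 : ((W.map (Int.castRingHom ℚ))⁄Qbar).a₃ = ((W.a₃ : ℤ) : Qbar) := coe_map_b _
      have ha4 : ((W.map (Int.castRingHom ℚ))⁄Qbar).a₄ = ((W.a₄ : ℤ) : Qbar) := coe_map_b _
      have ha6 : ((W.map (Int.castRingHom ℚ))⁄Qbar).a₆ = ((W.a₆ : ℤ) : Qbar) := coe_map_b _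
      rw [ha1, ha2, ha3, ha4, ha6] at h1
      have h2 : Y ^ 2 + (W.a₁ : A) * X * Y + (W.a₃ : A) * Y =
          X ^ 3 + (W.a₂ : A) * X ^ 2 + (W.a₄ : A) * X + (W.a₆ : A) := by
        apply Subtype.ext
        push_cast
        exact h1
      have h3 := congrArg ρ h2
      simp only [map_add, map_mul, map_pow, map_intCast] at h3
      simpa using h3
    rw [nonsing_iff hE]
    have e1 : (4 * (ρ X) ^ 3 +
        (W.map (Int.castRingHom (IsLocalRing.ResidueField A))).b₂ * (ρ X) ^ 2 +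
        2 * (W.map (Int.castRingHom (IsLocalRing.ResidueField A))).b₄ * (ρ X) +
        (W.map (Int.castRingHom (IsLocalRing.ResidueField A))).b₆) =
        ρ (4 * X ^ 3 + (W.b₂ : A) * X ^ 2 + 2 * (W.b₄ : A) * X + (W.b₆ : A)) := by
      simp only [map_b₂, map_b₄, map_b₆, map_add, map_mul, map_pow, map_intCast, eq_intCast,
        map_ofNat]
    have e2 : ((ρ X) ^ 4 -
        (W.map (Int.castRingHom (IsLocalRing.ResidueField A))).b₄ * (ρ X) ^ 2 -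
        2 * (W.map (Int.castRingHom (IsLocalRing.ResidueField A))).b₆ * (ρ X) -
        (W.map (Int.castRingHom (IsLocalRing.ResidueField A))).b₈) =
        ρ (X ^ 4 - (W.b₄ : A) * X ^ 2 - 2 * (W.b₆ : A) * X - (W.b₈ : A)) := by
      simp only [map_b₈, map_b₄, map_b₆, map_sub, map_mul, map_pow, map_intCast, eq_intCast,
        map_ofNat]
    have hres : ∀ (z : A) (z' : Qbar), (z : Qbar) = z' → (ρ z = 0 ↔ z' ∈ A.nonunits) := by
      intro z z' hz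
      rw [hρ, IsLocalRing.residue_eq_zero_iff, ← hz]
      exact (ValuationSubring.coe_mem_nonunits_iff).symm
    have g1 := hres (4 * X ^ 3 + (W.b₂ : A) * X ^ 2 + 2 * (W.b₄ : A) * X + (W.b₆ : A))
      (4 * x ^ 3 + (W.b₂ : Qbar) * x ^ 2 + 2 * (W.b₄ : Qbar) * x + (W.b₆ : Qbar)) (by
        push_cast; rfl)
    have g2 := hres (X ^ 4 - (W.b₄ : A) * X ^ 2 - 2 * (W.b₆ : A) * X - (W.b₈ : A))
      (x ^ 4 - (W.b₄ : Qbar) * x ^ 2 - 2 * (W.b₆ : Qbar) * x - (W.b₈ : Qbar)) (by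
        push_cast; rfl)
    rw [← g1, ← g2, ← e1, ← e2]
  have hpsi : (KummerLine.ofCurve ((W.map (Int.castRingHom ℚ))⁄Qbar)).psi x =
      4 * x ^ 3 + (W.b₂ : Qbar) * x ^ 2 + 2 * (W.b₄ : Qbar) * x + (W.b₆ : Qbar) := by
    show 4 * x ^ 3 + ((W.map (Int.castRingHom ℚ))⁄Qbar).b₂ * x ^ 2 +
      2 * ((W.map (Int.castRingHom ℚ))⁄Qbar).b₄ * x + ((W.map (Int.castRingHom ℚ))⁄Qbar).b₆ = _
    rw [hb2, hb4, hb6]
  have hphi : (KummerLine.ofCurve ((W.map (Int.castRingHom ℚ))⁄Qbar)).phi x =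
      x ^ 4 - (W.b₄ : Qbar) * x ^ 2 - 2 * (W.b₆ : Qbar) * x - (W.b₈ : Qbar) := by
    show x ^ 4 - ((W.map (Int.castRingHom ℚ))⁄Qbar).b₄ * x ^ 2 -
      2 * ((W.map (Int.castRingHom ℚ))⁄Qbar).b₆ * x - ((W.map (Int.castRingHom ℚ))⁄Qbar).b₈ = _
    rw [hb4, hb6, hb8]
  have hN : (KummerLine.ofCurve ((W.map (Int.castRingHom ℚ))⁄Qbar)).N (Point.some x y h) = x := rfl
  constructor
  · rintro (h0 | ⟨x', y', h', heq, hcase⟩)
    · exact absurd h0 hne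
    · injection heq with g1 g2
      subst g1
      subst g2
      right
      rw [hN]
      rcases hcase with hx | ⟨hx, hy, hns⟩
      · left; exact hx
      · right
        rw [hpsi, hphi]
        exact (key hx hy).mp hns
  · rintro (h0 | hcase)
    · exact absurd h0 hne
    · rw [hN] at hcase
      refine Or.inr ⟨x, y, h, rfl, ?_⟩
      by_cases hx : x ∈ A
      · right
        have hy := y_mem W hx h.1
        refine ⟨hx, hy, (key hx hy).mpr ?_⟩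
        rcases hcase with h1 | h1
        · exact absurd hx h1
        · rw [hpsi, hphi] at h1; exact h1
      · left; exact hx

end Zc2

end Fermat.Agent.Maz.FreyS
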