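import Fermat.Agent.Maz.FreyFin
import Fermat.Agent.CondLev.Node

/-!
# Glue: the zero component is a subgroup at multiplicative places
-/

set_option autoImplicit false
set_option linter.unusedSectionVars false

namespace Fermat.Agent.Maz.FreyS

open Fermat.Agent.ECRed Fermat.Agent.ECRed.KummerLine Fermat.Agent.ECRed.Frey OrdFn
open Fermat.Agent.CondLev
open WeierstrassCurve WeierstrassCurve.Affine
open scoped Pointwise

local notation "Qbar" => AlgebraicClosure ℚ
local notation "GQ" => Qbar ≃ₐ[ℚ] Qbar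

local instance instAlgGZ : Algebra.IsAlgebraic ℚ Qbar := Frob.isAlgebraic_Qbar

section ZcComp

variable {G : Type*} [AddCommGroup G] {κ : KummerLine G Qbar} {r : Qbar} {m : ℝ} {q : ℕ}
  {A : ValuationSubring Qbar}

lemma N_translate {Q : G} (hQ : Q ≠ 0) : (κ.translate r).N Q = κ.N Q - r := by
  show κ.N _ - r * κ.D _ = _
  rw [κ.D_ne _ hQ, mul_one]

lemma psi_translate (x : Qbar) : (κ.translate r).psi (x - r) = κ.psi x := by
  simp only [KummerLine.psi, KummerLine.translate]; ring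

/-- the zero component in terms of the component function -/
lemma zc_iff_comp (hq : q.Prime) (hA : (q : Qbar) ∈ A.nonunits)
    (hint : κ.Integral (ordFnAt A hq hA)) (hr : (ordFnAt A hq hA).Ge 0 r)
    (hM : (κ.translate r).MultAt (ordFnAt A hq hA) m) {n : ℕ}
    (hn : (ordFnAt A hq hA).Eq 0 (n : Qbar)) (hodd : Odd n) {Q : G} (hQ : n • Q = 0) :
    Zc κ A Q ↔ (κ.translate r).comp (ordFnAt A hq hA) Q = 0 := by
  set v := ordFnAt A hq hA with hv
  constructor
  · intro h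
    by_cases hQ0 : Q = 0
    · rw [hQ0, comp_zero]
    rcases h with h | h | h
    · exact absurd h hQ0
    · exact absurd ((ordFnAt_ge A hq hA _).mp (integral_of_torsion hint hn hQ0 hQ)) h
    · by_contra hne
      obtain ⟨h0, h1⟩ := comp_range hM hn hodd hQ
      have hpos : 0 < (κ.translate r).comp v Q := lt_of_le_of_ne h0 (Ne.symm hne)
      have hx := comp_eq hM hn hodd hQ0 hQ
      rw [N_translate hQ0] at hx
      have hxg : v.Gt 0 (κ.N Q - r) := hx.gt hpos
      have hxge : v.Ge 0 (κ.N Q - r) := hxg.ge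
      have hxn : (κ.N Q - r) ∈ A.nonunits := (ordFnAt_gt A hq hA _).mp hxg
      apply h
      have hb2 : v.Ge 0 (κ.translate r).b₂ := hM.integral.1
      have hb4 : v.Gt 0 (κ.translate r).b₄ := hM.b₄.gt hM.pos
      have hb6 : v.Gt 0 (κ.translate r).b₆ := hM.b₆.gt (by linarith [hM.pos])
      have hb8 : v.Gt 0 (κ.translate r).b₈ := hM.b₈.ge.gt (by linarith [hM.pos])
      have hpsi : v.Gt 0 (κ.psi (κ.N Q)) := by
        rw [← psi_translate (κ := κ) (r := r)]
        set x := κ.N Q - r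
        have e : (κ.translate r).psi x = (4 * x ^ 2 + (κ.translate r).b₂ * x +
          2 * (κ.translate r).b₄) * x + (κ.translate r).b₆ := by
          simp only [KummerLine.psi]; ring
        rw [e]
        refine Gt.add ?_ hb6
        have h2 : v.Ge 0 (4 * x ^ 2 + (κ.translate r).b₂ * x + 2 * (κ.translate r).b₄) := by
          refine (Ge.add (Ge.add ?_ ?_) ?_)
          · have := (ge_ofNat (v := v) 4).mul hxge.pow_two
            simpa using this
          · simpa using hb2.mul hxge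
          · simpa using (ge_ofNat (v := v) 2).mul hb4.ge
        simpa using h2.mul_gt hxg
      have hphi : v.Gt 0 (κ.phi (κ.N Q)) := by
        have e : κ.phi (κ.N Q) = (κ.translate r).phi (κ.N Q - r) + r * κ.psi (κ.N Q) := by
          rw [phi_translate]; ring
        rw [e]
        refine Gt.add ?_ (by simpa using hr.mul_gt hpsi)
        set x := κ.N Q - r
        have e : (κ.translate r).phi x = (x ^ 3 - (κ.translate r).b₄ * x -
          2 * (κ.translate r).b₆) * x - (κ.translate r).b₈ := by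
          simp only [KummerLine.phi]; ring
        rw [e]
        refine Gt.sub ?_ hb8
        have h2 : v.Ge 0 (x ^ 3 - (κ.translate r).b₄ * x - 2 * (κ.translate r).b₆) := by
          refine (Ge.sub (Ge.sub ?_ ?_) ?_)
          · have := hxge.mul (hxge.mul hxge)
            have e3 : x ^ 3 = x * (x * x) := by ring
            rw [e3]
            simpa using this
          · simpa using hb4.ge.mul hxge
          · simpa using (ge_ofNat (v := v) 2).mul hb6.ge
        simpa using h2.mul_gt hxg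
      exact ⟨(ordFnAt_gt A hq hA _).mp hpsi, (ordFnAt_gt A hq hA _).mp hphi⟩
  · intro hc
    by_cases hx0 : Q = 0
    · exact Or.inl hx0
    right; right
    rintro ⟨h1, h2⟩
    have h3 := mult_psi hM hn hodd hx0 hQ hc
    apply h3
    rw [N_translate hx0, phi_translate]
    have g1 := (ordFnAt_gt A hq hA _).mpr h1
    have g2 := (ordFnAt_gt A hq hA _).mpr h2
    have g3 := hr.mul_gt g1
    rw [add_zero] at g3
    exact g2.sub g3

end ZcComp

section Curve

variable (W : WeierstrassCurve ℤ) {q : ℕ} {A : ValuationSubring Qbar}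

/-- the translate of the Kummer line is in node form at a multiplicative place -/
theorem exists_node (hq : q.Prime) (hA : (q : Qbar) ∈ A.nonunits) (hΔ : W.Δ ≠ 0)
    (hqΔ : (q : ℤ) ∣ W.Δ) (hqc : ¬ (q : ℤ) ∣ W.c₄) :
    (KummerLine.ofCurve ((W.map (Int.castRingHom ℚ))⁄Qbar)).Integral (ordFnAt A hq hA) ∧
    ∃ (r : Qbar) (m : ℝ), (ordFnAt A hq hA).Ge 0 r ∧
      ((KummerLine.ofCurve ((W.map (Int.castRingHom ℚ))⁄Qbar)).translate r).MultAt
        (ordFnAt A hq hA) m := by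
  set v := ordFnAt A hq hA with hv
  have hc4 : W.c₄ ≠ 0 := fun h => hqc (h ▸ dvd_zero _)
  set κ₀ := KummerLine.ofCurve ((W.map (Int.castRingHom ℚ))⁄Qbar) with hκ₀
  have hb2 : κ₀.b₂ = ((W.b₂ : ℤ) : Qbar) := by
    show ((W.map (Int.castRingHom ℚ)).map (algebraMap ℚ Qbar)).b₂ = _
    rw [map_b₂, map_b₂]; exact coe_map_b _
  have hb4 : κ₀.b₄ = ((W.b₄ : ℤ) : Qbar) := by
    show ((W.map (Int.castRingHom ℚ)).map (algebraMap ℚ Qbar)).b₄ = _
    rw [map_b₄, map_b₄]; exact coe_map_b _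
  have hb6 : κ₀.b₆ = ((W.b₆ : ℤ) : Qbar) := by
    show ((W.map (Int.castRingHom ℚ)).map (algebraMap ℚ Qbar)).b₆ = _
    rw [map_b₆, map_b₆]; exact coe_map_b _
  have hb8 : κ₀.b₈ = ((W.b₈ : ℤ) : Qbar) := by
    show ((W.map (Int.castRingHom ℚ)).map (algebraMap ℚ Qbar)).b₈ = _
    rw [map_b₈, map_b₈]; exact coe_map_b _
  have hint : κ₀.Integral v := by
    refine ⟨?_, ?_, ?_, ?_⟩
    · rw [hb2]; exact ge_intCast _
    · rw [hb4]; exact ge_intCast _
    · rw [hb6]; exact ge_intCast _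
    · rw [hb8]; exact ge_intCast _
  have hc : κ₀.b₂ ^ 2 - 24 * κ₀.b₄ = ((W.c₄ : ℤ) : Qbar) := by
    rw [hb2, hb4, WeierstrassCurve.c₄]
    push_cast
    ring
  have hdisc : κ₀.disc = ((W.Δ : ℤ) : Qbar) := by
    rw [KummerLine.disc, hb2, hb4, hb6, hb8, WeierstrassCurve.Δ]
    push_cast
    ring
  have hvc : v.Eq 0 (κ₀.b₂ ^ 2 - 24 * κ₀.b₄) := by
    rw [hc]; exact eq_zero_of_not_dvd hq hA hqc
  have hΔ0 : ((W.Δ : ℤ) : Qbar) ≠ 0 := by exact_mod_cast hΔ
  have hvΔ : v.Gt 0 ((W.Δ : ℤ) : Qbar) := gt_zero_of_dvd hq hA hqΔ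
  obtain ⟨m, hm, hm'⟩ : ∃ m : ℝ, 0 < m ∧ v.Eq (2 * m) κ₀.disc := by
    refine ⟨v.ord ((W.Δ : ℤ) : Qbar) / 2, ?_, ?_⟩
    · rw [OrdFn.gt_iff hΔ0] at hvΔ
      linarith
    · rw [hdisc]
      exact ⟨hΔ0, by ring⟩
  refine ⟨hint, nodeX κ₀, m, ?_, multAt_node hint hm hvc hm'⟩
  rw [nodeX]
  have h1 : v.Ge 0 (18 * κ₀.b₆ - κ₀.b₂ * κ₀.b₄) := by
    rw [hb2, hb4, hb6]
    have e : (18 * ((W.b₆ : ℤ) : Qbar) - ((W.b₂ : ℤ) : Qbar) * ((W.b₄ : ℤ) : Qbar)) =
        ((18 * W.b₆ - W.b₂ * W.b₄ : ℤ) : Qbar) := by push_cast; ring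
    rw [e]
    exact OrdFn.ge_intCast _
  have h2 := h1.mul hvc.inv.ge
  rw [div_eq_mul_inv]
  simpa using h2

/-- multiples of torsion points of the zero component -/
theorem inZero_zsmul (hq : q.Prime) (hA : A.LiesOverPrime q) (hΔ : W.Δ ≠ 0)
    (hqΔ : (q : ℤ) ∣ W.Δ) (hqc : ¬ (q : ℤ) ∣ W.c₄) {n : ℕ} (hqn : ¬ q ∣ n) (hodd : Odd n)
    {Q : ((W.map (Int.castRingHom ℚ))⁄Qbar).Point} (hQ : n • Q = 0)
    (h : W.InZeroComponentAt A Q) (k : ℤ) : W.InZeroComponentAt A (k • Q) := by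
  have hA' : (q : Qbar) ∈ A.nonunits := hA
  obtain ⟨hint, r, m, hr, hM⟩ := exists_node W hq hA' hΔ hqΔ hqc
  have hn : (ordFnAt A hq hA').Eq 0 (n : Qbar) := by
    have := eq_zero_of_not_dvd (n := (n : ℤ)) hq hA' (by exact_mod_cast hqn)
    exact_mod_cast this
  rw [inZero_iff] at h ⊢
  rw [zc_iff_comp hq hA' hint hr hM hn hodd hQ] at h
  rw [zc_iff_comp hq hA' hint hr hM hn hodd (by rw [smul_comm, hQ, smul_zero])]
  exact comp_zsmul_zero hM hn hodd hQ h k

end Curve

end Fermat.Agent.Maz.FreyS
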