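import Fermat.Agent.Maz.Cusp5
import Fermat.Agent.Maz.GlueZ

/-!
# Glue: S15 and S15c from MODULI and FINAL
-/

set_option autoImplicit false
set_option linter.unusedSectionVars false
set_option linter.style.haveILetI false
set_option synthInstance.maxHeartbeats 400000

namespace Fermat.Agent.Maz

open ModularCurve AlgebraicCurve Fermat.Agent.Curves Fermat.Agent.GoodRed IsLocalRing
open IntermediateField Module
open WeierstrassCurve WeierstrassCurve.Affine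
open scoped Pointwise

local notation "Qbar" => AlgebraicClosure ℚ
local notation "GQ" => Qbar ≃ₐ[ℚ] Qbar

section Red

theorem exists_modRedN {K κ : Type} [Field K] [Field κ] {A : ValuationSubring K} (π : A →+* κ)
    [IsLocalHom π] [IsAlgClosed K] [IsAlgClosed κ] [CharZero K] (ι : K →+* ℂ)
    (hπ : Function.Surjective π) (N : ℕ)
    (hNκ : (N : κ) ≠ 0) (h6 : (6 : κ) ≠ 0)
    {E : IntermediateField K (LaurentSeries K)} (hE : E = modularFunctionFieldFullC K N)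
    [IsFunctionField K E] [IsFunctionField κ (modularFunctionFieldFullC κ N)] :
    ∃ (R : Divisor K E →+ Divisor κ (modularFunctionFieldFullC κ N))
      (c : ℤ), PosDeg R c ∧
      (∀ (f : E) (fb : modularFunctionFieldFullC κ N),
        LR π (f : LaurentSeries K) (fb : LaurentSeries κ) → fb ≠ 0 →
          R (divisorOf f) = divisorOf fb) ∧
      (∀ m : ℕ, (m : κ) ≠ 0 → RankOne π → ∀ D : Divisor K E,
        (m • D).IsPrincipal → (R D).IsPrincipal → D.IsPrincipal) := by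
  subst hE
  have hN0 : N ≠ 0 := by rintro rfl; simp at hNκ
  haveI : NeZero N := ⟨hN0⟩
  have hNK : (N : K) ≠ 0 := by exact_mod_cast hN0
  exact modRed_of_hasGood π dvd_rfl hNκ (hasGood_of_six π N ι h6 hπ hNK hNκ) (fun m _ => by
    rw [relfinrank_self]
    exact Nat.coprime_one_left m)

theorem exists_isRedKer {N : ℕ} [NeZero N] {ℓ : ℕ} (hℓ : ℓ.Prime) (h5 : 5 ≤ ℓ)
    {A : ValuationSubring Qbar} (hA : A.LiesOverPrime ℓ) (hN : ¬ ℓ ∣ N) :
    ∃ K : AddSubgroup (JZero N), IsRedKer N ℓ A K := by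
  obtain ⟨ι⟩ := exists_emb_Qbar
  have hNκ := residue_ne_zero hℓ hA hN
  haveI := isFunctionField_fullC (ResidueField A) N hNκ
  have h6 : (6 : ResidueField A) ≠ 0 := by
    have h1 : ((6 : ℕ) : ResidueField A) ≠ 0 := residue_ne_zero hℓ hA (by
      intro h
      have h3 : ℓ ∣ 2 * 3 := by norm_num; exact h
      rcases (Nat.Prime.dvd_mul hℓ).mp h3 with h4 | h4
      · have := Nat.le_of_dvd (by norm_num) h4
        omega
      · have := Nat.le_of_dvd (by norm_num) h4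
        omega)
    exact_mod_cast h1
  obtain ⟨R, c, h1, h2, h3⟩ := exists_modRedN (residue A) ι residue_surjective N hNκ h6
    (laurentBaseChange_eq Qbar N)
  let r : RedMap A N N := ⟨R, c, h1, le_rfl, h2, fun m hm D => h3 m hm (rankOne_Qbar hℓ hA) D⟩
  exact ⟨_, hℓ, hA, hN, N, inferInstance, r, hNκ, fun _ => rfl, rfl⟩

theorem exists_cusps {N : ℕ} [NeZero N] (hN : N.Prime) :
    ∃ P0 Pinf : Place Qbar (modularFunctionFieldBar N), IsCuspZero N P0 ∧ IsCuspInf N Pinf := by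
  obtain ⟨ι⟩ := exists_emb_Qbar
  have hB := laurentBaseChange_eq Qbar N
  obtain ⟨h⟩ := exists_ALP Qbar ι N hN (modularFunctionFieldBar N) hB (jB N).2
  obtain ⟨Pi, hPi⟩ := exists_inf (K := Qbar) (B := modularFunctionFieldBar N) (hj := (jB N).2)
  obtain ⟨Pz, hPz⟩ := exists_zero h
  have c : TwoCusps h Pz Pi := ⟨hPi, hPz⟩
  exact ⟨Pz, Pi, c.zero_j, c.inf_j⟩

end Red

theorem five_le_of {p : ℕ} (hp : p.Prime) (hp' : p ∉ ({2, 3, 5, 7, 13} : Finset ℕ)) :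
    11 ≤ p := by
  simp only [Finset.mem_insert, Finset.mem_singleton] at hp'
  by_contra hlt
  push Not at hlt
  interval_cases p <;> first | omega | (revert hp; norm_num)

theorem prime_cases {ℓ : ℕ} (hℓ : ℓ.Prime) : ℓ = 2 ∨ ℓ = 3 ∨ 5 ≤ ℓ := by
  by_contra hcon
  push Not at hcon
  obtain ⟨h1, h2, h3⟩ := hcon
  interval_cases ℓ <;> first | omega | (revert hℓ; norm_num)

/-- **S15c** -/
theorem s15c_of (hM : Moduli) (hF : FinalCusp) : FreyS.S15c := by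
  intro p hp hp' W hΔ C hC hst h2Δ h2c h2 h3Δ h3c h3 ℓ hℓ hℓp hℓΔ hℓc A hA Q hQ
  haveI : NeZero p := ⟨hp.ne_zero⟩
  have h11 := five_le_of hp hp'
  rcases prime_cases hℓ with rfl | rfl | h5
  · exact h2 A hA Q hQ
  · exact h3 A hA Q hQ
  by_contra hcon
  obtain ⟨P0, Pinf, h0, hi⟩ := exists_cusps (N := p) hp
  obtain ⟨y, hy, hred⟩ := hM p hp (by omega) W hΔ h2Δ h2c C hC hst P0 Pinf h0 hi
  obtain ⟨K, hK⟩ := exists_isRedKer (N := p) hℓ h5 hA (fun h =>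
    hℓp ((Nat.prime_dvd_prime_iff_eq hℓ hp).mp h))
  refine hF p hp hp' P0 Pinf h0 hi y hy Pinf P0 (Or.inr ⟨rfl, rfl⟩) ?_ ℓ A K h5 hK
    ((hred ℓ A K hK hℓΔ hℓc).2 ⟨Q, hQ, hcon⟩)
  intro s B K' hs hK'
  have hB : B.LiesOverPrime s := hK'.2.1
  rcases hs with rfl | rfl
  · exact (hred 2 B K' hK' h2Δ h2c).1 (h2 B hB)
  · exact (hred 3 B K' hK' h3Δ h3c).1 (h3 B hB)

/-- **S15** -/
theorem s15_of (hM : Moduli) (hF : FinalCusp)
    {p : ℕ} (hp : p.Prime) (hp' : p ∉ ({2, 3, 5, 7, 13} : Finset ℕ))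
    (W : WeierstrassCurve ℤ) (hΔ : W.Δ ≠ 0)
    (Q : ((W.map (Int.castRingHom ℚ))⁄(AlgebraicClosure ℚ)).Point)
    (hQfix : ∀ σ : AlgebraicClosure ℚ ≃ₐ[ℚ] AlgebraicClosure ℚ, σ • Q = Q)
    (hQord : addOrderOf Q = p)
    (h2Δ : (2 : ℤ) ∣ W.Δ) (h2c₄ : ¬ (2 : ℤ) ∣ W.c₄)
    (h2 : ∀ A : ValuationSubring (AlgebraicClosure ℚ), A.LiesOverPrime 2 → ¬ W.InZeroComponentAt A Q)
    (h3Δ : (3 : ℤ) ∣ W.Δ) (h3c₄ : ¬ (3 : ℤ) ∣ W.c₄)
    (h3 : ∀ A : ValuationSubring (AlgebraicClosure ℚ), A.LiesOverPrime 3 → ¬ W.InZeroComponentAt A Q)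
    {ℓ : ℕ} (hℓ : ℓ.Prime) (hℓp : ℓ ≠ p) (hℓΔ : (ℓ : ℤ) ∣ W.Δ) (hℓc₄ : ¬ (ℓ : ℤ) ∣ W.c₄)
    (A : ValuationSubring (AlgebraicClosure ℚ)) (hA : A.LiesOverPrime ℓ) :
    ¬ W.InZeroComponentAt A Q := by
  haveI : NeZero p := ⟨hp.ne_zero⟩
  have h11 := five_le_of hp hp'
  rcases prime_cases hℓ with rfl | rfl | h5
  · exact h2 A hA
  · exact h3 A hA
  intro hcon
  obtain ⟨P0, Pinf, h0, hi⟩ := exists_cusps (N := p) hp
  have hℓp' : ¬ ℓ ∣ p := fun h => hℓp ((Nat.prime_dvd_prime_iff_eq hℓ hp).mp h)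
  have hpQ : p • Q = 0 := by rw [← hQord]; exact addOrderOf_nsmul_eq_zero Q
  have hC : Nat.card (AddSubgroup.zmultiples Q) = p := by
    rw [Nat.card_zmultiples, hQord]
  have hst : ∀ σ : GQ, ∀ R ∈ AddSubgroup.zmultiples Q, σ • R ∈ AddSubgroup.zmultiples Q := by
    rintro σ R ⟨k, rfl⟩
    refine ⟨k, ?_⟩
    show k • Q = σ • (k • Q)
    have h3 := (DistribSMul.toAddMonoidHom
      ((W.map (Int.castRingHom ℚ))⁄(AlgebraicClosure ℚ)).Point σ).map_zsmul k Q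
    change σ • (k • Q) = k • (σ • Q) at h3
    rw [h3, hQfix]
  obtain ⟨y, hy, hred⟩ := hM p hp (by omega) W hΔ h2Δ h2c₄ _ hC hst P0 Pinf h0 hi
  obtain ⟨K, hK⟩ := exists_isRedKer (N := p) hℓ h5 hA hℓp'
  refine hF p hp hp' P0 Pinf h0 hi y hy P0 Pinf (Or.inl ⟨rfl, rfl⟩) ?_ ℓ A K h5 hK
    ((hred ℓ A K hK hℓΔ hℓc₄).1 ?_)
  · intro s B K' hs hK'
    have hB : B.LiesOverPrime s := hK'.2.1
    rcases hs with rfl | rfl
    · exact (hred 2 B K' hK' h2Δ h2c₄).2 ⟨Q, AddSubgroup.mem_zmultiples Q, h2 B hB⟩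
    · exact (hred 3 B K' hK' h3Δ h3c₄).2 ⟨Q, AddSubgroup.mem_zmultiples Q, h3 B hB⟩
  · rintro R ⟨k, rfl⟩
    exact FreyS.inZero_zsmul W hℓ hA hΔ hℓΔ hℓc₄ hℓp' (hp.odd_of_ne_two (by omega)) hpQ hcon k

end Fermat.Agent.Maz
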