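import Fermat.Agent.Maz.XH

set_option autoImplicit false
set_option linter.unusedSectionVars false

/-! # From the count to the abstract form of KEY -/

noncomputable section

namespace Fermat.Agent.Maz

open Fermat.Agent.ECRed Fermat.Agent.Carayol Fermat.Agent.FU OrdFn
open Fermat.Agent.TWGal Fermat.Agent.TWPr
open scoped Pointwise TensorProduct

/-- the input data -/
structure KD (J : Type) [AddCommGroup J] [DistribMulAction GQ J] (T : Type) [CommRing T]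
    (N r : ℕ) (pl : ℕ → ValuationSubring Qb) (op : T → J → J) (I : Ideal T) (Tr : T)
    (K : AddSubgroup J) (c₀ : J) : Prop where
  hN : N.Prime
  hr : r.Prime
  hrN : r ≠ N
  hpl : ∀ q : ℕ, q.Prime → (pl q).LiesOverPrime q
  op_sum : ∀ (t : T) (x y : J), op t (x + y) = op t x + op t y
  op_one : ∀ x : J, op 1 x = x
  op_add : ∀ (t u : T) (k : ℕ) (x : J), r ^ k • x = 0 → op (t + u) x = op t x + op u x
  op_mul : ∀ (t u : T) (k : ℕ) (x : J), r ^ k • x = 0 → op (t * u) x = op t (op u x)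
  op_gal : ∀ (t : T) (σ : GQ) (x : J), op t (σ • x) = σ • op t x
  sat : ∃ b : ℕ, ∀ (k : ℕ) (t : T), (∀ x : J, r ^ (k + b) • x = 0 → op t x = 0) →
    ∃ u : T, t = (r ^ k : ℕ) • u
  es : ∀ (g : GQ) (k : ℕ), ∃ (t : T) (c : ℕ), Cy r k g c ∧ t - 1 - (c : T) ∈ I ∧
    ∀ x : J, r ^ k • x = 0 → g • x + c • (g⁻¹ • x) = op t x
  hI : ∀ t ∈ I, op t c₀ = 0
  c₀tor : r • c₀ = 0
  finJ : ∀ k : ℕ, {x : J | r ^ k • x = 0}.Finite
  levJ : ∀ x : J, ∃ L : IntermediateField ℚ Qb, FiniteDimensional ℚ L ∧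
    ∀ σ ∈ L.fixingSubgroup, σ • x = x
  eis : ∃ (g : GQ) (s : ℕ) (Ts u : T) (D : ℕ), D ≠ 0 ∧ (Ts - 1 - (s : T)) * u = (D : T) ∧
    (∀ k, Cy r k g s) ∧ ∀ (k : ℕ) (x : J), r ^ k • x = 0 → g • x + s • (g⁻¹ • x) = op Ts x
  away : ∀ q : ℕ, q.Prime → q ≠ r → q ≠ N → ∀ σ ∈ (pl q).inertiaSubgroupIn ℚ,
    ∀ (k : ℕ) (y : J), r ^ k • (σ • y - y) = 0 → σ • y = y
  uni : ∀ σ ∈ (pl N).inertiaSubgroupIn ℚ, ∀ (k : ℕ) (x : J), r ^ k • x = 0 →
    σ • (σ • x - x) = σ • x - x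
  inr : ∀ σ ∈ (pl r).inertiaSubgroupIn ℚ, ∀ y : J, σ • y - y ∈ K
  frr : ∀ φ : GQ, (pl r).IsFrobeniusAt φ r → ∀ (k : ℕ) (y : J), r ^ k • y = 0 →
    φ • φ • y - op Tr (φ • y) + r • y ∈ K
  Trη : Tr - 1 - (r : T) ∈ I
  eta : ∃ (u u' : T) (D D' : ℕ), D ≠ 0 ∧ D' ≠ 0 ∧ (Tr - 1 - (r : T)) * u = (D : T) ∧
    (Tr + 1 + (r : T)) * u' = (D' : T)
  a12 : ∀ (k : ℕ) (E : AddSubgroup J), (∀ x ∈ E, r ^ k • x = 0) → E ≤ K →
    (∀ x ∈ E, op Tr x ∈ E) → (∀ x ∈ E, op Tr x = 0 → x = 0) →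
    ∀ σ ∈ (pl r).inertiaSubgroupIn ℚ, ∀ c : ℕ, Cy r k σ c → ∀ x ∈ E, σ • x = c • x

lemma rr_map {r : ℕ} [hr : Fact r.Prime] {V V' : Type} [AddCommGroup V] [AddCommGroup V']
    (T : Type) [CommRing T] [Module T V] [Module T V'] (h : RTors r V) (h' : RTors r V')
    (f : V →+ V') (hf : ∀ (t : T) (v : V), f (t • v) = t • f v)
    (ρ : Rr r T) (v : V) :
    letI := rrMod T h
    letI := rrMod T h'
    f (ρ • v) = ρ • f v := by
  letI := rrMod T h
  letI := rrMod T h'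
  induction ρ using TensorProduct.induction_on with
  | zero =>
    have h1 : ∀ w : V, (0 : Rr r T) • w = 0 := fun w => by
      have h2 := zero_smul (Rr r T) w
      exact h2
    have h1' : ∀ w : V', (0 : Rr r T) • w = 0 := fun w => by
      have h2 := zero_smul (Rr r T) w
      exact h2
    exact (congrArg f (h1 v)).trans ((map_zero f).trans (h1' _).symm)
  | tmul a t =>
    obtain ⟨k, hk⟩ := h v
    obtain ⟨n, hn⟩ := tzp_exists k a
    have h2 : r ^ k • f v = 0 := by rw [← map_nsmul, hk, map_zero]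
    rw [rr_smul_eq T h hk hn, rr_smul_eq T h' h2 hn, map_zsmul, hf]
  | add x y hx hy => rw [add_smul, add_smul, map_add, hx, hy]

namespace KD

variable {J : Type} [AddCommGroup J] [DistribMulAction GQ J] {T : Type} [CommRing T]
  {N r : ℕ} {pl : ℕ → ValuationSubring Qb} {op : T → J → J} {I : Ideal T} {Tr : T}
  {K : AddSubgroup J} {c₀ : J} (H : KD J T N r pl op I Tr K c₀)
include H

lemma op_z (t : T) : op t 0 = 0 := by
  have := H.op_sum t 0 0
  rw [add_zero] at this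
  exact left_eq_add.mp this

lemma op_neg (t : T) (x : J) : op t (-x) = -op t x := by
  have := H.op_sum t x (-x)
  rw [add_neg_cancel, H.op_z] at this
  exact (neg_eq_of_add_eq_zero_right this.symm).symm

lemma op_sub (t : T) (x y : J) : op t (x - y) = op t x - op t y := by
  rw [sub_eq_add_neg, H.op_sum, H.op_neg, sub_eq_add_neg]

lemma op_nsmul (t : T) (n : ℕ) (x : J) : op t (n • x) = n • op t x := by
  induction n with
  | zero => rw [zero_smul, zero_smul, H.op_z]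
  | succ n ih => rw [succ_nsmul, succ_nsmul, H.op_sum, ih]

lemma op_tor {t : T} {k : ℕ} {x : J} (hx : r ^ k • x = 0) : r ^ k • op t x = 0 := by
  rw [← H.op_nsmul, hx, H.op_z]

lemma op_zero {k : ℕ} {x : J} (hx : r ^ k • x = 0) : op 0 x = 0 := by
  have := H.op_add 0 0 k x hx
  rw [add_zero] at this
  exact left_eq_add.mp this

/-- a stable torsion subgroup -/
structure Sb (_H : KD J T N r pl op I Tr K c₀) (W : AddSubgroup J) : Prop where
  tor : ∀ x ∈ W, ∃ k : ℕ, r ^ k • x = 0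
  opS : ∀ t : T, ∀ x ∈ W, op t x ∈ W
  gal : ∀ σ : GQ, ∀ x ∈ W, σ • x ∈ W

/-- the module structure -/
@[reducible] def tMod {W : AddSubgroup J} (hW : H.Sb W) : Module T W where
  smul t x := ⟨op t x, hW.opS t x x.2⟩
  one_smul x := Subtype.ext (H.op_one x)
  mul_smul t u x := by
    obtain ⟨k, hk⟩ := hW.tor x x.2
    exact Subtype.ext (H.op_mul t u k x hk)
  smul_zero t := Subtype.ext (H.op_z t)
  smul_add t x y := Subtype.ext (H.op_sum t x y)
  add_smul t u x := by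
    obtain ⟨k, hk⟩ := hW.tor x x.2
    exact Subtype.ext (H.op_add t u k x hk)
  zero_smul x := by
    obtain ⟨k, hk⟩ := hW.tor x x.2
    exact Subtype.ext (H.op_zero hk)

lemma rt {W : AddSubgroup J} (hW : H.Sb W) : RTors r W := fun x => by
  obtain ⟨k, hk⟩ := hW.tor x x.2
  exact ⟨k, Subtype.ext hk⟩

/-- all the torsion -/
def Vt (_H : KD J T N r pl op I Tr K c₀) : AddSubgroup J where
  carrier := {x | ∃ k : ℕ, r ^ k • x = 0}
  zero_mem' := ⟨0, smul_zero _⟩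
  add_mem' := fun {a b} ⟨k, hk⟩ ⟨l, hl⟩ => ⟨k + l, by
    rw [smul_add, pow_add, mul_smul, mul_smul, hl, smul_zero, add_zero, smul_comm, hk,
      smul_zero]⟩
  neg_mem' := fun {a} ⟨k, hk⟩ => ⟨k, by rw [smul_neg, hk, neg_zero]⟩

lemma sbV : H.Sb H.Vt := by
  refine ⟨fun x hx => hx, fun t x hx => ?_, fun σ x hx => ?_⟩
  · obtain ⟨k, hk⟩ := hx
    exact ⟨k, H.op_tor hk⟩
  · obtain ⟨k, hk⟩ := hx
    exact ⟨k, by rw [smul_comm, hk, smul_zero]⟩

lemma c₀k (k : ℕ) : r ^ (k + 1) • c₀ = 0 := by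
  rw [pow_succ, mul_smul, H.c₀tor, smul_zero]

/-- the ideal -/
def P0 (H : KD J T N r pl op I Tr K c₀) : Ideal T where
  carrier := {t | op t c₀ = 0}
  zero_mem' := H.op_zero (H.c₀k 0)
  add_mem' := fun {a b} ha hb => by
    have ha' : op a c₀ = 0 := ha
    have hb' : op b c₀ = 0 := hb
    show op (a + b) c₀ = 0
    rw [H.op_add a b 1 c₀ (H.c₀k 0), ha', hb', add_zero]
  smul_mem' := fun a b hb => by
    have hb' : op b c₀ = 0 := hb
    show op (a * b) c₀ = 0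
    rw [H.op_mul a b 1 c₀ (H.c₀k 0), hb', H.op_z]

lemma I_le : I ≤ H.P0 := fun t ht => H.hI t ht

lemma op_pow_add {t : T} {k : ℕ} {x : J} (hx : r ^ k • x = 0) (i j : ℕ) :
    op (t ^ (i + j)) x = op (t ^ i) (op (t ^ j) x) := by
  rw [pow_add, H.op_mul _ _ k x hx]

/-- the `P`-part -/
def Xt (H : KD J T N r pl op I Tr K c₀) : AddSubgroup J where
  carrier := {x | (∃ k : ℕ, r ^ k • x = 0) ∧ ∀ t ∈ H.P0, ∃ j : ℕ, op (t ^ j) x = 0}
  zero_mem' := ⟨⟨0, smul_zero _⟩, fun t _ => ⟨0, H.op_z _⟩⟩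
  add_mem' := fun {a b} ha hb => by
    refine ⟨H.Vt.add_mem ha.1 hb.1, fun t ht => ?_⟩
    obtain ⟨i, hi⟩ := ha.2 t ht
    obtain ⟨j, hj⟩ := hb.2 t ht
    obtain ⟨k, hk⟩ := ha.1
    obtain ⟨l, hl⟩ := hb.1
    refine ⟨i + j, ?_⟩
    rw [H.op_sum, H.op_pow_add hl, hj, H.op_z, add_zero, add_comm, H.op_pow_add hk, hi, H.op_z]
  neg_mem' := fun {a} ha => by
    refine ⟨H.Vt.neg_mem ha.1, fun t ht => ?_⟩
    obtain ⟨i, hi⟩ := ha.2 t ht
    exact ⟨i, by rw [H.op_neg, hi, neg_zero]⟩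

lemma sbX : H.Sb H.Xt := by
  refine ⟨fun x hx => hx.1, fun u x hx => ?_, fun σ x hx => ?_⟩
  · refine ⟨H.sbV.opS u x hx.1, fun t ht => ?_⟩
    obtain ⟨j, hj⟩ := hx.2 t ht
    obtain ⟨k, hk⟩ := hx.1
    refine ⟨j, ?_⟩
    rw [← H.op_mul _ _ k x hk, mul_comm, H.op_mul _ _ k x hk, hj, H.op_z]
  · refine ⟨H.sbV.gal σ x hx.1, fun t ht => ?_⟩
    obtain ⟨j, hj⟩ := hx.2 t ht
    exact ⟨j, by rw [H.op_gal, hj, smul_zero]⟩

lemma exists_idem (k : ℕ) (t : T) : ∃ n : ℕ, 1 ≤ n ∧ ∀ x : J, r ^ k • x = 0 →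
    op (t ^ (n + n)) x = op (t ^ n) x := by
  classical
  haveI : Finite {x : J | r ^ k • x = 0} := (H.finJ k).to_subtype
  let F : ℕ → ({x : J | r ^ k • x = 0} → {x : J | r ^ k • x = 0}) := fun n x =>
    ⟨op (t ^ n) x, H.op_tor x.2⟩
  obtain ⟨m, m', hne, hF⟩ := Finite.exists_ne_map_eq_of_infinite F
  wlog hlt : m < m' generalizing m m'
  · exact this m' m hne.symm hF.symm (by omega)
  obtain ⟨p, rfl⟩ := Nat.exists_eq_add_of_lt hlt
  have h1 : ∀ x : J, r ^ k • x = 0 → op (t ^ (m + p + 1)) x = op (t ^ m) x := by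
    intro x hx
    have := congrFun hF ⟨x, hx⟩
    exact (congrArg Subtype.val this).symm
  -- periodicity
  have h2 : ∀ (i : ℕ) (x : J), r ^ k • x = 0 → op (t ^ (i + m + (p + 1))) x = op (t ^ (i + m)) x := by
    intro i x hx
    rw [show i + m + (p + 1) = i + (m + p + 1) by ring, H.op_pow_add hx, h1 x hx,
      ← H.op_pow_add hx]
  have h3 : ∀ (a i : ℕ) (x : J), r ^ k • x = 0 →
      op (t ^ (i + m + a * (p + 1))) x = op (t ^ (i + m)) x := by
    intro a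
    induction a with
    | zero => intro i x _; rw [zero_mul, add_zero]
    | succ a ih =>
      intro i x hx
      rw [show i + m + (a + 1) * (p + 1) = (i + a * (p + 1)) + m + (p + 1) by ring,
        h2 _ x hx, show i + a * (p + 1) + m = i + m + a * (p + 1) by ring, ih i x hx]
  refine ⟨(m + 1) * (p + 1), Nat.mul_pos (by omega) (by omega), fun x hx => ?_⟩
  obtain ⟨i, hi⟩ : ∃ i, (m + 1) * (p + 1) = i + m := ⟨(m + 1) * (p + 1) - m, by nlinarith [Nat.sub_add_cancel (show m ≤ (m + 1) * (p + 1) by nlinarith)]⟩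
  conv_lhs => rw [show (m + 1) * (p + 1) + (m + 1) * (p + 1) = i + m + (m + 1) * (p + 1) by
    rw [← hi]]
  rw [h3 _ i x hx, ← hi]

/-- the projector -/
theorem exists_e [Module.Finite ℤ T] (k : ℕ) : ∃ e : T,
    (∀ x : J, r ^ k • x = 0 → op e x ∈ H.Xt) ∧ op e c₀ = c₀ := by
  classical
  haveI : IsNoetherianRing T := IsNoetherianRing.of_finite ℤ T
  obtain ⟨S, hS⟩ := (IsNoetherian.noetherian H.P0 : H.P0.FG)
  choose n hn1 hn2 using fun t : T => H.exists_idem k t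
  letI := H.tMod H.sbV
  have hsm : ∀ (t : T) (x : H.Vt), ((t • x : H.Vt) : J) = op t x := fun _ _ => rfl
  have hid : ∀ (t : T) (x : H.Vt), r ^ k • (x : J) = 0 →
      (t ^ n t * (1 - t ^ n t)) • x = 0 := by
    intro t x hx
    have h1 : t ^ n t * (1 - t ^ n t) = t ^ n t - t ^ (n t + n t) := by rw [pow_add]; ring
    rw [h1, sub_smul, sub_eq_zero]
    exact Subtype.ext (hn2 t x hx).symm
  have htor : ∀ (t : T) (x : H.Vt), r ^ k • (x : J) = 0 → r ^ k • ((t • x : H.Vt) : J) = 0 :=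
    fun t x hx => H.op_tor hx
  refine ⟨∏ t ∈ S, (1 - t ^ n t), fun x hx => ?_, ?_⟩
  · refine ⟨⟨k, H.op_tor hx⟩, ?_⟩
    set y : H.Vt := (∏ t ∈ S, (1 - t ^ n t)) • ⟨x, ⟨k, hx⟩⟩ with hy
    have h1 : ∀ t ∈ S, t ^ n t • y = 0 := by
      intro t ht
      rw [hy, ← Finset.mul_prod_erase S _ ht, smul_smul, ← mul_assoc, mul_comm, mul_smul,
        hid t _ hx, smul_zero]
    have h2 : H.P0 ≤ (Ideal.torsionOf T H.Vt y).radical := by
      rw [← hS]
      refine Ideal.span_le.mpr fun t ht => ?_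
      exact ⟨n t, (Ideal.mem_torsionOf_iff _ _).mpr (h1 t ht)⟩
    intro t ht
    obtain ⟨j, hj⟩ := h2 ht
    exact ⟨j, congrArg Subtype.val ((Ideal.mem_torsionOf_iff _ _).mp hj)⟩
  · set z : H.Vt := ⟨c₀, ⟨1, H.c₀k 0⟩⟩ with hz
    have h1 : ∀ t ∈ S, (1 - t ^ n t) • z = z := by
      intro t ht
      have h2 : t ∈ H.P0 := hS ▸ Ideal.subset_span ht
      have h3 : t • z = 0 := Subtype.ext h2
      obtain ⟨m, hm⟩ := Nat.exists_eq_add_of_le (hn1 t)
      rw [sub_smul, one_smul, hm, pow_add, pow_one, mul_comm, mul_smul, h3, smul_zero, sub_zero]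
    have h4 : (∏ t ∈ S, (1 - t ^ n t)) • z = z := by
      refine Finset.prod_induction (fun t => 1 - t ^ n t) (fun u => u • z = z) ?_ (one_smul _ _) h1
      intro a b ha hb
      rw [mul_smul, hb, ha]
    exact congrArg Subtype.val h4

end KD

end Fermat.Agent.Maz
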