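import Fermat.Agent.TWPr.L3
import Fermat.Agent.Maz.CountM

set_option autoImplicit false
set_option linter.unusedSectionVars false

/-! # Cocycles of the decomposition group restricted to inertia (unipotent case) -/

namespace Fermat.Agent.Maz

open Fermat.Agent.TWGal Fermat.Agent.TWPr
open scoped Pointwise

section abstract

variable {M : Type} [AddCommGroup M] [DistribMulAction GQ M] {c : GQ → M}

lemma coc_one (hc : ∀ g h : GQ, c (g * h) = c g + g • c h) : c 1 = 0 := by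
  have := hc 1 1
  rw [mul_one, one_smul] at this
  simpa using this

lemma coc_inv (hc : ∀ g h : GQ, c (g * h) = c g + g • c h) (g : GQ) :
    c g⁻¹ = -(g⁻¹ • c g) := by
  have := hc g⁻¹ g
  rw [inv_mul_cancel, coc_one hc] at this
  exact eq_neg_of_add_eq_zero_left this.symm

/-- the affine action -/
noncomputable def aff (c : GQ → M) (hc : ∀ g h : GQ, c (g * h) = c g + g • c h) :
    GQ →* Equiv.Perm M where
  toFun g :=
    { toFun := fun x => g • x + c g
      invFun := fun x => g⁻¹ • x + c g⁻¹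
      left_inv := fun x => by
        show g⁻¹ • (g • x + c g) + c g⁻¹ = x
        rw [smul_add, inv_smul_smul, coc_inv hc, add_assoc, add_neg_cancel, add_zero]
      right_inv := fun x => by
        show g • (g⁻¹ • x + c g⁻¹) + c g = x
        rw [coc_inv hc, smul_add, smul_inv_smul, smul_neg, smul_inv_smul, add_assoc,
          neg_add_cancel, add_zero] }
  map_one' := by
    ext x
    show (1 : GQ) • x + c 1 = x
    rw [one_smul, coc_one hc, add_zero]
  map_mul' g h := by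
    ext x
    show (g * h) • x + c (g * h) = g • (h • x + c h) + c g
    rw [hc, mul_smul, smul_add]; abel

lemma aff_apply (hc : ∀ g h : GQ, c (g * h) = c g + g • c h) (g : GQ) (x : M) :
    aff c hc g x = g • x + c g := rfl

lemma aff_eq (hc : ∀ g h : GQ, c (g * h) = c g + g • c h) {g h : GQ}
    (e : aff c hc g = aff c hc h) : c g = c h ∧ ∀ x : M, g • x = h • x := by
  have h1 : ∀ x : M, g • x + c g = h • x + c h := fun x => DFunLike.congr_fun e x
  have h2 := h1 0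
  rw [smul_zero, smul_zero, zero_add, zero_add] at h2
  refine ⟨h2, fun x => ?_⟩
  have := h1 x
  rw [h2] at this
  exact add_right_cancel this

/-- powers of a unipotent element -/
lemma unip_pow {σ : GQ} (hσ : ∀ m : M, σ • (σ • m - m) = σ • m - m) (n : ℕ) (m : M) :
    (σ ^ n) • m = m + n • (σ • m - m) := by
  induction n with
  | zero => simp
  | succ n ih =>
    rw [pow_succ', mul_smul, ih, smul_add, smul_comm σ n, hσ, succ_nsmul]
    abel

lemma aff_pow {k r : ℕ} (hk : ∀ m : M, r ^ k • m = 0)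
    (hc : ∀ g h : GQ, c (g * h) = c g + g • c h) {σ : GQ}
    (hσ : ∀ m : M, σ • (σ • m - m) = σ • m - m) : aff c hc σ ^ (r ^ (k + k)) = 1 := by
  rw [pow_add, pow_mul, ← map_pow]
  set τ := σ ^ (r ^ k) with hτ
  have h1 : ∀ m : M, τ • m = m := by
    intro m
    rw [hτ, unip_pow hσ, hk, add_zero]
  have h2 : ∀ (n : ℕ) (x : M), (aff c hc τ ^ n) x = x + n • c τ := by
    intro n
    induction n with
    | zero => intro x; simp
    | succ n ih =>
      intro x
      rw [pow_succ]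
      show (aff c hc τ ^ n) (aff c hc τ x) = _
      rw [ih, aff_apply, h1, succ_nsmul]; abel
  ext x
  rw [h2, hk, add_zero]
  rfl

end abstract

variable {A : ValuationSubring (AlgebraicClosure ℚ)} {q r : ℕ}
  {M : Type} [AddCommGroup M] [DistribMulAction GQ M]

/-- **restriction to inertia of cocycles of the decomposition group** -/
theorem loc_N (hq : q.Prime) (hA : A.LiesOverPrime q) (hr : r.Prime) (hrq : r ≠ q) {k : ℕ}
    (hk : ∀ m : M, r ^ k • m = 0)
    (L : IntermediateField ℚ (AlgebraicClosure ℚ)) [FiniteDimensional ℚ L]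
    (hL : ∀ g ∈ L.fixingSubgroup, ∀ m : M, g • m = m)
    (huni : ∀ σ ∈ A.inertiaSubgroupIn ℚ, ∀ m : M, σ • (σ • m - m) = σ • m - m)
    {φ σ₀ : GQ} (hφ : A.IsFrobeniusAt φ q) (hσI : σ₀ ∈ A.inertiaSubgroupIn ℚ)
    (hσ₀ : ∀ π : AlgebraicClosure ℚ, π ^ r = q → σ₀ π ≠ π)
    {a D : ℕ}
    (hUN : ∀ m : M, (∀ σ ∈ A.inertiaSubgroupIn ℚ, σ • m = m) → ∃ m' : M, a • m = σ₀ • m' - m')
    (hD : ∀ m : M, σ₀ • (D • (φ • φ • m - m)) = D • (φ • φ • m - m))
    {c : GQ → M} (hc : ∀ g h : GQ, c (g * h) = c g + g • c h)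
    (L' : IntermediateField ℚ (AlgebraicClosure ℚ)) [FiniteDimensional ℚ L']
    (hL' : ∀ g ∈ L'.fixingSubgroup, c g = 0) :
    ∃ m₀ : M, ∀ σ ∈ A.inertiaSubgroupIn ℚ, (a * (D * (q ^ 2 - 1))) • c σ = σ • m₀ - m₀ := by
  classical
  -- the affine representation
  set ρ : A.inertiaSubgroupIn ℚ →* Equiv.Perm M :=
    (aff c hc).comp (A.inertiaSubgroupIn ℚ).subtype with hρ
  have hρa : ∀ σ : A.inertiaSubgroupIn ℚ, ρ σ = aff c hc (σ : GQ) := fun _ => rfl
  have hKtriv : ∀ σ : A.inertiaSubgroupIn ℚ, (∀ x ∈ L ⊔ L', (σ : GQ) x = x) → ρ σ = 1 := by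
    intro σ hσ
    have h0 : (σ : GQ) ∈ (L ⊔ L').fixingSubgroup :=
      (IntermediateField.mem_fixingSubgroup_iff _ _).mpr hσ
    have h1 : (σ : GQ) ∈ L.fixingSubgroup := IntermediateField.fixingSubgroup_le le_sup_left h0
    have h2 : (σ : GQ) ∈ L'.fixingSubgroup := IntermediateField.fixingSubgroup_le le_sup_right h0
    ext x
    show (σ : GQ) • x + c σ = x
    rw [hL _ h1, hL' _ h2, add_zero]
  have hpp : ∀ σ, ∃ n : ℕ, ρ σ ^ (r ^ n) = 1 := fun σ =>
    ⟨k + k, by rw [hρa]; exact aff_pow hk hc (huni σ σ.2)⟩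
  -- generation
  have hgen : ∀ σ ∈ A.inertiaSubgroupIn ℚ, ∃ i : ℤ, c σ = c (σ₀ ^ i) ∧
      ∀ x : M, σ • x = (σ₀ ^ i) • x := by
    intro σ hσ
    have h1 := mem_zpowers_inertia hq hA hr hrq ρ (L ⊔ L') hKtriv hpp (σ₀ := ⟨σ₀, hσI⟩) hσ₀
      ⟨σ, hσ⟩
    obtain ⟨i, hi⟩ := h1
    have h2 : aff c hc (σ₀ ^ i) = aff c hc σ := by
      rw [map_zpow]
      exact hi
    obtain ⟨h3, h4⟩ := aff_eq hc h2
    exact ⟨i, h3.symm, fun x => (h4 x).symm⟩
  have hfixall : ∀ m : M, σ₀ • m = m → ∀ σ ∈ A.inertiaSubgroupIn ℚ, σ • m = m := by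
    intro m hm σ hσ
    obtain ⟨i, -, h2⟩ := hgen σ hσ
    rw [h2]
    have h3 : σ₀ ^ i ∈ MulAction.stabilizer GQ m := Subgroup.zpow_mem _ hm i
    exact h3
  -- the tame relation
  have htame : aff c hc (φ * σ₀ * φ⁻¹) = aff c hc (σ₀ ^ q) := by
    have h1 := conj_frob_inertia hq hA hr hrq ρ (L ⊔ L') hKtriv hpp hφ hσI hσ₀
    rw [map_pow]
    exact h1
  obtain ⟨ht1, ht2⟩ := aff_eq hc htame
  -- notation
  have hsn : ∀ (g : GQ) (n : ℕ) (x : M), g • n • x = n • g • x := fun g n x => smul_comm g n x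
  set t : M := c σ₀ with ht
  let ν : M → M := fun m => σ₀ • m - m
  have hνadd : ∀ x y, ν (x + y) = ν x + ν y := by
    intro x y
    show σ₀ • (x + y) - (x + y) = (σ₀ • x - x) + (σ₀ • y - y)
    rw [smul_add]; abel
  have hνsub : ∀ x y, ν (x - y) = ν x - ν y := by
    intro x y
    show σ₀ • (x - y) - (x - y) = (σ₀ • x - x) - (σ₀ • y - y)
    rw [smul_sub]; abel
  have hνn : ∀ (n : ℕ) (x : M), ν (n • x) = n • ν x := by
    intro n x
    show σ₀ • (n • x) - n • x = n • (σ₀ • x - x)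
    rw [hsn, nsmul_sub]
  have hν0 : ν 0 = 0 := by
    show σ₀ • (0 : M) - 0 = 0
    rw [smul_zero, sub_zero]
  have hνν : ∀ m, ν (ν m) = 0 := by
    intro m
    show σ₀ • (σ₀ • m - m) - (σ₀ • m - m) = 0
    rw [huni σ₀ hσI, sub_self]
  have hνfix : ∀ m, σ₀ • ν m = ν m := fun m => huni σ₀ hσI m
  have hpow : ∀ (n : ℕ) (m : M), (σ₀ ^ n) • m = m + n • ν m := fun n m =>
    unip_pow (huni σ₀ hσI) n m
  -- `φ ν = q ν φ`
  have hφν : ∀ m, φ • ν m = q • ν (φ • m) := by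
    intro m
    have h1 := ht2 (φ • m)
    rw [mul_smul, mul_smul, inv_smul_smul, hpow] at h1
    show φ • (σ₀ • m - m) = q • ν (φ • m)
    rw [smul_sub, h1, add_sub_cancel_left]
  -- the value at `σ₀ ^ q`
  have hcq : ∀ n : ℕ, ∃ w, c (σ₀ ^ n) = n • t + ν w := by
    intro n
    induction n with
    | zero => exact ⟨0, by rw [pow_zero, coc_one hc, zero_smul, hν0, add_zero]⟩
    | succ n ih =>
      obtain ⟨w, hw⟩ := ih
      refine ⟨w + n • t, ?_⟩
      have e1 : c (σ₀ ^ (n + 1)) = c (σ₀ ^ n) + (σ₀ ^ n) • t := by rw [pow_succ, hc]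
      rw [e1, hw, hpow, hνadd, hνn, succ_nsmul]; abel
  have hφt : ∃ w, φ • t = q • t + ν w := by
    obtain ⟨w, hw⟩ := hcq q
    have h1 : c (φ * σ₀ * φ⁻¹) = c φ + φ • t + (φ * σ₀) • c φ⁻¹ := by rw [hc, hc]
    have h2 : (φ * σ₀) • c φ⁻¹ = -((φ * σ₀ * φ⁻¹) • c φ) := by
      rw [coc_inv hc, smul_neg, ← mul_smul]
    rw [h2, ht2, hpow] at h1
    rw [ht1, hw] at h1
    refine ⟨w + q • c φ, ?_⟩
    rw [hνadd, hνn]
    have h3 : φ • t = (q • t + ν w) + q • ν (c φ) := by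
      rw [h1]; abel
    rw [h3]; abel
  -- apply to `t`
  obtain ⟨w, hw⟩ := hφt
  have hq1 : 1 ≤ q ^ 2 := Nat.one_le_pow _ _ hq.pos
  have hφ2t : ∃ w', φ • φ • t = (q ^ 2) • t + ν w' := by
    refine ⟨q • w + q • φ • w, ?_⟩
    rw [hw, smul_add, hsn, hw, hφν, hνadd, hνn, hνn, smul_add, smul_smul, pow_two]
    abel
  obtain ⟨w', hw'⟩ := hφ2t
  have hfin : ν ((D * (q ^ 2 - 1)) • t) = 0 := by
    have h1 : ν (D • (φ • φ • t - t)) = 0 := sub_eq_zero.mpr (hD t)
    obtain ⟨s, hs⟩ : ∃ s, q ^ 2 = s + 1 := ⟨q ^ 2 - 1, by omega⟩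
    rw [hw', hs] at h1
    rw [hs, Nat.add_sub_cancel]
    rw [hνn, hνsub, hνadd, hνn, hνν, add_zero] at h1
    rw [hνn, mul_smul, ← h1]
    congr 1
    simp only [add_smul, one_smul]
    abel
  have hfin' : σ₀ • ((D * (q ^ 2 - 1)) • t) = (D * (q ^ 2 - 1)) • t :=
    sub_eq_zero.mp hfin
  obtain ⟨m₀, hm₀⟩ := hUN _ (hfixall _ hfin')
  refine ⟨m₀, ?_⟩
  -- the difference
  set B := a * (D * (q ^ 2 - 1)) with hB
  have hd : ∀ g h : GQ, (B • c (g * h) - ((g * h) • m₀ - m₀)) =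
      (B • c g - (g • m₀ - m₀)) + g • (B • c h - (h • m₀ - m₀)) := by
    intro g h
    rw [hc, smul_add, mul_smul g h m₀, smul_sub, smul_sub, hsn]
    abel
  have hd0 : B • c σ₀ - (σ₀ • m₀ - m₀) = 0 := by
    rw [hB, mul_smul, hm₀, sub_self]
  have hH : ∀ i : ℤ, B • c (σ₀ ^ i) - ((σ₀ ^ i) • m₀ - m₀) = 0 := by
    let H : Subgroup GQ :=
      { carrier := {g | B • c g - (g • m₀ - m₀) = 0}
        one_mem' := by
          show B • c 1 - ((1 : GQ) • m₀ - m₀) = 0
          rw [coc_one hc, one_smul, sub_self, smul_zero, sub_zero]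
        mul_mem' := fun {g h} hg hh => by
          show B • c (g * h) - ((g * h) • m₀ - m₀) = 0
          rw [hd, show B • c g - (g • m₀ - m₀) = 0 from hg,
            show B • c h - (h • m₀ - m₀) = 0 from hh, smul_zero, add_zero]
        inv_mem' := fun {g} hg => by
          show B • c g⁻¹ - (g⁻¹ • m₀ - m₀) = 0
          have h1 := hd g⁻¹ g
          rw [show B • c g - (g • m₀ - m₀) = 0 from hg, inv_mul_cancel, coc_one hc, one_smul,
            sub_self, smul_zero, sub_zero, smul_zero, add_zero] at h1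
          exact h1.symm }
    intro i
    have h1 : σ₀ ∈ H := hd0
    exact H.zpow_mem h1 i
  intro σ hσ
  obtain ⟨i, h1, h2⟩ := hgen σ hσ
  have h3 := sub_eq_zero.mp (hH i)
  rw [h1, h2, h3]

end Fermat.Agent.Maz
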