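import Fermat.Agent.Maz.Reg

set_option autoImplicit false
set_option linter.unusedSectionVars false

/-! # The action of the `r`-adic completion on an `r`-primary torsion group -/

noncomputable section

namespace Fermat.Agent.Maz

open scoped TensorProduct

section act

variable {r : ℕ} [hr : Fact r.Prime] {V : Type} [AddCommGroup V]

/-- `V` is `r`-power torsion -/
def RTors (r : ℕ) (V : Type) [AddCommGroup V] : Prop := ∀ v : V, ∃ k : ℕ, r ^ k • v = 0

lemma zsmul_congr {k : ℕ} {n m : ℤ} {v : V} (hv : r ^ k • v = 0)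
    (h : (n : ZMod (r ^ k)) = m) : n • v = m • v := by
  have h1 := (ZMod.intCast_eq_intCast_iff_dvd_sub _ _ _).mp h
  obtain ⟨q, hq⟩ := h1
  have h2 : m = n + q * ((r ^ k : ℕ) : ℤ) := by linear_combination hq
  rw [h2, add_smul, mul_smul, natCast_zsmul, hv, smul_zero, add_zero]

lemma tzp_mono {k k' : ℕ} (h : k' ≤ k) {n : ℤ} {a : ℤ_[r]}
    (hn : (n : ZMod (r ^ k)) = PadicInt.toZModPow k a) :
    (n : ZMod (r ^ k')) = PadicInt.toZModPow k' a := by
  rw [← PadicInt.zmod_cast_comp_toZModPow _ _ h, RingHom.comp_apply, ← hn, map_intCast]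

lemma tzp_exists (k : ℕ) (a : ℤ_[r]) : ∃ n : ℤ, (n : ZMod (r ^ k)) = PadicInt.toZModPow k a := by
  haveI : NeZero (r ^ k) := ⟨pow_ne_zero k hr.out.ne_zero⟩
  refine ⟨((PadicInt.toZModPow k a).val : ℤ), ?_⟩
  rw [Int.cast_natCast, ZMod.natCast_zmod_val]

/-- the action of a `r`-adic integer -/
def pact (h : RTors r V) (a : ℤ_[r]) (v : V) : V :=
  (Classical.choose (tzp_exists (Classical.choose (h v)) a)) • v

lemma pact_eq (h : RTors r V) {k : ℕ} {v : V} (hv : r ^ k • v = 0) {a : ℤ_[r]} {n : ℤ}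
    (hn : (n : ZMod (r ^ k)) = PadicInt.toZModPow k a) : pact h a v = n • v := by
  set k₀ := Classical.choose (h v) with hk₀
  have hv₀ : r ^ k₀ • v = 0 := Classical.choose_spec (h v)
  set n₀ := Classical.choose (tzp_exists k₀ a) with hn₀
  have hn₀' : (n₀ : ZMod (r ^ k₀)) = PadicInt.toZModPow k₀ a :=
    Classical.choose_spec (tzp_exists k₀ a)
  show n₀ • v = n • v
  rcases le_total k k₀ with hle | hle
  · exact zsmul_congr hv ((tzp_mono hle hn₀').trans hn.symm)
  · exact zsmul_congr hv₀ (hn₀'.trans (tzp_mono hle hn).symm)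

lemma tors_mono {k k' : ℕ} (h : k ≤ k') {v : V} (hv : r ^ k • v = 0) : r ^ k' • v = 0 := by
  obtain ⟨d, rfl⟩ := Nat.exists_eq_add_of_le h
  rw [pow_add, mul_comm, mul_smul, hv, smul_zero]

/-- the module structure -/
@[reducible] def padicMod (h : RTors r V) : Module ℤ_[r] V where
  smul := pact h
  one_smul v := by
    obtain ⟨k, hk⟩ := h v
    show pact h 1 v = v
    rw [pact_eq h hk (n := 1) (by simp), one_smul]
  mul_smul a b v := by
    obtain ⟨k, hk⟩ := h v
    obtain ⟨n, hn⟩ := tzp_exists k a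
    obtain ⟨m, hm⟩ := tzp_exists k b
    show pact h (a * b) v = pact h a (pact h b v)
    have hk' : r ^ k • (m • v) = 0 := by rw [smul_comm, hk, smul_zero]
    rw [pact_eq h hk (n := n * m) (by push_cast; rw [hn, hm, map_mul]), pact_eq h hk hm,
      pact_eq h hk' hn, mul_smul]
  smul_zero a := by
    obtain ⟨n, hn⟩ := tzp_exists 0 a
    show pact h a 0 = 0
    rw [pact_eq h (k := 0) (by simp) hn, smul_zero]
  smul_add a v w := by
    obtain ⟨k, hk⟩ := h v
    obtain ⟨l, hl⟩ := h w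
    have h1 := tors_mono (le_max_left k l) hk
    have h2 := tors_mono (le_max_right k l) hl
    obtain ⟨n, hn⟩ := tzp_exists (max k l) a
    show pact h a (v + w) = pact h a v + pact h a w
    have h3 : r ^ (max k l) • (v + w) = 0 := by rw [smul_add, h1, h2, add_zero]
    rw [pact_eq h h1 hn, pact_eq h h2 hn, pact_eq h h3 hn, smul_add]
  add_smul a b v := by
    obtain ⟨k, hk⟩ := h v
    obtain ⟨n, hn⟩ := tzp_exists k a
    obtain ⟨m, hm⟩ := tzp_exists k b
    show pact h (a + b) v = pact h a v + pact h b v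
    rw [pact_eq h hk (n := n + m) (by push_cast; rw [hn, hm, map_add]), pact_eq h hk hm,
      pact_eq h hk hn, add_smul]
  zero_smul v := by
    obtain ⟨k, hk⟩ := h v
    show pact h 0 v = 0
    rw [pact_eq h hk (n := 0) (by simp), zero_smul]

lemma padic_smul_eq (h : RTors r V) {k : ℕ} {v : V} (hv : r ^ k • v = 0) {a : ℤ_[r]} {n : ℤ}
    (hn : (n : ZMod (r ^ k)) = PadicInt.toZModPow k a) :
    letI := padicMod h
    a • v = n • v := pact_eq h hv hn

/-- the completed ring -/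
abbrev Rr (r : ℕ) [Fact r.Prime] (T : Type) [CommRing T] : Type := ℤ_[r] ⊗[ℤ] T

variable (T : Type) [CommRing T] [Module T V]

/-- the ring homomorphism giving the action of the completed ring -/
def rrHom (h : RTors r V) : Rr r T →+* Module.End ℤ V :=
  letI := padicMod h
  (Algebra.TensorProduct.lift (Module.toModuleEnd ℤ (S := ℤ_[r]) V).toIntAlgHom
    (Module.toModuleEnd ℤ (S := T) V).toIntAlgHom (by
      intro a t
      refine LinearMap.ext fun v => ?_
      obtain ⟨k, hk⟩ := h v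
      obtain ⟨n, hn⟩ := tzp_exists k a
      show a • t • v = t • a • v
      have h2 : r ^ k • (t • v) = 0 := by rw [smul_comm, hk, smul_zero]
      rw [padic_smul_eq h hk hn, padic_smul_eq h h2 hn, smul_comm])).toRingHom

/-- the action of the completed ring -/
@[reducible] def rrMod (h : RTors r V) : Module (Rr r T) V := Module.compHom V (rrHom T h)

lemma rr_smul_eq (h : RTors r V) {k : ℕ} {v : V} (hv : r ^ k • v = 0) {a : ℤ_[r]} {n : ℤ}
    (hn : (n : ZMod (r ^ k)) = PadicInt.toZModPow k a) (t : T) :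
    letI := rrMod T h
    (a ⊗ₜ[ℤ] t : Rr r T) • v = n • t • v := by
  letI := padicMod h
  have h2 : r ^ k • (t • v) = 0 := by rw [smul_comm, hv, smul_zero]
  show rrHom T h (a ⊗ₜ[ℤ] t) v = _
  have : rrHom T h (a ⊗ₜ[ℤ] t) = (Module.toModuleEnd ℤ (S := ℤ_[r]) V a) *
      (Module.toModuleEnd ℤ (S := T) V t) := Algebra.TensorProduct.lift_tmul _ _ _ _ _
  rw [this]
  show a • t • v = _
  exact padic_smul_eq h h2 hn

lemma rr_one_smul (h : RTors r V) (v : V) (t : T) :
    letI := rrMod T h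
    ((1 : ℤ_[r]) ⊗ₜ[ℤ] t : Rr r T) • v = t • v := by
  obtain ⟨k, hk⟩ := h v
  rw [rr_smul_eq T h hk (n := 1) (by simp), one_smul]

lemma rr_comm (h : RTors r V) (f : V →+ V) (hf : ∀ (t : T) (v : V), f (t • v) = t • f v)
    (ρ : Rr r T) (v : V) :
    letI := rrMod T h
    f (ρ • v) = ρ • f v := by
  letI := rrMod T h
  induction ρ using TensorProduct.induction_on with
  | zero =>
    have h1 : ∀ w : V, (0 : Rr r T) • w = 0 := fun w => by
      have h2 := zero_smul (Rr r T) w
      exact h2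
    exact (congrArg f (h1 v)).trans ((map_zero f).trans (h1 _).symm)
  | tmul a t =>
    obtain ⟨k, hk⟩ := h v
    obtain ⟨n, hn⟩ := tzp_exists k a
    have h2 : r ^ k • f v = 0 := by rw [← map_nsmul, hk, map_zero]
    rw [rr_smul_eq T h hk hn, rr_smul_eq T h h2 hn, map_zsmul, hf]
  | add x y hx hy => rw [add_smul, add_smul, map_add, hx, hy]

lemma padic_lim (a : ∀ n : ℕ, ZMod (r ^ n))
    (h : ∀ n, ZMod.castHom (pow_dvd_pow r (Nat.le_succ n)) (ZMod (r ^ n)) (a (n + 1)) = a n) :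
    ∃ x : ℤ_[r], ∀ n, PadicInt.toZModPow n x = a n := by
  have : ∀ n, NeZero (r ^ n) := fun n => ⟨pow_ne_zero n hr.out.ne_zero⟩
  have hi : ∀ i, (r : ℤ) ^ i ∣ ((a (i + 1)).val : ℤ) - ((a i).val : ℤ) := by
    intro i
    have h1 : (((a (i + 1)).val : ℤ) : ZMod (r ^ i)) = (((a i).val : ℤ) : ZMod (r ^ i)) := by
      rw [Int.cast_natCast, Int.cast_natCast, ZMod.natCast_zmod_val (a i), ← h i]
      conv_rhs => rw [← ZMod.natCast_zmod_val (a (i + 1)), map_natCast]
    have h2 := (ZMod.intCast_eq_intCast_iff_dvd_sub _ _ _).mp h1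
    have h3 : ((r ^ i : ℕ) : ℤ) ∣ ((a (i + 1)).val : ℤ) - ((a i).val : ℤ) := by
      rw [← dvd_neg, neg_sub]; exact h2
    push_cast at h3
    exact h3
  refine ⟨_, fun n => (PadicInt.toZModPow_ofIntSeq_of_pow_dvd_sub
    (fun i => ((a i).val : ℤ)) r hi n).trans ?_⟩
  rw [Int.cast_natCast, ZMod.natCast_zmod_val]

/-- **limits** -/
theorem exists_lim [Module.Finite ℤ T] [Module.Free ℤ T] (h : RTors r V) {b : ℕ}
    (hsat : ∀ (k : ℕ) (t : T), (∀ v : V, r ^ (k + b) • v = 0 → t • v = 0) →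
      ∃ u : T, t = (r ^ k : ℕ) • u) (f : V → V)
    (hf : ∀ k : ℕ, ∃ t : T, ∀ v : V, r ^ k • v = 0 → f v = t • v) :
    letI := rrMod T h
    ∃ ρ : Rr r T, ∀ v : V, f v = ρ • v := by
  classical
  letI := rrMod T h
  choose t ht using hf
  have hd : ∀ k : ℕ, ∃ u : T, t (k + 1 + b) - t (k + b) = (r ^ k : ℕ) • u := by
    intro k
    apply hsat
    intro v hv
    rw [sub_smul, ← ht _ v hv, ← ht _ v (tors_mono (by omega) hv), sub_self]
  set B := Module.Free.chooseBasis ℤ T with hB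
  have hlim : ∀ i, ∃ x : ℤ_[r], ∀ n, PadicInt.toZModPow n x =
      ((B.repr (t (n + b)) i : ℤ) : ZMod (r ^ n)) := by
    intro i
    apply padic_lim
    intro n
    rw [map_intCast]
    obtain ⟨u, hu⟩ := hd n
    have h1 : t (n + 1 + b) = t (n + b) + (r ^ n : ℕ) • u := by rw [← hu]; abel
    rw [h1, map_add, map_nsmul, Finsupp.add_apply, Finsupp.smul_apply, Int.cast_add,
      nsmul_eq_mul, Int.cast_mul, Int.cast_natCast, ZMod.natCast_self, zero_mul, add_zero]
  choose a ha using hlim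
  refine ⟨∑ i, (a i) ⊗ₜ[ℤ] (B i), fun v => ?_⟩
  obtain ⟨k, hk⟩ := h v
  rw [ht (k + b) v (tors_mono (by omega) hk), Finset.sum_smul]
  have h1 : ∀ i, ((a i) ⊗ₜ[ℤ] (B i) : Rr r T) • v = (B.repr (t (k + b)) i) • (B i) • v := by
    intro i
    exact rr_smul_eq T h hk (ha i k).symm (B i)
  rw [Finset.sum_congr rfl fun i _ => h1 i]
  conv_lhs => rw [← B.sum_repr (t (k + b))]
  rw [Finset.sum_smul]
  refine Finset.sum_congr rfl fun i _ => ?_
  rw [smul_assoc]

end act

end Fermat.Agent.Maz
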