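import Mathlib.RingTheory.Etale.Field
import Mathlib.RingTheory.Unramified.Field
import Mathlib.RingTheory.Artinian.Ring
import Mathlib.NumberTheory.Padics.PadicIntegers
import Mathlib.NumberTheory.Padics.RingHoms
import Mathlib.RingTheory.Flat.TorsionFree
import Mathlib.RingTheory.TensorProduct.Finite

set_option autoImplicit false
set_option linter.unusedSectionVars false

/-! # The `r`-adic completion of a reduced finite free ring is reduced -/

noncomputable section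

namespace Fermat.Agent.Maz

open scoped TensorProduct

section red

variable (T : Type) [CommRing T] [Module.Finite ℤ T] [Module.Free ℤ T] [IsReduced T]

omit [Module.Finite ℤ T] [Module.Free ℤ T] [IsReduced T] in
lemma exists_clear (x : ℚ ⊗[ℤ] T) : ∃ n : ℤ, n ≠ 0 ∧ ∃ t : T, n • x = (1 : ℚ) ⊗ₜ[ℤ] t := by
  induction x using TensorProduct.induction_on with
  | zero => exact ⟨1, one_ne_zero, 0, by simp⟩
  | tmul q t =>
    refine ⟨q.den, by exact_mod_cast q.den_ne_zero, q.num • t, ?_⟩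
    rw [TensorProduct.tmul_smul, TensorProduct.smul_tmul', TensorProduct.smul_tmul']
    congr 1
    rw [zsmul_eq_mul, zsmul_eq_mul, mul_one]
    have := Rat.mul_den_eq_num q
    rw [mul_comm] at this
    exact_mod_cast this
  | add x y hx hy =>
    obtain ⟨n, hn, t, ht⟩ := hx
    obtain ⟨m, hm, u, hu⟩ := hy
    refine ⟨n * m, mul_ne_zero hn hm, m • t + n • u, ?_⟩
    rw [smul_add, mul_comm, mul_smul, ht, mul_comm, mul_smul, hu, TensorProduct.tmul_add,
      TensorProduct.tmul_smul, TensorProduct.tmul_smul]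

omit [Module.Finite ℤ T] in
lemma reduced_rat : IsReduced (ℚ ⊗[ℤ] T) := by
  constructor
  intro x hx
  obtain ⟨n, hn, t, ht⟩ := exists_clear T x
  have h1 : IsNilpotent ((1 : ℚ) ⊗ₜ[ℤ] t : ℚ ⊗[ℤ] T) := by
    rw [← ht, zsmul_eq_mul]
    exact (Commute.all _ _).isNilpotent_mul_left hx
  have hinj : Function.Injective (Algebra.TensorProduct.includeRight : T →ₐ[ℤ] ℚ ⊗[ℤ] T) :=
    Algebra.TensorProduct.includeRight_injective (RingHom.injective_int (algebraMap ℤ ℚ))
  have h2 : IsNilpotent t := by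
    rw [← IsNilpotent.map_iff (f := (Algebra.TensorProduct.includeRight : T →ₐ[ℤ] ℚ ⊗[ℤ] T)) hinj]
    exact h1
  have h3 : t = 0 := h2.eq_zero
  rw [h3, TensorProduct.tmul_zero] at ht
  have h4 : ((n : ℚ)) • x = 0 := by
    rw [← ht]
    exact (Int.cast_smul_eq_zsmul ℚ n x)
  exact (smul_eq_zero.mp h4).resolve_left (by exact_mod_cast hn)

attribute [local instance] IsArtinianRing.fieldOfSubtypeIsMaximal in
lemma etale_rat : Algebra.FormallyEtale ℚ (ℚ ⊗[ℤ] T) := by
  haveI := reduced_rat T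
  haveI : IsArtinianRing (ℚ ⊗[ℤ] T) := IsArtinianRing.of_finite ℚ _
  rw [Algebra.FormallyEtale.iff_exists_algEquiv_prod]
  exact ⟨_, inferInstance, _, _, _, (IsArtinianRing.equivPi (ℚ ⊗[ℤ] T)).restrictScalars ℚ,
    fun I ↦ inferInstance⟩

theorem reduced_padic (r : ℕ) [Fact r.Prime] : IsReduced (ℤ_[r] ⊗[ℤ] T) := by
  haveI := etale_rat T
  haveI : Algebra.FormallyUnramified ℚ_[r] (ℚ_[r] ⊗[ℚ] (ℚ ⊗[ℤ] T)) := inferInstance
  haveI h1 : IsReduced (ℚ_[r] ⊗[ℚ] (ℚ ⊗[ℤ] T)) :=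
    Algebra.FormallyUnramified.isReduced_of_field ℚ_[r] (ℚ_[r] ⊗[ℚ] (ℚ ⊗[ℤ] T))
  haveI h2 : IsReduced (ℚ_[r] ⊗[ℤ] T) :=
    isReduced_of_injective
      (Algebra.TensorProduct.cancelBaseChange ℤ ℚ ℚ ℚ_[r] T).symm
      (Algebra.TensorProduct.cancelBaseChange ℤ ℚ ℚ ℚ_[r] T).symm.injective
  refine isReduced_of_injective
    (Algebra.TensorProduct.map (Algebra.ofId ℤ_[r] ℚ_[r] |>.restrictScalars ℤ) (AlgHom.id ℤ T)) ?_
  exact Module.Flat.rTensor_preserves_injective_linearMap (M := T)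
    ((Algebra.ofId ℤ_[r] ℚ_[r] |>.restrictScalars ℤ) : ℤ_[r] →ₐ[ℤ] ℚ_[r]).toLinearMap
    (by exact Subtype.val_injective)

end red

open Polynomial in
/-- strong regularity of reduced finite `ℤ_[r]`-algebras -/
theorem exists_ss (r : ℕ) [Fact r.Prime] {R : Type} [CommRing R] [IsReduced R] [Algebra ℤ_[r] R]
    [Algebra.IsIntegral ℤ_[r] R] (s : R) : ∃ (a : ℕ) (u : R), (r : R) ^ a * s = s ^ 2 * u := by
  classical
  have hex : ∃ n : ℕ, ∃ p : ℤ_[r][X], p ≠ 0 ∧ p.natDegree = n ∧ s * aeval s p = 0 := by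
    obtain ⟨p, hp, hp'⟩ := Algebra.IsIntegral.isIntegral (R := ℤ_[r]) s
    exact ⟨_, p, hp.ne_zero, rfl, by rw [aeval_def, hp', mul_zero]⟩
  obtain ⟨p, hp0, hpn, hp⟩ := Nat.find_spec hex
  have hc : p.coeff 0 ≠ 0 := by
    intro h0
    obtain ⟨q, rfl⟩ := X_dvd_iff.mpr h0
    have hq0 : q ≠ 0 := right_ne_zero_of_mul hp0
    rw [natDegree_X_mul hq0] at hpn
    refine Nat.find_min hex (m := q.natDegree) (by omega) ⟨q, hq0, rfl, ?_⟩
    rw [map_mul, aeval_X] at hp
    have h2 : (s * aeval s q) ^ 2 = 0 := by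
      calc (s * aeval s q) ^ 2 = (s * (s * aeval s q)) * aeval s q := by ring
        _ = 0 := by rw [hp, zero_mul]
    exact pow_eq_zero_iff (two_ne_zero) |>.mp h2
  have h1 := PadicInt.unitCoeff_spec hc
  set u := PadicInt.unitCoeff hc
  set a := (p.coeff 0).valuation
  refine ⟨a, -(algebraMap ℤ_[r] R (u⁻¹ : ℤ_[r]ˣ)) * aeval s p.divX, ?_⟩
  have h2 : aeval s p = aeval s p.divX * s + algebraMap ℤ_[r] R (p.coeff 0) := by
    conv_lhs => rw [← divX_mul_X_add p]
    rw [map_add, map_mul, aeval_X, aeval_C]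
  have h4 : algebraMap ℤ_[r] R (u⁻¹ : ℤ_[r]ˣ) * algebraMap ℤ_[r] R (p.coeff 0) = (r : R) ^ a := by
    rw [← map_mul, h1, ← mul_assoc, Units.inv_mul, one_mul, map_pow, map_natCast]
  rw [h2] at hp
  have h5 : s * algebraMap ℤ_[r] R (p.coeff 0) = -(s ^ 2 * aeval s p.divX) := by
    linear_combination hp
  rw [← h4]
  linear_combination (algebraMap ℤ_[r] R (u⁻¹ : ℤ_[r]ˣ)) * h5

theorem exists_star {R : Type} [CommRing R] [IsNoetherianRing R] (ρ : R)
    (hSS : ∀ s : R, ∃ (a : ℕ) (u : R), ρ ^ a * s = s ^ 2 * u) (S : Set R) :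
    ∃ (δ : R) (b : ℕ), (∀ s ∈ S, δ * s = 0) ∧ ρ ^ b - δ ∈ Ideal.span S := by
  classical
  have key : ∀ F : Finset R, ∃ (δ : R) (b : ℕ), (∀ s ∈ F, δ * s = 0) ∧
      ρ ^ b - δ ∈ Ideal.span (F : Set R) := by
    intro F
    induction F using Finset.induction with
    | empty => exact ⟨1, 0, by simp, by simp⟩
    | insert s F hs ih =>
      obtain ⟨δ, b, h1, h2⟩ := ih
      obtain ⟨a, u, hu⟩ := hSS s
      refine ⟨δ * (ρ ^ a - s * u), b + a, ?_, ?_⟩
      · intro t ht
        rcases Finset.mem_insert.mp ht with rfl | ht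
        · linear_combination δ * hu
        · linear_combination (ρ ^ a - s * u) * h1 t ht
      · have h3 : ρ ^ (b + a) - δ * (ρ ^ a - s * u) = ρ ^ a * (ρ ^ b - δ) + (δ * u) * s := by
          ring
        rw [h3]
        refine Ideal.add_mem _ (Ideal.mul_mem_left _ _ ?_) (Ideal.mul_mem_left _ _
          (Ideal.subset_span (by simp)))
        exact Ideal.span_mono (by simp) h2
  obtain ⟨F, hF, hF'⟩ := Submodule.fg_span_iff_fg_span_finset_subset S |>.mp
    (IsNoetherian.noetherian (Submodule.span R S))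
  obtain ⟨δ, b, h1, h2⟩ := key F
  refine ⟨δ, b, ?_, ?_⟩
  · have h3 : Ideal.span (F : Set R) ≤ LinearMap.ker (LinearMap.mulLeft R δ) := by
      rw [Ideal.span, Submodule.span_le]
      intro s hs
      exact h1 s hs
    intro s hs
    apply h3
    have : s ∈ Submodule.span R S := Submodule.subset_span hs
    rw [hF'] at this
    exact this
  · exact Ideal.span_mono hF h2

open Polynomial in
theorem exists_dvd {T : Type} [CommRing T] [Algebra.IsIntegral ℤ T] {η : T}
    (hη : η ∈ nonZeroDivisors T) : ∃ (D : ℕ) (u : T), D ≠ 0 ∧ η * u = D := by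
  classical
  have hex : ∃ n : ℕ, ∃ p : ℤ[X], p ≠ 0 ∧ p.natDegree = n ∧ aeval η p = 0 := by
    obtain ⟨p, hp, hp'⟩ := Algebra.IsIntegral.isIntegral (R := ℤ) η
    exact ⟨_, p, hp.ne_zero, rfl, by rw [aeval_def, hp']⟩
  obtain ⟨p, hp0, hpn, hp⟩ := Nat.find_spec hex
  have hc : p.coeff 0 ≠ 0 := by
    intro h0
    obtain ⟨q, rfl⟩ := X_dvd_iff.mpr h0
    have hq0 : q ≠ 0 := right_ne_zero_of_mul hp0
    rw [natDegree_X_mul hq0] at hpn
    refine Nat.find_min hex (m := q.natDegree) (by omega) ⟨q, hq0, rfl, ?_⟩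
    rw [map_mul, aeval_X] at hp
    rw [mul_comm] at hp
    exact (mul_right_mem_nonZeroDivisors_eq_zero_iff hη).mp hp
  have h2 : aeval η p = aeval η p.divX * η + algebraMap ℤ T (p.coeff 0) := by
    conv_lhs => rw [← divX_mul_X_add p]
    rw [map_add, map_mul, aeval_X, aeval_C]
  rw [hp] at h2
  have h3 : η * (-aeval η p.divX) = ((p.coeff 0 : ℤ) : T) := by
    have : algebraMap ℤ T (p.coeff 0) = ((p.coeff 0 : ℤ) : T) := rfl
    rw [← this]
    linear_combination h2
  rcases Int.natAbs_eq (p.coeff 0) with h | h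
  · refine ⟨(p.coeff 0).natAbs, -aeval η p.divX, by simpa using hc, ?_⟩
    rw [h3]
    conv_lhs => rw [h]
    rw [Int.cast_natCast]
  · refine ⟨(p.coeff 0).natAbs, aeval η p.divX, by simpa using hc, ?_⟩
    have h4 : ((p.coeff 0 : ℤ) : T) = -(((p.coeff 0).natAbs : ℕ) : T) := by
      conv_lhs => rw [h]
      rw [Int.cast_neg, Int.cast_natCast]
    rw [h4] at h3
    linear_combination -h3

end Fermat.Agent.Maz
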