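import Fermat.Agent.Maz.Va

set_option autoImplicit false
set_option linter.unusedSectionVars false

/-! # The unit condition -/

noncomputable section

namespace Fermat.Agent.Maz

open Fermat.Agent.ECRed Fermat.Agent.Carayol Fermat.Agent.FU OrdFn
open Fermat.Agent.TWGal Fermat.Agent.TWPr
open scoped Pointwise

lemma frob_mul {A : ValuationSubring Qb} {σ g : GQ} {q : ℕ} (hg : A.IsFrobeniusAt g q)
    (hσ : σ ∈ A.inertiaSubgroupIn ℚ) : A.IsFrobeniusAt (σ * g) q := by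
  obtain ⟨hg1, hg2⟩ := hg
  obtain ⟨⟨σ', hσ'⟩, h1, h2⟩ := hσ
  have h3 : σ' = σ := h2
  subst h3
  refine ⟨mul_mem hσ' hg1, fun x => ?_⟩
  have h4 : (⟨σ' * g, mul_mem hσ' hg1⟩ : A.decompositionSubgroup ℚ) = ⟨σ', hσ'⟩ * ⟨g, hg1⟩ := rfl
  rw [h4, mul_smul, hg2]
  exact DFunLike.congr_fun (MonoidHom.mem_ker.mp h1) (x ^ q)

/-- a Frobenius at `r` acting trivially on the roots of unity of `r`-power order -/
theorem exists_phi {pl : ℕ → ValuationSubring Qb} (hpl : ∀ q : ℕ, q.Prime → (pl q).LiesOverPrime q)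
    {r : ℕ} (hr : r.Prime) (k : ℕ) : ∃ φ : GQ, (pl r).IsFrobeniusAt φ r ∧ Cy r k φ 1 := by
  let H : Subgroup GQ :=
    { carrier := {g | ∃ h ∈ (pl r).inertiaSubgroupIn ℚ, Cy r k (h * g) 1}
      one_mem' := ⟨1, one_mem _, fun ζ _ => by rw [pow_one, mul_one]; rfl⟩
      mul_mem' := fun {a b} ha hb => by
        obtain ⟨h, hh, h1⟩ := ha
        obtain ⟨h', hh', h1'⟩ := hb
        refine ⟨h' * h, mul_mem hh' hh, fun ζ hζ => ?_⟩
        have e1 : ∀ z : Qb, z ^ (r ^ k) = 1 → ∀ g : GQ, (g z) ^ (r ^ k) = 1 := by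
          intro z hz g
          rw [← map_pow, hz, map_one]
        have e2 := h1 (b ζ) (e1 ζ hζ b)
        have e3 := h1' ζ hζ
        rw [pow_one] at e2 e3 ⊢
        rw [AlgEquiv.mul_apply] at e2 e3
        rw [AlgEquiv.mul_apply, AlgEquiv.mul_apply, AlgEquiv.mul_apply, e2, e3]
      inv_mem' := fun {a} ha => by
        obtain ⟨h, hh, h1⟩ := ha
        obtain ⟨c, hc⟩ := exists_cy hr h k
        obtain ⟨d, hd⟩ := exists_cy hr a k
        refine ⟨h⁻¹, inv_mem hh, fun ζ hζ => ?_⟩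
        have e1 : ∀ z : Qb, z ^ (r ^ k) = 1 → ∀ g : GQ, (g z) ^ (r ^ k) = 1 := by
          intro z hz g
          rw [← map_pow, hz, map_one]
        set z := h⁻¹ (a⁻¹ ζ) with hz
        have hz1 : z ^ (r ^ k) = 1 := e1 _ (e1 _ hζ _) _
        have e2 : a (h z) = ζ := by
          rw [hz, ← AlgEquiv.mul_apply h, mul_inv_cancel, AlgEquiv.one_apply,
            ← AlgEquiv.mul_apply, mul_inv_cancel, AlgEquiv.one_apply]
        have e3 : h (a z) = z := by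
          have := h1 z hz1
          rwa [pow_one, AlgEquiv.mul_apply] at this
        have e4 : a (h z) = h (a z) := by
          rw [hc z hz1, map_pow, hd z hz1, map_pow, hc z hz1, ← pow_mul, ← pow_mul, mul_comm]
        rw [pow_one, AlgEquiv.mul_apply, ← hz, ← e3, ← e4, e2] }
  have hn : H.Normal := ⟨fun n hn g => by
    obtain ⟨h, hh, h1⟩ := hn
    refine ⟨h, hh, fun ζ hζ => ?_⟩
    obtain ⟨c, hc⟩ := exists_cy hr h k
    obtain ⟨d, hd⟩ := exists_cy hr n k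
    obtain ⟨e, he⟩ := exists_cy hr g k
    have e1 : ∀ z : Qb, z ^ (r ^ k) = 1 → ∀ g : GQ, (g z) ^ (r ^ k) = 1 := by
      intro z hz g
      rw [← map_pow, hz, map_one]
    have hz1 := e1 ζ hζ g⁻¹
    have e3 := h1 (g⁻¹ ζ) hz1
    rw [pow_one, AlgEquiv.mul_apply, hd _ hz1, map_pow, hc _ hz1] at e3
    rw [pow_one, AlgEquiv.mul_apply, AlgEquiv.mul_apply, AlgEquiv.mul_apply, hd _ hz1, map_pow,
      map_pow, he _ hz1, map_pow, hc _ hz1]
    have e4 : g (g⁻¹ ζ) = ζ := by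
      rw [← AlgEquiv.mul_apply, mul_inv_cancel, AlgEquiv.one_apply]
    rw [he _ hz1] at e4
    calc (((g⁻¹ ζ) ^ c) ^ e) ^ d = ((((g⁻¹ ζ) ^ c) ^ d)) ^ e := by
          rw [← pow_mul, ← pow_mul, ← pow_mul, ← pow_mul]; congr 1; ring
      _ = (g⁻¹ ζ) ^ e := by rw [e3]
      _ = ζ := e4⟩
  obtain ⟨L, hL, hL1⟩ := exists_rootField hr k
  have hall : ∀ g : GQ, g ∈ H := fun g => mink_top hpl H hn L (by
    intro g hg
    exact ⟨1, one_mem _, by rw [one_mul]; exact hL1 g hg⟩) (by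
    intro q hq g hg
    by_cases hqr : q = r
    · subst hqr
      exact ⟨g⁻¹, inv_mem hg, fun ζ _ => by rw [inv_mul_cancel, pow_one]; rfl⟩
    · exact ⟨1, one_mem _, by rw [one_mul]; exact cy_inertia hr hq hqr (hpl q hq) hg⟩) g
  obtain ⟨φ, hφ⟩ := Frob.exists_isFrobeniusAt_Qbar (pl r) hr (hpl r hr)
  obtain ⟨h, hh, h1⟩ := hall φ
  exact ⟨h * φ, frob_mul hφ hh, h1⟩

variable {N r : ℕ} {pl : ℕ → ValuationSubring Qb} {X : Type} [AddCommGroup X]
  [DistribMulAction GQ X] {R : Type} [CommRing R] [Module R X] {w t : GQ → R}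

lemma xm_zero : Xm r pl w (0 : X) := fun τ _ => by rw [smul_zero, smul_zero]

lemma Xm.add {x y : X} (hx : Xm r pl w x) (hy : Xm r pl w y) : Xm r pl w (x + y) :=
  fun τ hτ => by rw [smul_add, smul_add, hx τ hτ, hy τ hτ]

lemma Xm.neg {x : X} (hx : Xm r pl w x) : Xm r pl w (-x) :=
  fun τ hτ => by rw [smul_neg, smul_neg, hx τ hτ]

lemma Xm.sub {x y : X} (hx : Xm r pl w x) (hy : Xm r pl w y) : Xm r pl w (x - y) := by
  rw [sub_eq_add_neg]; exact hx.add hy.neg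

lemma Xm.nsmul {x : X} (hx : Xm r pl w x) (n : ℕ) : Xm r pl w (n • x) :=
  fun τ hτ => by rw [smul_comm, hx τ hτ, smul_comm]

namespace XP

variable (P : XP X R N r pl w t)
include P

lemma xm_rho (ρ : R) {x : X} (hx : Xm r pl w x) : Xm r pl w (ρ • x) :=
  fun τ hτ => by rw [P.comm, hx τ hτ, smul_comm]

lemma xm_dec {φ : GQ} (hφ : φ ∈ (pl r).decompositionSubgroup ℚ) {x : X} (hx : Xm r pl w x) :
    Xm r pl w (φ • x) := by
  intro τ hτ
  have h1 : φ⁻¹ * τ * φ ∈ (pl r).inertiaSubgroupIn ℚ := by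
    have h3 := TWGal.conj_mem_inertia' (A := pl r) (inv_mem hφ) hτ
    rwa [inv_inv] at h3
  have h2 := hx _ h1
  have h3 : τ • φ • x = φ • (φ⁻¹ * τ * φ) • x := by
    rw [← mul_smul, ← mul_smul]; congr 1; group
  rw [h3, h2, P.comm, P.wmul, P.wmul, smul_comm (w φ⁻¹), P.winv φ]

/-- the cocycles -/
structure Zr (_P : XP X R N r pl w t) (k : ℕ) (c : GQ → X) : Prop where
  mul : ∀ g h : GQ, c (g * h) = c g + g • c h
  lev : ∃ L : IntermediateField ℚ Qb, FiniteDimensional ℚ L ∧ ∀ g ∈ L.fixingSubgroup, c g = 0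
  atr : ∀ g ∈ (pl r).inertiaSubgroupIn ℚ, Xm r pl w (c g)
  tor : ∀ g, r ^ k • c g = 0

/-- the coboundary -/
def dm (_P : XP X R N r pl w t) (z : X) : GQ → X := fun g => g • z - z

lemma zr_dm {k : ℕ} {z : X} (hz : r ^ k • z = 0) : P.Zr k (P.dm z) where
  mul g h := by
    show (g * h) • z - z = (g • z - z) + g • (h • z - z)
    rw [mul_smul, smul_sub]; abel
  lev := by
    obtain ⟨L, hL, h⟩ := P.lev z
    exact ⟨L, hL, fun g hg => sub_eq_zero.mpr (h g hg)⟩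
  atr g hg := P.atr g hg z
  tor g := (P.tk k).sub_mem (P.tk_g g hz) hz

omit P in
/-- the multiplicative function -/
def al (l : X →+ Additive Qbˣ) (c : GQ → X) : GQ → Qbˣ := fun g => Additive.toMul (l (c g))

lemma gal_l {k : ℕ} (l : X →+ Additive Qbˣ) {y : X} (hy : r ^ k • y = 0) (g : GQ) :
    g (((Additive.toMul (l y) : Qbˣ)) : Qb) = ((Additive.toMul (l (w g • y)) : Qbˣ) : Qb) := by
  obtain ⟨c, hc⟩ := exists_cy P.hr g k
  have h1 : (((Additive.toMul (l y) : Qbˣ)) : Qb) ^ (r ^ k) = 1 := by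
    rw [← Units.val_pow_eq_pow_val, ← toMul_nsmul, ← map_nsmul, hy, map_zero]; rfl
  rw [hc _ h1, P.cyc g k c hc y hy, map_nsmul, toMul_nsmul, Units.val_pow_eq_pow_val]

lemma hasB {k : ℕ} {c : GQ → X} (hc : P.Zr k c) (l : X →+ Additive Qbˣ) :
    HasB (pl r) (al l c) := by
  obtain ⟨L, hL, h⟩ := hc.lev
  refine hilbert90_sub _ ?_ L ?_
  · intro g hg h hh
    have h1 : c (g * h) = c g + w g • c h := by rw [hc.mul, hc.atr h hh g hg]
    show ((Additive.toMul (l (c (g * h))) : Qbˣ) : Qb) = _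
    rw [h1, map_add, toMul_add, Units.val_mul]
    congr 1
    exact (P.gal_l l (hc.tor h) g).symm
  · intro g _ hgL
    show Additive.toMul (l (c g)) = 1
    rw [h g hgL, map_zero]; rfl

/-- the valuation of a cocycle -/
def vv (P : XP X R N r pl w t) (l : X →+ Additive Qbˣ) (c : GQ → X) : AddCircle (1 : ℝ) :=
  va P.hr (P.hpl r P.hr) (al l c)

lemma vv_add_l {k : ℕ} {c : GQ → X} (hc : P.Zr k c) (l l' : X →+ Additive Qbˣ) :
    P.vv (l + l') c = P.vv l c + P.vv l' c :=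
  va_mul P.hr (P.hpl r P.hr) (P.hasB hc l) (P.hasB hc l')

lemma vv_add_c {k : ℕ} {c c' : GQ → X} (hc : P.Zr k c) (hc' : P.Zr k c')
    (l : X →+ Additive Qbˣ) : P.vv l (fun g => c g + c' g) = P.vv l c + P.vv l c' := by
  rw [vv, vv, vv, ← va_mul P.hr (P.hpl r P.hr) (P.hasB hc l) (P.hasB hc' l)]
  congr 1
  funext g
  show Additive.toMul (l (c g + c' g)) = _
  rw [map_add, toMul_add]; rfl

/-- as a homomorphism in the character -/
def vl (P : XP X R N r pl w t) {k : ℕ} {c : GQ → X} (hc : P.Zr k c) :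
    (X →+ Additive Qbˣ) →+ AddCircle (1 : ℝ) :=
  AddMonoidHom.mk' (fun l => P.vv l c) (P.vv_add_l hc)

lemma vl_apply {k : ℕ} {c : GQ → X} (hc : P.Zr k c) (l : X →+ Additive Qbˣ) :
    P.vl hc l = P.vv l c := rfl

lemma vv_congr {k : ℕ} {c : GQ → X} (hc : P.Zr k c) {l l' : X →+ Additive Qbˣ}
    (h : ∀ y : X, r ^ k • y = 0 → Xm r pl w y → l y = l' y) : P.vv l c = P.vv l' c := by
  refine va_congr P.hr (P.hpl r P.hr) ?_ (P.hasB hc l)
  intro g hg
  show Additive.toMul (l (c g)) = Additive.toMul (l' (c g))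
  rw [h _ (hc.tor g) (hc.atr g hg)]

lemma vv_xm {k : ℕ} {z : X} (hz : r ^ k • z = 0) (hm : Xm r pl w z) (l : X →+ Additive Qbˣ) :
    P.vv l (P.dm z) = 0 := by
  refine va_root P.hr (P.hpl r P.hr) (ζ := Additive.toMul (l z)) (n := r ^ k)
    (pow_ne_zero _ P.hr.ne_zero) ?_ ?_
  · rw [← Units.val_pow_eq_pow_val, ← toMul_nsmul, ← map_nsmul, hz, map_zero]; rfl
  · intro g hg
    rw [P.gal_l l hz g, ← hm g hg, ← Units.val_div_eq_div_val, ← toMul_sub, ← map_sub]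
    rfl

/-- `φ ∈ D_r` acting trivially on the roots of unity -/
structure Phi (_P : XP X R N r pl w t) (k : ℕ) (φ : GQ) : Prop where
  mem : φ ∈ (pl r).decompositionSubgroup ℚ
  cy : Cy r k φ 1

omit P in
/-- precomposition with Galois -/
def lg (l : X →+ Additive Qbˣ) (φ : GQ) : X →+ Additive Qbˣ :=
  l.comp (DistribMulAction.toAddMonoidHom X φ)

omit P in
/-- precomposition with the ring -/
def lr (l : X →+ Additive Qbˣ) (ρ : R) : X →+ Additive Qbˣ :=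
  l.comp (DistribMulAction.toAddMonoidHom X ρ)

omit P in
lemma lg_apply (l : X →+ Additive Qbˣ) (φ : GQ) (x : X) : lg l φ x = l (φ • x) := rfl

omit P in
lemma lr_apply (l : X →+ Additive Qbˣ) (ρ : R) (x : X) : lr l ρ x = l (ρ • x) := rfl

/-- the Frobenius relation for arbitrary cocycles -/
lemma vv_phi {k : ℕ} {c : GQ → X} (hc : P.Zr k c) {φ : GQ} (hφ : P.Phi k φ)
    (l : X →+ Additive Qbˣ) : P.vv (lg l φ) c = P.vv l c + P.vv l (P.dm (c φ)) := by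
  have h1 := P.vv_add_c hc (P.zr_dm (hc.tor φ)) l
  rw [← h1]
  refine (va_conj P.hr (P.hpl r P.hr) (P.hasB hc (lg l φ)) hφ.mem ?_).symm
  intro g hg
  show ((Additive.toMul (l (c g + (g • c φ - c φ))) : Qbˣ) : Qb) =
    φ ((Additive.toMul (l (φ • c (φ⁻¹ * g * φ))) : Qbˣ) : Qb)
  have h2 : φ • c (φ⁻¹ * g * φ) = c g + (g • c φ - c φ) := by
    have e1 : c (g * φ) = c g + g • c φ := hc.mul g φ
    have e2 : c (φ * (φ⁻¹ * g * φ)) = c φ + φ • c (φ⁻¹ * g * φ) := hc.mul _ _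
    have e3 : φ * (φ⁻¹ * g * φ) = g * φ := by group
    rw [e3, e1] at e2
    rw [← add_sub_assoc, e2, add_sub_cancel_left]
  have h3 : r ^ k • (c g + (g • c φ - c φ)) = 0 :=
    (P.tk k).add_mem (hc.tor g) ((P.tk k).sub_mem (P.tk_g g (hc.tor φ)) (hc.tor φ))
  rw [h2, P.gal_l l h3, P.cyc φ k 1 hφ.cy _ h3, one_smul]

/-- the pairing -/
lemma n_phi {k : ℕ} {z : X} (hz : r ^ k • z = 0) {φ : GQ} (hφ : P.Phi k φ)
    (l : X →+ Additive Qbˣ) : P.vv l (P.dm (φ • z)) = P.vv (lg l φ) (P.dm z) := by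
  have h1 := P.vv_phi (P.zr_dm hz) hφ l
  have h2 : P.vv l (P.dm (φ • z)) = P.vv l (P.dm z) + P.vv l (P.dm (φ • z - z)) := by
    rw [← P.vv_add_c (P.zr_dm hz) (P.zr_dm ((P.tk k).sub_mem (P.tk_g φ hz) hz))]
    congr 1
    funext g
    show g • φ • z - φ • z = (g • z - z) + (g • (φ • z - z) - (φ • z - z))
    rw [smul_sub]; abel
  rw [h1, h2]
  rfl

lemma n_rho (z : X) (ρ : R) (l : X →+ Additive Qbˣ) :
    P.vv l (P.dm (ρ • z)) = P.vv (lr l ρ) (P.dm z) := by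
  have h1 : al l (P.dm (ρ • z)) = al (lr l ρ) (P.dm z) := by
    funext g
    show Additive.toMul (l (g • ρ • z - ρ • z)) = Additive.toMul (l (ρ • (g • z - z)))
    rw [P.comm, smul_sub]
  rw [vv, vv, h1]

lemma n_add {k : ℕ} {z z' : X} (hz : r ^ k • z = 0) (hz' : r ^ k • z' = 0)
    (l : X →+ Additive Qbˣ) :
    P.vv l (P.dm (z + z')) = P.vv l (P.dm z) + P.vv l (P.dm z') := by
  rw [← P.vv_add_c (P.zr_dm hz) (P.zr_dm hz')]
  congr 1
  funext g
  show g • (z + z') - (z + z') = (g • z - z) + (g • z' - z')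
  rw [smul_add]; abel

/-- the kernel of the pairing -/
def sk (P : XP X R N r pl w t) (k : ℕ) : AddSubgroup X where
  carrier := {z | r ^ k • z = 0 ∧ ∀ l : X →+ Additive Qbˣ, P.vv l (P.dm z) = 0}
  zero_mem' := ⟨smul_zero _, fun l => P.vv_xm (smul_zero (r ^ k)) xm_zero l⟩
  add_mem' := fun {a b} ha hb => ⟨(P.tk k).add_mem ha.1 hb.1, fun l => by
    rw [P.n_add ha.1 hb.1, ha.2, hb.2, add_zero]⟩
  neg_mem' := fun {a} ha => ⟨(P.tk k).neg_mem ha.1, fun l => by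
    have h1 := P.n_add ha.1 ((P.tk k).neg_mem ha.1) l
    rw [add_neg_cancel, ha.2, zero_add] at h1
    rw [← h1]
    exact P.vv_xm (smul_zero (r ^ k)) xm_zero l⟩

lemma sk_xm {k : ℕ} {z : X} (hz : r ^ k • z = 0) (hm : Xm r pl w z) : z ∈ P.sk k :=
  ⟨hz, fun l => P.vv_xm hz hm l⟩

lemma sk_rho {k : ℕ} {z : X} (hz : z ∈ P.sk k) (ρ : R) : ρ • z ∈ P.sk k :=
  ⟨P.tk_r ρ hz.1, fun l => by rw [P.n_rho, hz.2]⟩

lemma sk_phi {k : ℕ} {z : X} (hz : z ∈ P.sk k) {φ : GQ} (hφ : P.Phi k φ) : φ • z ∈ P.sk k :=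
  ⟨P.tk_g φ hz.1, fun l => by rw [P.n_phi hz.1 hφ, hz.2]⟩

lemma Phi.inv {k : ℕ} {φ : GQ} (hφ : P.Phi k φ) : P.Phi k φ⁻¹ := by
  refine ⟨inv_mem hφ.mem, fun ζ hζ => ?_⟩
  have h1 := hφ.cy ζ hζ
  rw [pow_one] at h1 ⊢
  conv_lhs => rw [← h1]
  rw [← AlgEquiv.mul_apply, inv_mul_cancel, AlgEquiv.one_apply]

end XP

end Fermat.Agent.Maz
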