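import Fermat.Agent.Maz.Unit

set_option autoImplicit false
set_option linter.unusedSectionVars false

/-! # The unit condition, bounded -/

noncomputable section

namespace Fermat.Agent.Maz

open Fermat.Agent.ECRed Fermat.Agent.Carayol Fermat.Agent.FU OrdFn
open Fermat.Agent.TWGal Fermat.Agent.TWPr
open scoped Pointwise

lemma nat_bezout {r : ℕ} (hr : r.Prime) {g₁ : GQ} (h1 : ¬ Cy r 2 g₁ 1) {k c : ℕ}
    (hk : 2 ≤ k) (hc : Cy r k g₁ c) : ∃ a b : ℤ, (r : ℤ) = a * ((c : ℤ) - 1) + b * (r : ℤ) ^ k := by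
  obtain ⟨j, rfl⟩ := Nat.exists_eq_add_of_le hk
  have hcc : ¬ ((r ^ 2 : ℕ) : ℤ) ∣ (c : ℤ) - 1 := by
    intro h
    apply h1
    intro ζ hζ
    have hζ' : ζ ^ (r ^ (2 + j)) = 1 := by
      rw [pow_add, pow_mul, hζ, one_pow]
    rw [hc ζ hζ', pow_one]
    obtain ⟨m, hm⟩ := h
    have hζ0 : ζ ≠ 0 := by
      rintro rfl
      rw [zero_pow (pow_ne_zero 2 hr.ne_zero)] at hζ
      exact zero_ne_one hζ
    have h3 : (ζ : Qb) ^ (c : ℤ) = ζ ^ (1 : ℤ) * ζ ^ ((c : ℤ) - 1) := by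
      rw [← zpow_add₀ hζ0]; congr 1; ring
    rw [hm, zpow_mul, zpow_natCast, zpow_natCast, hζ, one_zpow, mul_one, zpow_one] at h3
    exact h3
  have h2 : ((c : ℤ) - 1).gcd ((r : ℤ) ^ (2 + j)) ∣ r := by
    have h3 : ((c : ℤ) - 1).gcd ((r : ℤ) ^ (2 + j)) ∣ r ^ (2 + j) := by
      have := Int.gcd_dvd_natAbs_right ((c : ℤ) - 1) ((r : ℤ) ^ (2 + j))
      rwa [Int.natAbs_pow, Int.natAbs_natCast] at this
    obtain ⟨i, -, hi⟩ := (Nat.dvd_prime_pow hr).mp h3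
    have hi1 : i ≤ 1 := by
      by_contra h
      apply hcc
      have h4 : ((((c : ℤ) - 1).gcd ((r : ℤ) ^ (2 + j)) : ℕ) : ℤ) ∣ (c : ℤ) - 1 :=
        Int.gcd_dvd_left ..
      refine dvd_trans ?_ h4
      rw [hi]
      exact_mod_cast pow_dvd_pow r (by omega)
    rw [hi]
    calc r ^ i ∣ r ^ 1 := pow_dvd_pow r hi1
      _ = r := pow_one r
  obtain ⟨q, hq⟩ := h2
  have h3 := Int.gcd_eq_gcd_ab ((c : ℤ) - 1) ((r : ℤ) ^ (2 + j))
  refine ⟨Int.gcdA ((c : ℤ) - 1) ((r : ℤ) ^ (2 + j)) * q,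
    Int.gcdB ((c : ℤ) - 1) ((r : ℤ) ^ (2 + j)) * q, ?_⟩
  have h4 : (r : ℤ) = ((((c : ℤ) - 1).gcd ((r : ℤ) ^ (2 + j)) : ℕ) : ℤ) * (q : ℤ) := by
    exact_mod_cast hq
  conv_lhs => rw [h4, h3]
  ring

variable {N r : ℕ} {pl : ℕ → ValuationSubring Qb} {X : Type} [AddCommGroup X]
  [DistribMulAction GQ X] {R : Type} [CommRing R] [Module R X] {w t : GQ → R}

namespace XP

variable (P : XP X R N r pl w t)
include P

lemma n_nsmul {k : ℕ} {z : X} (hz : r ^ k • z = 0) (l : X →+ Additive Qbˣ) (n : ℕ) :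
    P.vv l (P.dm (n • z)) = n • P.vv l (P.dm z) := by
  induction n with
  | zero => rw [zero_smul, zero_smul]; exact P.vv_xm (smul_zero (r ^ k)) xm_zero l
  | succ n ih => rw [succ_nsmul, P.n_add ((P.tk k).nsmul_mem hz n) hz, ih, succ_nsmul]

lemma n_sub {k : ℕ} {z z' : X} (hz : r ^ k • z = 0) (hz' : r ^ k • z' = 0)
    (l : X →+ Additive Qbˣ) :
    P.vv l (P.dm (z - z')) = P.vv l (P.dm z) - P.vv l (P.dm z') := by
  have h1 := P.n_add ((P.tk k).sub_mem hz hz') hz' l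
  rw [sub_add_cancel] at h1
  rw [h1, add_sub_cancel_right]

lemma vv_sub_l {k : ℕ} {c : GQ → X} (hc : P.Zr k c) (l l' : X →+ Additive Qbˣ) :
    P.vv (l - l') c = P.vv l c - P.vv l' c := by
  have h1 := P.vv_add_l hc (l - l') l'
  have h2 : l - l' + l' = l := by
    refine AddMonoidHom.ext fun x => ?_
    show l x - l' x + l' x = l x
    rw [sub_add_cancel]
  rw [h2] at h1
  rw [h1, add_sub_cancel_right]

lemma vv_nsmul_l {k : ℕ} {c : GQ → X} (hc : P.Zr k c) (l : X →+ Additive Qbˣ) (n : ℕ) :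
    P.vv (n • l) c = n • P.vv l c := by
  induction n with
  | zero =>
    have h1 := P.vv_sub_l hc l l
    have h2 : l - l = (0 : ℕ) • l := by
      refine AddMonoidHom.ext fun x => ?_
      show l x - l x = (0 : ℕ) • l x
      rw [sub_self, zero_smul]
    rw [← h2, h1, sub_self, zero_smul]
  | succ n ih =>
    have h2 : (n + 1) • l = n • l + l := by
      refine AddMonoidHom.ext fun x => ?_
      show (n + 1) • l x = n • l x + l x
      rw [succ_nsmul]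
    rw [h2, P.vv_add_l hc, ih, succ_nsmul]

/-- the operator `Q₁` -/
def q1 (_P : XP X R N r pl w t) (Tr : R) (φ g₁ : GQ) : R :=
  (1 - (r : R)) * t (φ * g₁) - (Tr - (r : R) * t φ) - w g₁ * (t φ - Tr)

variable {Tr : R} {φ g₁ : GQ} {k : ℕ}

lemma q1_smul (hφ : P.Phi k φ) {x : X} (hx : r ^ k • x = 0) :
    P.q1 Tr φ g₁ • x = (1 - (r : R)) • (φ • g₁ • x + w g₁ • g₁⁻¹ • φ⁻¹ • x) -
      (Tr • x - (r : R) • (φ • x + φ⁻¹ • x)) - w g₁ • (φ • x + φ⁻¹ • x - Tr • x) := by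
  have hw : ∀ y : X, r ^ k • y = 0 → w φ • y = y := fun y hy => by
    rw [P.cyc φ k 1 hφ.cy y hy, one_smul]
  have h1 : t φ • x = φ • x + φ⁻¹ • x := by
    rw [← P.es, hw _ (P.tk_g φ⁻¹ hx)]
  have h2 : t (φ * g₁) • x = φ • g₁ • x + w g₁ • g₁⁻¹ • φ⁻¹ • x := by
    have h3 : r ^ k • (g₁⁻¹ • φ⁻¹ • x) = 0 := P.tk_g _ (P.tk_g _ hx)
    rw [← P.es, P.wmul, mul_inv_rev, mul_smul, mul_smul, hw _ (P.tk_r _ h3)]
  rw [q1, sub_smul, sub_smul, mul_smul, mul_smul, h2, sub_smul (Tr), mul_smul, h1,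
    sub_smul (t φ), h1]

lemma q1_xm (hφ : P.Phi k φ) (hg₁ : g₁ ∈ (pl r).inertiaSubgroupIn ℚ) {y : X}
    (hy : r ^ k • y = 0) (hm : Xm r pl w y) :
    P.q1 Tr φ g₁ • y = (1 - w g₁) • ((r : R) • φ • y + φ⁻¹ • y - Tr • y) := by
  have hinv : ∀ y : X, Xm r pl w y → w g₁ • g₁⁻¹ • y = y := by
    intro y hy
    rw [← P.comm, ← hy g₁ hg₁, inv_smul_smul]
  rw [P.q1_smul hφ hy, hm g₁ hg₁, P.comm, hinv _ (P.xm_dec hφ.inv.mem hm)]
  generalize φ • y = a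
  generalize φ⁻¹ • y = b
  module

lemma q1_mem (hφ : P.Phi k φ) (hg₁ : g₁ ∈ (pl r).inertiaSubgroupIn ℚ)
    (hfr : ∀ x : X, Xm r pl w (φ • φ • x - Tr • φ • x + r • x)) {x : X}
    (hx : r ^ k • x = 0) : Xm r pl w (P.q1 Tr φ g₁ • x) := by
  have ha : Xm r pl w (g₁ • x - x) := P.atr g₁ hg₁ x
  have hb : Xm r pl w (g₁ • φ⁻¹ • x - φ⁻¹ • x) := P.atr g₁ hg₁ _
  have he : Xm r pl w (φ • x - Tr • x + (r : R) • φ⁻¹ • x) := by
    have h1 := hfr (φ⁻¹ • x)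
    rw [smul_inv_smul, ← Nat.cast_smul_eq_nsmul R] at h1
    exact h1
  have hg₁d : g₁ ∈ (pl r).decompositionSubgroup ℚ := inertia_decomp hg₁
  have h1 : P.q1 Tr φ g₁ • x = (1 - (r : R)) • φ • (g₁ • x - x) -
      ((1 - (r : R)) * w g₁) • g₁⁻¹ • (g₁ • φ⁻¹ • x - φ⁻¹ • x) +
      (1 - w g₁) • (φ • x - Tr • x + (r : R) • φ⁻¹ • x) := by
    rw [P.q1_smul hφ hx, smul_sub φ, smul_sub g₁⁻¹, inv_smul_smul]
    generalize φ • g₁ • x = a
    generalize g₁⁻¹ • φ⁻¹ • x = b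
    generalize φ⁻¹ • x = b'
    generalize φ • x = a'
    module
  rw [h1]
  exact ((P.xm_rho _ (P.xm_dec hφ.mem ha)).sub (P.xm_rho _ (P.xm_dec (inv_mem hg₁d) hb))).add
    (P.xm_rho _ he)

/-- the key relation -/
lemma q1_pair (hφ : P.Phi k φ) (hg₁ : g₁ ∈ (pl r).inertiaSubgroupIn ℚ)
    (hfr : ∀ x : X, Xm r pl w (φ • φ • x - Tr • φ • x + r • x)) {z : X}
    (hz : r ^ k • z = 0) :
    (1 - w g₁) • (r • φ • z + φ⁻¹ • z - Tr • z) ∈ P.sk k := by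
  have hφz : r ^ k • (φ • z) = 0 := P.tk_g φ hz
  have hφz' : r ^ k • (φ⁻¹ • z) = 0 := P.tk_g φ⁻¹ hz
  have hTz : r ^ k • (Tr • z) = 0 := P.tk_r Tr hz
  have hrz : r ^ k • (r • φ • z) = 0 := (P.tk k).nsmul_mem hφz r
  refine ⟨P.tk_r _ ((P.tk k).sub_mem ((P.tk k).add_mem hrz hφz') hTz), fun l => ?_⟩
  set l₁ := lr l (1 - w g₁) with hl₁
  rw [P.n_rho, ← hl₁, P.n_sub ((P.tk k).add_mem hrz hφz') hTz, P.n_add hrz hφz',
    P.n_nsmul hφz, P.n_phi hz hφ, P.n_phi hz hφ.inv, P.n_rho]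
  have h1 : r • P.vv (lg l₁ φ) (P.dm z) + P.vv (lg l₁ φ⁻¹) (P.dm z) -
      P.vv (lr l₁ Tr) (P.dm z) =
      P.vv (r • lg l₁ φ + lg l₁ φ⁻¹ - lr l₁ Tr) (P.dm z) := by
    rw [P.vv_sub_l (P.zr_dm hz), P.vv_add_l (P.zr_dm hz), P.vv_nsmul_l (P.zr_dm hz)]
  rw [h1]
  have h2 : P.vv (r • lg l₁ φ + lg l₁ φ⁻¹ - lr l₁ Tr) (P.dm z) =
      P.vv (lr l (P.q1 Tr φ g₁)) (P.dm z) := by
    apply P.vv_congr (P.zr_dm hz)
    intro y hy hm
    rw [lr_apply, P.q1_xm hφ hg₁ hy hm]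
    show (r • l ((1 - w g₁) • φ • y) + l ((1 - w g₁) • φ⁻¹ • y)) - l ((1 - w g₁) • Tr • y) = _
    rw [← map_nsmul, ← map_add, ← map_sub]
    congr 1
    rw [← Nat.cast_smul_eq_nsmul R]
    generalize φ • y = a
    generalize φ⁻¹ • y = b
    module
  rw [h2, ← P.n_rho]
  exact P.vv_xm (P.tk_r _ hz) (P.q1_mem hφ hg₁ hfr hz) l

/-- **the pairing is bounded** -/
theorem exists_bN : ∃ B : ℕ, B ≠ 0 ∧ ∀ k : ℕ, 2 ≤ k → ∀ z : X, r ^ k • z = 0 →
    B • z ∈ P.sk k := by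
  obtain ⟨g₁, hg₁, hcy⟩ := exists_g1 P.hpl P.hr
  obtain ⟨Tr, u, u', D, D', hD, hD', hu, hu', hfr⟩ := P.frob
  have hr2 := P.hr.two_le
  refine ⟨r * ((r - 1) * (D * D')), mul_ne_zero P.hr.ne_zero (mul_ne_zero (by omega)
    (mul_ne_zero hD hD')), ?_⟩
  intro k hk z hz
  obtain ⟨φ, hφF, hφc⟩ := exists_phi P.hpl P.hr k
  have hφ : P.Phi k φ := ⟨hφF.mem_decompositionSubgroup, hφc⟩
  have hE : ∀ x : X, r ^ k • x = 0 → (φ • φ • x - Tr • φ • x + (r : R) • x) ∈ P.sk k := by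
    intro x hx
    have h1 := hfr φ hφF x
    rw [← Nat.cast_smul_eq_nsmul R] at h1
    exact P.sk_xm ((P.tk k).add_mem ((P.tk k).sub_mem (P.tk_g _ (P.tk_g _ hx))
      (P.tk_r _ (P.tk_g _ hx))) (P.tk_r _ hx)) h1
  -- first form
  have H1 : ∀ x : X, r ^ k • x = 0 →
      ((1 - w g₁) * ((r : R) - 1)) • (φ • φ • x - x) ∈ P.sk k := by
    intro x hx
    have hφx : r ^ k • (φ • x) = 0 := P.tk_g φ hx
    have h1 := P.q1_pair hφ hg₁ (hfr φ hφF) hφx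
    have h2 := P.sk_rho (hE x hx) (1 - w g₁)
    rw [inv_smul_smul] at h1
    have h3 := (P.sk k).sub_mem h1 h2
    have h4 : (1 - w g₁) • (r • φ • φ • x + x - Tr • φ • x) -
        (1 - w g₁) • (φ • φ • x - Tr • φ • x + (r : R) • x) =
        ((1 - w g₁) * ((r : R) - 1)) • (φ • φ • x - x) := by
      rw [← Nat.cast_smul_eq_nsmul R]
      generalize φ • φ • x = a
      generalize φ • x = b
      module
    rw [← h4]
    exact h3
  -- second form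
  have H2 : ∀ x : X, r ^ k • x = 0 →
      ((1 - w g₁) * ((r : R) - 1) * ((D : R) * D')) • x ∈ P.sk k := by
    intro x hx
    have hx1 := P.tk_g φ hx
    have hx2 := P.tk_g φ hx1
    have hm2 : r ^ k • (φ • φ • x - ((r : R) * r) • x) = 0 :=
      (P.tk k).sub_mem hx2 (P.tk_r _ hx)
    have h1 := H1 _ hm2
    have h2 := P.sk_rho (hE (φ • φ • x) hx2) ((1 - w g₁) * ((r : R) - 1))
    have h3 := P.sk_rho (hE (φ • x) hx1) ((1 - w g₁) * ((r : R) - 1) * Tr)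
    have h4 := P.sk_rho (hE x hx) ((1 - w g₁) * ((r : R) - 1) * r)
    have h5 := (P.sk k).sub_mem ((P.sk k).sub_mem ((P.sk k).sub_mem h1 h2) h3) h4
    have h6 : (((1 - w g₁) * ((r : R) - 1)) • (φ • φ • (φ • φ • x - ((r : R) * r) • x) -
        (φ • φ • x - ((r : R) * r) • x)) -
        ((1 - w g₁) * ((r : R) - 1)) •
          (φ • φ • φ • φ • x - Tr • φ • φ • φ • x + (r : R) • φ • φ • x) -
        ((1 - w g₁) * ((r : R) - 1) * Tr) •
          (φ • φ • φ • x - Tr • φ • φ • x + (r : R) • φ • x) -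
        ((1 - w g₁) * ((r : R) - 1) * r) • (φ • φ • x - Tr • φ • x + (r : R) • x)) =
        ((1 - w g₁) * ((r : R) - 1) * ((Tr - 1 - r) * (Tr + 1 + r))) • φ • φ • x := by
      rw [smul_sub φ, smul_sub φ, P.comm φ, P.comm φ]
      generalize φ • φ • φ • φ • x = a
      generalize φ • φ • φ • x = b
      generalize φ • φ • x = a'
      generalize φ • x = b'
      module
    rw [h6] at h5
    have h7 := P.sk_rho h5 (u * u')
    have h8 : (u * u') • ((1 - w g₁) * ((r : R) - 1) * ((Tr - 1 - r) * (Tr + 1 + r))) • φ • φ • x =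
        φ • φ • (((1 - w g₁) * ((r : R) - 1) * ((D : R) * D')) • x) := by
      rw [P.comm φ, P.comm φ, smul_smul, ← hu, ← hu']
      congr 1
      ring
    rw [h8] at h7
    have h9 := P.sk_phi (P.sk_phi h7 hφ.inv) hφ.inv
    rwa [inv_smul_smul, inv_smul_smul] at h9
  -- conclusion
  obtain ⟨c, hc⟩ := exists_cy P.hr g₁ k
  obtain ⟨a, b, hab⟩ := nat_bezout P.hr hcy hk hc
  set z₂ := ((r - 1) * (D * D')) • z with hz₂
  have hz₂t : r ^ k • z₂ = 0 := (P.tk k).nsmul_mem hz _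
  have h1 : (1 - w g₁) • z₂ ∈ P.sk k := by
    have h2 := H2 z hz
    have h3 : (((1 - w g₁) * ((r : R) - 1) * ((D : R) * D')) • z) = (1 - w g₁) • z₂ := by
      rw [hz₂, ← Nat.cast_smul_eq_nsmul R, smul_smul, Nat.cast_mul, Nat.cast_mul,
        Nat.cast_sub (by omega), Nat.cast_one]
      congr 1
      ring
    rwa [h3] at h2
  have h4 : (1 - w g₁) • z₂ = -(((c : ℤ) - 1) • z₂) := by
    rw [sub_smul, one_smul, P.cyc g₁ k c hc _ hz₂t, sub_smul, natCast_zsmul, one_smul]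
    abel
  rw [h4] at h1
  have h5 : ((c : ℤ) - 1) • z₂ ∈ P.sk k := by
    have := (P.sk k).neg_mem h1
    rwa [neg_neg] at this
  have h6 : (r * ((r - 1) * (D * D'))) • z = a • ((c : ℤ) - 1) • z₂ := by
    have h7 : ((r : ℤ)) • z₂ = a • ((c : ℤ) - 1) • z₂ := by
      rw [hab, add_smul, mul_smul, mul_smul b]
      have h8 : ((r : ℤ) ^ k) • z₂ = 0 := by
        rw [← Nat.cast_pow, natCast_zsmul, hz₂t]
      rw [h8, smul_zero, add_zero]
    rw [← h7, natCast_zsmul, mul_smul]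
  rw [h6]
  exact (P.sk k).zsmul_mem h5 a

/-- **(U)**: the unit condition is bounded -/
theorem unit_all : ∃ B : ℕ, B ≠ 0 ∧ ∀ (k : ℕ) (c : GQ → X), P.Zr k c →
    ∀ l : X →+ Additive Qbˣ, ∃ u : Qbˣ, (pl r).valuation (u : Qb) = 1 ∧
      ∀ g ∈ (pl r).inertiaSubgroupIn ℚ,
        ((Additive.toMul (l (B • c g)) : Qbˣ) : Qb) = g (u : Qb) / u := by
  obtain ⟨g₁, hg₁, hcy⟩ := exists_g1 P.hpl P.hr
  obtain ⟨Tr, u, u', D, D', hD, hD', hu, hu', hfr⟩ := P.frob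
  obtain ⟨B₁, hB₁, hBN⟩ := P.exists_bN
  obtain ⟨σ₀, h0⟩ := P.exists_s0
  obtain ⟨D₃, hD₃, h7⟩ := P.f7 h0
  refine ⟨B₁ * (r * D₃ * D), mul_ne_zero hB₁ (mul_ne_zero (mul_ne_zero P.hr.ne_zero hD₃) hD), ?_⟩
  intro k' c hc' l
  -- pass to level `k ≥ 2`
  obtain ⟨k, hk2, hkk⟩ : ∃ k, 2 ≤ k ∧ k' ≤ k := ⟨k' + 2, by omega, by omega⟩
  haveI := Fact.mk P.hr
  have hc : P.Zr k c := ⟨hc'.mul, hc'.lev, hc'.atr, fun g => tors_mono hkk (hc'.tor g)⟩
  obtain ⟨φ, hφF, hφc⟩ := exists_phi P.hpl P.hr k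
  have hφ : P.Phi k φ := ⟨hφF.mem_decompositionSubgroup, hφc⟩
  -- `D₃ Q₁ = 0`
  have hQ : ∀ z : X, r ^ k • z = 0 → D₃ • P.q1 Tr φ g₁ • z = 0 := by
    intro z hz
    let Y : AddSubgroup X := (P.tk k).map (DistribMulAction.toAddMonoidHom X (P.q1 Tr φ g₁))
    have hY : ∀ y, y ∈ Y ↔ ∃ z ∈ P.tk k, P.q1 Tr φ g₁ • z = y := fun y => AddSubgroup.mem_map
    apply h7 Y k
    · intro y hy
      obtain ⟨z, hz, rfl⟩ := (hY y).mp hy
      exact P.tk_r _ hz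
    · intro g y hy
      obtain ⟨z, hz, rfl⟩ := (hY y).mp hy
      exact (hY _).mpr ⟨g • z, P.tk_g g hz, (P.comm g _ z).symm⟩
    · intro y hy
      obtain ⟨z, hz, rfl⟩ := (hY y).mp hy
      exact P.q1_mem hφ hg₁ (hfr φ hφF) hz
    · exact (hY _).mpr ⟨z, hz, rfl⟩
  -- the relation on the multiplicative part
  set D₄ := r * D₃ with hD₄
  have hrel : ∀ y : X, r ^ k • y = 0 → Xm r pl w y →
      (D₄ : R) • Tr • y = (D₄ : R) • ((r : R) • φ • y + φ⁻¹ • y) := by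
    intro y hy hm
    have h1 := hQ y hy
    rw [P.q1_xm hφ hg₁ hy hm, smul_comm] at h1
    set y₁ := D₃ • ((r : R) • φ • y + φ⁻¹ • y - Tr • y) with hy₁
    rw [sub_smul, one_smul, sub_eq_zero] at h1
    have h2 : r • y₁ = 0 := P.g1_spec hcy h1.symm
    rw [hy₁, ← mul_smul, ← hD₄, ← Nat.cast_smul_eq_nsmul R, smul_sub, sub_eq_zero] at h2
    exact h2.symm
  -- the auxiliary character
  set l₂ := lr l ((D₄ : R) * u) with hl₂
  set l₃ := lr l₂ (r : R) - lg l₂ φ⁻¹ with hl₃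
  have hagree : ∀ y : X, r ^ k • y = 0 → Xm r pl w y →
      ((D₄ * D) • l) y = (lg l₃ φ - l₃) y := by
    intro y hy hm
    have h1 : (lg l₃ φ - l₃) y = (l (((D₄ : R) * u) • (r : R) • φ • y) -
        l (((D₄ : R) * u) • φ⁻¹ • φ • y)) -
        (l (((D₄ : R) * u) • (r : R) • y) - l (((D₄ : R) * u) • φ⁻¹ • y)) := rfl
    have h2 : ((D₄ * D) • l) y = l ((D₄ * D) • y) := by
      rw [map_nsmul]; rfl
    rw [h1, h2, inv_smul_smul, ← map_sub, ← map_sub, ← map_sub]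
    congr 1
    have h3 := hrel y hy hm
    have h4 : ((D₄ : R) * u) • (r : R) • φ • y - ((D₄ : R) * u) • y -
        (((D₄ : R) * u) • (r : R) • y - ((D₄ : R) * u) • φ⁻¹ • y) =
        u • ((D₄ : R) • ((r : R) • φ • y + φ⁻¹ • y)) - ((D₄ : R) * u) • y -
          ((D₄ : R) * u) • (r : R) • y := by
      generalize φ • y = a
      generalize φ⁻¹ • y = b
      module
    rw [h4, ← h3, ← Nat.cast_smul_eq_nsmul R, Nat.cast_mul, ← hu]
    module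
  -- conclusion
  have hval : P.vv l (fun g => (B₁ * (D₄ * D)) • c g) = 0 := by
    have e1 : P.vv l (fun g => (B₁ * (D₄ * D)) • c g) = P.vv ((B₁ * (D₄ * D)) • l) c := by
      have : al l (fun g => (B₁ * (D₄ * D)) • c g) = al ((B₁ * (D₄ * D)) • l) c := by
        funext g
        show Additive.toMul (l ((B₁ * (D₄ * D)) • c g)) = _
        rw [map_nsmul]; rfl
      rw [vv, vv, this]
    have e2 : P.vv ((B₁ * (D₄ * D)) • l) c = B₁ • P.vv ((D₄ * D) • l) c := by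
      have e5 : (B₁ * (D₄ * D)) • l = B₁ • ((D₄ * D) • l) := by
        refine AddMonoidHom.ext fun x => ?_
        show (B₁ * (D₄ * D)) • l x = B₁ • ((D₄ * D) • l x)
        rw [mul_smul]
      rw [e5, P.vv_nsmul_l hc]
    have e3 : P.vv ((D₄ * D) • l) c = P.vv l₃ (P.dm (c φ)) := by
      rw [P.vv_congr hc hagree, P.vv_sub_l hc, P.vv_phi hc hφ, add_sub_cancel_left]
    rw [e1, e2, e3, ← P.n_nsmul (hc.tor φ)]
    exact (hBN k hk2 _ (hc.tor φ)).2 _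
  have hZ : P.Zr k (fun g => (B₁ * (D₄ * D)) • c g) := by
    refine ⟨fun g h => ?_, ?_, fun g hg => (hc.atr g hg).nsmul _,
      fun g => (P.tk k).nsmul_mem (hc.tor g) _⟩
    · show (B₁ * (D₄ * D)) • c (g * h) = _
      rw [hc.mul, smul_add, smul_comm g]
    · obtain ⟨L, hL, hL1⟩ := hc.lev
      exact ⟨L, hL, fun g hg => by
        show (B₁ * (D₄ * D)) • c g = 0
        rw [hL1 g hg, smul_zero]⟩
  exact unit_of_va P.hr (P.hpl r P.hr) (P.hasB hZ l) hval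

end XP

end Fermat.Agent.Maz
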