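import Fermat.Agent.Maz.XN
import Mathlib.Algebra.Category.Grp.Injective
import Mathlib.Topology.Instances.AddCircle.Defs

set_option autoImplicit false
set_option linter.unusedSectionVars false

/-! # The valuation of a multiplicative cocycle of inertia -/

noncomputable section

namespace Fermat.Agent.Maz

open Fermat.Agent.ECRed Fermat.Agent.Carayol Fermat.Agent.FU OrdFn
open scoped Pointwise

/-- extension of characters -/
lemma ext_char' {B : Type} [AddCommGroup B] {C : AddSubgroup B} (μ : C →+ Additive Qbˣ) :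
    ∃ l : B →+ Additive Qbˣ, ∀ c : C, l c = μ c := by
  haveI : DivisibleBy (Additive Qbˣ) ℤ := by
    haveI : DivisibleBy (Additive Qbˣ) ℕ := by
      refine divisibleByOfSMulRightSurj _ _ ?_
      intro n hn a
      obtain ⟨z, hz⟩ := IsAlgClosed.exists_pow_nat_eq ((Additive.toMul a : Qbˣ) : Qb)
        (Nat.pos_of_ne_zero hn)
      have hz0 : z ≠ 0 := by
        rintro rfl
        rw [zero_pow hn] at hz
        exact (Additive.toMul a).ne_zero hz.symm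
      refine ⟨Additive.ofMul (Units.mk0 z hz0), ?_⟩
      apply Additive.toMul.injective
      apply Units.ext
      show ((Units.mk0 z hz0 ^ n : Qbˣ) : Qb) = _
      rw [Units.val_pow_eq_pow_val, Units.val_mk0, hz]
    exact AddGroup.divisibleByIntOfDivisibleByNat _
  obtain ⟨h, hh⟩ := (Module.Baer.of_divisible (Additive Qbˣ)).extension_property_addMonoidHom
    C.subtype Subtype.val_injective μ
  exact ⟨h, fun c => DFunLike.congr_fun hh c⟩

/-- Hilbert 90 over the fixed field of a subgroup -/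
theorem hilbert90_sub (I : Subgroup GQ) {α : GQ → Qbˣ}
    (hα : ∀ g ∈ I, ∀ h ∈ I, (α (g * h) : Qb) = α g * g (α h : Qb))
    (L : IntermediateField ℚ Qb) [FiniteDimensional ℚ L]
    (hL : ∀ g ∈ I, g ∈ L.fixingSubgroup → α g = 1) :
    ∃ β : Qbˣ, ∀ g ∈ I, (α g : Qb) = g (β : Qb) / β := by
  haveI : L.fixingSubgroup.FiniteIndex := by
    haveI : Finite (GQ ⧸ L.fixingSubgroup) :=
      Subgroup.quotient_finite_of_isOpen _ (IntermediateField.fixingSubgroup_isOpen L)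
    exact Subgroup.finiteIndex_of_finite_quotient
  haveI : (L.fixingSubgroup.subgroupOf I).FiniteIndex := inferInstance
  obtain ⟨β, -, hβ⟩ := CFT.hilbert90 (U := I) (Ω := Qb) (L.fixingSubgroup.subgroupOf I) (by
    intro g hg
    rw [Subgroup.mem_subgroupOf, IntermediateField.mem_fixingSubgroup_iff]
    intro x hx
    apply hg
    intro n hn
    exact (IntermediateField.mem_fixingSubgroup_iff L (n : GQ)).mp hn x hx) (fun g => α g)
    (fun g h => hα g g.2 h h.2) (fun n hn => hL n n.2 hn)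
  refine ⟨β, fun g hg => ?_⟩
  rw [eq_div_iff β.ne_zero]
  exact hβ ⟨g, hg⟩

variable {r : ℕ} (hr : r.Prime) {A : ValuationSubring Qb} (hA : A.LiesOverPrime r)

open Classical in
/-- the valuation modulo `ℤ` -/
def va (hr : r.Prime) (hA : A.LiesOverPrime r) (α : GQ → Qbˣ) : AddCircle (1 : ℝ) :=
  if h : ∃ β : Qbˣ, ∀ g ∈ A.inertiaSubgroupIn ℚ, (α g : Qb) = g (β : Qb) / β then
    (((ordFnAt A hr hA).ord (Classical.choose h : Qbˣ) : ℝ) : AddCircle (1 : ℝ)) else 0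

lemma va_eq {α : GQ → Qbˣ} {β : Qbˣ}
    (h : ∀ g ∈ A.inertiaSubgroupIn ℚ, (α g : Qb) = g (β : Qb) / β) :
    va hr hA α = (((ordFnAt A hr hA).ord (β : Qb) : ℝ) : AddCircle (1 : ℝ)) := by
  have hex : ∃ β : Qbˣ, ∀ g ∈ A.inertiaSubgroupIn ℚ, (α g : Qb) = g (β : Qb) / β := ⟨β, h⟩
  rw [va, dif_pos hex]
  set γ := Classical.choose hex with hγ
  have hγ' := Classical.choose_spec hex
  rw [← hγ] at hγ'
  have hdiv : ∀ g ∈ A.inertiaSubgroupIn ℚ, g ((γ : Qb) / β) = (γ : Qb) / β := by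
    intro g hg
    have h1 := (h g hg).symm.trans (hγ' g hg)
    have hγ0 := γ.ne_zero
    have hβ0 := β.ne_zero
    rw [div_eq_div_iff hβ0 hγ0] at h1
    have h2 : g (β : Qb) ≠ 0 := by
      rw [Ne, EmbeddingLike.map_eq_zero_iff]; exact hβ0
    rw [map_div₀, div_eq_div_iff h2 hβ0, ← h1]
    ring
  obtain ⟨n, hn⟩ := ord_int hr hA (div_ne_zero γ.ne_zero β.ne_zero) hdiv
  rw [div_eq_mul_inv, ord_mul γ.ne_zero (inv_ne_zero β.ne_zero), ord_inv _ β.ne_zero] at hn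
  rw [← sub_eq_zero, ← AddCircle.coe_sub, AddCircle.coe_eq_zero_iff]
  exact ⟨n, by rw [zsmul_eq_mul, mul_one, ← hn]; ring⟩

/-- the cocycle is a coboundary -/
def HasB (A : ValuationSubring Qb) (α : GQ → Qbˣ) : Prop :=
  ∃ β : Qbˣ, ∀ g ∈ A.inertiaSubgroupIn ℚ, (α g : Qb) = g (β : Qb) / β

lemma va_mul {α α' : GQ → Qbˣ} (h : HasB A α) (h' : HasB A α') :
    va hr hA (fun g => α g * α' g) = va hr hA α + va hr hA α' := by
  obtain ⟨β, hβ⟩ := h
  obtain ⟨β', hβ'⟩ := h'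
  rw [va_eq hr hA hβ, va_eq hr hA hβ', va_eq hr hA (β := β * β'), ← AddCircle.coe_add,
    Units.val_mul, ord_mul β.ne_zero β'.ne_zero]
  intro g hg
  rw [Units.val_mul, Units.val_mul, map_mul, hβ g hg, hβ' g hg]
  have h1 := β.ne_zero
  have h2 := β'.ne_zero
  field_simp

lemma va_congr {α α' : GQ → Qbˣ} (h : ∀ g ∈ A.inertiaSubgroupIn ℚ, α g = α' g)
    (h' : HasB A α) : va hr hA α = va hr hA α' := by
  obtain ⟨β, hβ⟩ := h'
  rw [va_eq hr hA hβ, va_eq hr hA (β := β)]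
  intro g hg
  rw [← h g hg]
  exact hβ g hg

lemma va_root {α : GQ → Qbˣ} {ζ : Qbˣ} {n : ℕ} (hn : n ≠ 0) (hζ : (ζ : Qb) ^ n = 1)
    (h : ∀ g ∈ A.inertiaSubgroupIn ℚ, (α g : Qb) = g (ζ : Qb) / ζ) : va hr hA α = 0 := by
  rw [va_eq hr hA h, (FlatLoc.ord_root_of_unity hn hζ).2, AddCircle.coe_zero]

lemma va_conj {α α' : GQ → Qbˣ} (hα : HasB A α) {φ : GQ} (hφ : φ ∈ A.decompositionSubgroup ℚ)
    (h : ∀ g ∈ A.inertiaSubgroupIn ℚ, (α' g : Qb) = φ (α (φ⁻¹ * g * φ) : Qb)) :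
    va hr hA α' = va hr hA α := by
  obtain ⟨β, hβ⟩ := hα
  have h1 : (φ (β : Qb)) ≠ 0 := by
    rw [Ne, EmbeddingLike.map_eq_zero_iff]; exact β.ne_zero
  rw [va_eq hr hA hβ, va_eq hr hA (β := Units.mk0 _ h1), Units.val_mk0,
    ordAt_smul A hr hA hφ]
  intro g hg
  have h2 : φ⁻¹ * g * φ ∈ A.inertiaSubgroupIn ℚ := by
    have h3 := TWGal.conj_mem_inertia' (A := A) (inv_mem hφ) hg
    rwa [inv_inv] at h3
  rw [h g hg, hβ _ h2, map_div₀, Units.val_mk0, AlgEquiv.mul_apply, AlgEquiv.mul_apply]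
  congr 1
  rw [← AlgEquiv.mul_apply, mul_inv_cancel, AlgEquiv.one_apply]

lemma val_eq_one {u : Qb} (hu : u ≠ 0) (h : (ordFnAt A hr hA).ord u = 0) : A.valuation u = 1 := by
  have h1 : u ∈ A := by
    rw [← ordFnAt_ge A hr hA, ge_iff hu, h]
  have h2 : u⁻¹ ∈ A := by
    rw [← ordFnAt_ge A hr hA, ge_iff (inv_ne_zero hu), ord_inv _ hu, h, neg_zero]
  rw [← A.valuation_le_one_iff] at h1 h2
  rw [map_inv₀] at h2
  refine le_antisymm h1 ?_
  have h3 : A.valuation u ≠ 0 := (map_ne_zero _).mpr hu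
  exact (inv_le_one₀ (zero_lt_iff.mpr h3)).mp h2

/-- the unit condition -/
lemma unit_of_va {α : GQ → Qbˣ} (h : HasB A α) (h0 : va hr hA α = 0) :
    ∃ u : Qbˣ, A.valuation (u : Qb) = 1 ∧
      ∀ g ∈ A.inertiaSubgroupIn ℚ, (α g : Qb) = g (u : Qb) / u := by
  obtain ⟨β, hβ⟩ := h
  rw [va_eq hr hA hβ, AddCircle.coe_eq_zero_iff] at h0
  obtain ⟨n, hn⟩ := h0
  rw [zsmul_eq_mul, mul_one] at hn
  have hr0 : ((r : ℕ) : Qb) ≠ 0 := by exact_mod_cast hr.ne_zero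
  have hv : (ordFnAt A hr hA).Eq 1 ((r : ℕ) : Qb) := ordAt_q A hr hA
  have hz : (ordFnAt A hr hA).ord (((r : ℕ) : Qb) ^ (-n)) = -n := by
    have h1 : ∀ m : ℕ, (ordFnAt A hr hA).ord (((r : ℕ) : Qb) ^ m) = m := fun m => by
      rw [ord_pow hr0, hv.2, mul_one]
    rcases Int.eq_nat_or_neg n with ⟨m, rfl | rfl⟩
    · rw [zpow_neg, zpow_natCast, ord_inv _ (pow_ne_zero _ hr0), h1, Int.cast_natCast]
    · rw [neg_neg, zpow_natCast, h1, Int.cast_neg, neg_neg, Int.cast_natCast]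
  have hu0 : (β : Qb) * ((r : ℕ) : Qb) ^ (-n) ≠ 0 :=
    mul_ne_zero β.ne_zero (zpow_ne_zero _ hr0)
  refine ⟨Units.mk0 _ hu0, ?_, ?_⟩
  · rw [Units.val_mk0]
    apply val_eq_one hr hA hu0
    rw [ord_mul β.ne_zero (zpow_ne_zero _ hr0), hz, ← hn, add_neg_cancel]
  · intro g hg
    rw [hβ g hg, Units.val_mk0, map_mul, map_zpow₀, map_natCast]
    have h1 := β.ne_zero
    have h2 := zpow_ne_zero (-n) hr0
    field_simp

end Fermat.Agent.Maz
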