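import Fermat.Agent.Maz.CountM
import Fermat.Agent.Maz.LocN
import Fermat.Agent.Maz.PMod
import Fermat.Agent.GalRep.Cyclo
import Fermat.Agent.TWGal.TameInertia

set_option autoImplicit false
set_option linter.unusedSectionVars false

/-! # The abstract package for the Eisenstein part of the torsion -/

noncomputable section

namespace Fermat.Agent.Maz

open Fermat.Agent.ECRed Fermat.Agent.Carayol Fermat.Agent.FU OrdFn
open Fermat.Agent.TWGal Fermat.Agent.TWPr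
open scoped Pointwise

/-- action on the `r ^ k`-th roots of unity -/
def Cy (r k : ℕ) (σ : GQ) (c : ℕ) : Prop := ∀ ζ : Qb, ζ ^ (r ^ k) = 1 → σ ζ = ζ ^ c

lemma exists_cy {r : ℕ} (hr : r.Prime) (g : GQ) (k : ℕ) : ∃ c, Cy r k g c := by
  haveI := Fact.mk hr
  exact ⟨_, fun ζ hζ => GalRep.cycP_spec r g hζ⟩

lemma Cy.mul {r k : ℕ} {g h : GQ} {c d : ℕ} (hc : Cy r k g c) (hd : Cy r k h d) :
    Cy r k (g * h) (c * d) := by
  intro ζ hζ
  rw [AlgEquiv.mul_apply, hd ζ hζ, map_pow, hc ζ hζ, pow_mul]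

lemma cy_inertia {r k q : ℕ} (hr : r.Prime) (hq : q.Prime) (hqr : q ≠ r)
    {A : ValuationSubring Qb} (hA : A.LiesOverPrime q) {σ : GQ}
    (hσ : σ ∈ A.inertiaSubgroupIn ℚ) : Cy r k σ 1 := by
  intro ζ hζ
  rw [pow_one]
  refine GalRep.inertia_rootOfUnity hq hA hσ (m := r ^ k) ?_ hζ
  intro h
  exact hqr ((Nat.prime_dvd_prime_iff_eq hq hr).mp (hq.dvd_of_dvd_pow h))

lemma cy_frob {r k q : ℕ} (hr : r.Prime) (hq : q.Prime) (hqr : q ≠ r)
    {A : ValuationSubring Qb} (hA : A.LiesOverPrime q) {σ : GQ}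
    (hσ : A.IsFrobeniusAt σ q) : Cy r k σ q := by
  intro ζ hζ
  refine GalRep.frob_rootOfUnity hq hA hσ (m := r ^ k) ?_ hζ
  intro h
  exact hqr ((Nat.prime_dvd_prime_iff_eq hq hr).mp (hq.dvd_of_dvd_pow h))

/-- Minkowski -/
theorem mink_top {pl : ℕ → ValuationSubring Qb} (hpl : ∀ q : ℕ, q.Prime → (pl q).LiesOverPrime q)
    (H : Subgroup GQ) (hH : H.Normal) (L : IntermediateField ℚ Qb) [FiniteDimensional ℚ L]
    (hL : ∀ g ∈ L.fixingSubgroup, g ∈ H)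
    (hI : ∀ q : ℕ, q.Prime → ∀ g ∈ (pl q).inertiaSubgroupIn ℚ, g ∈ H) (g : GQ) : g ∈ H := by
  have hopen : IsOpen (H : Set GQ) :=
    Subgroup.isOpen_mono (H₁ := L.fixingSubgroup) (fun g hg => hL g hg)
      (IntermediateField.fixingSubgroup_isOpen L)
  have htop : H = ⊤ := by
    refine Mink.eq_top_of_inertia_le H hopen ?_
    intro q hq A hA
    exact Frey.all_places H hH hq (hpl q hq) (fun g hg => hI q hq g hg) hA
  rw [htop]; trivial

/-- the field of `r ^ k`-th roots of unity -/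
lemma exists_rootField {r : ℕ} (hr : r.Prime) (k : ℕ) : ∃ L : IntermediateField ℚ Qb,
    FiniteDimensional ℚ L ∧ ∀ g ∈ L.fixingSubgroup, Cy r k g 1 := by
  haveI : NeZero (r ^ k) := ⟨pow_ne_zero k hr.ne_zero⟩
  haveI : NeZero ((r ^ k : ℕ) : Qb) := ⟨by exact_mod_cast pow_ne_zero k hr.ne_zero⟩
  obtain ⟨ζ, hζ⟩ := HasEnoughRootsOfUnity.exists_primitiveRoot Qb (r ^ k)
  have hint : IsIntegral ℚ ζ := Algebra.IsIntegral.isIntegral ζ
  refine ⟨IntermediateField.adjoin ℚ {ζ}, IntermediateField.adjoin.finiteDimensional hint, ?_⟩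
  intro g hg z hz
  rw [pow_one]
  obtain ⟨i, -, rfl⟩ := hζ.eq_pow_of_pow_eq_one hz
  rw [map_pow, (IntermediateField.mem_fixingSubgroup_iff _ _).mp hg ζ
    (IntermediateField.mem_adjoin_simple_self ℚ ζ)]

/-- an element of inertia at `r` moving the `r ^ 2`-th roots of unity -/
theorem exists_g1 {pl : ℕ → ValuationSubring Qb} (hpl : ∀ q : ℕ, q.Prime → (pl q).LiesOverPrime q)
    {r : ℕ} (hr : r.Prime) : ∃ g₁ ∈ (pl r).inertiaSubgroupIn ℚ, ¬ Cy r 2 g₁ 1 := by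
  by_contra hcon
  push Not at hcon
  let H : Subgroup GQ :=
    { carrier := {g | Cy r 2 g 1}
      one_mem' := fun ζ _ => by rw [pow_one]; rfl
      mul_mem' := fun {a b} ha hb => ha.mul hb
      inv_mem' := fun {a} ha => by
        intro ζ hζ
        have h1 := ha ζ hζ
        rw [pow_one] at h1 ⊢
        conv_lhs => rw [← h1]
        rw [← AlgEquiv.mul_apply, inv_mul_cancel, AlgEquiv.one_apply] }
  have hn : H.Normal := ⟨fun n hn g => by
    intro ζ hζ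
    have h1 : (g⁻¹ ζ) ^ (r ^ 2) = 1 := by rw [← map_pow, hζ, map_one]
    have h2 := hn (g⁻¹ ζ) h1
    rw [pow_one] at h2 ⊢
    rw [AlgEquiv.mul_apply, AlgEquiv.mul_apply, h2, ← AlgEquiv.mul_apply, mul_inv_cancel,
      AlgEquiv.one_apply]⟩
  obtain ⟨L, hL, hL1⟩ := exists_rootField hr 2
  have hall : ∀ g : GQ, Cy r 2 g 1 := fun g => mink_top hpl H hn L hL1 (by
    intro q hq g hg
    by_cases hqr : q = r
    · subst hqr
      exact hcon g hg
    · exact cy_inertia hr hq hqr (hpl q hq) hg) g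
  haveI : NeZero (r ^ 2) := ⟨pow_ne_zero 2 hr.ne_zero⟩
  haveI : NeZero ((r ^ 2 : ℕ) : Qb) := ⟨by exact_mod_cast pow_ne_zero 2 hr.ne_zero⟩
  obtain ⟨ζ, hζ⟩ := HasEnoughRootsOfUnity.exists_primitiveRoot Qb (r ^ 2)
  have hfix : ∀ g : GQ, g ζ = ζ := by
    intro g
    have := hall g ζ hζ.pow_eq_one
    rwa [pow_one] at this
  obtain ⟨t, ht⟩ : ∃ t : ℚ, algebraMap ℚ Qb t = ζ := by
    have h1 : ζ ∈ (⊥ : IntermediateField ℚ Qb) := (InfiniteGalois.mem_bot_iff_fixed ζ).mpr hfix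
    exact IntermediateField.mem_bot.mp h1
  have ht1 : t ^ (r ^ 2) = 1 := by
    apply (algebraMap ℚ Qb).injective
    rw [map_pow, ht, hζ.pow_eq_one, map_one]
  have ht2 : t ^ 2 = 1 := by
    have h2 : |t| ^ (r ^ 2) = 1 := by rw [← abs_pow, ht1, abs_one]
    have h3 := (pow_eq_one_iff_of_nonneg (abs_nonneg t) (pow_ne_zero 2 hr.ne_zero)).mp h2
    rw [← sq_abs, h3, one_pow]
  have h4 : ζ ^ 2 = 1 := by rw [← ht, ← map_pow, ht2, map_one]
  have h5 := (hζ.pow_eq_one_iff_dvd 2).mp h4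
  have h6 := Nat.le_of_dvd (by norm_num) h5
  have := hr.two_le
  nlinarith

variable {N r : ℕ} {pl : ℕ → ValuationSubring Qb} {X : Type} [AddCommGroup X]
  [DistribMulAction GQ X] {R : Type} [CommRing R] [Module R X] {w t : GQ → R}

/-- the multiplicative part -/
def Xm (r : ℕ) (pl : ℕ → ValuationSubring Qb) (w : GQ → R) (x : X) : Prop :=
  ∀ τ ∈ (pl r).inertiaSubgroupIn ℚ, τ • x = w τ • x

/-- the abstract package -/
structure XP (X : Type) [AddCommGroup X] [DistribMulAction GQ X] (R : Type) [CommRing R]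
    [Module R X] (N r : ℕ) (pl : ℕ → ValuationSubring Qb) (w t : GQ → R) : Prop where
  hN : N.Prime
  hr : r.Prime
  hrN : r ≠ N
  hpl : ∀ q : ℕ, q.Prime → (pl q).LiesOverPrime q
  noe : IsNoetherianRing R
  ss : ∀ s : R, ∃ (a : ℕ) (u : R), (r : R) ^ a * s = s ^ 2 * u
  tors : RTors r X
  fin : ∀ k : ℕ, {x : X | r ^ k • x = 0}.Finite
  lev : ∀ x : X, ∃ L : IntermediateField ℚ Qb, FiniteDimensional ℚ L ∧
    ∀ g ∈ L.fixingSubgroup, g • x = x
  comm : ∀ (g : GQ) (ρ : R) (x : X), g • ρ • x = ρ • g • x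
  cyc : ∀ (g : GQ) (k c : ℕ), Cy r k g c → ∀ x : X, r ^ k • x = 0 → w g • x = c • x
  es : ∀ (g : GQ) (x : X), g • x + w g • g⁻¹ • x = t g • x
  nil : ∀ (g : GQ) (x : X), ∃ j : ℕ, (t g - 1 - w g) ^ j • x = 0
  eis : ∃ (g : GQ) (u : R) (D : ℕ), D ≠ 0 ∧ ∀ x : X, u • (t g • x - x - w g • x) = D • x
  away : ∀ q : ℕ, q.Prime → q ≠ r → q ≠ N → ∀ σ ∈ (pl q).inertiaSubgroupIn ℚ,
    ∀ x : X, σ • x = x
  uni : ∀ σ ∈ (pl N).inertiaSubgroupIn ℚ, ∀ x : X, σ • (σ • x - x) = σ • x - x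
  atr : ∀ σ ∈ (pl r).inertiaSubgroupIn ℚ, ∀ x : X, Xm r pl w (σ • x - x)
  frob : ∃ (Tr u u' : R) (D D' : ℕ), D ≠ 0 ∧ D' ≠ 0 ∧ (Tr - 1 - (r : R)) * u = (D : R) ∧
    (Tr + 1 + (r : R)) * u' = (D' : R) ∧
    ∀ φ : GQ, (pl r).IsFrobeniusAt φ r → ∀ x : X,
      Xm r pl w (φ • φ • x - Tr • φ • x + r • x)

namespace XP

variable (P : XP X R N r pl w t)
include P

lemma wmul (g h : GQ) (x : X) : w (g * h) • x = w g • w h • x := by
  obtain ⟨k, hk⟩ := P.tors x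
  obtain ⟨c, hc⟩ := exists_cy P.hr g k
  obtain ⟨d, hd⟩ := exists_cy P.hr h k
  have h2 : r ^ k • (d • x) = 0 := by rw [smul_comm, hk, smul_zero]
  rw [P.cyc h k d hd x hk, P.cyc g k c hc _ h2, P.cyc _ k _ (hc.mul hd) x hk, mul_smul]

lemma wone {g : GQ} (hg : ∀ k, Cy r k g 1) (x : X) : w g • x = x := by
  obtain ⟨k, hk⟩ := P.tors x
  rw [P.cyc g k 1 (hg k) x hk, one_smul]

lemma w_one (x : X) : w 1 • x = x :=
  P.wone (fun _ ζ _ => by rw [pow_one]; rfl) x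

lemma w_away {q : ℕ} (hq : q.Prime) (hqr : q ≠ r) {σ : GQ}
    (hσ : σ ∈ (pl q).inertiaSubgroupIn ℚ) (x : X) : w σ • x = x :=
  P.wone (fun _ => cy_inertia P.hr hq hqr (P.hpl q hq) hσ) x

lemma winv (g : GQ) (x : X) : w g⁻¹ • w g • x = x := by
  rw [← P.wmul, inv_mul_cancel, P.w_one]

lemma winv' (g : GQ) (x : X) : w g • w g⁻¹ • x = x := by
  rw [← P.wmul, mul_inv_cancel, P.w_one]

/-- `g₁` -/
lemma g1_spec {g₁ : GQ} (h1 : ¬ Cy r 2 g₁ 1) {x : X} (hx : w g₁ • x = x) : r • x = 0 := by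
  obtain ⟨k, hk⟩ := P.tors x
  have hk' : r ^ (k + 2) • x = 0 := by rw [pow_add, mul_comm, mul_smul, hk, smul_zero]
  obtain ⟨c, hc⟩ := exists_cy P.hr g₁ (k + 2)
  rw [P.cyc g₁ _ c hc x hk'] at hx
  have hcc : ¬ ((r ^ 2 : ℕ) : ℤ) ∣ (c : ℤ) - 1 := by
    intro h
    apply h1
    intro ζ hζ
    have hζ' : ζ ^ (r ^ (k + 2)) = 1 := by
      rw [pow_add, mul_comm, pow_mul, hζ, one_pow]
    rw [hc ζ hζ', pow_one]
    obtain ⟨m, hm⟩ := h
    have hζ0 : ζ ≠ 0 := by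
      rintro rfl
      rw [zero_pow (pow_ne_zero 2 P.hr.ne_zero)] at hζ
      exact zero_ne_one hζ
    have h3 : (ζ : Qb) ^ (c : ℤ) = ζ ^ (1 : ℤ) * ζ ^ ((c : ℤ) - 1) := by
      rw [← zpow_add₀ hζ0]; congr 1; ring
    rw [hm, zpow_mul, zpow_natCast, zpow_natCast, hζ, one_zpow, mul_one, zpow_one] at h3
    exact h3
  have h2 : ((c : ℤ) - 1) • x = 0 := by
    rw [sub_smul, natCast_zsmul, one_smul, hx, sub_self]
  have h3 : (addOrderOf x : ℤ) ∣ (c : ℤ) - 1 := addOrderOf_dvd_iff_zsmul_eq_zero.mpr h2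
  obtain ⟨i, -, hi⟩ := (Nat.dvd_prime_pow P.hr).mp (addOrderOf_dvd_of_nsmul_eq_zero hk)
  have hi1 : i ≤ 1 := by
    by_contra h
    apply hcc
    refine dvd_trans ?_ h3
    rw [hi]
    exact_mod_cast pow_dvd_pow r (by omega)
  rw [← addOrderOf_dvd_iff_nsmul_eq_zero, hi]
  calc r ^ i ∣ r ^ 1 := pow_dvd_pow r hi1
    _ = r := pow_one r

/-- the Eisenstein element kills the part where Galois acts through the cyclotomic character -/
theorem exists_eis : ∃ (g : GQ) (D : ℕ), D ≠ 0 ∧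
    (∀ x : X, g • x = w g • x → D • x = 0) ∧ (∀ x : X, g • x = x → D • x = 0) ∧
    (∀ x : X, t g • x = x + w g • x → D • x = 0) := by
  obtain ⟨g, u, D, hD, h⟩ := P.eis
  have h3 : ∀ x : X, t g • x = x + w g • x → D • x = 0 := by
    intro x hx
    rw [← h, hx, add_sub_cancel_left, sub_self, smul_zero]
  refine ⟨g, D, hD, ?_, ?_, h3⟩
  · intro x hx
    apply h3
    have h1 : x = w g • g⁻¹ • x := by
      have := congrArg (fun y => g⁻¹ • y) hx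
      simp only [inv_smul_smul] at this
      rw [P.comm] at this
      exact this
    rw [← P.es, ← h1, hx, add_comm]
  · intro x hx
    apply h3
    have h1 : g⁻¹ • x = x := by rw [inv_smul_eq_iff, hx]
    rw [← P.es, hx, h1]

/-- torsion subgroup -/
lemma lev_fin {S : Set X} (hS : S.Finite) : ∃ L : IntermediateField ℚ Qb,
    FiniteDimensional ℚ L ∧ ∀ g ∈ L.fixingSubgroup, ∀ x ∈ S, g • x = x := by
  classical
  induction S, hS using Set.Finite.induction_on with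
  | empty => exact ⟨⊥, inferInstance, by simp⟩
  | @insert a S ha hS ih =>
    obtain ⟨L, hL, h1⟩ := ih
    obtain ⟨L', hL', h2⟩ := P.lev a
    refine ⟨L ⊔ L', inferInstance, ?_⟩
    intro g hg x hx
    rcases Set.mem_insert_iff.mp hx with rfl | hx
    · exact h2 g (IntermediateField.fixingSubgroup_le le_sup_right hg)
    · exact h1 g (IntermediateField.fixingSubgroup_le le_sup_left hg) x hx

/-- a common level -/
lemma lev_k (k : ℕ) : ∃ L : IntermediateField ℚ Qb, FiniteDimensional ℚ L ∧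
    (∀ g ∈ L.fixingSubgroup, ∀ x : X, r ^ k • x = 0 → g • x = x) ∧
    (∀ g ∈ L.fixingSubgroup, Cy r k g 1) := by
  obtain ⟨L, hL, h1⟩ := P.lev_fin (P.fin k)
  obtain ⟨L', hL', h2⟩ := exists_rootField P.hr k
  refine ⟨L ⊔ L', inferInstance, ?_, ?_⟩
  · intro g hg x hx
    exact h1 g (IntermediateField.fixingSubgroup_le le_sup_left hg) x hx
  · intro g hg
    exact h2 g (IntermediateField.fixingSubgroup_le le_sup_right hg)

/-- twisted Minkowski -/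
theorem mink_tw {Y : AddSubgroup X} {k : ℕ} (hk : ∀ y ∈ Y, r ^ k • y = 0)
    (hG : ∀ g : GQ, ∀ y ∈ Y, g • y ∈ Y)
    (hI : ∀ q : ℕ, q.Prime → ∀ σ ∈ (pl q).inertiaSubgroupIn ℚ, ∀ y ∈ Y, σ • y = w σ • y)
    (g : GQ) : ∀ y ∈ Y, g • y = w g • y := by
  let H : Subgroup GQ :=
    { carrier := {g | ∀ y ∈ Y, g • y = w g • y}
      one_mem' := fun y _ => by rw [one_smul, P.w_one]
      mul_mem' := fun {a b} ha hb y hy => by
        rw [mul_smul, hb y hy, P.comm, ha y hy, P.wmul, smul_comm]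
      inv_mem' := fun {a} ha y hy => by
        have h1 := ha (a⁻¹ • y) (hG _ _ hy)
        rw [smul_inv_smul] at h1
        conv_rhs => rw [h1, P.winv] }
  have hn : H.Normal := ⟨fun n hn g y hy => by
    have h1 := hn (g⁻¹ • y) (hG _ _ hy)
    rw [mul_smul, mul_smul, h1, P.comm, smul_inv_smul, P.wmul, P.wmul]
    rw [smul_comm (w g) (w n), P.winv']⟩
  obtain ⟨L, hL, hL1, hL2⟩ := P.lev_k k
  exact mink_top P.hpl H hn L (by
    intro g hg y hy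
    rw [hL1 g hg y (hk y hy), P.cyc g k 1 (hL2 g hg) y (hk y hy), one_smul]) (by
    intro q hq g hg y hy
    exact hI q hq g hg y hy) g

/-- elements of `X` killed by `r ^ k` -/
def tk (_P : XP X R N r pl w t) (k : ℕ) : AddSubgroup X where
  carrier := {x | r ^ k • x = 0}
  zero_mem' := smul_zero _
  add_mem' := fun {a b} ha hb => by
    have ha' : r ^ k • a = 0 := ha
    have hb' : r ^ k • b = 0 := hb
    show r ^ k • (a + b) = 0
    rw [smul_add, ha', hb', add_zero]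
  neg_mem' := fun {a} ha => by
    have ha' : r ^ k • a = 0 := ha
    show r ^ k • (-a) = 0
    rw [smul_neg, ha', neg_zero]

lemma mem_tk {k : ℕ} {x : X} : x ∈ P.tk k ↔ r ^ k • x = 0 := Iff.rfl

lemma tk_fin (k : ℕ) : Finite (P.tk k) := (P.fin k).to_subtype

lemma tk_g {k : ℕ} (g : GQ) {x : X} (hx : x ∈ P.tk k) : g • x ∈ P.tk k := by
  have hx' : r ^ k • x = 0 := hx
  show r ^ k • (g • x) = 0
  rw [smul_comm, hx', smul_zero]

lemma tk_r {k : ℕ} (ρ : R) {x : X} (hx : x ∈ P.tk k) : ρ • x ∈ P.tk k := by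
  have hx' : r ^ k • x = 0 := hx
  show r ^ k • (ρ • x) = 0
  rw [smul_comm, hx', smul_zero]

/-- an element fixed by `σ₀` is fixed by the inertia group at `N` -/
theorem fix_N {σ₀ : GQ} (hσI : σ₀ ∈ (pl N).inertiaSubgroupIn ℚ)
    (hσ₀ : ∀ π : Qb, π ^ r = N → σ₀ π ≠ π) {x : X} (hx : σ₀ • x = x) :
    ∀ σ ∈ (pl N).inertiaSubgroupIn ℚ, σ • x = x := by
  intro σ hσ
  obtain ⟨k, hk⟩ := P.tors x
  letI := subAct (P.tk k) (fun g x hx => P.tk_g g hx)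
  obtain ⟨L, hL, hL1, -⟩ := P.lev_k k
  set ρ : (pl N).inertiaSubgroupIn ℚ →* Equiv.Perm (P.tk k) :=
    (MulAction.toPermHom GQ (P.tk k)).comp ((pl N).inertiaSubgroupIn ℚ).subtype with hρ
  have hρa : ∀ (σ : (pl N).inertiaSubgroupIn ℚ) (y : P.tk k), ρ σ y = (σ : GQ) • y :=
    fun _ _ => rfl
  have hKtriv : ∀ σ : (pl N).inertiaSubgroupIn ℚ, (∀ x ∈ L, (σ : GQ) x = x) → ρ σ = 1 := by
    intro σ hσ
    ext y
    exact hL1 (σ : GQ) ((IntermediateField.mem_fixingSubgroup_iff _ _).mpr hσ) y y.2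
  have hpp : ∀ σ, ∃ n : ℕ, ρ σ ^ (r ^ n) = 1 := by
    intro σ
    refine ⟨k, ?_⟩
    rw [← map_pow]
    ext y
    show (((σ ^ (r ^ k) : (pl N).inertiaSubgroupIn ℚ) : GQ)) • (y : X) = y
    rw [Subgroup.coe_pow, unip_pow (P.uni σ σ.2)]
    have h2 : r ^ k • ((σ : GQ) • (y : X) - y) = 0 :=
      (P.tk k).sub_mem (P.tk_g _ y.2) y.2
    rw [h2, add_zero]
  obtain ⟨i, hi⟩ := mem_zpowers_inertia P.hN (P.hpl N P.hN) P.hr P.hrN ρ L hKtriv hpp
    (σ₀ := ⟨σ₀, hσI⟩) hσ₀ ⟨σ, hσ⟩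
  have h1 : (σ₀ ^ i) • x = x := by
    have h3 : σ₀ ^ i ∈ MulAction.stabilizer GQ x := Subgroup.zpow_mem _ hx i
    exact h3
  have hi' : ρ ((⟨σ₀, hσI⟩ : (pl N).inertiaSubgroupIn ℚ) ^ i) = ρ ⟨σ, hσ⟩ := by
    rw [map_zpow]; exact hi
  have h2 := DFunLike.congr_fun hi' ⟨x, hk⟩
  have h3 : (((⟨σ₀, hσI⟩ : (pl N).inertiaSubgroupIn ℚ) ^ i :
    (pl N).inertiaSubgroupIn ℚ) : GQ) • x = σ • x := congrArg Subtype.val h2
  rw [Subgroup.coe_zpow] at h3
  rw [← h3]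
  exact h1

/-- the tame relation -/
theorem conj_N {φ σ₀ : GQ} (hφ : (pl N).IsFrobeniusAt φ N)
    (hσI : σ₀ ∈ (pl N).inertiaSubgroupIn ℚ)
    (hσ₀ : ∀ π : Qb, π ^ r = N → σ₀ π ≠ π) (x : X) :
    (φ * σ₀ * φ⁻¹) • x = (σ₀ ^ N) • x := by
  obtain ⟨k, hk⟩ := P.tors x
  letI := subAct (P.tk k) (fun g x hx => P.tk_g g hx)
  obtain ⟨L, hL, hL1, -⟩ := P.lev_k k
  set ρ : (pl N).inertiaSubgroupIn ℚ →* Equiv.Perm (P.tk k) :=
    (MulAction.toPermHom GQ (P.tk k)).comp ((pl N).inertiaSubgroupIn ℚ).subtype with hρ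
  have hρa : ∀ (σ : (pl N).inertiaSubgroupIn ℚ) (y : P.tk k), ρ σ y = (σ : GQ) • y :=
    fun _ _ => rfl
  have hKtriv : ∀ σ : (pl N).inertiaSubgroupIn ℚ, (∀ x ∈ L, (σ : GQ) x = x) → ρ σ = 1 := by
    intro σ hσ
    ext y
    exact hL1 (σ : GQ) ((IntermediateField.mem_fixingSubgroup_iff _ _).mpr hσ) y y.2
  have hpp : ∀ σ, ∃ n : ℕ, ρ σ ^ (r ^ n) = 1 := by
    intro σ
    refine ⟨k, ?_⟩
    rw [← map_pow]
    ext y
    show (((σ ^ (r ^ k) : (pl N).inertiaSubgroupIn ℚ) : GQ)) • (y : X) = y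
    rw [Subgroup.coe_pow, unip_pow (P.uni σ σ.2)]
    have h2 : r ^ k • ((σ : GQ) • (y : X) - y) = 0 :=
      (P.tk k).sub_mem (P.tk_g _ y.2) y.2
    rw [h2, add_zero]
  have h1 := conj_frob_inertia P.hN (P.hpl N P.hN) P.hr P.hrN ρ L hKtriv hpp hφ hσI hσ₀
  have h2 := DFunLike.congr_fun h1 ⟨x, hk⟩
  rw [← map_pow] at h2
  have h3 : (φ * σ₀ * φ⁻¹) • x = (((⟨σ₀, hσI⟩ : (pl N).inertiaSubgroupIn ℚ) ^ N :
    (pl N).inertiaSubgroupIn ℚ) : GQ) • x := congrArg Subtype.val h2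
  rw [Subgroup.coe_pow] at h3
  exact h3

end XP

end Fermat.Agent.Maz
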