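import Fermat.Agent.Maz.UnitB

set_option autoImplicit false
set_option linter.unusedSectionVars false

/-! # The count for the package -/

noncomputable section

namespace Fermat.Agent.Maz

open Fermat.Agent.ECRed Fermat.Agent.Carayol Fermat.Agent.FU OrdFn
open Fermat.Agent.TWGal Fermat.Agent.TWPr
open scoped Pointwise

/-- the mod `r` cyclotomic character -/
lemma exists_chi (r : ℕ) [hr : Fact r.Prime] : ∃ (ζ : Qb) (χ : GQ →* (ZMod r)ˣ),
    IsPrimitiveRoot ζ r ∧ ∀ g : GQ, g ζ = ζ ^ (χ g : ZMod r).val := by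
  haveI : NeZero r := ⟨hr.out.ne_zero⟩
  haveI : NeZero ((r : ℕ) : Qb) := ⟨by exact_mod_cast hr.out.ne_zero⟩
  obtain ⟨ζ, hζ⟩ := HasEnoughRootsOfUnity.exists_primitiveRoot Qb r
  have hcard : Nat.card (rootsOfUnity r Qb) = r := HasEnoughRootsOfUnity.natCard_rootsOfUnity Qb r
  refine ⟨ζ, (modularCyclotomicCharacter Qb hcard).comp
    { toFun := fun g : GQ => (g : Qb ≃+* Qb), map_one' := rfl, map_mul' := fun _ _ => rfl },
    hζ, fun g => ?_⟩
  have h1 := modularCyclotomicCharacter.spec Qb hcard (g : Qb ≃+* Qb)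
    (t := Units.mk0 ζ (hζ.ne_zero hr.out.ne_zero)) (by
      rw [mem_rootsOfUnity]
      apply Units.ext
      rw [Units.val_pow_eq_pow_val, Units.val_mk0, hζ.pow_eq_one, Units.val_one])
  exact h1

lemma cy_chi {r : ℕ} [hr : Fact r.Prime] {ζ : Qb} {χ : GQ →* (ZMod r)ˣ}
    (hζ : IsPrimitiveRoot ζ r) (hχ : ∀ g : GQ, g ζ = ζ ^ (χ g : ZMod r).val) {k n : ℕ}
    (hk : 1 ≤ k) {g : GQ} (h : Cy r k g n) : ((n : ℕ) : ZMod r) = χ g := by
  haveI : NeZero r := ⟨hr.out.ne_zero⟩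
  obtain ⟨j, rfl⟩ := Nat.exists_eq_add_of_le hk
  have h1 : ζ ^ (r ^ (1 + j)) = 1 := by
    rw [pow_add, pow_one, pow_mul, hζ.pow_eq_one, one_pow]
  have h2 := (h ζ h1).symm.trans (hχ g)
  have hζ0 : ζ ≠ 0 := hζ.ne_zero hr.out.ne_zero
  have h3 : ζ ^ ((n : ℤ) - ((χ g : ZMod r).val : ℤ)) = 1 := by
    rw [zpow_sub₀ hζ0, zpow_natCast, zpow_natCast, h2, div_self (pow_ne_zero _ hζ0)]
  have h5 := (hζ.zpow_eq_one_iff_dvd _).mp h3
  have h4 : (n : ZMod r) = (((χ g : ZMod r).val : ℕ) : ZMod r) := by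
    rw [← sub_eq_zero]
    have h6 := (ZMod.intCast_zmod_eq_zero_iff_dvd _ r).mpr h5
    rw [Int.cast_sub, Int.cast_natCast, Int.cast_natCast] at h6
    exact h6
  rw [h4, ZMod.natCast_zmod_val]

lemma nilp_of_pt {W : Type*} [AddCommGroup W] [Finite W] {f : AddMonoid.End W}
    (h : ∀ x, ∃ j : ℕ, (f ^ j) x = 0) : IsNilpotent f := by
  classical
  haveI := Fintype.ofFinite W
  choose j hj using h
  refine ⟨Finset.univ.sup j, ?_⟩
  ext x
  obtain ⟨d, hd⟩ := Nat.exists_eq_add_of_le (Finset.le_sup (f := j) (Finset.mem_univ x))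
  rw [hd, add_comm, pow_add]
  show (f ^ d) ((f ^ j x) x) = 0
  rw [hj, map_zero]

variable {N r : ℕ} {pl : ℕ → ValuationSubring Qb} {X : Type} [AddCommGroup X]
  [DistribMulAction GQ X] {R : Type} [CommRing R] [Module R X] {w t : GQ → R}

namespace XP

variable (P : XP X R N r pl w t)
include P

/-- a stable finite subgroup -/
structure Stab (_P : XP X R N r pl w t) (k : ℕ) (Y : AddSubgroup X) : Prop where
  tor : ∀ y ∈ Y, r ^ k • y = 0
  gal : ∀ g : GQ, ∀ y ∈ Y, g • y ∈ Y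
  rho : ∀ ρ : R, ∀ y ∈ Y, ρ • y ∈ Y

lemma Stab.fin {k : ℕ} {Y : AddSubgroup X} (h : P.Stab k Y) : Finite Y :=
  haveI := P.tk_fin k
  Finite.Set.subset (P.tk k : Set X) fun y hy => h.tor y hy

theorem nilp_stab [hr : Fact r.Prime] {ζ : Qb} {χ : GQ →* (ZMod r)ˣ}
    (hζ : IsPrimitiveRoot ζ r) (hχ : ∀ g : GQ, g ζ = ζ ^ (χ g : ZMod r).val) {k : ℕ}
    (hk : 1 ≤ k) {Y : AddSubgroup X} (hY : P.Stab k Y) :
    letI := subAct Y hY.gal
    Nilp χ Y := by
  letI := subAct Y hY.gal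
  haveI := hY.fin
  intro g c hc
  set γ : AddMonoid.End Y := DistribMulAction.toAddMonoidEnd GQ Y g with hγ
  have hγa : ∀ y : Y, ((γ y : Y) : X) = g • (y : X) := fun _ => rfl
  -- multiplications
  let mu : R → AddMonoid.End Y := fun ρ => AddMonoidHom.mk' (fun y => ⟨ρ • (y : X), hY.rho ρ y y.2⟩)
    (fun a b => Subtype.ext (smul_add ρ (a : X) (b : X)))
  have hmu : ∀ ρ (y : Y), ((mu ρ y : Y) : X) = ρ • (y : X) := fun _ _ => rfl
  have hmupow : ∀ (ρ : R) (j : ℕ) (y : Y), (((mu ρ ^ j) y : Y) : X) = ρ ^ j • (y : X) := by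
    intro ρ j
    induction j with
    | zero => intro y; rw [pow_zero, pow_zero, one_smul]; rfl
    | succ j ih =>
      intro y
      rw [pow_succ, pow_succ, mul_smul, ← hmu, ← ih]; rfl
  have hcomm : ∀ ρ, Commute (mu ρ) γ := by
    intro ρ
    ext y
    show ρ • g • (y : X) = g • ρ • (y : X)
    rw [P.comm]
  set τ := mu (t g - 1 - w g) with hτ
  set ω := mu (w g) with hω
  have hτn : IsNilpotent τ := nilp_of_pt fun y => by
    obtain ⟨j, hj⟩ := P.nil g y
    exact ⟨j, Subtype.ext ((hmupow _ j y).trans hj)⟩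
  have hBn : IsNilpotent (τ * γ) := (hcomm _).isNilpotent_mul_right hτn
  obtain ⟨n, hn⟩ := exists_cy P.hr g k
  have hnc : (r : ℤ) ∣ (n : ℤ) - c := by
    have h1 := cy_chi hζ hχ hk hn
    rw [← ZMod.intCast_zmod_eq_zero_iff_dvd, Int.cast_sub, Int.cast_natCast, h1, hc, sub_self]
  obtain ⟨m, hm⟩ := hnc
  have hωc : ∀ y : Y, (ω - (c : AddMonoid.End Y)) y = ((r : ℤ) * m) • y := by
    intro y
    apply Subtype.ext
    have h2 : ((((c : AddMonoid.End Y) y) : Y) : X) = c • (y : X) := by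
      rw [AddMonoid.End.intCast_apply]; rfl
    show w g • (y : X) - ((((c : AddMonoid.End Y) y) : Y) : X) = ((r : ℤ) * m) • (y : X)
    rw [h2, P.cyc g k n hn _ (hY.tor y y.2), ← hm, sub_smul, natCast_zsmul]
  have hωn : IsNilpotent (ω - (c : AddMonoid.End Y)) := by
    refine ⟨k, ?_⟩
    have h3 : ∀ (j : ℕ) (y : Y), ((ω - (c : AddMonoid.End Y)) ^ j) y = ((r : ℤ) * m) ^ j • y := by
      intro j
      induction j with
      | zero => intro y; rw [pow_zero, pow_zero, one_smul]; rfl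
      | succ j ih =>
        intro y
        rw [pow_succ]
        show ((ω - (c : AddMonoid.End Y)) ^ j) ((ω - (c : AddMonoid.End Y)) y) = _
        rw [hωc, ih, smul_smul, pow_succ]
    ext y
    rw [h3, mul_pow, mul_comm, mul_smul]
    have h4 : ((r : ℤ) ^ k) • y = 0 := by
      apply Subtype.ext
      show ((r : ℤ) ^ k) • (y : X) = 0
      rw [← Nat.cast_pow, natCast_zsmul, hY.tor y y.2]
    rw [h4, smul_zero]; rfl
  have hcγ : Commute (c : AddMonoid.End Y) γ := Int.cast_commute _ _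
  have hCn : IsNilpotent ((ω - (c : AddMonoid.End Y)) * (γ - 1)) := by
    refine Commute.isNilpotent_mul_right ?_ hωn
    exact ((hcomm _).sub_left hcγ).sub_right (Commute.one_right _)
  have hτω : Commute τ ω := by
    ext y
    show (t g - 1 - w g) • w g • (y : X) = w g • (t g - 1 - w g) • (y : X)
    rw [smul_comm]
  have hBC : Commute (τ * γ) ((ω - (c : AddMonoid.End Y)) * (γ - 1)) := by
    have e1 : Commute τ (ω - (c : AddMonoid.End Y)) := hτω.sub_right (Int.cast_commute _ _).symm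
    have e2 : Commute τ (γ - 1) := (hcomm _).sub_right (Commute.one_right _)
    have e3 : Commute γ (ω - (c : AddMonoid.End Y)) := (hcomm _).symm.sub_right hcγ.symm
    have e4 : Commute γ (γ - 1) := (Commute.refl γ).sub_right (Commute.one_right _)
    exact (e1.mul_right e2).mul_left (e3.mul_right e4)
  have hsum := hBC.isNilpotent_add hBn hCn
  have hcv : ∀ y : Y, ((((c : AddMonoid.End Y) y) : Y) : X) = c • (y : X) := by
    intro y
    rw [AddMonoid.End.intCast_apply]; rfl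
  have heq : (γ - 1) * (γ - (c : AddMonoid.End Y)) =
      τ * γ + (ω - (c : AddMonoid.End Y)) * (γ - 1) := by
    ext y
    have h1 := P.es g (g • (y : X))
    rw [inv_smul_smul] at h1
    show g • (g • (y : X) - (((c : AddMonoid.End Y) y : Y) : X)) -
        (g • (y : X) - (((c : AddMonoid.End Y) y : Y) : X)) =
      (t g - 1 - w g) • g • (y : X) + (w g • (g • (y : X) - (y : X)) -
        (((c : AddMonoid.End Y) (γ y - y) : Y) : X))
    have h2 : ((γ y - y : Y) : X) = g • (y : X) - (y : X) := rfl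
    rw [hcv, hcv, h2, sub_smul, sub_smul, one_smul, ← h1, smul_sub g, smul_comm g c, smul_sub (w g),
      smul_sub c]
    abel
  rw [← heq] at hsum
  exact hsum

/-- **the count** on a stable subgroup -/
theorem count_X {k : ℕ} {Y : AddSubgroup X} (hY : P.Stab k Y) (Ym : AddSubgroup X)
    (hYm : ∀ y, y ∈ Ym ↔ y ∈ Y ∧ Xm r pl w y) (S : Finset (GQ → X))
    (hS : ∀ c ∈ S, (∀ g, c g ∈ Y) ∧ P.Zr k c ∧
      (∀ q : ℕ, q.Prime → q ≠ r → ∀ g ∈ (pl q).inertiaSubgroupIn ℚ, c g = 0) ∧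
      ∀ l : X →+ Additive Qbˣ, ∃ u : Qbˣ, (pl r).valuation (u : Qb) = 1 ∧
        ∀ g ∈ (pl r).inertiaSubgroupIn ℚ,
          ((Additive.toMul (l (c g)) : Qbˣ) : Qb) = g (u : Qb) / u) :
    S.card ≤ Nat.card Ym := by
  classical
  haveI : Fact r.Prime := ⟨P.hr⟩
  obtain ⟨ζ, χ, hζ, hχ⟩ := exists_chi r
  have hY' : P.Stab (k + 1) Y := ⟨fun y hy => tors_mono (by omega) (hY.tor y hy), hY.gal, hY.rho⟩
  letI := subAct Y hY.gal
  haveI := hY.fin
  let Mm : AddSubgroup Y :=
    { carrier := {y | Xm r pl w (y : X)}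
      zero_mem' := xm_zero
      add_mem' := fun {a b} ha hb => Xm.add ha hb
      neg_mem' := fun {a} ha => Xm.neg ha }
  let F : (GQ → X) → (GQ → Y) := fun c g => if h : c g ∈ Y then ⟨c g, h⟩ else 0
  have hF : ∀ c, (∀ g, c g ∈ Y) → ∀ g, ((F c g : Y) : X) = c g := by
    intro c hc g
    show (((if h : c g ∈ Y then ⟨c g, h⟩ else 0) : Y) : X) = _
    rw [dif_pos (hc g)]
  have hinj : Set.InjOn F S := by
    intro c hc c' hc' h
    funext g
    rw [← hF c (hS c hc).1 g, ← hF c' (hS c' hc').1 g, h]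
  have h1 : (S.image F).card ≤ Nat.card Mm := by
    refine count_le (k := k + 1) P.hpl hζ hχ (M := Y) (Mm := Mm) ?_ ?_ ?_ ?_ _ ?_
    · intro m
      exact Subtype.ext (hY'.tor m m.2)
    · exact P.nilp_stab hζ hχ (by omega) hY'
    · intro σ hσ m hm
      obtain ⟨n, hn⟩ := exists_cy P.hr σ (k + 1)
      refine ⟨n, cy_chi hζ hχ (by omega) hn, ?_⟩
      apply Subtype.ext
      show σ • (m : X) = n • (m : X)
      rw [hm σ hσ, P.cyc σ _ n hn _ (hY'.tor m m.2)]
    · intro σ hσ m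
      exact P.atr σ hσ (m : X)
    · intro c' hc'
      obtain ⟨c, hc, rfl⟩ := Finset.mem_image.mp hc'
      obtain ⟨h1, h2, h3, h4⟩ := hS c hc
      have hFc := hF c h1
      refine ⟨?_, ?_, ?_, ?_, ?_⟩
      · intro g h
        apply Subtype.ext
        show ((F c (g * h) : Y) : X) = ((F c g : Y) : X) + g • ((F c h : Y) : X)
        rw [hFc, hFc, hFc, h2.mul]
      · obtain ⟨L, hL, hL1⟩ := h2.lev
        exact ⟨L, hL, fun g hg => Subtype.ext ((hFc g).trans (hL1 g hg))⟩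
      · intro q hq hqr g hg
        exact Subtype.ext ((hFc g).trans (h3 q hq hqr g hg))
      · intro g hg
        show Xm r pl w ((F c g : Y) : X)
        rw [hFc]
        exact h2.atr g hg
      · intro l
        let μ : Ym →+ Additive Qbˣ := AddMonoidHom.mk'
          (fun y => l ⟨⟨(y : X), ((hYm y).mp y.2).1⟩, ((hYm y).mp y.2).2⟩) (by
            intro a b
            rw [← map_add]; rfl)
        obtain ⟨l', hl'⟩ := ext_char' μ
        obtain ⟨u, hu, hu1⟩ := h4 l'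
        refine ⟨u, hu, fun g hg hm => ?_⟩
        rw [← hu1 g hg]
        have h5 : c g ∈ Ym := (hYm _).mpr ⟨h1 g, h2.atr g hg⟩
        have h6 := hl' ⟨c g, h5⟩
        rw [show l' (c g) = μ ⟨c g, h5⟩ from h6]
        have h7 : (⟨F c g, hm⟩ : Mm) = ⟨⟨c g, h1 g⟩, h2.atr g hg⟩ :=
          Subtype.ext (Subtype.ext (hFc g))
        rw [h7]
        rfl
  rw [Finset.card_image_of_injOn hinj] at h1
  refine h1.trans ?_
  haveI : Finite Ym := Finite.Set.subset (Y : Set X) fun y hy => ((hYm y).mp hy).1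
  exact Nat.card_le_card_of_injective
    (fun y : Mm => (⟨((y : Y) : X), (hYm _).mpr ⟨(y : Y).2, y.2⟩⟩ : Ym)) (by
      intro a b hab
      exact Subtype.ext (Subtype.ext (congrArg (fun z : Ym => (z : X)) hab)))

end XP

end Fermat.Agent.Maz
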