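import Fermat.Agent.Maz.XF

set_option autoImplicit false
set_option linter.unusedSectionVars false

/-! # Exactness at `N` -/

noncomputable section

namespace Fermat.Agent.Maz

open Fermat.Agent.ECRed Fermat.Agent.Carayol Fermat.Agent.FU OrdFn
open Fermat.Agent.TWGal Fermat.Agent.TWPr
open scoped Pointwise

variable {N r : ℕ} {pl : ℕ → ValuationSubring Qb} {X : Type} [AddCommGroup X]
  [DistribMulAction GQ X] {R : Type} [CommRing R] [Module R X] {w t : GQ → R}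

lemma tors_of_nat (hr : r.Prime) {n : ℕ} (hn : n ≠ 0) {k : ℕ} {x : X} (hk : r ^ k • x = 0)
    (h : n • x = 0) : r ^ n • x = 0 := by
  obtain ⟨i, -, hi⟩ := (Nat.dvd_prime_pow hr).mp (addOrderOf_dvd_of_nsmul_eq_zero hk)
  have h1 : r ^ i ∣ n := by rw [← hi]; exact addOrderOf_dvd_of_nsmul_eq_zero h
  have h2 : i ≤ n := (Nat.lt_pow_self hr.one_lt).le.trans (Nat.le_of_dvd (Nat.pos_of_ne_zero hn) h1)
  rw [← addOrderOf_dvd_iff_nsmul_eq_zero, hi]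
  exact pow_dvd_pow r h2

lemma factorial_index {G : Type*} [AddCommGroup G] [Finite G] (H : AddSubgroup G) {C : ℕ}
    (h : Nat.card G ≤ C * Nat.card H) (g : G) : C.factorial • g ∈ H := by
  have h1 : H.index ≤ C := by
    have h2 := H.index_mul_card
    have h3 : 0 < Nat.card H := Nat.card_pos
    rw [← h2] at h
    exact Nat.le_of_mul_le_mul_right h h3
  have h2 : 0 < H.index := Nat.pos_of_ne_zero H.index_ne_zero_of_finite
  obtain ⟨m, hm⟩ := Nat.dvd_factorial h2 h1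
  rw [hm, mul_comm, mul_smul]
  exact H.nsmul_mem (AddSubgroup.nsmul_index_mem H g) m

namespace XP

variable (P : XP X R N r pl w t)
include P

/-- **coboundaries**: the number of coboundaries is almost the order -/
lemma card_dm : ∀ B : ℕ, B ≠ 0 → ∃ C : ℕ, ∀ Y : AddSubgroup X, ∀ k : ℕ,
    (∀ y ∈ Y, r ^ k • y = 0) → ∀ S : Finset (GQ → X),
    (∀ y ∈ Y, (fun g => B • (g • y - y)) ∈ S) → Nat.card Y ≤ C * S.card := by
  classical
  intro B hB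
  obtain ⟨g, D, hD, -, hD2, -⟩ := P.exists_eis
  refine ⟨Nat.card (P.tk (D * B)), fun Y k hk S hS => ?_⟩
  haveI := P.tk_fin (D * B)
  haveI := P.tk_fin k
  haveI : Finite Y := Finite.Set.subset (P.tk k : Set X) fun y hy => hk y hy
  let Θ : Y →+ (GQ → X) := AddMonoidHom.mk' (fun y g => B • (g • (y : X) - y)) (by
    intro a b
    funext g
    show B • (g • ((a : X) + b) - ((a : X) + b)) = B • (g • (a : X) - a) + B • (g • (b : X) - b)
    rw [← smul_add]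
    congr 1
    rw [smul_add]; abel)
  have h1 := card_eq_ker Θ
  have h2 : Nat.card Θ.ker ≤ Nat.card (P.tk (D * B)) := by
    refine Nat.card_le_card_of_injective (fun y : Θ.ker => (⟨((y : Y) : X), ?_⟩ : P.tk (D * B))) ?_
    · have h3 : B • (g • ((y : Y) : X) - (y : Y)) = 0 := congrFun y.2 g
      rw [smul_sub, sub_eq_zero, smul_comm] at h3
      have h4 := hD2 _ h3
      rw [← mul_smul] at h4
      exact tors_of_nat P.hr (mul_ne_zero hD hB) (hk _ (y : Y).2) h4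
    · intro a b hab
      exact Subtype.ext (Subtype.ext (congrArg (fun z : P.tk (D * B) => (z : X)) hab))
  have h3 : Nat.card Θ.range ≤ S.card := by
    rw [← Nat.card_eq_fintype_card (α := S) |>.trans (Fintype.card_coe S)]
    refine Nat.card_le_card_of_injective (fun y : Θ.range => (⟨(y : GQ → X), ?_⟩ : S)) ?_
    · obtain ⟨z, hz⟩ := y.2
      rw [← hz]
      exact hS z z.2
    · intro a b hab
      exact Subtype.ext (congrArg (fun z : S => (z : GQ → X)) hab)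
  rw [h1]
  exact Nat.mul_le_mul h2 h3

lemma zr_smul {k : ℕ} {c : GQ → X} (hc : P.Zr k c) (B : ℕ) : P.Zr k (fun g => B • c g) := by
  refine ⟨fun g h => ?_, ?_, fun g hg => (hc.atr g hg).nsmul _,
    fun g => (P.tk k).nsmul_mem (hc.tor g) _⟩
  · show B • c (g * h) = _
    rw [hc.mul, smul_add, smul_comm g]
  · obtain ⟨L, hL, hL1⟩ := hc.lev
    exact ⟨L, hL, fun g hg => by
      show B • c g = 0
      rw [hL1 g hg, smul_zero]⟩

variable {σ₀ : GQ} (h0 : P.Frob0 σ₀)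
include h0

/-- the coboundaries of elements fixed by `σ₀` are unramified away from `r` -/
lemma dm_away {z : X} (hz : σ₀ • z = z) {q : ℕ} (hq : q.Prime) (hqr : q ≠ r) {g : GQ}
    (hg : g ∈ (pl q).inertiaSubgroupIn ℚ) : g • z = z := by
  by_cases hqN : q = N
  · subst hqN
    exact P.fix_N h0.mem h0.mov hz g hg
  · exact P.away q hq hqr hqN g hg z

/-- **(F8)** -/
theorem f8 : ∀ a : R, (∀ (g : GQ) (x : X), (t (g * σ₀) - t g) • a • x = 0) →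
    ∃ D : ℕ, D ≠ 0 ∧ ∀ x : X, D • a • x = 0 := by
  classical
  intro a ha
  obtain ⟨g₀, D₁, hD₁, -, -, hD1⟩ := P.exists_eis
  obtain ⟨B, hB, hU⟩ := P.unit_all
  obtain ⟨C, hC⟩ := P.card_dm B hB
  obtain ⟨D₇, hD₇, h7⟩ := P.f7 h0
  refine ⟨D₇ * (C.factorial * D₁), mul_ne_zero hD₇ (mul_ne_zero (Nat.factorial_ne_zero C) hD₁), ?_⟩
  intro x
  obtain ⟨k, hk⟩ := P.tors x
  -- `Y₀ = a X[r ^ k]`
  let Y₀ : AddSubgroup X := (P.tk k).map (DistribMulAction.toAddMonoidHom X a)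
  have hY₀ : ∀ y, y ∈ Y₀ ↔ ∃ z ∈ P.tk k, a • z = y := fun y => AddSubgroup.mem_map
  have hY₀G : ∀ (g : GQ), ∀ y ∈ Y₀, g • y ∈ Y₀ := by
    intro g y hy
    obtain ⟨z, hz, rfl⟩ := (hY₀ y).mp hy
    exact (hY₀ _).mpr ⟨g • z, P.tk_g g hz, (P.comm g _ z).symm⟩
  have hY₀R : ∀ (ρ : R), ∀ y ∈ Y₀, ρ • y ∈ Y₀ := by
    intro ρ y hy
    obtain ⟨z, hz, rfl⟩ := (hY₀ y).mp hy
    exact (hY₀ _).mpr ⟨ρ • z, P.tk_r ρ hz, smul_comm _ _ _⟩
  have hY₀k : ∀ y ∈ Y₀, r ^ k • y = 0 := by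
    intro y hy
    obtain ⟨z, hz, rfl⟩ := (hY₀ y).mp hy
    exact P.tk_r _ hz
  -- Galois on `ν Y₀`
  let ν : X → X := fun y => σ₀ • y - y
  have hνR : ∀ (ρ : R) (y : X), ν (ρ • y) = ρ • ν y := by
    intro ρ y
    show σ₀ • ρ • y - ρ • y = ρ • (σ₀ • y - y)
    rw [P.comm, smul_sub]
  have hgν : ∀ (g : GQ), ∀ y ∈ Y₀, g • ν y = ν (w g • g⁻¹ • y) := by
    intro g y hy
    obtain ⟨z, hz, rfl⟩ := (hY₀ y).mp hy
    have h1 := ha g z
    rw [P.s_smul h0, sub_eq_zero] at h1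
    show g • (σ₀ • a • z - a • z) = _
    rw [h1, hνR]
  -- `Z = ν Y₀`
  let Zs : Set X := {z | ∃ y ∈ Y₀, ν y = z}
  have hZG : ∀ (g : GQ), ∀ z ∈ Zs, g • z ∈ Zs := by
    rintro g _ ⟨y, hy, rfl⟩
    exact ⟨w g • g⁻¹ • y, hY₀R _ _ (hY₀G _ _ hy), (hgν g y hy).symm⟩
  have hZR : ∀ (ρ : R), ∀ z ∈ Zs, ρ • z ∈ Zs := by
    rintro ρ _ ⟨y, hy, rfl⟩
    exact ⟨ρ • y, hY₀R _ _ hy, hνR ρ y⟩
  have hZab : ∀ (g h : GQ), ∀ z ∈ Zs, g • h • z = h • g • z := by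
    have key : ∀ (g h : GQ), ∀ y ∈ Y₀, g • h • ν y = ν (w g • w h • g⁻¹ • h⁻¹ • y) := by
      intro g h y hy
      rw [hgν h y hy, hgν g _ (hY₀R _ _ (hY₀G _ _ hy)), P.comm]
    rintro g h _ ⟨y, hy, rfl⟩
    have h1 : g • h • ν y = ν (w h • w g • h⁻¹ • g⁻¹ • y) := by
      rw [← mul_smul, hgν _ y hy, mul_inv_rev, mul_smul, P.wmul, smul_comm (w g)]
    rw [key h g y hy, h1]
  -- everything comes from inertia at `r`
  let H : Subgroup GQ :=
    { carrier := {g | ∃ h ∈ (pl r).inertiaSubgroupIn ℚ, ∀ z ∈ Zs, g • z = h • z ∧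
        w g • z = w h • z}
      one_mem' := ⟨1, one_mem _, fun z _ => ⟨rfl, rfl⟩⟩
      mul_mem' := fun {g g'} hg hg' => by
        obtain ⟨h, hh, h1⟩ := hg
        obtain ⟨h', hh', h1'⟩ := hg'
        refine ⟨h * h', mul_mem hh hh', fun z hz => ⟨?_, ?_⟩⟩
        · rw [mul_smul, mul_smul, (h1' z hz).1, (h1 _ (hZG _ z hz)).1]
        · rw [P.wmul, P.wmul, (h1' z hz).2, (h1 _ (hZR _ z hz)).2]
      inv_mem' := fun {g} hg => by
        obtain ⟨h, hh, h1⟩ := hg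
        refine ⟨h⁻¹, inv_mem hh, fun z hz => ⟨?_, ?_⟩⟩
        · rw [inv_smul_eq_iff, (h1 _ (hZG _ z hz)).1, smul_inv_smul]
        · have h2 := (h1 _ (hZR (w h⁻¹) z hz)).2
          rw [P.winv'] at h2
          conv_lhs => rw [← h2]
          rw [P.winv] }
  have hn : H.Normal := ⟨fun n hn g => by
    obtain ⟨h, hh, h1⟩ := hn
    refine ⟨h, hh, fun z hz => ⟨?_, ?_⟩⟩
    · rw [mul_smul, mul_smul, hZab n g⁻¹ z hz, smul_inv_smul, (h1 z hz).1]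
    · rw [P.wmul, P.wmul, smul_comm (w g), P.winv', (h1 z hz).2]⟩
  have hZk : ∀ z ∈ Zs, r ^ k • z = 0 := by
    rintro _ ⟨y, hy, rfl⟩
    exact (P.tk k).sub_mem (P.tk_g σ₀ (hY₀k y hy)) (hY₀k y hy)
  obtain ⟨L, hL, hL1, hL2⟩ := P.lev_k k
  have hall : ∀ g : GQ, g ∈ H := fun g => mink_top P.hpl H hn L (by
    intro g hg
    refine ⟨1, one_mem _, fun z hz => ⟨?_, ?_⟩⟩
    · rw [hL1 g hg z (hZk z hz), one_smul]
    · rw [P.cyc g k 1 (hL2 g hg) z (hZk z hz), one_smul, P.w_one]) (by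
    intro q hq g hg
    by_cases hqr : q = r
    · subst hqr
      exact ⟨g, hg, fun z _ => ⟨rfl, rfl⟩⟩
    · refine ⟨1, one_mem _, fun z hz => ⟨?_, ?_⟩⟩
      · obtain ⟨y, hy, rfl⟩ := hz
        rw [one_smul]
        exact P.dm_away h0 (P.nu_nu h0 y) hq hqr hg
      · rw [P.w_away hq hqr hg, P.w_one]) g
  -- `D₁ ν Y₀ = 0`
  have hDν : ∀ y ∈ Y₀, D₁ • ν y = 0 := by
    intro y hy
    apply hD1
    obtain ⟨h, hh, h1⟩ := hall g₀
    obtain ⟨h', hh', h1'⟩ := hall g₀⁻¹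
    have hz : ν y ∈ Zs := ⟨y, hy, rfl⟩
    -- inertia elements
    have hin : ∀ z : X, h • z + w h • h⁻¹ • z = z + w h • z := by
      intro z
      have h2 := P.atr h hh (h⁻¹ • z) h hh
      rw [smul_inv_smul, smul_sub, smul_inv_smul, smul_sub] at h2
      rw [sub_eq_sub_iff_add_eq_add] at h2
      rw [h2, add_comm]
    have h3 : g₀⁻¹ • ν y = h⁻¹ • ν y := by
      rw [inv_smul_eq_iff, (h1 _ (hZG _ _ hz)).1, smul_inv_smul]
    rw [← P.es, h3, (h1 _ hz).1, (h1 _ (hZG _ _ hz)).2, hin, (h1 _ hz).2]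
  -- `Y₁ = D₁ Y₀`
  let Y₁ : AddSubgroup X := Y₀.map (nsmulAddMonoidHom D₁)
  have hY₁ : ∀ z, z ∈ Y₁ ↔ ∃ y ∈ Y₀, D₁ • y = z := fun z => AddSubgroup.mem_map
  have hstab : P.Stab k Y₁ := by
    refine ⟨?_, ?_, ?_⟩
    · intro z hz
      obtain ⟨y, hy, rfl⟩ := (hY₁ z).mp hz
      rw [smul_comm, hY₀k y hy, smul_zero]
    · intro g z hz
      obtain ⟨y, hy, rfl⟩ := (hY₁ z).mp hz
      exact (hY₁ _).mpr ⟨g • y, hY₀G g y hy, (smul_comm _ _ _)⟩
    · intro ρ z hz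
      obtain ⟨y, hy, rfl⟩ := (hY₁ z).mp hz
      exact (hY₁ _).mpr ⟨ρ • y, hY₀R ρ y hy, (smul_comm _ _ _)⟩
  have hfix : ∀ z ∈ Y₁, σ₀ • z = z := by
    intro z hz
    obtain ⟨y, hy, rfl⟩ := (hY₁ z).mp hz
    have h1 := hDν y hy
    rw [show ν y = σ₀ • y - y from rfl, smul_sub, sub_eq_zero] at h1
    rw [smul_comm, h1]
  haveI := hstab.fin
  let Ym : AddSubgroup X :=
    { carrier := {y | y ∈ Y₁ ∧ Xm r pl w y}
      zero_mem' := ⟨Y₁.zero_mem, xm_zero⟩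
      add_mem' := fun {a b} ha hb => ⟨Y₁.add_mem ha.1 hb.1, ha.2.add hb.2⟩
      neg_mem' := fun {a} ha => ⟨Y₁.neg_mem ha.1, ha.2.neg⟩ }
  have hYm : ∀ y, y ∈ Ym ↔ y ∈ Y₁ ∧ Xm r pl w y := fun _ => Iff.rfl
  haveI := Fintype.ofFinite Y₁
  let S : Finset (GQ → X) := Finset.univ.image fun (y : Y₁) (g : GQ) => B • (g • (y : X) - y)
  have hS : S.card ≤ Nat.card Ym := by
    refine P.count_X hstab Ym hYm S ?_
    intro c hc
    obtain ⟨y, -, rfl⟩ := Finset.mem_image.mp hc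
    refine ⟨fun g => Y₁.nsmul_mem (Y₁.sub_mem (hstab.gal g y y.2) y.2) _,
      P.zr_smul (P.zr_dm (hstab.tor y y.2)) B, ?_, ?_⟩
    · intro q hq hqr g hg
      show B • (g • (y : X) - y) = 0
      rw [P.dm_away h0 (hfix y y.2) hq hqr hg, sub_self, smul_zero]
    · intro l
      exact hU k _ (P.zr_dm (hstab.tor y y.2)) l
  have hcard : Nat.card Y₁ ≤ C * Nat.card Ym := by
    refine (hC Y₁ k hstab.tor S ?_).trans (Nat.mul_le_mul_left _ hS)
    intro y hy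
    exact Finset.mem_image.mpr ⟨⟨y, hy⟩, Finset.mem_univ _, rfl⟩
  -- `C! Y₁ ⊂ X^χ`
  have hfac : ∀ y ∈ Y₁, Xm r pl w (C.factorial • y) := by
    intro y hy
    have h1 : Nat.card (Ym.addSubgroupOf Y₁) = Nat.card Ym := by
      have hle : Ym ≤ Y₁ := fun y hy => hy.1
      exact Nat.card_congr (AddSubgroup.addSubgroupOfEquivOfLe hle).toEquiv
    have h2 := factorial_index (Ym.addSubgroupOf Y₁) (C := C) (by rw [h1]; exact hcard) ⟨y, hy⟩
    have h3 : C.factorial • y ∈ Ym := h2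
    exact h3.2
  let Y₂ : AddSubgroup X := Y₁.map (nsmulAddMonoidHom C.factorial)
  have hY₂ : ∀ z, z ∈ Y₂ ↔ ∃ y ∈ Y₁, C.factorial • y = z := fun z => AddSubgroup.mem_map
  have h9 := h7 Y₂ k (by
    intro z hz
    obtain ⟨y, hy, rfl⟩ := (hY₂ z).mp hz
    rw [smul_comm, hstab.tor y hy, smul_zero]) (by
    intro g z hz
    obtain ⟨y, hy, rfl⟩ := (hY₂ z).mp hz
    exact (hY₂ _).mpr ⟨g • y, hstab.gal g y hy, smul_comm _ _ _⟩) (by
    intro z hz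
    obtain ⟨y, hy, rfl⟩ := (hY₂ z).mp hz
    exact hfac y hy) (C.factorial • D₁ • a • x) ((hY₂ _).mpr ⟨D₁ • a • x,
      (hY₁ _).mpr ⟨a • x, (hY₀ _).mpr ⟨x, hk, rfl⟩, rfl⟩, rfl⟩)
  rw [mul_smul, mul_smul]
  exact h9

/-- **(F4)** -/
theorem f4 : ∃ A : ℕ, A ≠ 0 ∧ ∀ (k : ℕ) (x : X), r ^ k • x = 0 → σ₀ • x = x →
    ∃ m : X, r ^ k • m = 0 ∧ A • x = σ₀ • m - m := by
  haveI := P.noe
  obtain ⟨δ, b, h1, h2⟩ := exists_star (r : R) P.ss
    (Set.range fun g : GQ => t (g * σ₀) - t g)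
  obtain ⟨D, hD, h3⟩ := P.f8 h0 δ (by
    intro g x
    rw [smul_smul, mul_comm, h1 _ ⟨g, rfl⟩, zero_smul])
  refine ⟨D * r ^ b, mul_ne_zero hD (pow_ne_zero _ P.hr.ne_zero), ?_⟩
  intro k x hk hx
  -- the ideal of `ρ` with `ρ x ∈ ν X[r ^ k]`
  have h4 : ∀ ρ ∈ Ideal.span (Set.range fun g : GQ => t (g * σ₀) - t g),
      ∃ m : X, r ^ k • m = 0 ∧ ρ • x = σ₀ • m - m := by
    intro ρ hρ
    induction hρ using Submodule.span_induction with
    | mem s hs =>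
      obtain ⟨g, rfl⟩ := hs
      refine ⟨-(w g • g⁻¹ • x), (P.tk k).neg_mem (P.tk_r _ (P.tk_g _ hk)), ?_⟩
      show (t (g * σ₀) - t g) • x = _
      rw [P.s_smul h0, hx, sub_self, smul_zero, zero_sub, smul_neg, P.comm, smul_sub]
      abel
    | zero => exact ⟨0, smul_zero _, by rw [zero_smul, smul_zero, sub_self]⟩
    | add y z _ _ hy hz =>
      obtain ⟨m, hm, hm'⟩ := hy
      obtain ⟨n, hn, hn'⟩ := hz
      refine ⟨m + n, (P.tk k).add_mem hm hn, ?_⟩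
      rw [add_smul, hm', hn', smul_add]; abel
    | smul a y _ hy =>
      obtain ⟨m, hm, hm'⟩ := hy
      refine ⟨a • m, P.tk_r a hm, ?_⟩
      rw [smul_eq_mul, mul_smul, hm', smul_sub, P.comm]
  obtain ⟨m, hm, hm'⟩ := h4 _ h2
  refine ⟨D • m, (P.tk k).nsmul_mem hm D, ?_⟩
  rw [sub_smul, ← Nat.cast_pow, Nat.cast_smul_eq_nsmul] at hm'
  have h5 : D • (r ^ b • x - δ • x) = (D * r ^ b) • x := by
    rw [smul_sub, h3, sub_zero, mul_smul]
  rw [← h5, hm', smul_sub, smul_comm]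

end XP

end Fermat.Agent.Maz
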