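import Fermat.Agent.Maz.XG

set_option autoImplicit false
set_option linter.unusedSectionVars false

/-! # The final count -/

noncomputable section

namespace Fermat.Agent.Maz

open Fermat.Agent.ECRed Fermat.Agent.Carayol Fermat.Agent.FU OrdFn
open Fermat.Agent.TWGal Fermat.Agent.TWPr
open scoped Pointwise

variable {N r : ℕ} {pl : ℕ → ValuationSubring Qb} {X : Type} [AddCommGroup X]
  [DistribMulAction GQ X] {R : Type} [CommRing R] [Module R X] {w t : GQ → R}

namespace XP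

variable (P : XP X R N r pl w t)
include P

/-- restriction to inertia at `N` -/
theorem locN_X {σ₀ : GQ} (h0 : P.Frob0 σ₀) : ∃ A : ℕ, A ≠ 0 ∧ ∀ (k : ℕ) (c : GQ → X), P.Zr k c →
    ∃ m₀ : X, r ^ k • m₀ = 0 ∧ ∀ σ ∈ (pl N).inertiaSubgroupIn ℚ,
      A • c σ = σ • m₀ - m₀ := by
  obtain ⟨a, ha, h4⟩ := P.f4 h0
  have hN2 := P.hN.two_le
  refine ⟨a * ((N - 1) * (N ^ 2 - 1)), mul_ne_zero ha (mul_ne_zero (by omega) ?_), ?_⟩
  · have : 2 ^ 2 ≤ N ^ 2 := Nat.pow_le_pow_left hN2 2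
    omega
  intro k c hc
  obtain ⟨φ, hφ⟩ := Frob.exists_isFrobeniusAt_Qbar (pl N) P.hN (P.hpl N P.hN)
  obtain ⟨L, hL, hL1, -⟩ := P.lev_k k
  obtain ⟨L', hL', hL1'⟩ := hc.lev
  letI := subAct (P.tk k) (fun g x hx => P.tk_g g hx)
  obtain ⟨m₀, hm₀⟩ := loc_N (M := P.tk k) P.hN (P.hpl N P.hN) P.hr P.hrN (k := k)
    (fun m => Subtype.ext m.2) L (fun g hg m => Subtype.ext (hL1 g hg m m.2))
    (fun σ hσ m => Subtype.ext (P.uni σ hσ m)) hφ h0.mem h0.mov (a := a) (D := N - 1)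
    (fun m hm => by
      obtain ⟨m', hm', hm''⟩ := h4 k m m.2 (congrArg Subtype.val (hm σ₀ h0.mem))
      exact ⟨⟨m', hm'⟩, Subtype.ext hm''⟩)
    (fun m => Subtype.ext (P.hD_N h0 hφ m)) (c := fun g => ⟨c g, hc.tor g⟩)
    (fun g h => Subtype.ext (hc.mul g h)) L' (fun g hg => Subtype.ext (hL1' g hg))
  exact ⟨m₀, m₀.2, fun σ hσ => congrArg Subtype.val (hm₀ σ hσ)⟩

/-- **the final count** -/
theorem final_count : ∃ (B C : ℕ), B ≠ 0 ∧ ∀ (k : ℕ) (S : Finset (GQ → X)),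
    (∀ c ∈ S, P.Zr k c ∧ ∀ q : ℕ, q.Prime → q ≠ r → q ≠ N →
      ∀ g ∈ (pl q).inertiaSubgroupIn ℚ, c g = 0) →
    (∀ c ∈ S, ∀ c' ∈ S, (∃ m : X, r ^ k • m = 0 ∧ ∀ g : GQ, B • (c g - c' g) = g • m - m) →
      c = c') → S.card ≤ C := by
  classical
  obtain ⟨σ₀, h0⟩ := P.exists_s0
  obtain ⟨A, hA, hloc⟩ := P.locN_X h0
  obtain ⟨B₀, hB₀, hU⟩ := P.unit_all
  obtain ⟨C₂, hC₂⟩ := P.f2 h0
  obtain ⟨C₃, hC₃⟩ := P.card_dm B₀ hB₀
  refine ⟨B₀ * A, C₂ * C₃, mul_ne_zero hB₀ hA, ?_⟩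
  intro k S hS hinj
  haveI := P.tk_fin k
  -- choose the local coboundaries
  have hch : ∀ c : GQ → X, ∃ m₀ : X, c ∈ S → r ^ k • m₀ = 0 ∧
      ∀ σ ∈ (pl N).inertiaSubgroupIn ℚ, A • c σ = σ • m₀ - m₀ := by
    intro c
    by_cases hc : c ∈ S
    · obtain ⟨m₀, h1, h2⟩ := hloc k c (hS c hc).1
      exact ⟨m₀, fun _ => ⟨h1, h2⟩⟩
    · exact ⟨0, fun h => absurd h hc⟩
  choose m₀ hm₀ using hch
  haveI : Finite (P.fk σ₀ k) := Finite.Set.subset (P.tk k : Set X) fun x hx => hx.1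
  haveI := Fintype.ofFinite (P.fk σ₀ k)
  -- the coboundaries
  let Θ : Finset (GQ → X) := Finset.univ.image fun (y : P.fk σ₀ k) (g : GQ) =>
    B₀ • (g • (y : X) - y)
  have hΘ : Nat.card (P.fk σ₀ k) ≤ C₃ * Θ.card := by
    refine hC₃ (P.fk σ₀ k) k (fun y hy => hy.1) Θ ?_
    intro y hy
    exact Finset.mem_image.mpr ⟨⟨y, hy⟩, Finset.mem_univ _, rfl⟩
  -- the modified cocycles
  let F : (GQ → X) × (GQ → X) → (GQ → X) := fun p g =>
    B₀ • (A • p.1 g - (g • m₀ p.1 - m₀ p.1)) + p.2 g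
  have hFinj : Set.InjOn F (S ×ˢ Θ : Finset _) := by
    rintro ⟨c, θ⟩ h1 ⟨c', θ'⟩ h2 h
    rw [Finset.mem_coe, Finset.mem_product] at h1 h2
    obtain ⟨hc, hθ⟩ := h1
    obtain ⟨hc', hθ'⟩ := h2
    obtain ⟨y, -, hy⟩ := Finset.mem_image.mp hθ
    obtain ⟨y', -, hy'⟩ := Finset.mem_image.mp hθ'
    dsimp only at hc hc' hy hy'
    have hcc : c = c' := by
      apply hinj c hc c' hc'
      refine ⟨B₀ • (m₀ c - m₀ c') + B₀ • ((y' : X) - y), ?_, fun g => ?_⟩
      · exact (P.tk k).add_mem ((P.tk k).nsmul_mem ((P.tk k).sub_mem (hm₀ c hc).1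
          (hm₀ c' hc').1) _) ((P.tk k).nsmul_mem ((P.tk k).sub_mem y'.2.1 y.2.1) _)
      · have h3 := congrFun h g
        have h4 : B₀ • (A • c g - (g • m₀ c - m₀ c)) + B₀ • (g • (y : X) - y) =
            B₀ • (A • c' g - (g • m₀ c' - m₀ c')) + B₀ • (g • (y' : X) - y') := by
          have e1 : θ g = B₀ • (g • (y : X) - y) := (congrFun hy g).symm
          have e2 : θ' g = B₀ • (g • (y' : X) - y') := (congrFun hy' g).symm
          rw [← e1, ← e2]
          exact h3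
        rw [← smul_add, ← smul_add] at h4
        have h5 : (B₀ * A) • (c g - c' g) =
            B₀ • ((A • c g - (g • m₀ c - m₀ c)) + (g • (y : X) - y)) -
            B₀ • ((A • c' g - (g • m₀ c' - m₀ c')) + (g • (y' : X) - y')) +
            B₀ • (((g • m₀ c - m₀ c) - (g • m₀ c' - m₀ c')) +
              ((g • (y' : X) - y') - (g • (y : X) - y))) := by
          rw [mul_smul, ← smul_sub B₀, ← smul_add B₀]
          congr 1
          rw [smul_sub A]
          abel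
        rw [h5, h4, sub_self, zero_add, ← smul_add B₀, smul_comm g B₀, ← smul_sub B₀]
        congr 1
        rw [smul_add, smul_sub, smul_sub]
        abel
    subst hcc
    have hθθ : θ = θ' := by
      funext g
      have h3 := congrFun h g
      exact add_left_cancel h3
    rw [hθθ]
  -- count
  have hcard : ((S ×ˢ Θ).image F).card ≤ Nat.card (P.xk k) := by
    have hst : P.Stab k (P.tk k) := ⟨fun y hy => hy, fun g y hy => P.tk_g g hy,
      fun ρ y hy => P.tk_r ρ hy⟩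
    refine P.count_X hst (P.xk k) (fun y => Iff.rfl) _ ?_
    intro f hf
    obtain ⟨⟨c, θ⟩, h1, rfl⟩ := Finset.mem_image.mp hf
    obtain ⟨hc, hθ⟩ := Finset.mem_product.mp h1
    obtain ⟨y, -, hy⟩ := Finset.mem_image.mp hθ
    dsimp only at hc hy
    obtain ⟨hcZ, hcA⟩ := hS c hc
    obtain ⟨hmk, hmN⟩ := hm₀ c hc
    -- the cocycle before multiplication by `B₀`
    set d : GQ → X := fun g => (A • c g - (g • m₀ c - m₀ c)) + (g • (y : X) - y) with hd
    have hFd : F (c, θ) = fun g => B₀ • d g := by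
      funext g
      have e1 : θ g = B₀ • (g • (y : X) - y) := (congrFun hy g).symm
      show B₀ • (A • c g - (g • m₀ c - m₀ c)) + θ g = B₀ • d g
      rw [e1, ← smul_add]
    have hm' : r ^ k • ((y : X) - m₀ c) = 0 := (P.tk k).sub_mem y.2.1 hmk
    have hdd : d = fun g => A • c g + P.dm ((y : X) - m₀ c) g := by
      funext g
      show (A • c g - (g • m₀ c - m₀ c)) + (g • (y : X) - y) =
        A • c g + (g • ((y : X) - m₀ c) - ((y : X) - m₀ c))
      rw [smul_sub]; abel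
    have hdZ : P.Zr k d := by
      have e1 := P.zr_smul hcZ A
      have e2 := P.zr_dm hm'
      rw [hdd]
      refine ⟨fun g h => ?_, ?_, fun g hg => (e1.atr g hg).add (e2.atr g hg),
        fun g => (P.tk k).add_mem (e1.tor g) (e2.tor g)⟩
      · have e3 := e1.mul g h
        have e4 := e2.mul g h
        show A • c (g * h) + P.dm _ (g * h) = (A • c g + P.dm _ g) + g • (A • c h + P.dm _ h)
        rw [e4, show A • c (g * h) = A • c g + g • A • c h from e3, smul_add]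
        abel
      · obtain ⟨L, hL, hL1⟩ := e1.lev
        obtain ⟨L', hL', hL1'⟩ := e2.lev
        refine ⟨L ⊔ L', inferInstance, fun g hg => ?_⟩
        have e3 := hL1 g (IntermediateField.fixingSubgroup_le le_sup_left hg)
        have e4 := hL1' g (IntermediateField.fixingSubgroup_le le_sup_right hg)
        show A • c g + P.dm _ g = 0
        rw [show A • c g = 0 from e3, e4, add_zero]
    have hdaway : ∀ q : ℕ, q.Prime → q ≠ r → ∀ g ∈ (pl q).inertiaSubgroupIn ℚ, d g = 0 := by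
      intro q hq hqr g hg
      have e1 : g • (y : X) - y = 0 := by
        rw [P.dm_away h0 y.2.2 hq hqr hg, sub_self]
      show (A • c g - (g • m₀ c - m₀ c)) + (g • (y : X) - y) = 0
      rw [e1, add_zero]
      by_cases hqN : q = N
      · subst hqN
        rw [hmN g hg, sub_self]
      · rw [hcA q hq hqr hqN g hg, smul_zero, P.away q hq hqr hqN g hg, sub_self, sub_self]
    rw [hFd]
    refine ⟨fun g => (P.tk k).nsmul_mem (hdZ.tor g) _, P.zr_smul hdZ B₀, ?_, ?_⟩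
    · intro q hq hqr g hg
      show B₀ • d g = 0
      rw [hdaway q hq hqr g hg, smul_zero]
    · intro l
      exact hU k _ hdZ l
  rw [Finset.card_image_of_injOn hFinj, Finset.card_product] at hcard
  have h1 := hcard.trans (hC₂ k)
  have hpos : 0 < Nat.card (P.fk σ₀ k) := Nat.card_pos
  have h2 : S.card * Nat.card (P.fk σ₀ k) ≤ (C₂ * C₃) * Nat.card (P.fk σ₀ k) := by
    calc S.card * Nat.card (P.fk σ₀ k) ≤ S.card * (C₃ * Θ.card) := Nat.mul_le_mul_left _ hΘ
      _ = C₃ * (S.card * Θ.card) := by ring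
      _ ≤ C₃ * (C₂ * Nat.card (P.fk σ₀ k)) := Nat.mul_le_mul_left _ h1
      _ = (C₂ * C₃) * Nat.card (P.fk σ₀ k) := by ring
  exact Nat.le_of_mul_le_mul_right h2 hpos

end XP

end Fermat.Agent.Maz
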