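import Fermat.Agent.Maz.XCore

set_option autoImplicit false
set_option linter.unusedSectionVars false

/-! # First bounds -/

noncomputable section

namespace Fermat.Agent.Maz

open Fermat.Agent.ECRed Fermat.Agent.Carayol Fermat.Agent.FU OrdFn
open Fermat.Agent.TWGal Fermat.Agent.TWPr
open scoped Pointwise

variable {N r : ℕ} {pl : ℕ → ValuationSubring Qb} {X : Type} [AddCommGroup X]
  [DistribMulAction GQ X] {R : Type} [CommRing R] [Module R X] {w t : GQ → R}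

/-- the order of a finite group through a homomorphism -/
lemma card_eq_ker {A B : Type*} [AddCommGroup A] [AddCommGroup B] (f : A →+ B) :
    Nat.card A = Nat.card f.ker * Nat.card f.range := by
  rw [← AddSubgroup.index_ker f, mul_comm, AddSubgroup.index_mul_card]

lemma card_le_ker {A B : Type*} [AddCommGroup A] [AddCommGroup B] [Finite B] (f : A →+ B) :
    Nat.card A ≤ Nat.card f.ker * Nat.card B := by
  rw [card_eq_ker f]
  exact Nat.mul_le_mul_left _ (Nat.card_le_card_of_injective _ Subtype.val_injective)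

namespace XP

variable (P : XP X R N r pl w t)
include P

/-- the data at `N` -/
structure Frob0 (_P : XP X R N r pl w t) (σ₀ : GQ) : Prop where
  mem : σ₀ ∈ (pl N).inertiaSubgroupIn ℚ
  mov : ∀ π : Qb, π ^ r = N → σ₀ π ≠ π

lemma exists_s0 : ∃ σ₀, P.Frob0 σ₀ := by
  obtain ⟨σ, h1, h2⟩ := exists_inertia_moving P.hN (P.hpl N P.hN) P.hr P.hrN
  exact ⟨σ, h1, h2⟩

variable {σ₀ : GQ} (h0 : P.Frob0 σ₀)
include h0

lemma nu_nu (x : X) : σ₀ • (σ₀ • x - x) = σ₀ • x - x := P.uni σ₀ h0.mem x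

lemma s0_inv (x : X) : σ₀⁻¹ • x = x - (σ₀ • x - x) := by
  rw [inv_smul_eq_iff, smul_sub, P.nu_nu h0]; abel

lemma w_s0 (x : X) : w σ₀ • x = x := P.w_away P.hN P.hrN.symm h0.mem x

/-- the fundamental identity -/
lemma s_smul (g : GQ) (x : X) :
    (t (g * σ₀) - t g) • x = g • (σ₀ • x - x) - w g • (σ₀ • g⁻¹ • x - g⁻¹ • x) := by
  have h1 : w (g * σ₀) • (g * σ₀)⁻¹ • x = w g • σ₀⁻¹ • g⁻¹ • x := by
    rw [P.wmul, P.w_s0 h0, mul_inv_rev, mul_smul]
  rw [sub_smul, ← P.es, ← P.es, h1, P.s0_inv h0 (g⁻¹ • x), mul_smul, smul_sub g, smul_sub (w g)]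
  abel

/-- Claim 1 -/
theorem claim1 : ∃ b : ℕ, ∀ x : X, Xm r pl w x → Xm r pl w (σ₀ • x - x) →
    r ^ b • (σ₀ • x - x) = 0 := by
  obtain ⟨g₁, hg₁, hcy⟩ := exists_g1 P.hpl P.hr
  obtain ⟨a, u, hu⟩ := P.ss (t (g₁ * σ₀) - t g₁)
  -- the formula on the multiplicative part
  have hform : ∀ x : X, Xm r pl w x → (t (g₁ * σ₀) - t g₁) • x =
      g₁ • (σ₀ • x - x) - (σ₀ • x - x) := by
    intro x hx
    have h1 : w g₁ • g₁⁻¹ • x = x := by
      rw [← P.comm, ← hx g₁ hg₁, inv_smul_smul]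
    rw [P.s_smul h0, smul_sub (w g₁), h1, ← P.comm, h1]
  refine ⟨a + 1, fun x hx hν => ?_⟩
  set ν := σ₀ • x - x with hνdef
  have hs1 : (t (g₁ * σ₀) - t g₁) • x = w g₁ • ν - ν := by
    rw [hform x hx, ← hνdef, hν g₁ hg₁]
  have hs2 : (t (g₁ * σ₀) - t g₁) • ν = 0 := by
    rw [hform ν hν, P.nu_nu h0, sub_self, smul_zero, sub_zero]
  have hs3 : (t (g₁ * σ₀) - t g₁) ^ 2 • x = 0 := by
    rw [pow_two, mul_smul, hs1, smul_sub, smul_comm, hs2, smul_zero, sub_zero]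
  have hs4 : r ^ a • (w g₁ • ν - ν) = 0 := by
    have h2 : ((r : R) ^ a * (t (g₁ * σ₀) - t g₁)) • x = 0 := by
      rw [hu, mul_comm, mul_smul, hs3, smul_zero]
    rw [mul_smul, hs1, ← Nat.cast_pow, Nat.cast_smul_eq_nsmul] at h2
    exact h2
  have hs5 : w g₁ • (r ^ a • ν) = r ^ a • ν := by
    rw [smul_sub, sub_eq_zero] at hs4
    rw [smul_comm, hs4]
  have h6 := P.g1_spec hcy hs5
  rw [pow_succ, mul_comm, mul_smul]
  exact h6

/-- **(F7')** Galois stable subgroups of the multiplicative part are bounded -/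
theorem f7 : ∃ D : ℕ, D ≠ 0 ∧ ∀ (Y : AddSubgroup X) (k : ℕ), (∀ y ∈ Y, r ^ k • y = 0) →
    (∀ g : GQ, ∀ y ∈ Y, g • y ∈ Y) → (∀ y ∈ Y, Xm r pl w y) → ∀ y ∈ Y, D • y = 0 := by
  obtain ⟨b, hb⟩ := P.claim1 h0
  obtain ⟨g, D, hD, hD1, -, -⟩ := P.exists_eis
  refine ⟨D * r ^ b, mul_ne_zero hD (pow_ne_zero _ P.hr.ne_zero), ?_⟩
  intro Y k hk hG hm y hy
  -- the subgroup `r ^ b Y`
  let Y' : AddSubgroup X := Y.map (nsmulAddMonoidHom (r ^ b))
  have hY' : ∀ z, z ∈ Y' ↔ ∃ y ∈ Y, r ^ b • y = z := fun z => AddSubgroup.mem_map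
  have hGY' : ∀ g : GQ, ∀ z ∈ Y', g • z ∈ Y' := by
    intro g z hz
    obtain ⟨y, hy, rfl⟩ := (hY' z).mp hz
    exact (hY' _).mpr ⟨g • y, hG g y hy, (smul_comm _ _ _)⟩
  have hfix : ∀ z ∈ Y', σ₀ • z = z := by
    intro z hz
    obtain ⟨y, hy, rfl⟩ := (hY' z).mp hz
    have h1 := hb y (hm y hy) (hm _ (Y.sub_mem (hG σ₀ y hy) hy))
    rw [smul_sub, sub_eq_zero] at h1
    rw [smul_comm, h1]
  have hall := P.mink_tw (Y := Y') (k := k) (by
    intro z hz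
    obtain ⟨y, hy, rfl⟩ := (hY' z).mp hz
    rw [smul_comm, hk y hy, smul_zero]) hGY' (by
    intro q hq σ hσ z hz
    by_cases hqr : q = r
    · subst hqr
      obtain ⟨y, hy, rfl⟩ := (hY' z).mp hz
      rw [smul_comm, hm y hy σ hσ, smul_comm]
    · rw [P.w_away hq hqr hσ]
      by_cases hqN : q = N
      · subst hqN
        exact P.fix_N h0.mem h0.mov (hfix z hz) σ hσ
      · exact P.away q hq hqr hqN σ hσ z) g
  rw [mul_smul]
  exact hD1 _ (hall _ ((hY' _).mpr ⟨y, hy, rfl⟩))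

omit h0 in
/-- the multiplicative part of `X[r ^ k]` -/
def xk (P : XP X R N r pl w t) (k : ℕ) : AddSubgroup X where
  carrier := {x | r ^ k • x = 0 ∧ Xm r pl w x}
  zero_mem' := ⟨smul_zero _, fun τ _ => by rw [smul_zero, smul_zero]⟩
  add_mem' := fun {a b} ha hb => by
    refine ⟨(P.tk k).add_mem ha.1 hb.1, fun τ hτ => ?_⟩
    rw [smul_add, smul_add, ha.2 τ hτ, hb.2 τ hτ]
  neg_mem' := fun {a} ha => by
    refine ⟨(P.tk k).neg_mem ha.1, fun τ hτ => ?_⟩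
    rw [smul_neg, smul_neg, ha.2 τ hτ]

omit h0 in
lemma mem_xk {k : ℕ} {x : X} : x ∈ P.xk k ↔ r ^ k • x = 0 ∧ Xm r pl w x := Iff.rfl

omit h0 in
/-- the part of `X[r ^ k]` fixed by `σ₀` -/
def fk (P : XP X R N r pl w t) (σ₀ : GQ) (k : ℕ) : AddSubgroup X where
  carrier := {x | r ^ k • x = 0 ∧ σ₀ • x = x}
  zero_mem' := ⟨smul_zero _, smul_zero _⟩
  add_mem' := fun {a b} ha hb => by
    refine ⟨(P.tk k).add_mem ha.1 hb.1, ?_⟩
    rw [smul_add, ha.2, hb.2]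
  neg_mem' := fun {a} ha => by
    refine ⟨(P.tk k).neg_mem ha.1, ?_⟩
    rw [smul_neg, ha.2]

/-- **(F2)** -/
theorem f2 : ∃ C : ℕ, ∀ k : ℕ, Nat.card (P.xk k) ≤ C * Nat.card (P.fk σ₀ k) := by
  classical
  obtain ⟨b, hb⟩ := P.claim1 h0
  refine ⟨Nat.card (P.tk b), fun k => ?_⟩
  haveI := P.tk_fin k
  haveI := P.tk_fin b
  haveI : Finite (P.fk σ₀ k) := Finite.Set.subset (P.tk k : Set X) fun x hx => hx.1
  haveI : Finite (P.xk k) := Finite.Set.subset (P.tk k : Set X) fun x hx => hx.1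
  -- `A → K`, `x ↦ ν x`
  have hνmem : ∀ x : X, r ^ k • x = 0 → σ₀ • x - x ∈ P.fk σ₀ k := by
    intro x hx
    refine ⟨(P.tk k).sub_mem (P.tk_g σ₀ hx) hx, P.nu_nu h0 x⟩
  let f : P.xk k →+ P.fk σ₀ k := AddMonoidHom.mk' (fun x => ⟨σ₀ • (x : X) - x, hνmem x x.2.1⟩) (by
    intro x y
    apply Subtype.ext
    show σ₀ • ((x : X) + y) - (x + y) = (σ₀ • (x : X) - x) + (σ₀ • (y : X) - y)
    rw [smul_add]; abel)
  have hf : ∀ x, (f x : X) = σ₀ • (x : X) - x := fun _ => rfl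
  -- the subgroup `S = A ∩ K` of `K`
  let S : AddSubgroup (P.fk σ₀ k) := (P.xk k).addSubgroupOf (P.fk σ₀ k)
  let g : P.xk k →+ (P.fk σ₀ k) ⧸ S := (QuotientAddGroup.mk' S).comp f
  have h1 : Nat.card (P.xk k) ≤ Nat.card g.ker * Nat.card ((P.fk σ₀ k) ⧸ S) := card_le_ker g
  have hgker : ∀ x : P.xk k, x ∈ g.ker → Xm r pl w (σ₀ • (x : X) - x) := by
    intro x hx
    have h2 : (QuotientAddGroup.mk (f x) : (P.fk σ₀ k) ⧸ S) = 0 := hx
    rw [QuotientAddGroup.eq_zero_iff] at h2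
    have h3 : (f x : X) ∈ P.xk k := h2
    exact h3.2
  -- `ν : ker g → X[r ^ b]`
  let e : g.ker →+ P.tk b := AddMonoidHom.mk' (fun x => ⟨σ₀ • ((x : P.xk k) : X) - x,
      hb _ (x : P.xk k).2.2 (hgker x x.2)⟩) (by
    intro x y
    apply Subtype.ext
    show σ₀ • (((x : P.xk k) : X) + (y : P.xk k)) - (((x : P.xk k) : X) + (y : P.xk k)) =
      (σ₀ • ((x : P.xk k) : X) - (x : P.xk k)) + (σ₀ • ((y : P.xk k) : X) - (y : P.xk k))
    rw [smul_add]; abel)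
  have h2 : Nat.card g.ker ≤ Nat.card e.ker * Nat.card (P.tk b) := card_le_ker e
  have h3 : Nat.card e.ker ≤ Nat.card S := by
    have hek : ∀ x : e.ker, σ₀ • (((x : g.ker) : P.xk k) : X) = ((x : g.ker) : P.xk k) := by
      intro x
      have h4 : e x = 0 := x.2
      have h5 : σ₀ • (((x : g.ker) : P.xk k) : X) - ((x : g.ker) : P.xk k) = 0 :=
        congrArg Subtype.val h4
      exact sub_eq_zero.mp h5
    refine Nat.card_le_card_of_injective (fun x : e.ker => (⟨⟨(((x : g.ker) : P.xk k) : X),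
      ((x : g.ker) : P.xk k).2.1, hek x⟩, ((x : g.ker) : P.xk k).2⟩ : S)) ?_
    intro x y hxy
    have h4 := congrArg (fun z : S => ((z : P.fk σ₀ k) : X)) hxy
    exact Subtype.ext (Subtype.ext (Subtype.ext h4))
  have h4 : Nat.card S * Nat.card ((P.fk σ₀ k) ⧸ S) = Nat.card (P.fk σ₀ k) := by
    rw [mul_comm, ← AddSubgroup.index_mul_card S]
    rfl
  calc Nat.card (P.xk k) ≤ Nat.card g.ker * Nat.card ((P.fk σ₀ k) ⧸ S) := h1
    _ ≤ (Nat.card S * Nat.card (P.tk b)) * Nat.card ((P.fk σ₀ k) ⧸ S) :=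
        Nat.mul_le_mul_right _ (h2.trans (Nat.mul_le_mul_right _ h3))
    _ = Nat.card (P.tk b) * (Nat.card S * Nat.card ((P.fk σ₀ k) ⧸ S)) := by ring
    _ = Nat.card (P.tk b) * Nat.card (P.fk σ₀ k) := by rw [h4]

/-- Frobenius at `N` and the monodromy -/
theorem hD_N {φ : GQ} (hφ : (pl N).IsFrobeniusAt φ N) (m : X) :
    σ₀ • ((N - 1) • (φ • φ • m - m)) = (N - 1) • (φ • φ • m - m) := by
  have hcomm : ∀ (g : GQ) (n : ℕ) (x : X), g • n • x = n • g • x := fun g n x => smul_comm g n x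
  let ν : X → X := fun x => σ₀ • x - x
  have hν : ∀ x, ν x = σ₀ • x - x := fun _ => rfl
  have hνn : ∀ (n : ℕ) (x : X), ν (n • x) = n • ν x := by
    intro n x
    rw [hν, hν, hcomm, nsmul_sub]
  have hνs : ∀ x y, ν (x - y) = ν x - ν y := by
    intro x y
    rw [hν, hν, hν, smul_sub]; abel
  have hφν : ∀ x, φ • ν x = N • ν (φ • x) := by
    intro x
    have h1 := P.conj_N hφ h0.mem h0.mov (φ • x)
    rw [mul_smul, mul_smul, inv_smul_smul, unip_pow (P.nu_nu h0)] at h1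
    rw [hν, smul_sub, h1, add_sub_cancel_left]
  have hwφ : ∀ x : X, w φ • x = N • x := by
    intro x
    obtain ⟨k, hk⟩ := P.tors x
    exact P.cyc φ k N (cy_frob P.hr P.hN P.hrN.symm (P.hpl N P.hN) hφ) x hk
  -- the central element
  have hC : ∀ x, (t (φ * σ₀) - t φ) • x = φ • ν x - N • ν (φ⁻¹ • x) := by
    intro x
    rw [P.s_smul h0, hwφ]
  have h1 : ∀ x, φ • (φ • ν x - N • ν (φ⁻¹ • x)) = φ • ν (φ • x) - N • ν x := by
    intro x
    rw [← hC, P.comm, hC, inv_smul_smul]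
  -- multiply by `N ^ 2`
  have h2 : ∀ x : X, (N * (N - 1)) • ν (φ • φ • x) = (N * (N - 1)) • ν x := by
    intro x
    have h3 := h1 x
    rw [smul_sub, hcomm, hφν (φ⁻¹ • x), smul_inv_smul] at h3
    rw [hφν x, hcomm, hφν (φ • x)] at h3
    obtain ⟨n, hn⟩ : ∃ n, N = n + 1 := ⟨N - 1, by have := P.hN.pos; omega⟩
    rw [hn] at h3 ⊢
    rw [Nat.add_sub_cancel]
    have h4 : ((n + 1) • (n + 1) • ν (φ • φ • x) - (n + 1) • ν (φ • φ • x)) =
        ((n + 1) • (n + 1) • ν x - (n + 1) • ν x) := by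
      rw [sub_eq_sub_iff_add_eq_add] at h3 ⊢
      rw [h3, add_comm]
    have h5 : ∀ y : X, (n + 1) • (n + 1) • y - (n + 1) • y = ((n + 1) * n) • y := by
      intro y
      rw [smul_smul, sub_eq_iff_eq_add, ← add_smul]
      rfl
    rw [h5, h5] at h4
    exact h4
  -- remove `N`
  have h6 : ν ((N - 1) • (φ • φ • m - m)) = 0 := by
    obtain ⟨k, hk⟩ := P.tors m
    have h7 : N • ν ((N - 1) • (φ • φ • m - m)) = 0 := by
      rw [hνn, hνs, ← mul_smul, smul_sub, h2, sub_self]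
    have h8 : r ^ k • ν ((N - 1) • (φ • φ • m - m)) = 0 := by
      have h9 : ((N - 1) • (φ • φ • m - m)) ∈ P.tk k :=
        (P.tk k).nsmul_mem ((P.tk k).sub_mem (P.tk_g _ (P.tk_g _ hk)) hk) _
      exact (P.tk k).sub_mem (P.tk_g _ h9) h9
    have hco : Nat.Coprime N (r ^ k) :=
      Nat.Coprime.pow_right k ((Nat.coprime_primes P.hN P.hr).mpr P.hrN.symm)
    have h9 := Nat.dvd_gcd (addOrderOf_dvd_of_nsmul_eq_zero h7)
      (addOrderOf_dvd_of_nsmul_eq_zero h8)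
    rw [hco.gcd_eq_one, Nat.dvd_one] at h9
    exact AddMonoid.addOrderOf_eq_one_iff.mp h9
  exact sub_eq_zero.mp h6

end XP

end Fermat.Agent.Maz
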